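/-
CFT local part (L0): the normalised additive valuation `ord` on the fraction field of a
discrete valuation ring, with values in `ℤ` (junk value `ord 0 = 0`).
-/
import Mathlib

set_option autoImplicit false
set_option linter.unusedSectionVars false

namespace Fermat.Agent.CFT

open IsLocalRing IsDedekindDomain IsDedekindDomain.HeightOneSpectrum

section Ord

variable (R : Type*) [CommRing R] [IsDomain R] [IsDiscreteValuationRing R]
  {F : Type*} [Field F] [Algebra R F] [IsFractionRing R F]

/-- The valuation of the DVR `R` on its fraction field `F`. -/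
noncomputable abbrev dvrVal (F : Type*) [Field F] [Algebra R F] [IsFractionRing R F] :
    Valuation F (WithZero (Multiplicative ℤ)) :=
  (IsDiscreteValuationRing.maximalIdeal R).valuation F

/-- The normalised additive valuation of a DVR on its fraction field (`ord 0 = 0`). -/
noncomputable def ord (x : F) : ℤ := -(WithZero.log (dvrVal R F x))

lemma ord_def (x : F) : ord R x = -(WithZero.log (dvrVal R F x)) := rfl

lemma dvrVal_eq_exp_neg_ord {x : F} (hx : x ≠ 0) : dvrVal R F x = WithZero.exp (-(ord R x)) := by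
  rw [ord, neg_neg, WithZero.exp_log ((Valuation.ne_zero_iff _).mpr hx)]

@[simp] lemma ord_zero : ord R (0 : F) = 0 := by simp [ord]

@[simp] lemma ord_one : ord R (1 : F) = 0 := by simp [ord]

lemma ord_mul {x y : F} (hx : x ≠ 0) (hy : y ≠ 0) : ord R (x * y) = ord R x + ord R y := by
  simp only [ord, map_mul]
  rw [WithZero.log_mul ((Valuation.ne_zero_iff _).mpr hx) ((Valuation.ne_zero_iff _).mpr hy)]
  ring

lemma ord_inv (x : F) : ord R x⁻¹ = -(ord R x) := by
  simp only [ord, map_inv₀, WithZero.log_inv]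

lemma ord_div {x y : F} (hx : x ≠ 0) (hy : y ≠ 0) : ord R (x / y) = ord R x - ord R y := by
  rw [div_eq_mul_inv, ord_mul R hx (inv_ne_zero hy), ord_inv]; ring

lemma ord_pow (x : F) (n : ℕ) : ord R (x ^ n) = n * ord R x := by
  simp only [ord, map_pow, WithZero.log_pow, nsmul_eq_mul]; ring

lemma ord_zpow (x : F) (n : ℤ) : ord R (x ^ n) = n * ord R x := by
  simp only [ord, map_zpow₀, WithZero.log_zpow, smul_eq_mul]; ring

lemma ord_neg (x : F) : ord R (-x) = ord R x := by simp [ord]

lemma ord_le_ord_iff {x y : F} (hx : x ≠ 0) (hy : y ≠ 0) :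
    ord R x ≤ ord R y ↔ dvrVal R F y ≤ dvrVal R F x := by
  rw [ord, ord, neg_le_neg_iff,
    WithZero.log_le_log ((Valuation.ne_zero_iff _).mpr hy) ((Valuation.ne_zero_iff _).mpr hx)]

lemma ord_lt_ord_iff {x y : F} (hx : x ≠ 0) (hy : y ≠ 0) :
    ord R x < ord R y ↔ dvrVal R F y < dvrVal R F x := by
  rw [← not_le, ← not_le, ord_le_ord_iff R hy hx]

/-- The ultrametric inequality. -/
lemma min_le_ord_add {x y : F} (hxy : x + y ≠ 0) : min (ord R x) (ord R y) ≤ ord R (x + y) := by
  by_cases hx : x = 0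
  · subst hx; simp
  by_cases hy : y = 0
  · subst hy; simp
  rcases (dvrVal R F).map_add' x y with h | h
  · exact (min_le_left _ _).trans ((ord_le_ord_iff R hx hxy).mpr h)
  · exact (min_le_right _ _).trans ((ord_le_ord_iff R hy hxy).mpr h)

lemma le_ord_add {x y : F} {n : ℤ} (hxy : x + y ≠ 0) (hx : x = 0 ∨ n ≤ ord R x)
    (hy : y = 0 ∨ n ≤ ord R y) : n ≤ ord R (x + y) := by
  rcases hx with rfl | hx
  · rcases hy with rfl | hy
    · simp at hxy
    · simpa using hy
  rcases hy with rfl | hy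
  · simpa using hx
  exact (le_min hx hy).trans (min_le_ord_add R hxy)

lemma le_ord_sub {x y : F} {n : ℤ} (hxy : x - y ≠ 0) (hx : x = 0 ∨ n ≤ ord R x)
    (hy : y = 0 ∨ n ≤ ord R y) : n ≤ ord R (x - y) := by
  rw [sub_eq_add_neg] at hxy ⊢
  refine le_ord_add R hxy hx ?_
  rcases hy with rfl | hy
  · left; simp
  · right; rwa [ord_neg]

lemma ord_add_eq_of_lt {x y : F} (hx : x ≠ 0) (hy : y ≠ 0) (h : ord R x < ord R y) :
    ord R (x + y) = ord R x := by
  have h1 : dvrVal R F y < dvrVal R F x := (ord_lt_ord_iff R hx hy).mp h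
  have h2 : dvrVal R F (x + y) = dvrVal R F x := Valuation.map_add_eq_of_lt_left _ h1
  rw [ord, ord, h2]

lemma ord_algebraMap_nonneg (r : R) : 0 ≤ ord R (algebraMap R F r) := by
  by_cases hr : r = 0
  · simp [hr]
  have h0 : algebraMap R F r ≠ 0 := by
    rwa [Ne, map_eq_zero_iff _ (IsFractionRing.injective R F)]
  have h1 : dvrVal R F (algebraMap R F r) ≤ 1 := valuation_le_one _ r
  have := (ord_le_ord_iff R (one_ne_zero) h0).mpr (by simpa using h1)
  simpa using this

lemma exists_algebraMap_eq_of_ord_nonneg {x : F} (hx : 0 ≤ ord R x) :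
    ∃ r : R, algebraMap R F r = x := by
  by_cases h0 : x = 0
  · exact ⟨0, by simp [h0]⟩
  apply IsDiscreteValuationRing.exists_lift_of_le_one
  have := (ord_le_ord_iff R (one_ne_zero) h0).mp (by simpa using hx)
  simpa using this

lemma ord_nonneg_iff {x : F} : 0 ≤ ord R x ↔ ∃ r : R, algebraMap R F r = x :=
  ⟨exists_algebraMap_eq_of_ord_nonneg R, fun ⟨r, hr⟩ => hr ▸ ord_algebraMap_nonneg R r⟩

lemma ord_algebraMap_pos_iff {r : R} (hr : r ≠ 0) :
    0 < ord R (algebraMap R F r) ↔ r ∈ maximalIdeal R := by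
  have h0 : algebraMap R F r ≠ 0 := by
    rwa [Ne, map_eq_zero_iff _ (IsFractionRing.injective R F)]
  have := ord_lt_ord_iff R (F := F) (one_ne_zero) h0
  rw [ord_one] at this
  rw [this, map_one, valuation_lt_one_iff_mem]
  rfl

lemma ord_algebraMap_eq_zero_iff {r : R} :
    (r ≠ 0 ∧ ord R (algebraMap R F r) = 0) ↔ IsUnit r := by
  constructor
  · rintro ⟨hr, h⟩
    by_contra hu
    have : r ∈ maximalIdeal R := by rwa [mem_maximalIdeal, mem_nonunits_iff]
    have := (ord_algebraMap_pos_iff R (F := F) hr).mpr this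
    omega
  · intro hu
    refine ⟨hu.ne_zero, ?_⟩
    have h1 := ord_algebraMap_nonneg R (F := F) r
    have h2 : ¬ 0 < ord R (algebraMap R F r) := by
      rw [ord_algebraMap_pos_iff R hu.ne_zero, mem_maximalIdeal, mem_nonunits_iff]
      exact fun h => h hu
    omega

lemma ord_algebraMap_unit (u : Rˣ) : ord R (algebraMap R F u) = 0 :=
  ((ord_algebraMap_eq_zero_iff R).mpr u.isUnit).2

lemma ord_algebraMap_irreducible {π : R} (hπ : Irreducible π) :
    ord R (algebraMap R F π) = 1 := by
  have h := (IsDiscreteValuationRing.maximalIdeal R).valuation_of_algebraMap (K := F) π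
  have h2 := (IsDiscreteValuationRing.maximalIdeal R).intValuation_singleton hπ.ne_zero
    (by
      show (maximalIdeal R) = Ideal.span {π}
      exact (IsDiscreteValuationRing.irreducible_iff_uniformizer _).mp hπ)
  rw [ord, dvrVal, h, h2, WithZero.log_exp]
  ring

/-- Every nonzero element of `F` is a unit times a power of a uniformiser. -/
lemma exists_unit_mul_zpow {π : R} (hπ : Irreducible π) {x : F} (hx : x ≠ 0) :
    ∃ u : Rˣ, x = algebraMap R F u * algebraMap R F π ^ (ord R x) := by
  have hπ0 : algebraMap R F π ≠ 0 := by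
    rw [Ne, map_eq_zero_iff _ (IsFractionRing.injective R F)]; exact hπ.ne_zero
  set y := x * (algebraMap R F π ^ (ord R x))⁻¹ with hy
  have hy0 : y ≠ 0 := mul_ne_zero hx (inv_ne_zero (zpow_ne_zero _ hπ0))
  have hyord : ord R y = 0 := by
    rw [hy, ord_mul R hx (inv_ne_zero (zpow_ne_zero _ hπ0)), ord_inv, ord_zpow,
      ord_algebraMap_irreducible R hπ]
    ring
  obtain ⟨r, hr⟩ := exists_algebraMap_eq_of_ord_nonneg R (hyord.ge)
  have hr0 : r ≠ 0 := by rintro rfl; rw [map_zero] at hr; exact hy0 hr.symm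
  have hu : IsUnit r := (ord_algebraMap_eq_zero_iff R (F := F)).mp ⟨hr0, by rw [hr, hyord]⟩
  refine ⟨hu.unit, ?_⟩
  rw [IsUnit.unit_spec, hr, hy, mul_assoc, inv_mul_cancel₀ (zpow_ne_zero _ hπ0), mul_one]

lemma ord_eq_zero_iff {x : F} (hx : x ≠ 0) :
    ord R x = 0 ↔ ∃ u : Rˣ, algebraMap R F u = x := by
  constructor
  · intro h
    obtain ⟨π, hπ⟩ := IsDiscreteValuationRing.exists_irreducible R
    obtain ⟨u, hu⟩ := exists_unit_mul_zpow R hπ hx
    exact ⟨u, by rw [hu, h, zpow_zero, mul_one]⟩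
  · rintro ⟨u, rfl⟩
    exact ord_algebraMap_unit R u

lemma ord_surjective : Function.Surjective (ord R : F → ℤ) := by
  intro n
  obtain ⟨π, hπ⟩ := IsDiscreteValuationRing.exists_irreducible R
  exact ⟨algebraMap R F π ^ n, by rw [ord_zpow, ord_algebraMap_irreducible R hπ, mul_one]⟩

/-- `ord` as a group homomorphism `Fˣ →* Multiplicative ℤ`. -/
noncomputable def ordHom : Fˣ →* Multiplicative ℤ where
  toFun x := Multiplicative.ofAdd (ord R (x : F))
  map_one' := by simp
  map_mul' x y := by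
    rw [Units.val_mul, ord_mul R x.ne_zero y.ne_zero, ofAdd_add]

@[simp] lemma ordHom_apply (x : Fˣ) : ordHom R x = Multiplicative.ofAdd (ord R (x : F)) := rfl

lemma ordHom_surjective : Function.Surjective (ordHom R : Fˣ → Multiplicative ℤ) := by
  intro n
  obtain ⟨π, hπ⟩ := IsDiscreteValuationRing.exists_irreducible R
  have hπ0 : algebraMap R F π ≠ 0 := by
    rw [Ne, map_eq_zero_iff _ (IsFractionRing.injective R F)]; exact hπ.ne_zero
  refine ⟨Units.mk0 _ (zpow_ne_zero (Multiplicative.toAdd n) hπ0), ?_⟩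
  rw [ordHom_apply, Units.val_mk0, ord_zpow, ord_algebraMap_irreducible R hπ, mul_one]
  rfl

/-- The unit group `U = {ord = 0}` as a subgroup of `Fˣ`. -/
noncomputable def unitGroup (F : Type*) [Field F] [Algebra R F] [IsFractionRing R F] :
    Subgroup Fˣ := (ordHom R (F := F)).ker

lemma mem_unitGroup_iff {x : Fˣ} : x ∈ unitGroup R F ↔ ord R (x : F) = 0 := by
  rw [unitGroup, MonoidHom.mem_ker, ordHom_apply]
  exact Iff.rfl

lemma mem_unitGroup_iff_exists {x : Fˣ} :
    x ∈ unitGroup R F ↔ ∃ u : Rˣ, algebraMap R F u = x := by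
  rw [mem_unitGroup_iff, ord_eq_zero_iff R x.ne_zero]

end Ord

end Fermat.Agent.CFT
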