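/-
CFT local part (L0): ramification index and residue degree for an extension of discrete
valuation rings `A ⊆ B` (AKLB setting), compatibility of `ord` with base change, norms and
automorphisms.
-/
import Mathlib
import Fermat.Agent.CFT.Local.Ord

set_option autoImplicit false
set_option linter.unusedSectionVars false
set_option linter.style.haveILetI false
set_option linter.deprecated false

namespace Fermat.Agent.CFT

open IsLocalRing

namespace Local

section RamIdx

variable (A B : Type*) [CommRing A] [IsDomain A] [IsDiscreteValuationRing A]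
  [CommRing B] [IsDomain B] [IsDiscreteValuationRing B] [Algebra A B]

/-- The ramification index of an extension of DVRs: `π_A = unit * π_B ^ e`. -/
noncomputable def ramIdx : ℕ :=
  (IsDiscreteValuationRing.addVal B (algebraMap A B (Classical.choose (IsDiscreteValuationRing.exists_irreducible A)))).toNat

variable {A B}

lemma ramIdx_spec (hinj : Function.Injective (algebraMap A B)) {π : A} (hπ : Irreducible π)
    {ϖ : B} (hϖ : Irreducible ϖ) : ∃ u : Bˣ, algebraMap A B π = u * ϖ ^ ramIdx A B := by
  set π₀ := Classical.choose (IsDiscreteValuationRing.exists_irreducible A) with hπ₀def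
  have hπ₀ : Irreducible π₀ := Classical.choose_spec (IsDiscreteValuationRing.exists_irreducible A)
  have h0 : algebraMap A B π₀ ≠ 0 := by
    rw [Ne, map_eq_zero_iff _ hinj]; exact hπ₀.ne_zero
  obtain ⟨n, u, hu⟩ := IsDiscreteValuationRing.eq_unit_mul_pow_irreducible h0 hϖ
  have hn : ramIdx A B = n := by
    rw [ramIdx, ← hπ₀def, IsDiscreteValuationRing.addVal_def _ u hϖ n hu]
    rfl
  obtain ⟨w, hw⟩ := IsDiscreteValuationRing.associated_of_irreducible A hπ₀ hπ
  refine ⟨u * Units.map (algebraMap A B).toMonoidHom w, ?_⟩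
  rw [← hw, map_mul, hu, hn]
  simp only [Units.val_mul, Units.coe_map, RingHom.toMonoidHom_eq_coe, MonoidHom.coe_coe]
  ring

end RamIdx

section AKLB

variable (A K L B : Type*) [CommRing A] [IsDomain A] [IsDiscreteValuationRing A]
  [Field K] [Algebra A K] [IsFractionRing A K]
  [Field L] [Algebra K L]
  [CommRing B] [IsDomain B] [IsDiscreteValuationRing B]
  [Algebra A B] [Algebra B L] [Algebra A L] [IsScalarTower A K L] [IsScalarTower A B L]
  [IsFractionRing B L]

include K L in
theorem algebraMap_injective' : Function.Injective (algebraMap A B) := by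
  have h1 : Function.Injective (algebraMap A L) := by
    rw [IsScalarTower.algebraMap_eq A K L]
    exact (algebraMap K L).injective.comp (IsFractionRing.injective A K)
  rw [IsScalarTower.algebraMap_eq A B L] at h1
  exact Function.Injective.of_comp h1

theorem ord_algebraMap_irreducible' {π : A} (hπ : Irreducible π) :
    ord B (algebraMap K L (algebraMap A K π)) = ramIdx A B := by
  obtain ⟨ϖ, hϖ⟩ := IsDiscreteValuationRing.exists_irreducible B
  obtain ⟨u, hu⟩ := ramIdx_spec (algebraMap_injective' A K L B) hπ hϖ
  rw [← IsScalarTower.algebraMap_apply A K L, IsScalarTower.algebraMap_apply A B L, hu, map_mul,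
    map_pow]
  have hϖ0 : algebraMap B L ϖ ≠ 0 := by
    rw [Ne, map_eq_zero_iff _ (IsFractionRing.injective B L)]; exact hϖ.ne_zero
  have hu0 : algebraMap B L u ≠ 0 := by
    rw [Ne, map_eq_zero_iff _ (IsFractionRing.injective B L)]; exact u.ne_zero
  rw [ord_mul B hu0 (pow_ne_zero _ hϖ0), ord_algebraMap_unit, ord_pow,
    ord_algebraMap_irreducible B hϖ]
  ring

theorem ord_algebraMap_unit' (u : Aˣ) : ord B (algebraMap K L (algebraMap A K u)) = 0 := by
  rw [← IsScalarTower.algebraMap_apply A K L, IsScalarTower.algebraMap_apply A B L]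
  exact ord_algebraMap_unit B (Units.map (algebraMap A B).toMonoidHom u)

/-- `ord_B x = e * ord_A x` for `x ∈ K`. -/
theorem ord_algebraMap (x : K) : ord B (algebraMap K L x) = ramIdx A B * ord A x := by
  by_cases hx : x = 0
  · simp [hx]
  obtain ⟨π, hπ⟩ := IsDiscreteValuationRing.exists_irreducible A
  obtain ⟨u, hu⟩ := exists_unit_mul_zpow A hπ hx
  have hπ0 : algebraMap A K π ≠ 0 := by
    rw [Ne, map_eq_zero_iff _ (IsFractionRing.injective A K)]; exact hπ.ne_zero
  have hu0 : algebraMap A K u ≠ 0 := by
    rw [Ne, map_eq_zero_iff _ (IsFractionRing.injective A K)]; exact u.ne_zero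
  conv_lhs => rw [hu]
  rw [map_mul, map_zpow₀, ord_mul B ((map_ne_zero _).mpr hu0)
    (zpow_ne_zero _ ((map_ne_zero _).mpr hπ0)), ord_algebraMap_unit', ord_zpow,
    ord_algebraMap_irreducible' A K L B hπ]
  ring

end AKLB

section AKLB2

variable (A K L B : Type*) [CommRing A] [IsDomain A] [IsDiscreteValuationRing A]
  [Field K] [Algebra A K] [IsFractionRing A K]
  [Field L] [Algebra K L] [FiniteDimensional K L]
  [CommRing B] [IsDomain B] [IsDiscreteValuationRing B]
  [Algebra A B] [Algebra B L] [Algebra A L] [IsScalarTower A K L] [IsScalarTower A B L]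
  [IsFractionRing B L] [Module.Finite A B]

include K L in
theorem isLocalHom' : IsLocalHom (algebraMap A B) :=
  haveI : Algebra.IsIntegral A B := Algebra.IsIntegral.of_finite A B
  haveI : FaithfulSMul A B :=
    (faithfulSMul_iff_algebraMap_injective A B).mpr (algebraMap_injective' A K L B)
  inferInstance

include K L in
theorem map_maximalIdeal_eq :
    (maximalIdeal A).map (algebraMap A B) = maximalIdeal B ^ ramIdx A B := by
  obtain ⟨π, hπ⟩ := IsDiscreteValuationRing.exists_irreducible A
  obtain ⟨ϖ, hϖ⟩ := IsDiscreteValuationRing.exists_irreducible B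
  obtain ⟨u, hu⟩ := ramIdx_spec (algebraMap_injective' A K L B) hπ hϖ
  rw [(IsDiscreteValuationRing.irreducible_iff_uniformizer π).mp hπ, (IsDiscreteValuationRing.irreducible_iff_uniformizer ϖ).mp hϖ,
    Ideal.map_span, Set.image_singleton, hu, Ideal.span_singleton_pow]
  exact Ideal.span_singleton_eq_span_singleton.mpr
    (associated_unit_mul_left_iff.mpr (Associated.refl _))

include K L in
theorem ramIdx_pos : 0 < ramIdx A B := by
  have h := map_maximalIdeal_eq A K L B
  by_contra h0
  have h0 : ramIdx A B = 0 := by omega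
  rw [h0, pow_zero, Ideal.one_eq_top] at h
  haveI := isLocalHom' A K L B
  have hle : (maximalIdeal A).map (algebraMap A B) ≤ maximalIdeal B := by
    have := (local_hom_TFAE (algebraMap A B)).out 0 2
    exact this.mp inferInstance
  rw [h] at hle
  exact (maximalIdeal.isMaximal B).ne_top (top_le_iff.mp hle)

end AKLB2

section ResDeg

variable (A B : Type*) [CommRing A] [IsLocalRing A] [CommRing B] [IsLocalRing B] [Algebra A B]
  [IsLocalHom (algebraMap A B)]

/-- The residue degree of a local extension of local rings. -/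
noncomputable def resDeg : ℕ := Module.finrank (ResidueField A) (ResidueField B)

theorem resDeg_pos [Module.Finite A B] : 0 < resDeg A B := Module.finrank_pos

end ResDeg

section AKLB3

variable (A K L B : Type*) [CommRing A] [IsDomain A] [IsDiscreteValuationRing A]
  [Field K] [Algebra A K] [IsFractionRing A K]
  [Field L] [Algebra K L] [FiniteDimensional K L]
  [CommRing B] [IsDomain B] [IsDiscreteValuationRing B]
  [Algebra A B] [Algebra B L] [Algebra A L] [IsScalarTower A K L] [IsScalarTower A B L]
  [IsFractionRing B L] [Module.Finite A B] [IsLocalHom (algebraMap A B)]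

include K L in
theorem ramIdx_mul_resDeg : ramIdx A B * resDeg A B = Module.finrank K L := by
  have hp0 : maximalIdeal A ≠ ⊥ := by
    intro h
    exact IsDiscreteValuationRing.not_isField A ((isField_iff_maximalIdeal_eq).mpr h)
  have hP0 : maximalIdeal B ≠ ⊥ := by
    intro h
    exact IsDiscreteValuationRing.not_isField B ((isField_iff_maximalIdeal_eq).mpr h)
  have h := Ideal.ramificationIdx_mul_inertiaDeg_of_isLocalRing (S := B) K L (p := maximalIdeal A) hp0
  have he : Ideal.ramificationIdx' (maximalIdeal A) (maximalIdeal B) = ramIdx A B := by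
    apply Ideal.ramificationIdx'_spec
    · rw [map_maximalIdeal_eq A K L B]
    · rw [map_maximalIdeal_eq A K L B]
      exact not_le_of_gt (Ideal.pow_succ_lt_pow hP0 _)
  have hf : Ideal.inertiaDeg' (maximalIdeal A) (maximalIdeal B) = resDeg A B := by
    rw [Ideal.inertiaDeg'_algebraMap]
    rfl
  rw [← he, ← hf, h]

/-- The norm of an integral element is integral. -/
theorem ord_norm_algebraMap_nonneg (b : B) :
    0 ≤ ord A (Algebra.norm K (algebraMap B L b)) := by
  have hint : IsIntegral A (algebraMap B L b) := by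
    haveI : Algebra.IsIntegral A B := Algebra.IsIntegral.of_finite A B
    exact (Algebra.IsIntegral.isIntegral (R := A) b).map (IsScalarTower.toAlgHom A B L)
  have h2 : IsIntegral A (Algebra.norm K (algebraMap B L b)) := Algebra.isIntegral_norm K hint
  obtain ⟨a, ha⟩ := IsIntegrallyClosed.isIntegral_iff.mp h2
  rw [← ha]
  exact ord_algebraMap_nonneg A a

theorem ord_norm_algebraMap_unit (u : Bˣ) :
    ord A (Algebra.norm K (algebraMap B L u)) = 0 := by
  have h1 := ord_norm_algebraMap_nonneg A K L B (u : B)
  have h2 := ord_norm_algebraMap_nonneg A K L B ((u⁻¹ : Bˣ) : B)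
  have hmul : Algebra.norm K (algebraMap B L u) * Algebra.norm K (algebraMap B L ((u⁻¹ : Bˣ) : B))
      = 1 := by
    rw [← map_mul, ← map_mul, ← Units.val_mul, mul_inv_cancel, Units.val_one, map_one, map_one]
  have hne1 : Algebra.norm K (algebraMap B L u) ≠ 0 := left_ne_zero_of_mul_eq_one hmul
  have hne2 : Algebra.norm K (algebraMap B L ((u⁻¹ : Bˣ) : B)) ≠ 0 :=
    right_ne_zero_of_mul_eq_one hmul
  have := ord_mul A hne1 hne2
  rw [hmul, ord_one] at this
  omega

theorem ord_norm_irreducible {ϖ : B} (hϖ : Irreducible ϖ) :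
    ord A (Algebra.norm K (algebraMap B L ϖ)) = resDeg A B := by
  obtain ⟨π, hπ⟩ := IsDiscreteValuationRing.exists_irreducible A
  obtain ⟨u, hu⟩ := ramIdx_spec (algebraMap_injective' A K L B) hπ hϖ
  have h1 : Algebra.norm K (algebraMap K L (algebraMap A K π)) =
      (algebraMap A K π) ^ Module.finrank K L := Algebra.norm_algebraMap _
  have h2 : algebraMap K L (algebraMap A K π) =
      algebraMap B L u * algebraMap B L ϖ ^ ramIdx A B := by
    rw [← IsScalarTower.algebraMap_apply A K L, IsScalarTower.algebraMap_apply A B L, hu, map_mul,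
      map_pow]
  rw [h2, map_mul, map_pow] at h1
  have hϖ0 : algebraMap B L ϖ ≠ 0 := by
    rw [Ne, map_eq_zero_iff _ (IsFractionRing.injective B L)]; exact hϖ.ne_zero
  have hu0 : algebraMap B L u ≠ 0 := by
    rw [Ne, map_eq_zero_iff _ (IsFractionRing.injective B L)]; exact u.ne_zero
  have hN1 : Algebra.norm K (algebraMap B L u) ≠ 0 := Algebra.norm_ne_zero_iff.mpr hu0
  have hN2 : Algebra.norm K (algebraMap B L ϖ) ≠ 0 := Algebra.norm_ne_zero_iff.mpr hϖ0
  have h3 := congrArg (ord A) h1
  rw [ord_mul A hN1 (pow_ne_zero _ hN2), ord_norm_algebraMap_unit, ord_pow, ord_pow,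
    ord_algebraMap_irreducible A hπ, ← ramIdx_mul_resDeg A K L B] at h3
  have he := ramIdx_pos A K L B
  push_cast at h3
  have h4 : (ramIdx A B : ℤ) * (ord A (Algebra.norm K (algebraMap B L ϖ)) - resDeg A B) = 0 := by
    linear_combination h3
  rcases mul_eq_zero.mp h4 with h | h
  · exact absurd (by exact_mod_cast h) he.ne'
  · omega

/-- `ord_A (N_{L/K} y) = f * ord_B y`. -/
theorem ord_norm (y : L) : ord A (Algebra.norm K y) = resDeg A B * ord B y := by
  by_cases hy : y = 0
  · simp [hy]
  obtain ⟨ϖ, hϖ⟩ := IsDiscreteValuationRing.exists_irreducible B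
  obtain ⟨u, hu⟩ := exists_unit_mul_zpow B hϖ hy
  have hϖ0 : algebraMap B L ϖ ≠ 0 := by
    rw [Ne, map_eq_zero_iff _ (IsFractionRing.injective B L)]; exact hϖ.ne_zero
  have hu0 : algebraMap B L u ≠ 0 := by
    rw [Ne, map_eq_zero_iff _ (IsFractionRing.injective B L)]; exact u.ne_zero
  have hN1 : Algebra.norm K (algebraMap B L u) ≠ 0 := Algebra.norm_ne_zero_iff.mpr hu0
  have hN2 : Algebra.norm K (algebraMap B L ϖ) ≠ 0 := Algebra.norm_ne_zero_iff.mpr hϖ0
  conv_lhs => rw [hu]
  rw [map_mul, Algebra.norm_zpow, ord_mul A hN1 (zpow_ne_zero _ hN2), ord_norm_algebraMap_unit,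
    ord_zpow,
    ord_norm_irreducible A K L B hϖ]
  ring

include A in
/-- `K`-automorphisms of `L` preserve `ord_B`. -/
theorem ord_algEquiv (σ : L ≃ₐ[K] L) (y : L) : ord B (σ y) = ord B y := by
  have h1 := ord_norm A K L B (σ y)
  have h2 := ord_norm A K L B y
  rw [Algebra.norm_eq_of_algEquiv σ y] at h1
  have hf := resDeg_pos A B
  have : (resDeg A B : ℤ) * (ord B (σ y) - ord B y) = 0 := by
    have h3 := h1.symm.trans h2
    linear_combination h3
  rcases mul_eq_zero.mp this with h | h
  · exact absurd (by exact_mod_cast h) hf.ne'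
  · omega

end AKLB3

section Card

variable (A B : Type*) [CommRing A] [IsLocalRing A] [CommRing B] [IsLocalRing B] [Algebra A B]
  [IsLocalHom (algebraMap A B)] [Module.Finite A B]

theorem card_residueField :
    Nat.card (ResidueField B) = Nat.card (ResidueField A) ^ resDeg A B :=
  Module.natCard_eq_pow_finrank

end Card

end Local

end Fermat.Agent.CFT
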