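import Mathlib
import Fermat.Agent.CFT.Local.Ramification

/-!
# CFT (G3a): local Kummer facts

`A` a complete discrete valuation ring with finite residue field, `K` its fraction field.
* `exists_one_add_mul_pow_eq`: Hensel for `p`-th powers, `1 + p² t c = (1 + p t z)^p`;
* `index_pow_units_le`: `[Aˣ : (Aˣ)^p] ≤ |A/pA| · p`;
* `card_units_quotient_pow_le`: `[Kˣ : (Kˣ)^p] ≤ [Aˣ : (Aˣ)^p] · p`;
* `exists_pow_eq_of_sub_mem`: a unit which is a `p`-th power in the residue field is a `p`-th
  power (`p` a unit);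
* `ramIdx_eq_one_of_pow_eq_unit`: Kummer extensions of degree `p` generated by `p`-th roots of
  units are unramified (`p` a unit).
-/

set_option linter.unusedSectionVars false
set_option linter.style.haveILetI false

namespace Fermat.Agent.CFT.LocalKummer

open Polynomial IsLocalRing Fermat.Agent.CFT Fermat.Agent.CFT.Local

section FixedPoint

variable {R : Type*} [CommRing R] (I : Ideal R) [IsAdicComplete I R]

/-- Fixed points of an `I`-adic contraction on an `I`-adically complete ring. -/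
theorem exists_fixed_point_of_contraction (Φ : R → R)
    (hΦ : ∀ (n : ℕ) (z z' : R), z - z' ∈ I ^ n → Φ z - Φ z' ∈ I ^ (n + 1)) :
    ∃ z : R, Φ z = z := by
  let s : ℕ → R := fun k => Φ^[k] 0
  have hs1 : ∀ k, s (k + 1) = Φ (s k) := fun k => Function.iterate_succ_apply' Φ k 0
  have hs : ∀ k, s (k + 1) - s k ∈ I ^ k := by
    intro k
    induction k with
    | zero => simp
    | succ k ih =>
      have := hΦ k _ _ ih
      rwa [← hs1, ← hs1] at this
  have hmn : ∀ {m n : ℕ}, m ≤ n → s n - s m ∈ I ^ m := by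
    intro m n hmn
    induction n, hmn using Nat.le_induction with
    | base => simp
    | succ n hmn ih =>
      have h1 : s (n + 1) - s n ∈ I ^ m := Ideal.pow_le_pow_right hmn (hs n)
      have : s (n + 1) - s m = (s (n + 1) - s n) + (s n - s m) := by ring
      rw [this]
      exact (I ^ m).add_mem h1 ih
  have hprec := IsPrecomplete.prec (I := I) (M := R) inferInstance (f := s) (by
    intro m n hmn'
    rw [SModEq.sub_mem, smul_eq_mul, Ideal.mul_top, ← neg_sub]
    exact (I ^ m).neg_mem (hmn hmn'))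
  obtain ⟨L, hL⟩ := hprec
  have hL' : ∀ n, s n - L ∈ I ^ n := by
    intro n
    have := hL n
    rwa [SModEq.sub_mem, smul_eq_mul, Ideal.mul_top] at this
  refine ⟨L, ?_⟩
  have : Φ L - L = 0 := by
    apply IsHausdorff.haus (I := I) (M := R) inferInstance
    intro n
    rw [SModEq.sub_mem, smul_eq_mul, Ideal.mul_top, sub_zero]
    have h1 : Φ L - Φ (s n) ∈ I ^ (n + 1) := by
      apply hΦ
      rw [← neg_sub]
      exact (I ^ n).neg_mem (hL' n)
    have h2 : s (n + 1) - L ∈ I ^ (n + 1) := hL' (n + 1)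
    have : Φ L - L = (Φ L - Φ (s n)) + (s (n + 1) - L) := by rw [hs1]; ring
    rw [this]
    exact Ideal.pow_le_pow_right (Nat.le_succ n) ((I ^ (n + 1)).add_mem h1 h2)
  exact sub_eq_zero.mp this

end FixedPoint

section Pow

variable {R : Type*} [CommRing R]

/-- `(1 + X)^p = 1 + p X + X^2 q(X)`. -/
theorem exists_one_add_X_pow_eq (p : ℕ) :
    ∃ q : R[X], (1 + X : R[X]) ^ p = 1 + C (p : R) * X + X ^ 2 * q := by
  induction p with
  | zero => exact ⟨0, by simp⟩
  | succ n ih =>
    obtain ⟨q, hq⟩ := ih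
    refine ⟨q * (1 + X) + C (n : R), ?_⟩
    rw [pow_succ, hq]
    simp only [Nat.cast_add, Nat.cast_one, C_add, C_1]
    ring

theorem exists_one_add_pow_eq (p : ℕ) :
    ∃ q : R[X], ∀ x : R, (1 + x) ^ p = 1 + (p : R) * x + x ^ 2 * q.eval x := by
  obtain ⟨q, hq⟩ := exists_one_add_X_pow_eq (R := R) p
  refine ⟨q, fun x => ?_⟩
  have := congrArg (Polynomial.eval x) hq
  simpa using this

/-- Hensel for `p`-th powers: `1 + p^2 t c` is the `p`-th power of some `1 + p t z`. -/
theorem exists_one_add_mul_pow_eq (I : Ideal R) [IsAdicComplete I R] (p : ℕ) {t : R} (ht : t ∈ I)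
    (c : R) : ∃ z : R, (1 + (p : R) * t * z) ^ p = 1 + (p : R) ^ 2 * t * c := by
  obtain ⟨q, hq⟩ := exists_one_add_pow_eq (R := R) p
  let P : R[X] := X ^ 2 * q.comp (C ((p : R) * t) * X)
  have hP : ∀ z : R, P.eval z = z ^ 2 * q.eval ((p : R) * t * z) := by
    intro z
    simp [P, eval_comp]
  obtain ⟨z, hz⟩ := exists_fixed_point_of_contraction I (fun z => c - t * P.eval z) (by
    intro n z z' hzz'
    have h1 : z - z' ∣ P.eval z - P.eval z' := Polynomial.sub_dvd_eval_sub z z' P
    obtain ⟨w, hw⟩ := h1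
    have : (c - t * P.eval z) - (c - t * P.eval z') = t * ((z' - z) * w) := by
      have : P.eval z' - P.eval z = (z' - z) * w := by linear_combination -hw
      linear_combination t * this
    rw [this, pow_succ']
    refine Ideal.mul_mem_mul ht ?_
    refine Ideal.mul_mem_right _ _ ?_
    rw [← neg_sub]
    exact (I ^ n).neg_mem hzz')
  refine ⟨z, ?_⟩
  have hz' : c = z + t * (z ^ 2 * q.eval ((p : R) * t * z)) := by
    have := hz
    simp only [hP] at this
    linear_combination this
  rw [hq, hz']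
  ring

end Pow

section Index

variable {G : Type*} [CommGroup G]

/-- Index of the image of an endomorphism, computed on a finite-index subgroup on which the
endomorphism is injective. -/
theorem index_range_eq (f : G →* G) (H : Subgroup G) [H.FiniteIndex]
    (hinj : H ⊓ f.ker = ⊥) (hmap : H.map f ≤ H) :
    f.range.index = (H.map f).relIndex H * Nat.card f.ker := by
  have h1 : (H.map f).index = (H ⊔ f.ker).index * f.range.index := Subgroup.index_map H f
  have h2 : (H.map f).relIndex H * H.index = (H.map f).index := Subgroup.relIndex_mul_index hmap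
  have h3 : H.relIndex (H ⊔ f.ker) * (H ⊔ f.ker).index = H.index :=
    Subgroup.relIndex_mul_index le_sup_left
  have h4 : H.relIndex (H ⊔ f.ker) = Nat.card f.ker := by
    rw [Subgroup.relIndex_sup_left, ← Subgroup.inf_relIndex_right, hinj, Subgroup.relIndex_bot_left]
  have h5 : (H ⊔ f.ker).index ≠ 0 := by
    intro h
    have : H.index = 0 := by rw [← h3, h, mul_zero]
    exact Subgroup.FiniteIndex.index_ne_zero this
  have h6 : (H ⊔ f.ker).index * f.range.index =
      (H ⊔ f.ker).index * ((H.map f).relIndex H * Nat.card f.ker) := by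
    rw [← h1, ← h2, ← h3, h4]; ring
  exact Nat.eq_of_mul_eq_mul_left (Nat.pos_of_ne_zero h5) h6

end Index

section DVR

variable (A : Type*) [CommRing A] [IsDomain A] [IsDiscreteValuationRing A]
  [Finite (ResidueField A)]

theorem finite_quotient_span_singleton {x : A} (hx : x ≠ 0) : Finite (A ⧸ Ideal.span {x}) := by
  rw [IsLocalRing.finite_quotient_iff]
  obtain ⟨π, hπ⟩ := IsDiscreteValuationRing.exists_irreducible A
  obtain ⟨n, u, hu⟩ := IsDiscreteValuationRing.eq_unit_mul_pow_irreducible hx hπ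
  refine ⟨n, ?_⟩
  rw [(IsDiscreteValuationRing.irreducible_iff_uniformizer π).mp hπ, Ideal.span_singleton_pow,
    Ideal.span_singleton_le_span_singleton, hu]
  exact ⟨((u⁻¹ : Aˣ) : A), by rw [mul_comm (u : A), mul_assoc, Units.mul_inv, mul_one]⟩

/-- The units congruent to `1` modulo `J`. -/
def unitsOneMod (J : Ideal A) : Subgroup Aˣ :=
  (Units.map (Ideal.Quotient.mk J).toMonoidHom).ker

variable {A}

theorem mem_unitsOneMod {J : Ideal A} {u : Aˣ} : u ∈ unitsOneMod A J ↔ (u : A) - 1 ∈ J := by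
  rw [unitsOneMod, MonoidHom.mem_ker, Units.ext_iff]
  simp only [Units.coe_map, RingHom.toMonoidHom_eq_coe, MonoidHom.coe_coe, Units.val_one]
  rw [← map_one (Ideal.Quotient.mk J), Ideal.Quotient.eq]

theorem finiteIndex_unitsOneMod {J : Ideal A} [Finite (A ⧸ J)] : (unitsOneMod A J).FiniteIndex := by
  rw [unitsOneMod]
  constructor
  rw [Subgroup.index_ker]
  exact Nat.card_ne_zero.mpr ⟨⟨1, ⟨1, map_one _⟩⟩, inferInstance⟩

theorem unitsOneMod_mono {J J' : Ideal A} (h : J ≤ J') : unitsOneMod A J ≤ unitsOneMod A J' := by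
  intro u hu
  rw [mem_unitsOneMod] at hu ⊢
  exact h hu

variable [IsAdicComplete (maximalIdeal A) A]

section pow

variable (p : ℕ) (hp0 : p ≠ 0) (hp : (p : A) ≠ 0) {π : A} (hπ : Irreducible π)

include hp0 hπ in
theorem map_pow_unitsOneMod :
    (unitsOneMod A (Ideal.span {(p : A) * π})).map (powMonoidHom p) =
      unitsOneMod A (Ideal.span {(p : A) ^ 2 * π}) := by
  obtain ⟨q, hq⟩ := exists_one_add_pow_eq (R := A) p
  ext v
  simp only [Subgroup.mem_map, mem_unitsOneMod, Ideal.mem_span_singleton', powMonoidHom_apply]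
  constructor
  · rintro ⟨u, ⟨z, hz⟩, rfl⟩
    have hu : (u : A) = 1 + (p : A) * π * z := by linear_combination -hz
    refine ⟨z + π * z ^ 2 * q.eval ((p : A) * π * z), ?_⟩
    rw [Units.val_pow_eq_pow_val, hu, hq]
    ring
  · rintro ⟨c, hc⟩
    have hπm : π ∈ maximalIdeal A := by
      rw [mem_maximalIdeal]; exact hπ.not_isUnit
    obtain ⟨z, hz⟩ := exists_one_add_mul_pow_eq (maximalIdeal A) p hπm c
    have hv : (v : A) = 1 + (p : A) ^ 2 * π * c := by linear_combination -hc
    have hunit : IsUnit (1 + (p : A) * π * z) := by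
      have : IsUnit ((1 + (p : A) * π * z) ^ p) := by rw [hz, ← hv]; exact v.isUnit
      exact (isUnit_pow_iff hp0).mp this
    refine ⟨hunit.unit, ⟨z, ?_⟩, ?_⟩
    · rw [IsUnit.unit_spec]; ring
    · apply Units.ext
      rw [Units.val_pow_eq_pow_val, IsUnit.unit_spec, hz, hv]

include hp hπ in
theorem unitsOneMod_inf_ker_pow :
    unitsOneMod A (Ideal.span {(p : A) * π}) ⊓ (powMonoidHom p : Aˣ →* Aˣ).ker = ⊥ := by
  obtain ⟨q, hq⟩ := exists_one_add_pow_eq (R := A) p
  rw [eq_bot_iff]
  intro u hu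
  rw [Subgroup.mem_inf] at hu
  obtain ⟨hu1, hu2⟩ := hu
  rw [mem_unitsOneMod, Ideal.mem_span_singleton'] at hu1
  rw [MonoidHom.mem_ker, powMonoidHom_apply] at hu2
  obtain ⟨z, hz⟩ := hu1
  have hu : (u : A) = 1 + (p : A) * π * z := by linear_combination -hz
  have h1 : (1 + (p : A) * π * z) ^ p = 1 := by
    rw [← hu, ← Units.val_pow_eq_pow_val, hu2, Units.val_one]
  rw [hq] at h1
  have h2 : (p : A) ^ 2 * π * (z * (1 + π * (z * q.eval ((p : A) * π * z)))) = 0 := by
    linear_combination h1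
  have hunit : IsUnit (1 + π * (z * q.eval ((p : A) * π * z))) := by
    have hm : π * (z * q.eval ((p : A) * π * z)) ∈ maximalIdeal A := by
      apply Ideal.mul_mem_right
      rw [mem_maximalIdeal]; exact hπ.not_isUnit
    have := IsLocalRing.isUnit_one_sub_self_of_mem_nonunits (-(π * (z * q.eval ((p : A) * π * z))))
      (by rw [← mem_maximalIdeal]; exact (maximalIdeal A).neg_mem hm)
    simpa using this
  have hz0 : z = 0 := by
    rcases mul_eq_zero.mp h2 with h | h
    · rcases mul_eq_zero.mp h with h | h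
      · exact absurd ((pow_eq_zero_iff (two_ne_zero)).mp h) hp
      · exact absurd h hπ.ne_zero
    · rcases mul_eq_zero.mp h with h | h
      · exact h
      · exact absurd h hunit.ne_zero
  rw [Subgroup.mem_bot]
  apply Units.ext
  rw [hu, hz0]; simp

omit [IsDomain A] [IsDiscreteValuationRing A] [Finite (ResidueField A)]
  [IsAdicComplete (maximalIdeal A) A] in
theorem aux_mem (w u : Aˣ) (z z' d : A) (hw : (w : A) = 1 + (p : A) * π * z')
    (hu : (u : A) = 1 + (p : A) * π * z) (hd : d * (p : A) = z' - z) :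
    ((w⁻¹ * u : Aˣ) : A) - 1 ∈ Ideal.span {(p : A) ^ 2 * π} := by
  rw [Ideal.mem_span_singleton']
  refine ⟨-((w⁻¹ : Aˣ) : A) * d, ?_⟩
  have h1 : ((w⁻¹ : Aˣ) : A) * (w : A) = 1 := Units.inv_mul w
  rw [Units.val_mul, hu]
  have hzz : z = z' - d * (p : A) := by linear_combination hd
  rw [hzz]
  rw [hw] at h1
  linear_combination (-1 : A) * h1

include hp hπ in
theorem relIndex_unitsOneMod_le :
    (unitsOneMod A (Ideal.span {(p : A) ^ 2 * π})).relIndex
      (unitsOneMod A (Ideal.span {(p : A) * π})) ≤ Nat.card (A ⧸ Ideal.span {(p : A)}) := by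
  haveI : Finite (A ⧸ Ideal.span {(p : A)}) := finite_quotient_span_singleton A hp
  set H₁ := unitsOneMod A (Ideal.span {(p : A) * π}) with hH₁
  set H₂ := unitsOneMod A (Ideal.span {(p : A) ^ 2 * π}) with hH₂
  have hπm : π ∈ maximalIdeal A := by
    rw [mem_maximalIdeal]; exact hπ.not_isUnit
  have hunit : ∀ z : A, IsUnit (1 + (p : A) * π * z) := by
    intro z
    have hm : (p : A) * π * z ∈ maximalIdeal A :=
      Ideal.mul_mem_right _ _ (Ideal.mul_mem_left _ _ hπm)
    have := IsLocalRing.isUnit_one_sub_self_of_mem_nonunits (-((p : A) * π * z))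
      (by rw [← mem_maximalIdeal]; exact (maximalIdeal A).neg_mem hm)
    simpa using this
  have hmem : ∀ z : A, (hunit z).unit ∈ H₁ := by
    intro z
    rw [hH₁, mem_unitsOneMod, IsUnit.unit_spec, Ideal.mem_span_singleton']
    exact ⟨z, by ring⟩
  let g : (A ⧸ Ideal.span {(p : A)}) → (H₁ ⧸ H₂.subgroupOf H₁) := fun c =>
    QuotientGroup.mk ⟨(hunit (Quotient.out c)).unit, hmem _⟩
  have hg : Function.Surjective g := by
    intro x
    obtain ⟨⟨u, hu⟩, rfl⟩ := QuotientGroup.mk_surjective x
    have hu' := hu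
    rw [hH₁, mem_unitsOneMod, Ideal.mem_span_singleton'] at hu'
    obtain ⟨z, hz⟩ := hu'
    refine ⟨Ideal.Quotient.mk _ z, ?_⟩
    have hout : Ideal.Quotient.mk (Ideal.span {(p : A)}) (Quotient.out (Ideal.Quotient.mk (Ideal.span {(p : A)}) z)) = Ideal.Quotient.mk _ z :=
      Quotient.out_eq _
    rw [Ideal.Quotient.eq, Ideal.mem_span_singleton'] at hout
    obtain ⟨d, hd⟩ := hout
    set z' := Quotient.out (Ideal.Quotient.mk (Ideal.span {(p : A)}) z) with hz'
    show (QuotientGroup.mk _ : H₁ ⧸ H₂.subgroupOf H₁) = QuotientGroup.mk _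
    rw [QuotientGroup.eq, Subgroup.mem_subgroupOf, hH₂, mem_unitsOneMod]
    have hu1 : (u : A) = 1 + (p : A) * π * z := by linear_combination -hz
    exact aux_mem p (hunit z').unit u z z' d (IsUnit.unit_spec _) hu1 hd
  have := Nat.card_le_card_of_surjective g hg
  rwa [← Subgroup.index_eq_card] at this

include hp0 hp hπ in
/-- **Upper bound for the index of `p`-th powers in the unit group.** -/
theorem index_pow_units_le :
    (powMonoidHom p : Aˣ →* Aˣ).range.index ≤ Nat.card (A ⧸ Ideal.span {(p : A)}) * p ∧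
    (powMonoidHom p : Aˣ →* Aˣ).range.index ≠ 0 := by
  haveI : Finite (A ⧸ Ideal.span {(p : A)}) := finite_quotient_span_singleton A hp
  have hpπ : (p : A) * π ≠ 0 := mul_ne_zero hp hπ.ne_zero
  haveI : Finite (A ⧸ Ideal.span {(p : A) * π}) := finite_quotient_span_singleton A hpπ
  haveI := finiteIndex_unitsOneMod (A := A) (J := Ideal.span {(p : A) * π})
  have hmap : (unitsOneMod A (Ideal.span {(p : A) * π})).map (powMonoidHom p) ≤
      unitsOneMod A (Ideal.span {(p : A) * π}) := by
    rw [map_pow_unitsOneMod p hp0 hπ]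
    apply unitsOneMod_mono
    rw [Ideal.span_singleton_le_span_singleton]
    exact ⟨(p : A), by ring⟩
  have h1 := index_range_eq (powMonoidHom p : Aˣ →* Aˣ)
    (unitsOneMod A (Ideal.span {(p : A) * π})) (unitsOneMod_inf_ker_pow p hp hπ) hmap
  rw [map_pow_unitsOneMod p hp0 hπ] at h1
  have h2 := relIndex_unitsOneMod_le p hp hπ
  have hker : (powMonoidHom p : Aˣ →* Aˣ).ker = rootsOfUnity p A := by
    ext u
    rw [MonoidHom.mem_ker, powMonoidHom_apply, mem_rootsOfUnity]
  haveI : NeZero p := ⟨hp0⟩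
  have h3 : Nat.card (powMonoidHom p : Aˣ →* Aˣ).ker ≤ p := by
    rw [hker]
    exact card_rootsOfUnity A p
  have h3' : Nat.card (powMonoidHom p : Aˣ →* Aˣ).ker ≠ 0 := by
    rw [hker]
    exact Nat.card_pos.ne'
  constructor
  · rw [h1]
    exact Nat.mul_le_mul h2 h3
  · rw [h1]
    refine mul_ne_zero ?_ h3'
    have hle : unitsOneMod A (Ideal.span {(p : A) ^ 2 * π}) ≤
        unitsOneMod A (Ideal.span {(p : A) * π}) := by
      apply unitsOneMod_mono
      rw [Ideal.span_singleton_le_span_singleton]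
      exact ⟨(p : A), by ring⟩
    have hp2π : (p : A) ^ 2 * π ≠ 0 := mul_ne_zero (pow_ne_zero 2 hp) hπ.ne_zero
    haveI : Finite (A ⧸ Ideal.span {(p : A) ^ 2 * π}) := finite_quotient_span_singleton A hp2π
    haveI := finiteIndex_unitsOneMod (A := A) (J := Ideal.span {(p : A) ^ 2 * π})
    intro h0
    have := Subgroup.relIndex_mul_index hle
    rw [h0, zero_mul] at this
    exact Subgroup.FiniteIndex.index_ne_zero this.symm

end pow

variable (A) (K : Type*) [Field K] [Algebra A K] [IsFractionRing A K]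

/-- **Upper bound for the index of `p`-th powers in `Kˣ`.** -/
theorem card_units_quotient_pow_le (p : ℕ) (hp0 : p ≠ 0) (hp : (p : A) ≠ 0) :
    Finite (Kˣ ⧸ (powMonoidHom p : Kˣ →* Kˣ).range) ∧
    Nat.card (Kˣ ⧸ (powMonoidHom p : Kˣ →* Kˣ).range) ≤
      (powMonoidHom p : Aˣ →* Aˣ).range.index * p := by
  obtain ⟨π, hπ⟩ := IsDiscreteValuationRing.exists_irreducible A
  obtain ⟨-, hidx⟩ := index_pow_units_le (A := A) p hp0 hp hπ
  haveI : (powMonoidHom p : Aˣ →* Aˣ).range.FiniteIndex := ⟨hidx⟩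
  have hπ0 : algebraMap A K π ≠ 0 := by
    rw [Ne, map_eq_zero_iff _ (IsFractionRing.injective A K)]; exact hπ.ne_zero
  let πK : Kˣ := Units.mk0 _ hπ0
  let ι : Aˣ →* Kˣ := Units.map (algebraMap A K).toMonoidHom
  let h : (Aˣ ⧸ (powMonoidHom p : Aˣ →* Aˣ).range) × Fin p →
      Kˣ ⧸ (powMonoidHom p : Kˣ →* Kˣ).range := fun c =>
    QuotientGroup.mk (ι (Quotient.out c.1) * πK ^ (c.2 : ℕ))
  have hsurj : Function.Surjective h := by
    intro x
    obtain ⟨x, rfl⟩ := QuotientGroup.mk_surjective x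
    obtain ⟨u, hu⟩ := exists_unit_mul_zpow A hπ x.ne_zero
    set n := ord A (x : K) with hn
    have hpZ : (p : ℤ) ≠ 0 := by exact_mod_cast hp0
    have hr0 : 0 ≤ n % (p : ℤ) := Int.emod_nonneg n hpZ
    have hr1 : n % (p : ℤ) < p := Int.emod_lt_of_pos n (by positivity)
    set r : ℕ := (n % (p : ℤ)).toNat with hr
    have hrp : r < p := by
      rw [hr]; omega
    have hrn : (r : ℤ) = n % (p : ℤ) := Int.toNat_of_nonneg hr0
    set m := n / (p : ℤ) with hm
    have hnm : n = (p : ℤ) * m + r := by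
      rw [hrn, hm]; exact (Int.mul_ediv_add_emod n p).symm
    refine ⟨(QuotientGroup.mk u, ⟨r, hrp⟩), ?_⟩
    have hout : (QuotientGroup.mk (Quotient.out (QuotientGroup.mk u :
        Aˣ ⧸ (powMonoidHom p : Aˣ →* Aˣ).range)) : Aˣ ⧸ (powMonoidHom p : Aˣ →* Aˣ).range) =
        QuotientGroup.mk u := Quotient.out_eq _
    rw [QuotientGroup.eq] at hout
    obtain ⟨v, hv⟩ := hout
    rw [powMonoidHom_apply] at hv
    set u' := Quotient.out (QuotientGroup.mk u : Aˣ ⧸ (powMonoidHom p : Aˣ →* Aˣ).range) with hu'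
    have hu1 : (u : A) = (u' : A) * (v : A) ^ p := by
      have : u = u' * v ^ p := by rw [hv]; group
      rw [this, Units.val_mul, Units.val_pow_eq_pow_val]
    have key : x = ι u' * πK ^ r * (ι v * πK ^ m) ^ p := by
      apply Units.ext
      simp only [Units.val_mul, Units.val_pow_eq_pow_val, mul_pow,
        Units.val_zpow_eq_zpow_val, ι, πK, Units.coe_map, Units.val_mk0,
        RingHom.toMonoidHom_eq_coe, MonoidHom.coe_coe]
      rw [hu, hu1, hnm, map_mul, map_pow, zpow_add₀ hπ0, zpow_mul, zpow_natCast, zpow_natCast,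
        ← zpow_natCast (algebraMap A K π ^ m) p, ← zpow_mul, mul_comm m (p : ℤ), zpow_mul,
        zpow_natCast]
      ring
    show (QuotientGroup.mk _ : Kˣ ⧸ (powMonoidHom p : Kˣ →* Kˣ).range) = QuotientGroup.mk _
    rw [QuotientGroup.eq]
    refine ⟨ι v * πK ^ m, ?_⟩
    rw [powMonoidHom_apply]
    conv_rhs => rw [key]
    rw [inv_mul_cancel_left]
  constructor
  · exact Finite.of_surjective h hsurj
  · have := Nat.card_le_card_of_surjective h hsurj
    rwa [Nat.card_prod, Nat.card_fin, ← Subgroup.index_eq_card] at this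

end DVR

section Hensel

variable {A : Type*} [CommRing A] [IsLocalRing A] [IsAdicComplete (maximalIdeal A) A]

/-- Hensel for `p`-th roots of units when `p` is a unit. -/
theorem exists_pow_eq_of_sub_mem (p : ℕ) (hp : IsUnit (p : A)) (u : Aˣ) (c : A)
    (hc : (u : A) - c ^ p ∈ maximalIdeal A) : ∃ v : A, v ^ p = u := by
  have hp0 : p ≠ 0 := by
    rintro rfl
    simp at hp
  have hcu : IsUnit c := by
    by_contra h
    have hcm : c ∈ maximalIdeal A := by rwa [mem_maximalIdeal, mem_nonunits_iff]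
    have : (u : A) ∈ maximalIdeal A := by
      have h1 : c ^ p ∈ maximalIdeal A := Ideal.pow_mem_of_mem _ hcm p (Nat.pos_of_ne_zero hp0)
      have : (u : A) = ((u : A) - c ^ p) + c ^ p := by ring
      rw [this]
      exact (maximalIdeal A).add_mem hc h1
    rw [mem_maximalIdeal, mem_nonunits_iff] at this
    exact this u.isUnit
  have hens : HenselianRing A (maximalIdeal A) := inferInstance
  obtain ⟨a, ha, -⟩ := hens.is_henselian (X ^ p - C (u : A)) (monic_X_pow_sub_C _ hp0) c
    (by
      simp only [eval_sub, eval_pow, eval_X, eval_C]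
      rw [← neg_sub]
      exact (maximalIdeal A).neg_mem hc)
    (by
      apply IsUnit.map
      simp only [derivative_sub, derivative_X_pow, derivative_C, sub_zero, eval_mul, eval_C,
        eval_natCast, eval_pow, eval_X]
      exact hp.mul (hcu.pow _))
  refine ⟨a, ?_⟩
  simpa [IsRoot.def, sub_eq_zero] using ha

end Hensel

section AKLB

variable (A K L B : Type*) [CommRing A] [IsDomain A] [IsDiscreteValuationRing A]
  [IsAdicComplete (maximalIdeal A) A]
  [Field K] [Algebra A K] [IsFractionRing A K]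
  [Field L] [Algebra K L] [FiniteDimensional K L]
  [CommRing B] [IsDomain B] [IsDiscreteValuationRing B]
  [Algebra A B] [Algebra B L] [Algebra A L] [IsScalarTower A K L] [IsScalarTower A B L]
  [IsFractionRing B L] [Module.Finite A B] [IsLocalHom (algebraMap A B)]

/-- A Kummer extension of prime degree `p` generated by a `p`-th root of a unit is unramified when
`p` is a unit. -/
theorem ramIdx_eq_one_of_pow_eq_unit (p : ℕ) [hp : Fact p.Prime] (hpA : IsUnit (p : A))
    (hdeg : Module.finrank K L = p) (β : L) (u : Aˣ) (hβ : β ^ p = algebraMap A L u)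
    (hζ : ∀ η : L, η ^ p = 1 → η ∈ (algebraMap K L).range)
    (hβK : β ∉ (algebraMap K L).range) : ramIdx A B = 1 := by
  have hef := ramIdx_mul_resDeg A K L B
  rw [hdeg] at hef
  by_contra he
  have hf : resDeg A B = 1 := by
    have h1 : ramIdx A B ∣ p := Dvd.intro _ hef
    rcases (Nat.dvd_prime hp.out).mp h1 with h | h
    · exact absurd h he
    · rw [h] at hef
      exact Nat.eq_of_mul_eq_mul_left hp.out.pos (by rw [hef, mul_one])
  -- β comes from B
  have hint : IsIntegral A β := by
    refine ⟨X ^ p - C (u : A), monic_X_pow_sub_C _ hp.out.ne_zero, ?_⟩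
    simp [hβ]
  have hintB : IsIntegral B β := hint.tower_top
  obtain ⟨b, hb⟩ := IsIntegrallyClosed.isIntegral_iff.mp hintB
  have hbp : b ^ p = algebraMap A B u := by
    apply IsFractionRing.injective B L
    rw [map_pow, hb, hβ, IsScalarTower.algebraMap_apply A B L]
  -- residue degree one
  have hsurj : Function.Surjective (algebraMap (ResidueField A) (ResidueField B)) := by
    have h1 : Module.finrank (ResidueField A) (ResidueField B) = 1 := hf
    intro y
    have hb1 := (finrank_eq_one_iff_of_nonzero' (1 : ResidueField B) one_ne_zero).mp h1 y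
    obtain ⟨c, hc⟩ := hb1
    exact ⟨c, by rw [Algebra.algebraMap_eq_smul_one, hc]⟩
  obtain ⟨cb, hcb⟩ := hsurj (residue B b)
  obtain ⟨c, rfl⟩ := residue_surjective cb
  have hbc : b - algebraMap A B c ∈ maximalIdeal B := by
    rw [← Ideal.Quotient.eq_zero_iff_mem, map_sub, sub_eq_zero]
    have : algebraMap (ResidueField A) (ResidueField B) (residue A c) =
        residue B (algebraMap A B c) := rfl
    rw [this] at hcb
    exact hcb.symm
  have hmem : (u : A) - c ^ p ∈ maximalIdeal A := by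
    by_contra h
    have hu : IsUnit ((u : A) - c ^ p) := by
      rwa [mem_maximalIdeal, mem_nonunits_iff, not_not] at h
    have h2 : IsUnit (algebraMap A B ((u : A) - c ^ p)) := hu.map _
    have h3 : algebraMap A B ((u : A) - c ^ p) ∈ maximalIdeal B := by
      rw [map_sub, map_pow, ← hbp]
      obtain ⟨w, hw⟩ := sub_dvd_pow_sub_pow b (algebraMap A B c) p
      rw [hw]
      exact Ideal.mul_mem_right _ _ hbc
    rw [mem_maximalIdeal, mem_nonunits_iff] at h3
    exact h3 h2
  obtain ⟨v, hv⟩ := exists_pow_eq_of_sub_mem p hpA u c hmem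
  have hv0 : algebraMap A L v ≠ 0 := by
    intro h
    have : algebraMap A L (v ^ p) = 0 := by rw [map_pow, h, zero_pow hp.out.ne_zero]
    rw [hv, ← hβ] at this
    have hβ0 : β = 0 := pow_eq_zero_iff hp.out.ne_zero |>.mp this
    apply hβK
    rw [hβ0]; exact ⟨0, map_zero _⟩
  have hη : (β / algebraMap A L v) ^ p = 1 := by
    rw [div_pow, hβ, ← map_pow, hv, div_self]
    rw [← hv, map_pow]
    exact pow_ne_zero _ hv0
  obtain ⟨y, hy⟩ := hζ _ hη
  apply hβK
  refine ⟨y * algebraMap A K v, ?_⟩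
  rw [map_mul, hy, ← IsScalarTower.algebraMap_apply A K L, div_mul_cancel₀ _ hv0]

end AKLB

section Tame

variable {A : Type*} [CommRing A] [IsDomain A] [IsDiscreteValuationRing A]
  [Finite (ResidueField A)] [IsAdicComplete (maximalIdeal A) A]

/-- If `p` is a unit, the index of the `p`-th powers in the unit group is at most `p`. -/
theorem index_pow_units_le_of_isUnit (p : ℕ) (hpA : IsUnit (p : A)) :
    (powMonoidHom p : Aˣ →* Aˣ).range.index ≤ p ∧
    (powMonoidHom p : Aˣ →* Aˣ).range.index ≠ 0 := by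
  have hp0 : p ≠ 0 := by
    rintro rfl
    simp at hpA
  obtain ⟨π, hπ⟩ := IsDiscreteValuationRing.exists_irreducible A
  obtain ⟨h1, h2⟩ := index_pow_units_le (A := A) p hp0 hpA.ne_zero hπ
  refine ⟨?_, h2⟩
  have : Nat.card (A ⧸ Ideal.span {(p : A)}) = 1 := by
    have : Ideal.span {(p : A)} = ⊤ := Ideal.span_singleton_eq_top.mpr hpA
    rw [this]
    haveI : Subsingleton (A ⧸ (⊤ : Ideal A)) := Ideal.Quotient.subsingleton_iff.mpr rfl
    exact Nat.card_unique
  rwa [this, one_mul] at h1

/-- If `p` is a prime which is a unit and `a` is a unit which is not a `p`-th power, then every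
unit is a power of `a` times a `p`-th power. -/
theorem exists_eq_zpow_mul_pow (p : ℕ) [hp : Fact p.Prime] (hpA : IsUnit (p : A)) (a x : Aˣ)
    (ha : ¬ ∃ y : Aˣ, y ^ p = a) : ∃ (k : ℤ) (y : Aˣ), x = a ^ k * y ^ p := by
  obtain ⟨h1, h2⟩ := index_pow_units_le_of_isUnit (A := A) p hpA
  set N := (powMonoidHom p : Aˣ →* Aˣ).range with hN
  haveI : N.FiniteIndex := ⟨h2⟩
  have hcard : Nat.card (Aˣ ⧸ N) ≤ p := by rwa [← Subgroup.index_eq_card]
  set ā : Aˣ ⧸ N := QuotientGroup.mk a with hā
  have hā1 : ā ≠ 1 := by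
    intro h
    rw [hā, QuotientGroup.eq_one_iff] at h
    obtain ⟨y, hy⟩ := h
    exact ha ⟨y, hy⟩
  have hāp : ā ^ p = 1 := by
    rw [hā, ← QuotientGroup.mk_pow, QuotientGroup.eq_one_iff]
    exact ⟨a, rfl⟩
  have hord : orderOf ā = p := orderOf_eq_prime hāp hā1
  have htop : Subgroup.zpowers ā = ⊤ := by
    apply Subgroup.eq_top_of_le_card
    rw [Nat.card_zpowers, hord]
    exact hcard
  have hx : (QuotientGroup.mk x : Aˣ ⧸ N) ∈ Subgroup.zpowers ā := by rw [htop]; trivial
  obtain ⟨k, hk⟩ := Subgroup.mem_zpowers_iff.mp hx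
  rw [hā, ← QuotientGroup.mk_zpow, QuotientGroup.eq] at hk
  obtain ⟨y, hy⟩ := hk
  refine ⟨k, y, ?_⟩
  rw [powMonoidHom_apply] at hy
  rw [hy]; group

end Tame

end Fermat.Agent.CFT.LocalKummer
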