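/-
CFT local part (L0): structure theorem for finite extensions of complete discrete valuation rings.

Setting (Mathlib's AKLB): `A` a complete DVR with fraction field `K`, `L/K` finite separable,
`B` the integral closure of `A` in `L`.  Then `B` is a local Dedekind domain, hence a DVR,
`𝔪_B`-adically complete, finite free over `A` of rank `[L:K]`, with fraction field `L`.
-/
import Mathlib
import Fermat.Prelude.Thm_IsAdicComplete_of_module_finite
import Fermat.Prelude.Thm_IsLocalRing_isAdicComplete_of_module_finite

set_option autoImplicit false
set_option linter.unusedSectionVars false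
set_option linter.style.haveILetI false

namespace Fermat.Agent.CFT

open IsLocalRing Polynomial

/-- A Dedekind domain which is `I`-adically complete for a nonzero ideal `I` is local:
if two distinct maximal ideals existed we could lift a nontrivial idempotent by Hensel. -/
theorem isLocalRing_of_isAdicComplete_of_isDedekindDomain {B : Type*} [CommRing B]
    [IsDedekindDomain B] (I : Ideal B) (hI : I ≠ ⊥) [IsAdicComplete I B] : IsLocalRing B := by
  have hjac : I ≤ (⊥ : Ideal B).jacobson := IsAdicComplete.le_jacobson_bot I
  have hle : ∀ P : Ideal B, P.IsMaximal → I ≤ P := fun P hP =>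
    hjac.trans (sInf_le ⟨bot_le, hP⟩)
  have key : ∀ P Q : Ideal B, P.IsMaximal → Q.IsMaximal → P = Q := by
    intro P Q hP hQ
    by_contra hne
    have hP0 : P ≠ ⊥ := fun h => hI (le_bot_iff.mp (h ▸ hle P hP))
    have hPprime : Prime P := Ideal.prime_of_isPrime hP0 hP.isPrime
    obtain ⟨n, I', hnd, hII'⟩ := WfDvdMonoid.max_power_factor hI hPprime.irreducible
    have hn : n ≠ 0 := by
      rintro rfl
      apply hnd
      rw [pow_zero, one_mul] at hII'
      rw [Ideal.dvd_iff_le, ← hII']
      exact hle P hP
    have hI'P : ¬ I' ≤ P := fun h => hnd (Ideal.dvd_iff_le.mpr h)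
    have hsup : P ⊔ I' = ⊤ := by
      by_contra h
      have := hP.eq_of_le h le_sup_left
      exact hI'P (this ▸ le_sup_right)
    have hsup' : P ^ n ⊔ I' = ⊤ := Ideal.pow_sup_eq_top hsup
    obtain ⟨x, hx, y, hy, hxy⟩ := Submodule.mem_sup.mp (hsup' ▸ Submodule.mem_top : (1 : B) ∈ P ^ n ⊔ I')
    have hI'Q : I' ≤ Q := by
      have h1 : P ^ n * I' ≤ Q := hII' ▸ hle Q hQ
      rcases (hQ.isPrime.mul_le).mp h1 with h | h
      · exact absurd (hP.eq_of_le hQ.ne_top (hQ.isPrime.le_of_pow_le h)) hne
      · exact h
    have hxP : x ∈ P := Ideal.pow_le_self hn hx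
    have hxyI : x * y ∈ I := hII' ▸ Ideal.mul_mem_mul hx hy
    have hy' : y = 1 - x := by rw [← hxy]; ring
    -- Hensel
    have hens : HenselianRing B I := inferInstance
    have hev : (X ^ 2 - X : B[X]).eval x = - (x * y) := by
      simp only [eval_sub, eval_pow, eval_X]
      rw [hy']; ring
    have hder : (derivative (X ^ 2 - X : B[X])).eval x = 2 * x - 1 := by
      simp [one_add_one_eq_two]
    obtain ⟨a, ha, hab⟩ := hens.is_henselian (X ^ 2 - X) (by
      apply Polynomial.monic_X_pow_sub
      simp) x (by rw [hev]; exact I.neg_mem hxyI) (by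
        rw [hder]
        apply IsUnit.of_mul_eq_one (Ideal.Quotient.mk I (2 * x - 1))
        rw [← map_mul, ← map_one (Ideal.Quotient.mk I), Ideal.Quotient.eq]
        have : (2 * x - 1) * (2 * x - 1) - 1 = - 4 * (x * y) := by rw [hy']; ring
        rw [this]
        exact I.mul_mem_left _ hxyI)
    have ha2 : a * (a - 1) = 0 := by
      have := ha
      simp only [IsRoot.def, eval_sub, eval_pow, eval_X] at this
      rw [← this]; ring
    rcases mul_eq_zero.mp ha2 with h0 | h1
    · -- a = 0 : x ∈ I ≤ Q, y ∈ Q
      have hxQ : x ∈ Q := by
        have : x = -(a - x) := by rw [h0]; ring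
        rw [this]; exact Q.neg_mem (hle Q hQ hab)
      exact hQ.ne_top ((Ideal.eq_top_iff_one Q).mpr (hxy ▸ Q.add_mem hxQ (hI'Q hy)))
    · have ha1 : a = 1 := by linear_combination h1
      have hyP : y ∈ P := by
        have : y = a - x := by rw [ha1, hy']
        rw [this]; exact hle P hP hab
      exact hP.ne_top ((Ideal.eq_top_iff_one P).mpr (hxy ▸ P.add_mem hxP hyP))
  obtain ⟨M, hM⟩ := Ideal.exists_maximal B
  exact IsLocalRing.of_unique_max_ideal ⟨M, hM, fun Q hQ => key Q M hQ hM⟩

namespace Local

section AKLB

variable (A K L B : Type*) [CommRing A] [IsDomain A] [IsDiscreteValuationRing A]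
  [IsAdicComplete (maximalIdeal A) A]
  [Field K] [Algebra A K] [IsFractionRing A K]
  [Field L] [Algebra K L] [FiniteDimensional K L] [Algebra.IsSeparable K L]
  [CommRing B] [Algebra A B] [Algebra B L] [Algebra A L] [IsScalarTower A K L]
  [IsScalarTower A B L] [IsIntegralClosure B A L]

include A K L in
theorem isDomain : IsDomain B :=
  (IsIntegralClosure.algebraMap_injective B A L).isDomain _

include A K L in
theorem moduleFinite : Module.Finite A B := IsIntegralClosure.finite A K L B

include A K L in
theorem isDedekindDomain : IsDedekindDomain B :=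
  haveI := isDomain A K L B
  IsIntegralClosure.isDedekindDomain A K L B

include A K L in
theorem isFractionRing : IsFractionRing B L :=
  haveI := isDomain A K L B
  IsIntegralClosure.isFractionRing_of_finite_extension A K L B

include A K L in
theorem isIntegral : Algebra.IsIntegral A B := IsIntegralClosure.isIntegral_algebra A L

include A K L in
theorem algebraMap_injective : Function.Injective (algebraMap A B) := by
  have h1 : Function.Injective (algebraMap A L) := by
    rw [IsScalarTower.algebraMap_eq A K L]
    exact (algebraMap K L).injective.comp (IsFractionRing.injective A K)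
  rw [IsScalarTower.algebraMap_eq A B L] at h1
  exact Function.Injective.of_comp h1

include A K L in
theorem faithfulSMul : FaithfulSMul A B :=
  (faithfulSMul_iff_algebraMap_injective A B).mpr (algebraMap_injective A K L B)

include A K L in
theorem isLocalHom : IsLocalHom (algebraMap A B) :=
  haveI := isIntegral A K L B
  haveI := faithfulSMul A K L B
  inferInstance

include A K L in
theorem map_maximalIdeal_ne_bot : (maximalIdeal A).map (algebraMap A B) ≠ ⊥ := by
  intro h
  obtain ⟨π, hπ⟩ := IsDiscreteValuationRing.exists_irreducible A
  have hπm : π ∈ maximalIdeal A := by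
    rw [IsLocalRing.mem_maximalIdeal]; exact hπ.not_isUnit
  have : algebraMap A B π ∈ (⊥ : Ideal B) := h ▸ Ideal.mem_map_of_mem _ hπm
  rw [Ideal.mem_bot, map_eq_zero_iff _ (algebraMap_injective A K L B)] at this
  exact hπ.ne_zero this

include A K L in
theorem isAdicComplete_map : IsAdicComplete ((maximalIdeal A).map (algebraMap A B)) B :=
  haveI := moduleFinite A K L B
  (IsAdicComplete.map_algebraMap_iff (maximalIdeal A) B).mpr (IsAdicComplete.of_module_finite (maximalIdeal A) B)

include A K L in
theorem isLocalRing : IsLocalRing B :=
  haveI := isDedekindDomain A K L B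
  haveI := isAdicComplete_map A K L B
  isLocalRing_of_isAdicComplete_of_isDedekindDomain _ (map_maximalIdeal_ne_bot A K L B)

include A K L in
theorem not_isField [IsDomain B] : ¬ IsField B := by
  intro h
  haveI := isIntegral A K L B
  exact IsDiscreteValuationRing.not_isField A
    (isField_of_isIntegral_of_isField (algebraMap_injective A K L B) h)

include A K L in
theorem isDiscreteValuationRing [IsDomain B] : IsDiscreteValuationRing B := by
  haveI := isLocalRing A K L B
  haveI := isDedekindDomain A K L B
  have h := not_isField A K L B
  have h2 := (IsDiscreteValuationRing.TFAE B h).out 2 0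
  exact h2.mp inferInstance

include A K L in
theorem isAdicComplete [IsLocalRing B] : IsAdicComplete (maximalIdeal B) B :=
  haveI := moduleFinite A K L B
  haveI := isLocalHom A K L B
  @IsLocalRing.isAdicComplete_of_module_finite A B _ _ _ _ _ _ _ _ _


include A K L in
theorem finite_residueField [IsLocalRing B] [Finite (ResidueField A)] :
    Finite (ResidueField B) :=
  haveI := moduleFinite A K L B
  haveI := isLocalHom A K L B
  IsLocalRing.ResidueField.finite_of_finite ‹_›

include A K L in
theorem moduleFree : Module.Free A B :=
  haveI : Module.IsTorsionFree A L := by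
    haveI : Module.IsTorsionFree A K := inferInstance
    exact Module.IsTorsionFree.trans_faithfulSMul A K L
  IsIntegralClosure.module_free A K L B

include A K L in
theorem finrank_eq : Module.finrank A B = Module.finrank K L :=
  haveI : Module.IsTorsionFree A L := by
    haveI : Module.IsTorsionFree A K := inferInstance
    exact Module.IsTorsionFree.trans_faithfulSMul A K L
  IsIntegralClosure.rank A K L B

end AKLB

end Local

end Fermat.Agent.CFT
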