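/-
CFT local part (L1c): for an unramified extension of complete discrete valuation rings with
finite residue field, the norm is surjective on units.
-/
import Mathlib
import Fermat.Prelude.Thm_IsAdicComplete_of_module_finite
import Fermat.Agent.CFT.Local.Ramification

set_option autoImplicit false
set_option linter.unusedSectionVars false
set_option linter.style.haveILetI false

namespace Fermat.Agent.CFT

open IsLocalRing Module

namespace Local

section NormQuotient

variable {R S : Type*} [CommRing R] [CommRing S] [Algebra R S] [Module.Free R S] [Module.Finite R S]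

attribute [local instance] Ideal.Quotient.field

/-- the norm commutes with reduction modulo the maximal ideal (copy of Mathlib's
`Algebra.trace_quotient_mk`). -/
theorem norm_quotient_mk [IsLocalRing R] (x : S) :
    Algebra.norm (R ⧸ maximalIdeal R)
        (Ideal.Quotient.mk ((maximalIdeal R).map (algebraMap R S)) x) =
      Ideal.Quotient.mk (maximalIdeal R) (Algebra.norm R x) := by
  classical
  let ι := Module.Free.ChooseBasisIndex R S
  let b : Module.Basis ι R S := Module.Free.chooseBasis R S
  rw [Algebra.norm_eq_matrix_det b, Algebra.norm_eq_matrix_det (basisQuotient b),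
    RingHom.map_det]
  congr 1
  ext i j
  simp only [Algebra.leftMulMatrix_apply, Algebra.coe_lmul_eq_mul, LinearMap.toMatrix_apply,
    basisQuotient_apply, LinearMap.mul_apply', RingHom.mapMatrix_apply, Matrix.map_apply,
    ← map_mul, basisQuotient_repr]

/-- congruence of norms: `N(y + ε c) ≡ N(y) mod ε`. -/
theorem norm_add_smul_sub_mem (ε : R) (y c : S) :
    Algebra.norm R (y + ε • c) - Algebra.norm R y ∈ Ideal.span {ε} := by
  classical
  let ι := Module.Free.ChooseBasisIndex R S
  let b : Module.Basis ι R S := Module.Free.chooseBasis R S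
  rw [← Ideal.Quotient.eq, Algebra.norm_eq_matrix_det b, Algebra.norm_eq_matrix_det b,
    RingHom.map_det, RingHom.map_det]
  congr 1
  rw [map_add, map_smul, map_add]
  have : (Ideal.Quotient.mk (Ideal.span {ε})).mapMatrix (ε • Algebra.leftMulMatrix b c) = 0 := by
    ext i j
    simp only [RingHom.mapMatrix_apply, Matrix.map_apply, Matrix.smul_apply, smul_eq_mul,
      Matrix.zero_apply, map_mul]
    rw [Ideal.Quotient.eq_zero_iff_mem.mpr (Ideal.mem_span_singleton_self ε), zero_mul]
  rw [this, add_zero]

end NormQuotient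

section Core

variable {A B : Type*} [CommRing A] [IsLocalRing A] [CommRing B] [Algebra A B] [Module.Free A B]
  [Module.Finite A B] [IsLocalRing B] [Finite (ResidueField A)]

attribute [local instance] Ideal.Quotient.field

omit [Finite (ResidueField A)] in
/-- in the unramified case `𝔪_A B = 𝔪_B` the norm commutes with the residue maps. -/
theorem residue_norm [IsLocalHom (algebraMap A B)]
    (hmap : (maximalIdeal A).map (algebraMap A B) = maximalIdeal B) (b : B) :
    residue A (Algebra.norm A b) = Algebra.norm (ResidueField A) (residue B b) := by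
  have h1 := norm_quotient_mk (R := A) (S := B) b
  have h2 := Algebra.norm_eq_of_equiv_equiv (RingEquiv.refl (A ⧸ maximalIdeal A))
    (Ideal.quotEquivOfEq hmap) (A₂ := ResidueField A) (B₂ := ResidueField B) (by
      apply Ideal.Quotient.ringHom_ext
      ext a
      rfl) (Ideal.Quotient.mk ((maximalIdeal A).map (algebraMap A B)) b)
  rw [h1] at h2
  exact h2

omit [Finite (ResidueField A)] in
/-- in the unramified case `𝔪_A B = 𝔪_B` the trace commutes with the residue maps. -/
theorem residue_trace [IsLocalHom (algebraMap A B)]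
    (hmap : (maximalIdeal A).map (algebraMap A B) = maximalIdeal B) (b : B) :
    residue A (Algebra.trace A B b) = Algebra.trace (ResidueField A) (ResidueField B)
      (residue B b) := by
  have h1 := Algebra.trace_quotient_mk (R := A) (S := B) b
  have h2 := Algebra.trace_eq_of_equiv_equiv (RingEquiv.refl (A ⧸ maximalIdeal A))
    (Ideal.quotEquivOfEq hmap) (A₂ := ResidueField A) (B₂ := ResidueField B) (by
      apply Ideal.Quotient.ringHom_ext
      ext a
      rfl) (Ideal.Quotient.mk ((maximalIdeal A).map (algebraMap A B)) b)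
  rw [h1] at h2
  exact h2

/-- the trace is surjective in the unramified case (finite residue field). -/
theorem trace_surjective_core (hmap : (maximalIdeal A).map (algebraMap A B) = maximalIdeal B) :
    Function.Surjective (Algebra.trace A B) := by
  haveI hmax : ((maximalIdeal A).map (algebraMap A B)).IsMaximal :=
    hmap ▸ maximalIdeal.isMaximal B
  haveI : Finite (A ⧸ maximalIdeal A) := ‹Finite (ResidueField A)›
  haveI : Module.Finite (A ⧸ maximalIdeal A) (B ⧸ (maximalIdeal A).map (algebraMap A B)) :=
    Module.Finite.of_restrictScalars_finite A _ _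
  haveI : Finite (B ⧸ (maximalIdeal A).map (algebraMap A B)) :=
    Module.finite_of_finite (A ⧸ maximalIdeal A)
  obtain ⟨y, hy⟩ := Algebra.trace_surjective (A ⧸ maximalIdeal A)
    (B ⧸ (maximalIdeal A).map (algebraMap A B)) (Ideal.Quotient.mk (maximalIdeal A) 1)
  obtain ⟨x, rfl⟩ := Ideal.Quotient.mk_surjective y
  rw [Algebra.trace_quotient_mk] at hy
  have hm : Algebra.trace A B x - 1 ∈ maximalIdeal A := Ideal.Quotient.eq.mp hy
  have hunit : IsUnit (Algebra.trace A B x) := by
    by_contra h
    have h1 : Algebra.trace A B x ∈ maximalIdeal A := (IsLocalRing.mem_maximalIdeal _).mpr h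
    have h2 := (maximalIdeal A).sub_mem h1 hm
    rw [sub_sub_cancel] at h2
    exact (IsLocalRing.mem_maximalIdeal _).mp h2 isUnit_one
  obtain ⟨v, hv⟩ := hunit
  intro a
  refine ⟨(a * ↑v⁻¹) • x, ?_⟩
  rw [map_smul, ← hv, smul_eq_mul, mul_assoc, Units.inv_mul, mul_one]

/-- step 0: every unit of `A` is a norm modulo the maximal ideal. -/
theorem exists_norm_sub_mem (hmap : (maximalIdeal A).map (algebraMap A B) = maximalIdeal B)
    (u : A) : ∃ b : B, Algebra.norm A b - u ∈ maximalIdeal A := by
  haveI hmax : ((maximalIdeal A).map (algebraMap A B)).IsMaximal :=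
    hmap ▸ maximalIdeal.isMaximal B
  haveI : Finite (A ⧸ maximalIdeal A) := ‹Finite (ResidueField A)›
  haveI : Module.Finite (A ⧸ maximalIdeal A) (B ⧸ (maximalIdeal A).map (algebraMap A B)) :=
    Module.Finite.of_restrictScalars_finite A _ _
  haveI : Finite (B ⧸ (maximalIdeal A).map (algebraMap A B)) :=
    Module.finite_of_finite (A ⧸ maximalIdeal A)
  obtain ⟨y, hy⟩ := FiniteField.norm_surjective (A ⧸ maximalIdeal A)
    (B ⧸ (maximalIdeal A).map (algebraMap A B)) (Ideal.Quotient.mk (maximalIdeal A) u)
  obtain ⟨b, rfl⟩ := Ideal.Quotient.mk_surjective y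
  rw [norm_quotient_mk] at hy
  exact ⟨b, Ideal.Quotient.eq.mp hy⟩

omit [Finite (ResidueField A)] in
/-- a nonunit has nonunit norm. -/
theorem norm_mem_maximalIdeal (hmap : (maximalIdeal A).map (algebraMap A B) = maximalIdeal B)
    {b : B} (hb : b ∈ maximalIdeal B) : Algebra.norm A b ∈ maximalIdeal A := by
  haveI hmax : ((maximalIdeal A).map (algebraMap A B)).IsMaximal :=
    hmap ▸ maximalIdeal.isMaximal B
  rw [← hmap] at hb
  have h1 : Ideal.Quotient.mk ((maximalIdeal A).map (algebraMap A B)) b = 0 :=
    Ideal.Quotient.eq_zero_iff_mem.mpr hb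
  have h2 := norm_quotient_mk (R := A) (S := B) b
  haveI : Module.Finite (A ⧸ maximalIdeal A) (B ⧸ (maximalIdeal A).map (algebraMap A B)) :=
    Module.Finite.of_restrictScalars_finite A _ _
  rw [h1, Algebra.norm_zero] at h2
  exact Ideal.Quotient.eq_zero_iff_mem.mp h2.symm

/-- step `i ≥ 1`: `N(1 + ε x) ≡ 1 + ε a mod ε 𝔪` is solvable for `ε ∈ 𝔪`. -/
theorem exists_norm_one_add_smul (hmap : (maximalIdeal A).map (algebraMap A B) = maximalIdeal B)
    {ε : A} (hε : ε ∈ maximalIdeal A) (a : A) :
    ∃ x : B, ∃ m ∈ maximalIdeal A, Algebra.norm A (1 + ε • x) = 1 + ε * a + ε * m := by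
  haveI hmax : ((maximalIdeal A).map (algebraMap A B)).IsMaximal :=
    hmap ▸ maximalIdeal.isMaximal B
  haveI : Finite (A ⧸ maximalIdeal A) := ‹Finite (ResidueField A)›
  haveI : Module.Finite (A ⧸ maximalIdeal A) (B ⧸ (maximalIdeal A).map (algebraMap A B)) :=
    Module.Finite.of_restrictScalars_finite A _ _
  haveI : Finite (B ⧸ (maximalIdeal A).map (algebraMap A B)) :=
    Module.finite_of_finite (A ⧸ maximalIdeal A)
  obtain ⟨y, hy⟩ := Algebra.trace_surjective (A ⧸ maximalIdeal A)
    (B ⧸ (maximalIdeal A).map (algebraMap A B)) (Ideal.Quotient.mk (maximalIdeal A) a)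
  obtain ⟨x, rfl⟩ := Ideal.Quotient.mk_surjective y
  rw [Algebra.trace_quotient_mk] at hy
  have hm : Algebra.trace A B x - a ∈ maximalIdeal A := Ideal.Quotient.eq.mp hy
  obtain ⟨r, hr⟩ := Algebra.norm_one_add_smul ε x
  refine ⟨x, (Algebra.trace A B x - a) + r * ε, ?_, ?_⟩
  · exact (maximalIdeal A).add_mem hm ((maximalIdeal A).mul_mem_left _ hε)
  · rw [hr]; ring

/-- the inductive step of the successive approximation. -/
theorem exists_norm_add_smul_sub_mem
    (hmap : (maximalIdeal A).map (algebraMap A B) = maximalIdeal B)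
    {π : A} (hπ : maximalIdeal A = Ideal.span {π}) (u : Aˣ) (w : B) (i : ℕ)
    (h : Algebra.norm A w - u ∈ Ideal.span {π ^ (i + 1)}) :
    ∃ c : B, Algebra.norm A (w + π ^ (i + 1) • c) - u ∈ Ideal.span {π ^ (i + 2)} := by
  obtain ⟨d, hd⟩ := Ideal.mem_span_singleton'.mp h
  have hε : π ^ (i + 1) ∈ maximalIdeal A := by
    rw [hπ, pow_succ]
    exact Ideal.mul_mem_left _ _ (Ideal.mem_span_singleton_self π)
  obtain ⟨x, m, hm, hx⟩ := exists_norm_one_add_smul hmap hε (-(↑u⁻¹ : A) * d)
  rw [hπ] at hm
  obtain ⟨m', hm'⟩ := Ideal.mem_span_singleton'.mp hm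
  refine ⟨w * x, ?_⟩
  have hw : w + π ^ (i + 1) • (w * x) = w * (1 + π ^ (i + 1) • x) := by
    rw [mul_add, mul_one, mul_smul_comm]
  rw [hw, map_mul, hx, Ideal.mem_span_singleton']
  have hu : (u : A) * (↑u⁻¹ : A) = 1 := by simp
  have hN : Algebra.norm A w = u + d * π ^ (i + 1) := by linear_combination hd.symm
  refine ⟨π ^ i * d * (-(↑u⁻¹ : A) * d) + Algebra.norm A w * m', ?_⟩
  rw [← hm', hN]
  linear_combination (π ^ (i + 1) * d) * hu

/-- **finite-level form** (no completeness needed): every unit of `A` is the norm of a unit of `B`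
modulo any power of the maximal ideal. -/
theorem exists_unit_norm_sub_mem_span_pow
    (hmap : (maximalIdeal A).map (algebraMap A B) = maximalIdeal B)
    {π : A} (hπ : maximalIdeal A = Ideal.span {π}) (u : Aˣ) (k : ℕ) :
    ∃ w : Bˣ, Algebra.norm A (w : B) - u ∈ Ideal.span {π ^ k} := by
  have hseq : ∀ i : ℕ, ∃ w : B, Algebra.norm A w - u ∈ Ideal.span {π ^ (i + 1)} := by
    intro i
    induction i with
    | zero =>
      obtain ⟨b0, hb0⟩ := exists_norm_sub_mem hmap (u : A)
      exact ⟨b0, by rwa [zero_add, pow_one, ← hπ]⟩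
    | succ i ih =>
      obtain ⟨w, hw⟩ := ih
      obtain ⟨c, hc⟩ := exists_norm_add_smul_sub_mem hmap hπ u w i hw
      exact ⟨_, hc⟩
  obtain ⟨w, hw⟩ := hseq k
  have hwk : Algebra.norm A w - u ∈ Ideal.span {π ^ k} := by
    rw [Ideal.mem_span_singleton] at hw ⊢
    exact (pow_dvd_pow π (Nat.le_succ k)).trans hw
  have hw1 : Algebra.norm A w - u ∈ maximalIdeal A := by
    rw [hπ]
    rw [Ideal.mem_span_singleton] at hw ⊢
    exact (dvd_pow_self π (Nat.succ_ne_zero k)).trans hw
  have hwu : IsUnit w := by
    by_contra hw'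
    have h1 : w ∈ maximalIdeal B := (IsLocalRing.mem_maximalIdeal w).mpr hw'
    have h2 := norm_mem_maximalIdeal hmap h1
    have h3 := (maximalIdeal A).sub_mem h2 hw1
    rw [sub_sub_cancel] at h3
    exact (IsLocalRing.mem_maximalIdeal _).mp h3 u.isUnit
  exact ⟨hwu.unit, by simpa using hwk⟩

/-- finite-level form, with powers of the maximal ideal. -/
theorem exists_unit_norm_sub_mem_pow
    (hmap : (maximalIdeal A).map (algebraMap A B) = maximalIdeal B)
    {π : A} (hπ : maximalIdeal A = Ideal.span {π}) (u : Aˣ) (k : ℕ) :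
    ∃ w : Bˣ, Algebra.norm A (w : B) - u ∈ maximalIdeal A ^ k := by
  obtain ⟨w, hw⟩ := exists_unit_norm_sub_mem_span_pow hmap hπ u k
  exact ⟨w, by rwa [hπ, Ideal.span_singleton_pow]⟩

omit [Module.Free A B] [Module.Finite A B] [IsLocalRing B] [Finite (ResidueField A)] in
theorem exists_eq_add_smul_of_smodEq {π : A} (hπ : maximalIdeal A = Ideal.span {π}) {x y : B}
    {n : ℕ} (h : x ≡ y [SMOD ((maximalIdeal A) ^ n • ⊤ : Submodule A B)]) :
    ∃ c : B, y = x + π ^ n • c := by
  rw [SModEq.sub_mem, hπ, Ideal.span_singleton_pow, Submodule.ideal_span_singleton_smul,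
    Submodule.mem_smul_pointwise_iff_exists] at h
  obtain ⟨z, -, hz⟩ := h
  refine ⟨-z, ?_⟩
  rw [smul_neg, hz]; ring

/-- **Norm surjectivity on units**, abstract core: `A` a complete noetherian local ring with
principal maximal ideal and finite residue field, `B` a finite free local `A`-algebra with
`𝔪_A B = 𝔪_B`. -/
theorem norm_units_surjective_core [IsNoetherianRing A] [IsAdicComplete (maximalIdeal A) A]
    (hmap : (maximalIdeal A).map (algebraMap A B) = maximalIdeal B)
    {π : A} (hπ : maximalIdeal A = Ideal.span {π}) (u : Aˣ) :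
    ∃ w : Bˣ, Algebra.norm A (w : B) = u := by
  have hπm : π ∈ maximalIdeal A := hπ ▸ Ideal.mem_span_singleton_self π
  -- step 0
  obtain ⟨b0, hb0⟩ := exists_norm_sub_mem hmap (u : A)
  have hb0' : Algebra.norm A b0 - u ∈ Ideal.span {π ^ (0 + 1)} := by
    rwa [zero_add, pow_one, ← hπ]
  -- the sequence
  let W : (i : ℕ) → {b : B // Algebra.norm A b - u ∈ Ideal.span {π ^ (i + 1)}} := fun i =>
    Nat.rec (motive := fun i => {b : B // Algebra.norm A b - u ∈ Ideal.span {π ^ (i + 1)}})
      ⟨b0, hb0'⟩
      (fun i w => ⟨w.1 + π ^ (i + 1) •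
          Classical.choose (exists_norm_add_smul_sub_mem hmap hπ u w.1 i w.2),
        Classical.choose_spec (exists_norm_add_smul_sub_mem hmap hπ u w.1 i w.2)⟩) i
  set f : ℕ → B := fun i => (W i).1 with hf
  have hstep : ∀ i, ∃ c : B, f (i + 1) = f i + π ^ (i + 1) • c := fun i => ⟨_, rfl⟩
  have hnorm : ∀ i, Algebra.norm A (f i) - u ∈ Ideal.span {π ^ (i + 1)} := fun i => (W i).2
  -- Cauchy
  have hcauchy : ∀ m k, f m ≡ f (m + k) [SMOD ((maximalIdeal A) ^ m • ⊤ : Submodule A B)] := by
    intro m k
    induction k with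
    | zero => exact SModEq.refl _
    | succ k ih =>
      refine ih.trans ?_
      obtain ⟨c, hc⟩ := hstep (m + k)
      rw [SModEq.sub_mem, ← add_assoc, hc, sub_add_cancel_left]
      refine Submodule.neg_mem _ (Submodule.smul_mem_smul ?_ Submodule.mem_top)
      exact Ideal.pow_le_pow_right (by omega) (Ideal.pow_mem_pow hπm _)
  haveI : IsAdicComplete (maximalIdeal A) B := IsAdicComplete.of_module_finite (maximalIdeal A) B
  obtain ⟨L, hL⟩ := IsPrecomplete.prec' (I := maximalIdeal A) f (fun {m n} hmn => by
    obtain ⟨k, rfl⟩ := Nat.exists_eq_add_of_le hmn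
    exact hcauchy m k)
  -- the norm of the limit
  have hNL : ∀ n, Algebra.norm A L - u ∈ Ideal.span {π ^ n} := by
    intro n
    obtain ⟨c, hc⟩ := exists_eq_add_smul_of_smodEq hπ (hL n)
    have h1 := norm_add_smul_sub_mem (π ^ n) (f n) c
    rw [← hc] at h1
    have h2 : Algebra.norm A (f n) - u ∈ Ideal.span {π ^ n} := by
      have := hnorm n
      rw [Ideal.mem_span_singleton] at this ⊢
      exact (pow_dvd_pow π (Nat.le_succ n)).trans this
    have := (Ideal.span {π ^ n}).add_mem h1 h2
    rwa [sub_add_sub_cancel] at this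
  have hNLu : Algebra.norm A L = u := by
    rw [← sub_eq_zero]
    apply IsHausdorff.haus' (I := maximalIdeal A) (Algebra.norm A L - u)
    intro n
    rw [SModEq.zero, smul_eq_mul, Ideal.mul_top, hπ, Ideal.span_singleton_pow]
    exact hNL n
  -- `L` is a unit
  have hLu : IsUnit L := by
    by_contra hL'
    have h1 : L ∈ maximalIdeal B := (IsLocalRing.mem_maximalIdeal L).mpr hL'
    have h2 := norm_mem_maximalIdeal hmap h1
    rw [hNLu] at h2
    exact (IsLocalRing.mem_maximalIdeal _).mp h2 u.isUnit
  exact ⟨hLu.unit, by simpa using hNLu⟩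

end Core

section AKLB

variable (A K L B : Type*) [CommRing A] [IsDomain A] [IsDiscreteValuationRing A]
  [Field K] [Algebra A K] [IsFractionRing A K]
  [Field L] [Algebra K L] [FiniteDimensional K L]
  [CommRing B] [IsDomain B] [IsDiscreteValuationRing B]
  [Algebra A B] [Algebra B L] [Algebra A L] [IsScalarTower A K L] [IsScalarTower A B L]
  [IsFractionRing B L] [Module.Finite A B] [IsLocalHom (algebraMap A B)]

include K L in
theorem isTorsionFree' : Module.IsTorsionFree A B :=
  Module.isTorsionFree_iff_algebraMap_injective.mpr (algebraMap_injective' A K L B)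

include K L in
theorem moduleFree' : Module.Free A B :=
  haveI := isTorsionFree' A K L B
  inferInstance

include K L in
/-- the norm of a unit is a unit. -/
theorem isUnit_norm_of_isUnit {w : B} (hw : IsUnit w) : IsUnit (Algebra.norm A w) :=
  hw.map (Algebra.norm A)

include K L in
/-- in the unramified case `𝔪_A B = 𝔪_B`. -/
theorem map_maximalIdeal_eq_of_ramIdx_eq_one (h : ramIdx A B = 1) :
    (maximalIdeal A).map (algebraMap A B) = maximalIdeal B := by
  rw [map_maximalIdeal_eq A K L B, h, pow_one]

include K L in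
/-- in the unramified case, the norm commutes with reduction to the residue fields, in the form
`N b - a ∈ 𝔪_A` whenever `b - b' ∈ 𝔪_B`-style statements are needed use `norm_quotient_mk`;
here: a nonunit has nonunit norm (true without `e = 1`, but this is the case we need). -/
theorem norm_mem_maximalIdeal_of_ramIdx_eq_one (h : ramIdx A B = 1) {b : B}
    (hb : b ∈ maximalIdeal B) : Algebra.norm A b ∈ maximalIdeal A :=
  haveI := moduleFree' A K L B
  norm_mem_maximalIdeal (map_maximalIdeal_eq_of_ramIdx_eq_one A K L B h) hb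

include K L in
/-- the trace `B → A` is surjective for an unramified extension (finite residue field). -/
theorem trace_surjective_of_ramIdx_eq_one [Finite (ResidueField A)] (h : ramIdx A B = 1) :
    Function.Surjective (Algebra.trace A B) :=
  haveI := moduleFree' A K L B
  trace_surjective_core (map_maximalIdeal_eq_of_ramIdx_eq_one A K L B h)

include K L in
/-- **(L1c)** For an unramified extension of complete discrete valuation rings with finite
residue field, every unit of `A` is the norm of a unit of `B`. -/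
theorem norm_units_surjective_of_ramIdx_eq_one [Finite (ResidueField A)]
    [IsAdicComplete (maximalIdeal A) A] (h : ramIdx A B = 1) (u : Aˣ) :
    ∃ w : Bˣ, Algebra.norm A (w : B) = u := by
  haveI := moduleFree' A K L B
  obtain ⟨π, hπ⟩ := IsDiscreteValuationRing.exists_irreducible A
  exact norm_units_surjective_core (map_maximalIdeal_eq_of_ramIdx_eq_one A K L B h)
    ((IsDiscreteValuationRing.irreducible_iff_uniformizer π).mp hπ) u

include K L in
/-- **(L1c), finite-level form, NO completeness**: for an unramified extension of discrete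
valuation rings with finite residue field, every unit of `A` is the norm of a unit of `B` modulo
any power of the maximal ideal. -/
theorem exists_unit_norm_sub_mem_pow_of_ramIdx_eq_one [Finite (ResidueField A)]
    (h : ramIdx A B = 1) (u : Aˣ) (k : ℕ) :
    ∃ w : Bˣ, Algebra.norm A (w : B) - u ∈ maximalIdeal A ^ k := by
  haveI := moduleFree' A K L B
  obtain ⟨π, hπ⟩ := IsDiscreteValuationRing.exists_irreducible A
  exact exists_unit_norm_sub_mem_pow (map_maximalIdeal_eq_of_ramIdx_eq_one A K L B h)
    ((IsDiscreteValuationRing.irreducible_iff_uniformizer π).mp hπ) u k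

/-- (L1c), field form: every unit of `A` is `N_{L/K}` of a unit of `B`. -/
theorem norm_units_surjective_of_ramIdx_eq_one' [Finite (ResidueField A)]
    [IsAdicComplete (maximalIdeal A) A] [IsIntegralClosure B A L] (h : ramIdx A B = 1) (u : Aˣ) :
    ∃ w : Bˣ, Algebra.norm K (algebraMap B L (w : B)) = algebraMap A K u := by
  haveI := moduleFree' A K L B
  haveI := isTorsionFree' A K L B
  haveI : Algebra.IsIntegral A B := Algebra.IsIntegral.of_finite A B
  obtain ⟨w, hw⟩ := norm_units_surjective_of_ramIdx_eq_one A K L B h u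
  refine ⟨w, ?_⟩
  rw [← Algebra.algebraMap_intNorm (A := A) (K := K) (L := L) (B := B), Algebra.intNorm_eq_norm, hw]

end AKLB

end Local

end Fermat.Agent.CFT
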