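/-
CFT local part (L6): the `p`-adic bridge.  A finite extension `K` of `ℚ_[p]` with its ring of
integers `integralClosure ℤ_[p] K` is an instance of the abstract local setting (complete discrete
valuation ring with finite residue field and fraction field `K`), and a tower `K ⊆ L` of such gives
an instance of the abstract `AKLB` setting.
-/
import Mathlib
import Fermat.Agent.CFT.Local.Basic
import Fermat.Agent.CFT.Local.Ramification
import Fermat.Agent.CFT.Local.L1c_helper7

set_option autoImplicit false
set_option linter.unusedSectionVars false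
set_option linter.style.haveILetI false

namespace Fermat.Agent.CFT

open IsLocalRing

namespace Local

section Single

variable (p : ℕ) [Fact p.Prime] (K : Type*) [Field K] [Algebra ℚ_[p] K]
  [FiniteDimensional ℚ_[p] K] [Algebra ℤ_[p] K] [IsScalarTower ℤ_[p] ℚ_[p] K]

/-- the ring of integers of a finite extension of `ℚ_[p]`. -/
noncomputable abbrev padicInts : Subalgebra ℤ_[p] K := integralClosure ℤ_[p] K

instance padicInts_isDiscreteValuationRing :
    IsDiscreteValuationRing (padicInts p K) :=
  Local.isDiscreteValuationRing ℤ_[p] ℚ_[p] K (padicInts p K)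

instance padicInts_isFractionRing : IsFractionRing (padicInts p K) K :=
  Local.isFractionRing ℤ_[p] ℚ_[p] K (padicInts p K)

instance padicInts_moduleFinite : Module.Finite ℤ_[p] (padicInts p K) :=
  Local.moduleFinite ℤ_[p] ℚ_[p] K (padicInts p K)

instance padicInts_moduleFree : Module.Free ℤ_[p] (padicInts p K) :=
  Local.moduleFree ℤ_[p] ℚ_[p] K (padicInts p K)

instance padicInts_isLocalHom : IsLocalHom (algebraMap ℤ_[p] (padicInts p K)) :=
  Local.isLocalHom ℤ_[p] ℚ_[p] K (padicInts p K)

instance padicInts_isAdicComplete :
    IsAdicComplete (maximalIdeal (padicInts p K)) (padicInts p K) :=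
  Local.isAdicComplete ℤ_[p] ℚ_[p] K (padicInts p K)

instance padicInts_finite_residueField : Finite (ResidueField (padicInts p K)) :=
  Local.finite_residueField ℤ_[p] ℚ_[p] K (padicInts p K)

theorem padicInts_finrank :
    Module.finrank ℤ_[p] (padicInts p K) = Module.finrank ℚ_[p] K :=
  Local.finrank_eq ℤ_[p] ℚ_[p] K (padicInts p K)

theorem mem_padicInts_iff {x : K} : x ∈ padicInts p K ↔ IsIntegral ℤ_[p] x := Iff.rfl

end Single

section Tower

variable (p : ℕ) [Fact p.Prime] (K L : Type*) [Field K] [Algebra ℚ_[p] K]
  [FiniteDimensional ℚ_[p] K] [Algebra ℤ_[p] K] [IsScalarTower ℤ_[p] ℚ_[p] K]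
  [Field L] [Algebra ℚ_[p] L] [FiniteDimensional ℚ_[p] L] [Algebra ℤ_[p] L]
  [IsScalarTower ℤ_[p] ℚ_[p] L] [Algebra K L] [IsScalarTower ℚ_[p] K L]

/-- the tower `ℤ_[p] → K → L` is automatically a scalar tower. -/
theorem isScalarTower_padicInt : IsScalarTower ℤ_[p] K L := by
  apply IsScalarTower.of_algebraMap_eq
  intro x
  rw [IsScalarTower.algebraMap_apply ℤ_[p] ℚ_[p] L, IsScalarTower.algebraMap_apply ℤ_[p] ℚ_[p] K,
    ← IsScalarTower.algebraMap_apply ℚ_[p] K L]

variable [IsScalarTower ℤ_[p] K L]

/-- the inclusion of rings of integers in a tower of finite extensions of `ℚ_[p]`. -/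
noncomputable def padicIntsMap : padicInts p K →ₐ[ℤ_[p]] padicInts p L :=
  (IsScalarTower.toAlgHom ℤ_[p] K L).mapIntegralClosure

@[simp]
theorem coe_padicIntsMap (x : padicInts p K) :
    ((padicIntsMap p K L x : padicInts p L) : L) = algebraMap K L (x : K) := rfl

/-- the algebra structure of `𝒪_L` over `𝒪_K` (a `def`; use as a local/scoped instance:
`open scoped Fermat.Agent.CFT.Local.PadicBridge`). -/
@[reducible] noncomputable def padicIntsAlgebra : Algebra (padicInts p K) (padicInts p L) :=
  (padicIntsMap p K L).toRingHom.toAlgebra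

end Tower

namespace PadicBridge

attribute [scoped instance] Fermat.Agent.CFT.Local.padicIntsAlgebra

end PadicBridge

section Tower2

open scoped PadicBridge

variable (p : ℕ) [Fact p.Prime] (K L : Type*) [Field K] [Algebra ℚ_[p] K]
  [FiniteDimensional ℚ_[p] K] [Algebra ℤ_[p] K] [IsScalarTower ℤ_[p] ℚ_[p] K]
  [Field L] [Algebra ℚ_[p] L] [FiniteDimensional ℚ_[p] L] [Algebra ℤ_[p] L]
  [IsScalarTower ℤ_[p] ℚ_[p] L] [Algebra K L] [IsScalarTower ℚ_[p] K L] [IsScalarTower ℤ_[p] K L]
  [FiniteDimensional K L]

theorem algebraMap_padicInts_apply (x : padicInts p K) :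
    ((algebraMap (padicInts p K) (padicInts p L) x : padicInts p L) : L) =
      algebraMap K L (x : K) := rfl

instance padicInts_isScalarTower_int :
    IsScalarTower ℤ_[p] (padicInts p K) (padicInts p L) := by
  apply IsScalarTower.of_algebraMap_eq
  intro x
  apply Subtype.ext
  rw [algebraMap_padicInts_apply]
  change algebraMap ℤ_[p] L x = algebraMap K L (algebraMap ℤ_[p] K x)
  rw [← IsScalarTower.algebraMap_apply]

instance padicInts_isScalarTower :
    IsScalarTower (padicInts p K) (padicInts p L) L := by
  apply IsScalarTower.of_algebraMap_eq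
  intro x
  rfl

instance padicInts_isScalarTower' : IsScalarTower (padicInts p K) K L := by
  apply IsScalarTower.of_algebraMap_eq
  intro x
  rfl

instance padicInts_isIntegralClosure :
    IsIntegralClosure (padicInts p L) (padicInts p K) L :=
  haveI : Algebra.IsIntegral ℤ_[p] (padicInts p K) := Local.isIntegral ℤ_[p] ℚ_[p] K _
  haveI : IsScalarTower ℤ_[p] (padicInts p K) L :=
    IsScalarTower.of_algebraMap_eq (fun x => by
      rw [IsScalarTower.algebraMap_apply ℤ_[p] K L]; rfl)
  IsIntegralClosure.tower_top (R := ℤ_[p])

include p in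
/-- a finite extension of `ℚ_[p]` has characteristic zero. -/
theorem charZero_of_padic : CharZero K :=
  charZero_of_injective_algebraMap (algebraMap ℚ_[p] K).injective

include p in
theorem isSeparable_tower : Algebra.IsSeparable K L :=
  haveI := charZero_of_padic p K
  inferInstance

instance padicInts_moduleFinite_tower :
    Module.Finite (padicInts p K) (padicInts p L) :=
  haveI := isSeparable_tower p K L
  Local.moduleFinite (padicInts p K) K L (padicInts p L)

instance padicInts_isLocalHom_tower :
    IsLocalHom (algebraMap (padicInts p K) (padicInts p L)) :=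
  haveI := isSeparable_tower p K L
  Local.isLocalHom (padicInts p K) K L (padicInts p L)

instance padicInts_moduleFree_tower :
    Module.Free (padicInts p K) (padicInts p L) :=
  haveI := isSeparable_tower p K L
  Local.moduleFree (padicInts p K) K L (padicInts p L)

theorem padicInts_finrank_tower :
    Module.finrank (padicInts p K) (padicInts p L) = Module.finrank K L :=
  haveI := isSeparable_tower p K L
  Local.finrank_eq (padicInts p K) K L (padicInts p L)

/-- sanity check: the abstract `e f = n` applies to a tower of finite extensions of `ℚ_[p]`. -/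
theorem padicInts_ramIdx_mul_resDeg :
    ramIdx (padicInts p K) (padicInts p L) *
      resDeg (padicInts p K) (padicInts p L) = Module.finrank K L :=
  ramIdx_mul_resDeg (padicInts p K) K L (padicInts p L)

/-- (L1c) in the `p`-adic setting: for an unramified extension `L/K` of finite extensions of
`ℚ_[p]`, every unit of `𝒪_K` is the norm of a unit of `𝒪_L`. -/
theorem padicInts_norm_units_surjective
    (h : ramIdx (padicInts p K) (padicInts p L) = 1) (u : (padicInts p K)ˣ) :
    ∃ w : (padicInts p L)ˣ, Algebra.norm (padicInts p K) (w : padicInts p L) = u :=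
  norm_units_surjective_of_ramIdx_eq_one (padicInts p K) K L (padicInts p L) h u

/-- field form of `padicInts_norm_units_surjective`. -/
theorem padicInts_norm_units_surjective'
    (h : ramIdx (padicInts p K) (padicInts p L) = 1) (u : (padicInts p K)ˣ) :
    ∃ w : (padicInts p L)ˣ, Algebra.norm K ((w : padicInts p L) : L) = ((u : padicInts p K) : K) :=
  norm_units_surjective_of_ramIdx_eq_one' (padicInts p K) K L (padicInts p L) h u

end Tower2

end Local

end Fermat.Agent.CFT
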