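/-
CFT (G0.2), helper5, local part: a Galois extension of local fields with trivial inertia group is
unramified, and the norm group of an unramified extension.
-/
import Mathlib
import Fermat.Agent.CFT.Local.Ramification
import Fermat.Agent.CFT.Local.L1c_helper7

set_option autoImplicit false
set_option linter.unusedSectionVars false
set_option linter.style.haveILetI false

namespace Fermat.Agent.CFT

open IsLocalRing
open scoped Pointwise

namespace Local

section Inertia

variable (A K L B : Type*) [CommRing A] [IsDomain A] [IsDiscreteValuationRing A]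
  [Field K] [Algebra A K] [IsFractionRing A K]
  [Field L] [Algebra K L] [FiniteDimensional K L]
  [CommRing B] [IsDomain B] [IsDiscreteValuationRing B]
  [Algebra A B] [Algebra B L] [Algebra A L] [IsScalarTower A K L] [IsScalarTower A B L]
  [IsIntegralClosure B A L] [IsFractionRing B L] [Module.Finite A B] [IsLocalHom (algebraMap A B)]
  [Finite (ResidueField A)]

/-- **Trivial inertia implies unramified**: if no nontrivial element of `Gal(L/K)` acts trivially
on the residue field of `B`, then `e(B/A) = 1`. -/
theorem ramIdx_eq_one_of_inertia_trivial [IsGalois K L]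
    (h : ∀ σ : L ≃ₐ[K] L, (∀ b : B, galRestrict A K L B σ b - b ∈ maximalIdeal B) → σ = 1) :
    ramIdx A B = 1 := by
  classical
  letI : MulSemiringAction (L ≃ₐ[K] L) B := IsIntegralClosure.MulSemiringAction A K L B
  haveI : Algebra.IsIntegral A B := Algebra.IsIntegral.of_finite A B
  haveI : IsGaloisGroup (L ≃ₐ[K] L) A B := IsGaloisGroup.of_isFractionRing _ _ _ K L
  haveI : (maximalIdeal B).LiesOver (maximalIdeal A) := inferInstance
  haveI : Finite (A ⧸ maximalIdeal A) := inferInstanceAs (Finite (ResidueField A))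
  haveI : Finite (maximalIdeal A).ResidueField :=
    Finite.of_surjective _ (Ideal.bijective_algebraMap_quotient_residueField (maximalIdeal A)).2
  have hst := Ideal.card_stabilizer_eq_card_inertia_mul_finrank (G := L ≃ₐ[K] L)
    (maximalIdeal A) (maximalIdeal B)
  -- the stabiliser of the maximal ideal is everything
  have h1 : MulAction.stabilizer (L ≃ₐ[K] L) (maximalIdeal B) = ⊤ := by
    rw [eq_top_iff]
    intro σ _
    rw [MulAction.mem_stabilizer_iff]
    ext x
    have hu : IsUnit (σ⁻¹ • x) ↔ IsUnit x :=
      isUnit_map_iff (MulSemiringAction.toRingEquiv (L ≃ₐ[K] L) B σ⁻¹) x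
    rw [Ideal.mem_pointwise_smul_iff_inv_smul_mem, mem_maximalIdeal, mem_maximalIdeal,
      mem_nonunits_iff, mem_nonunits_iff, hu]
  -- the inertia group is trivial
  have h2 : Ideal.inertia (L ≃ₐ[K] L) (maximalIdeal B) = ⊥ := by
    rw [eq_bot_iff]
    intro σ hσ
    rw [Subgroup.mem_bot]
    exact h σ (fun b => hσ b)
  have h3 : (maximalIdeal B).inertiaDeg A = resDeg A B := by
    rw [← Ideal.inertiaDeg'_eq_inertiaDeg (maximalIdeal A) (maximalIdeal B),
      Ideal.inertiaDeg'_algebraMap]
    rfl
  rw [h1, h2, h3, Subgroup.card_top, Subgroup.card_bot, one_mul,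
    IsGalois.card_aut_eq_finrank, ← ramIdx_mul_resDeg A K L B] at hst
  have hf := resDeg_pos A B
  exact Nat.eq_of_mul_eq_mul_right hf (by rw [hst, one_mul])

/-- **The norm group of an unramified extension** contains every element whose valuation is
divisible by the degree. -/
theorem exists_norm_eq_of_dvd_ord [IsAdicComplete (maximalIdeal A) A]
    (h : ramIdx A B = 1) {x : K} (hx : x ≠ 0) (hdvd : (Module.finrank K L : ℤ) ∣ ord A x) :
    ∃ y : L, y ≠ 0 ∧ Algebra.norm K y = x := by
  obtain ⟨π, hπ⟩ := IsDiscreteValuationRing.exists_irreducible A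
  obtain ⟨u, hu⟩ := exists_unit_mul_zpow A hπ hx
  obtain ⟨k, hk⟩ := hdvd
  obtain ⟨w, hw⟩ := norm_units_surjective_of_ramIdx_eq_one' A K L B h u
  have hπ0 : algebraMap A K π ≠ 0 := by
    rw [Ne, map_eq_zero_iff _ (IsFractionRing.injective A K)]; exact hπ.ne_zero
  have hw0 : algebraMap B L (w : B) ≠ 0 := by
    rw [Ne, map_eq_zero_iff _ (IsFractionRing.injective B L)]; exact w.ne_zero
  refine ⟨algebraMap B L (w : B) * (algebraMap K L (algebraMap A K π)) ^ k,
    mul_ne_zero hw0 (zpow_ne_zero _ ((map_ne_zero _).mpr hπ0)), ?_⟩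
  rw [map_mul, hw, Algebra.norm_zpow, Algebra.norm_algebraMap, ← zpow_natCast, ← zpow_mul,
    ← hk, ← hu]

end Inertia

end Local

end Fermat.Agent.CFT
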