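/-
CFT local part (L2) (helper8), part 1: the abstract LIMIT LEMMA.  A representation with a complete,
separated, decreasing filtration by `G`-stable submodules `F i` whose steps satisfy the elementwise
vanishing of `Ĥ⁰` and `Ĥ⁻¹` has: every invariant of `F 0` is a norm from `F 0`, and every element
of `F 0` of norm `0` is a sum of `(g - 1) y`, `y ∈ F 0`.
-/
import Fermat.Agent.CFT.Coh.Basic_helper9

set_option autoImplicit false
set_option linter.unusedSectionVars false

namespace Fermat.Agent.CFT.Local.L2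

open Fermat.Agent.CFT.Coh

variable {k G : Type} [CommRing k] [Group G] [Fintype G]

/-- a decreasing, complete and separated filtration by `G`-stable submodules -/
structure CompleteFiltration (U : Rep k G) (F : ℕ → Submodule k U.V) : Prop where
  anti : ∀ i, F (i + 1) ≤ F i
  stable : ∀ i (g : G) (v : U.V), v ∈ F i → U.ρ g v ∈ F i
  sep : ∀ v : U.V, (∀ i, v ∈ F i) → v = 0
  complete : ∀ y : ℕ → U.V, (∀ i, y i ∈ F i) →
    ∃ s ∈ F 0, ∀ n, s - ∑ i ∈ Finset.range n, y i ∈ F n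

variable {U : Rep k G} {F : ℕ → Submodule k U.V}

theorem CompleteFiltration.normMap_mem (hF : CompleteFiltration U F) {i : ℕ} {v : U.V}
    (hv : v ∈ F i) : normMap U v ∈ F i := by
  rw [normMap_apply]
  exact Submodule.sum_mem _ fun g _ => hF.stable i g v hv

/-- **limit lemma, `Ĥ⁰`** -/
theorem CompleteFiltration.exists_normMap_eq (hF : CompleteFiltration U F)
    (h0 : ∀ i (x : U.V), x ∈ F i → x ∈ U.ρ.invariants →
      ∃ y ∈ F i, x - normMap U y ∈ F (i + 1))
    {x : U.V} (hx : x ∈ F 0) (hxinv : x ∈ U.ρ.invariants) :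
    ∃ y ∈ F 0, normMap U y = x := by
  have step : ∀ i (x : {x : U.V // x ∈ F i ∧ x ∈ U.ρ.invariants}),
      ∃ y : U.V, y ∈ F i ∧ x.1 - normMap U y ∈ F (i + 1) := by
    intro i x
    obtain ⟨y, hy, hxy⟩ := h0 i x.1 x.2.1 x.2.2
    exact ⟨y, hy, hxy⟩
  choose Y hY using step
  let X : ∀ i, {x : U.V // x ∈ F i ∧ x ∈ U.ρ.invariants} := fun i =>
    Nat.rec (motive := fun i => {x : U.V // x ∈ F i ∧ x ∈ U.ρ.invariants}) ⟨x, hx, hxinv⟩
      (fun i xi => ⟨xi.1 - normMap U (Y i xi), (hY i xi).2,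
        Submodule.sub_mem _ xi.2.2 (normMap_mem_invariants U _)⟩) i
  have hX0 : (X 0).1 = x := rfl
  have hXs : ∀ i, (X (i + 1)).1 = (X i).1 - normMap U (Y i (X i)) := fun i => rfl
  have hsum : ∀ n, x - ∑ i ∈ Finset.range n, normMap U (Y i (X i)) = (X n).1 := by
    intro n
    induction n with
    | zero => simp [hX0]
    | succ n ih => rw [Finset.sum_range_succ, hXs, ← ih]; abel
  obtain ⟨s, hs0, hs⟩ := hF.complete (fun i => Y i (X i)) (fun i => (hY i (X i)).1)
  refine ⟨s, hs0, ?_⟩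
  have hzero : x - normMap U s = 0 := by
    apply hF.sep
    intro n
    have e : x - normMap U s = (X n).1 -
        normMap U (s - ∑ i ∈ Finset.range n, Y i (X i)) := by
      rw [← hsum n, map_sub, map_sum]
      abel
    rw [e]
    exact Submodule.sub_mem _ (X n).2.1 (hF.normMap_mem (hs n))
  exact (sub_eq_zero.mp hzero).symm

/-- **limit lemma, `Ĥ⁻¹`** -/
theorem CompleteFiltration.exists_eq_sum_sub (hF : CompleteFiltration U F)
    (hm1 : ∀ i (x : U.V), x ∈ F i → normMap U x = 0 →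
      ∃ y : G → U.V, (∀ g, y g ∈ F i) ∧ x - ∑ g, (U.ρ g (y g) - y g) ∈ F (i + 1))
    {x : U.V} (hx : x ∈ F 0) (hxN : normMap U x = 0) :
    ∃ y : G → U.V, (∀ g, y g ∈ F 0) ∧ x = ∑ g, (U.ρ g (y g) - y g) := by
  have hNsub : ∀ (y : G → U.V), normMap U (∑ g, (U.ρ g (y g) - y g)) = 0 := by
    intro y
    rw [map_sum]
    refine Finset.sum_eq_zero fun g _ => ?_
    rw [map_sub, normMap_ρ, sub_self]
  have step : ∀ i (x : {x : U.V // x ∈ F i ∧ normMap U x = 0}),
      ∃ y : G → U.V, (∀ g, y g ∈ F i) ∧ x.1 - ∑ g, (U.ρ g (y g) - y g) ∈ F (i + 1) := by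
    intro i x
    exact hm1 i x.1 x.2.1 x.2.2
  choose Y hY using step
  let X : ∀ i, {x : U.V // x ∈ F i ∧ normMap U x = 0} := fun i =>
    Nat.rec (motive := fun i => {x : U.V // x ∈ F i ∧ normMap U x = 0}) ⟨x, hx, hxN⟩
      (fun i xi => ⟨xi.1 - ∑ g, (U.ρ g (Y i xi g) - Y i xi g), (hY i xi).2, by
        rw [map_sub, xi.2.2, hNsub, sub_zero]⟩) i
  have hX0 : (X 0).1 = x := rfl
  have hXs : ∀ i, (X (i + 1)).1 =
      (X i).1 - ∑ g, (U.ρ g (Y i (X i) g) - Y i (X i) g) := fun i => rfl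
  have hsum : ∀ n, x - ∑ i ∈ Finset.range n, ∑ g, (U.ρ g (Y i (X i) g) - Y i (X i) g) =
      (X n).1 := by
    intro n
    induction n with
    | zero => simp [hX0]
    | succ n ih => rw [Finset.sum_range_succ, hXs, ← ih]; abel
  have hs : ∀ g : G, ∃ s ∈ F 0, ∀ n, s - ∑ i ∈ Finset.range n, Y i (X i) g ∈ F n :=
    fun g => hF.complete (fun i => Y i (X i) g) (fun i => (hY i (X i)).1 g)
  choose S hS0 hS using hs
  refine ⟨S, hS0, ?_⟩
  have hzero : x - ∑ g, (U.ρ g (S g) - S g) = 0 := by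
    apply hF.sep
    intro n
    have e : x - ∑ g, (U.ρ g (S g) - S g) = (X n).1 -
        ∑ g, (U.ρ g (S g - ∑ i ∈ Finset.range n, Y i (X i) g) -
          (S g - ∑ i ∈ Finset.range n, Y i (X i) g)) := by
      rw [← hsum n, Finset.sum_comm]
      simp only [map_sub, map_sum, Finset.sum_sub_distrib]
      abel
    rw [e]
    refine Submodule.sub_mem _ (X n).2.1 (Submodule.sum_mem _ fun g _ => ?_)
    exact Submodule.sub_mem _ (hF.stable n g _ (hS g n)) (hS g n)
  exact sub_eq_zero.mp hzero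

end Fermat.Agent.CFT.Local.L2
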