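/-
CFT local part (L2) (helper8), part 2: the normal basis lattice.  `B` a ring with an action of a
finite group `G`, `A → B` a `G`-invariant coefficient ring, `π : A`, `β : B` such that the
`σ • β` are `A`-linearly independent; `M = ⊕ A (σ • β)`, `T i = π ^ i M`.  Under the hypotheses
`π ^ c B ⊆ M` and `M M ⊆ π ^ (c + 1) B` the sets `1 + T i` are a filtration of `1 + M` by
subgroups with "additive" graded pieces.
-/
import Mathlib

set_option autoImplicit false
set_option linter.unusedSectionVars false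

namespace Fermat.Agent.CFT.Local.L2

variable {G : Type} [Group G] [Fintype G] {A B : Type} [CommRing A] [CommRing B] [Algebra A B]
  [MulSemiringAction G B] [SMulCommClass G A B]

/-- the lattice `M = ∑ A (σ • β)` -/
def lat (G : Type) [Group G] (A : Type) {B : Type} [CommRing A] [CommRing B] [Algebra A B]
    [MulSemiringAction G B] (β : B) : Submodule A B :=
  Submodule.span A (Set.range fun σ : G => σ • β)

/-- the filtration `T i = π ^ i M` -/
def latT (G : Type) [Group G] {A B : Type} [CommRing A] [CommRing B] [Algebra A B]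
    [MulSemiringAction G B] (π : A) (β : B) (i : ℕ) : Submodule A B :=
  (lat G A β).map (LinearMap.lsmul A B (π ^ i))

variable {π : A} {β : B}

theorem mem_latT {i : ℕ} {x : B} :
    x ∈ latT G π β i ↔ ∃ m ∈ lat G A β, π ^ i • m = x := by
  unfold latT
  rw [Submodule.mem_map]
  rfl

theorem smul_mem_lat {m : B} (hm : m ∈ lat G A β) (τ : G) : τ • m ∈ lat G A β := by
  unfold lat at hm ⊢
  refine Submodule.span_induction ?_ ?_ ?_ ?_ hm
  · rintro _ ⟨σ, rfl⟩
    refine Submodule.subset_span ⟨τ * σ, ?_⟩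
    simp only [mul_smul]
  · rw [smul_zero]
    exact Submodule.zero_mem _
  · intro x y _ _ hx hy
    rw [smul_add]
    exact Submodule.add_mem _ hx hy
  · intro a x _ hx
    rw [smul_comm]
    exact Submodule.smul_mem _ a hx

theorem smul_self_mem_lat (σ : G) : σ • β ∈ lat G A β :=
  Submodule.subset_span ⟨σ, rfl⟩

theorem latT_zero : latT G π β 0 = lat G A β := by
  ext x
  rw [mem_latT]
  constructor
  · rintro ⟨m, hm, rfl⟩
    rwa [pow_zero, one_smul]
  · intro hx
    exact ⟨x, hx, by rw [pow_zero, one_smul]⟩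

theorem latT_succ_le (i : ℕ) : latT G π β (i + 1) ≤ latT G π β i := by
  intro x hx
  rw [mem_latT] at hx ⊢
  obtain ⟨m, hm, rfl⟩ := hx
  exact ⟨π • m, Submodule.smul_mem _ π hm, by rw [pow_succ, mul_smul]⟩

theorem latT_antitone {i j : ℕ} (h : i ≤ j) : latT G π β j ≤ latT G π β i := by
  induction h with
  | refl => exact le_rfl
  | step _ ih => exact (latT_succ_le _).trans ih

theorem smul_mem_latT {i : ℕ} {x : B} (hx : x ∈ latT G π β i) (τ : G) :
    τ • x ∈ latT G π β i := by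
  rw [mem_latT] at hx ⊢
  obtain ⟨m, hm, rfl⟩ := hx
  exact ⟨τ • m, smul_mem_lat hm τ, (smul_comm τ (π ^ i) m).symm⟩

theorem latT_le_lat (i : ℕ) : latT G π β i ≤ lat G A β := by
  rw [← latT_zero (π := π)]
  exact latT_antitone (Nat.zero_le i)

/-- elements of `T i` are multiples of `π ^ i` -/
theorem exists_eq_pow_mul_of_mem_latT {i : ℕ} {x : B} (hx : x ∈ latT G π β i) :
    ∃ b : B, x = algebraMap A B π ^ i * b := by
  rw [mem_latT] at hx
  obtain ⟨m, -, rfl⟩ := hx
  exact ⟨m, by rw [Algebra.smul_def, map_pow]⟩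

/-- the hypotheses on the lattice -/
structure LatHyp (G : Type) [Group G] {A B : Type} [CommRing A] [CommRing B] [Algebra A B]
    [MulSemiringAction G B] (π : A) (β : B) (c : ℕ) : Prop where
  li : LinearIndependent A (fun σ : G => σ • β)
  isOpen : ∀ b : B, algebraMap A B π ^ c * b ∈ lat G A β
  mul_mem : ∀ σ τ : G, ∃ b : B, (σ • β) * (τ • β) = algebraMap A B π ^ (c + 1) * b
  ne_zero : algebraMap A B π ≠ 0
  isUnit : ∀ t ∈ lat G A β, IsUnit (1 + t)

variable {c : ℕ}

theorem LatHyp.pow_mul_mem_latT (h : LatHyp G π β c) (i : ℕ) (b : B) :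
    algebraMap A B π ^ (c + i) * b ∈ latT G π β i := by
  rw [mem_latT]
  refine ⟨algebraMap A B π ^ c * b, h.isOpen b, ?_⟩
  rw [Algebra.smul_def, map_pow]
  ring

theorem LatHyp.lat_mul (h : LatHyp G π β c) {x y : B} (hx : x ∈ lat G A β)
    (hy : y ∈ lat G A β) : ∃ b : B, x * y = algebraMap A B π ^ (c + 1) * b := by
  unfold lat at hx hy
  refine Submodule.span_induction ?_ ?_ ?_ ?_ hx
  · rintro _ ⟨σ, rfl⟩
    refine Submodule.span_induction ?_ ?_ ?_ ?_ hy
    · rintro _ ⟨τ, rfl⟩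
      exact h.mul_mem σ τ
    · exact ⟨0, by simp⟩
    · rintro u v _ _ ⟨b₁, h₁⟩ ⟨b₂, h₂⟩
      exact ⟨b₁ + b₂, by rw [mul_add, h₁, h₂]; ring⟩
    · rintro a u _ ⟨b, hb⟩
      exact ⟨a • b, by rw [mul_smul_comm, hb, mul_smul_comm]⟩
  · exact ⟨0, by simp⟩
  · rintro u v _ _ ⟨b₁, h₁⟩ ⟨b₂, h₂⟩
    exact ⟨b₁ + b₂, by rw [add_mul, h₁, h₂]; ring⟩
  · rintro a u _ ⟨b, hb⟩
    exact ⟨a • b, by rw [smul_mul_assoc, hb, mul_smul_comm]⟩

theorem LatHyp.latT_mul (h : LatHyp G π β c) {i j : ℕ} {x y : B} (hx : x ∈ latT G π β i)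
    (hy : y ∈ latT G π β j) : ∃ b : B, x * y = algebraMap A B π ^ (c + (i + j + 1)) * b := by
  rw [mem_latT] at hx hy
  obtain ⟨m, hm, rfl⟩ := hx
  obtain ⟨m', hm', rfl⟩ := hy
  obtain ⟨b, hb⟩ := h.lat_mul hm hm'
  refine ⟨b, ?_⟩
  rw [Algebra.smul_def, Algebra.smul_def, map_pow, map_pow]
  calc algebraMap A B π ^ i * m * (algebraMap A B π ^ j * m')
      = algebraMap A B π ^ i * algebraMap A B π ^ j * (m * m') := by ring
    _ = _ := by rw [hb]; ring

theorem LatHyp.latT_mul_mem (h : LatHyp G π β c) {i j : ℕ} {x y : B} (hx : x ∈ latT G π β i)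
    (hy : y ∈ latT G π β j) : x * y ∈ latT G π β (i + j + 1) := by
  obtain ⟨b, hb⟩ := h.latT_mul hx hy
  rw [hb]
  exact h.pow_mul_mem_latT _ b

/-- a multiple of a product of two elements of the filtration -/
theorem LatHyp.latT_mul_mul_mem (h : LatHyp G π β c) {i j : ℕ} {x y : B}
    (hx : x ∈ latT G π β i) (hy : y ∈ latT G π β j) (b : B) :
    x * y * b ∈ latT G π β (i + j + 1) := by
  obtain ⟨b', hb'⟩ := h.latT_mul hx hy
  rw [hb', mul_assoc]
  exact h.pow_mul_mem_latT _ _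

/-- coordinates with respect to the basis `σ • β` -/
theorem exists_coord {m : B} (hm : m ∈ lat G A β) : ∃ a : G → A, m = ∑ σ : G, a σ • (σ • β) := by
  unfold lat at hm
  obtain ⟨a, ha⟩ := (Submodule.mem_span_range_iff_exists_fun A).mp hm
  exact ⟨a, ha.symm⟩

theorem sum_smul_mem_lat (a : G → A) : ∑ σ : G, a σ • (σ • β) ∈ lat G A β :=
  Submodule.sum_mem _ fun σ _ => Submodule.smul_mem _ _ (smul_self_mem_lat σ)

theorem LatHyp.coord_unique (h : LatHyp G π β c) {a a' : G → A}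
    (he : ∑ σ : G, a σ • (σ • β) = ∑ σ : G, a' σ • (σ • β)) : a = a' := by
  have h0 : ∑ σ : G, (a σ - a' σ) • (σ • β) = 0 := by
    simp only [sub_smul, Finset.sum_sub_distrib, he, sub_self]
  have := Fintype.linearIndependent_iff.mp h.li (fun σ => a σ - a' σ) h0
  funext σ
  exact sub_eq_zero.mp (this σ)

theorem LatHyp.pow_smul_cancel [IsDomain B] (h : LatHyp G π β c) (i : ℕ) {x y : B}
    (hxy : π ^ i • x = π ^ i • y) : x = y := by
  rw [Algebra.smul_def, Algebra.smul_def, map_pow] at hxy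
  exact mul_left_cancel₀ (pow_ne_zero i h.ne_zero) hxy

theorem smul_sum_smul (τ : G) (a : G → A) :
    τ • ∑ σ : G, a σ • (σ • β) = ∑ σ : G, a (τ⁻¹ * σ) • (σ • β) := by
  rw [Finset.smul_sum]
  rw [← Equiv.sum_comp (Equiv.mulLeft τ) (fun σ => a (τ⁻¹ * σ) • (σ • β))]
  refine Finset.sum_congr rfl fun σ _ => ?_
  simp only [Equiv.coe_mulLeft, inv_mul_cancel_left]
  rw [smul_comm, mul_smul]

theorem sum_smul_sum_smul (a : G → A) :
    ∑ τ : G, τ • ∑ σ : G, a σ • (σ • β) = ∑ ρ : G, (∑ σ : G, a σ) • (ρ • β) := by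
  calc ∑ τ : G, τ • ∑ σ : G, a σ • (σ • β)
      = ∑ τ : G, ∑ σ : G, a σ • ((τ * σ) • β) := by
        refine Finset.sum_congr rfl fun τ _ => ?_
        rw [Finset.smul_sum]
        refine Finset.sum_congr rfl fun σ _ => ?_
        rw [smul_comm, mul_smul]
    _ = ∑ σ : G, ∑ τ : G, a σ • ((τ * σ) • β) := Finset.sum_comm
    _ = ∑ σ : G, ∑ ρ : G, a σ • (ρ • β) := by
        refine Finset.sum_congr rfl fun σ _ => ?_
        exact Equiv.sum_comp (Equiv.mulRight σ) (fun ρ => a σ • (ρ • β))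
    _ = ∑ ρ : G, ∑ σ : G, a σ • (ρ • β) := Finset.sum_comm
    _ = ∑ ρ : G, (∑ σ : G, a σ) • (ρ • β) := by
        refine Finset.sum_congr rfl fun ρ _ => ?_
        rw [Finset.sum_smul]

end Fermat.Agent.CFT.Local.L2
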