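/-
CFT local part (L2) (helper8), part 3: the subgroups `1 + T i` of `Bˣ` attached to a normal basis
lattice, their "logarithm" `u ↦ u - 1 mod T (i + 1)`, and the four inputs of the limit lemma
(in multiplicative form): the `Ĥ⁰`-step, the `Ĥ⁻¹`-step, completeness and separatedness.
-/
import Fermat.Agent.CFT.Local.L2_helper8_Lattice

set_option autoImplicit false
set_option linter.unusedSectionVars false

namespace Fermat.Agent.CFT.Local.L2

attribute [local instance] Units.mulDistribMulActionRight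

variable {G : Type} [Group G] [Fintype G] {A B : Type} [CommRing A] [CommRing B] [Algebra A B]
  [MulSemiringAction G B] [SMulCommClass G A B] {π : A} {β : B} {c : ℕ}

/-- the subgroup `1 + T i` of `Bˣ` -/
def unitsT (h : LatHyp G π β c) (i : ℕ) : Subgroup Bˣ where
  carrier := {u | (u : B) - 1 ∈ latT G π β i}
  one_mem' := by
    show ((1 : Bˣ) : B) - 1 ∈ latT G π β i
    rw [Units.val_one, sub_self]
    exact Submodule.zero_mem _
  mul_mem' := by
    intro u u' hu hu'
    show ((u * u' : Bˣ) : B) - 1 ∈ latT G π β i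
    have e : ((u * u' : Bˣ) : B) - 1 = ((u : B) - 1) + ((u' : B) - 1) +
        ((u : B) - 1) * ((u' : B) - 1) := by
      rw [Units.val_mul]; ring
    rw [e]
    refine Submodule.add_mem _ (Submodule.add_mem _ hu hu') ?_
    exact latT_antitone (by omega) (h.latT_mul_mem hu hu')
  inv_mem' := by
    intro u hu
    show ((u⁻¹ : Bˣ) : B) - 1 ∈ latT G π β i
    have e : ((u⁻¹ : Bˣ) : B) - 1 = -((u : B) - 1) +
        ((u : B) - 1) * ((u : B) - 1) * ((u⁻¹ : Bˣ) : B) := by
      have h1 : (u : B) * ((u⁻¹ : Bˣ) : B) = 1 := by rw [← Units.val_mul, mul_inv_cancel, Units.val_one]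
      linear_combination (2 - (u : B)) * h1
    rw [e]
    refine Submodule.add_mem _ (Submodule.neg_mem _ hu) ?_
    exact latT_antitone (by omega) (h.latT_mul_mul_mem hu hu _)

variable (h : LatHyp G π β c)

theorem mem_unitsT {i : ℕ} {u : Bˣ} : u ∈ unitsT h i ↔ (u : B) - 1 ∈ latT G π β i := Iff.rfl

theorem unitsT_antitone {i j : ℕ} (hij : i ≤ j) : unitsT h j ≤ unitsT h i :=
  fun _ hu => latT_antitone hij hu

theorem smul_mem_unitsT {i : ℕ} {u : Bˣ} (hu : u ∈ unitsT h i) (σ : G) :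
    σ • u ∈ unitsT h i := by
  rw [mem_unitsT] at hu ⊢
  have e : ((σ • u : Bˣ) : B) - 1 = σ • ((u : B) - 1) := by
    rw [Units.coe_smul, smul_sub, smul_one]
  rw [e]
  exact smul_mem_latT hu σ

/-- `u ↦ u - 1 mod T (i + 1)` is additive on `1 + T i`: products -/
theorem mul_sub_one_congr {i : ℕ} {u u' : Bˣ} (hu : u ∈ unitsT h i) (hu' : u' ∈ unitsT h i) :
    (((u * u' : Bˣ) : B) - 1) - (((u : B) - 1) + ((u' : B) - 1)) ∈ latT G π β (i + 1) := by
  have e : (((u * u' : Bˣ) : B) - 1) - (((u : B) - 1) + ((u' : B) - 1)) =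
      ((u : B) - 1) * ((u' : B) - 1) := by
    rw [Units.val_mul]; ring
  rw [e]
  exact latT_antitone (by omega) (h.latT_mul_mem hu hu')

/-- `u ↦ u - 1 mod T (i + 1)` is additive on `1 + T i`: inverses -/
theorem inv_sub_one_congr {i : ℕ} {u : Bˣ} (hu : u ∈ unitsT h i) :
    (((u⁻¹ : Bˣ) : B) - 1) + ((u : B) - 1) ∈ latT G π β (i + 1) := by
  have e : (((u⁻¹ : Bˣ) : B) - 1) + ((u : B) - 1) =
      ((u : B) - 1) * ((u : B) - 1) * ((u⁻¹ : Bˣ) : B) := by
    have h1 : (u : B) * ((u⁻¹ : Bˣ) : B) = 1 := by rw [← Units.val_mul, mul_inv_cancel, Units.val_one]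
    linear_combination (2 - (u : B)) * h1
  rw [e]
  exact latT_antitone (by omega) (h.latT_mul_mul_mem hu hu _)

/-- `u ↦ u - 1 mod T (i + 1)` is additive on `1 + T i`: finite products -/
theorem prod_sub_one_congr {i : ℕ} {ι : Type} (s : Finset ι) (f : ι → Bˣ)
    (hf : ∀ j ∈ s, f j ∈ unitsT h i) :
    (((∏ j ∈ s, f j : Bˣ) : B) - 1) - ∑ j ∈ s, ((f j : B) - 1) ∈ latT G π β (i + 1) := by
  classical
  induction s using Finset.induction_on with
  | empty =>
    rw [Finset.prod_empty, Finset.sum_empty, Units.val_one, sub_self, sub_zero]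
    exact Submodule.zero_mem _
  | insert a s ha ih =>
    rw [Finset.prod_insert ha, Finset.sum_insert ha]
    have h1 := ih (fun j hj => hf j (Finset.mem_insert_of_mem hj))
    have ha' : f a ∈ unitsT h i := hf a (Finset.mem_insert_self a s)
    have hs' : ∏ j ∈ s, f j ∈ unitsT h i :=
      Subgroup.prod_mem _ (fun j hj => hf j (Finset.mem_insert_of_mem hj))
    have h2 := mul_sub_one_congr h ha' hs'
    have e : (((f a * ∏ j ∈ s, f j : Bˣ) : B) - 1) -
        (((f a : B) - 1) + ∑ j ∈ s, ((f j : B) - 1)) =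
        ((((f a * ∏ j ∈ s, f j : Bˣ) : B) - 1) -
          (((f a : B) - 1) + (((∏ j ∈ s, f j : Bˣ) : B) - 1))) +
        ((((∏ j ∈ s, f j : Bˣ) : B) - 1) - ∑ j ∈ s, ((f j : B) - 1)) := by ring
    rw [e]
    exact Submodule.add_mem _ h2 h1

/-- two units, the second in `1 + T 0`, which are congruent modulo `T j` differ by an element of
`1 + T j` -/
theorem mul_inv_mem_unitsT {j : ℕ} {u u' : Bˣ} (hu' : u' ∈ unitsT h 0)
    (hd : (u : B) - u' ∈ latT G π β j) : u * u'⁻¹ ∈ unitsT h j := by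
  rw [mem_unitsT]
  have hinv : u'⁻¹ ∈ unitsT h 0 := Subgroup.inv_mem _ hu'
  rw [mem_unitsT] at hinv
  have e : ((u * u'⁻¹ : Bˣ) : B) - 1 = ((u : B) - u') +
      ((u : B) - u') * (((u'⁻¹ : Bˣ) : B) - 1) := by
    have h1 : (u' : B) * ((u'⁻¹ : Bˣ) : B) = 1 := by
      rw [← Units.val_mul, mul_inv_cancel, Units.val_one]
    rw [Units.val_mul]
    linear_combination (1 : B) * h1
  rw [e]
  refine Submodule.add_mem _ hd ?_
  exact latT_antitone (by omega) (h.latT_mul_mem hd hinv)

/-- the unit `1 + t` for `t` in the lattice -/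
noncomputable def oneAdd (t : B) (ht : t ∈ lat G A β) : Bˣ := (h.isUnit t ht).unit

theorem coe_oneAdd (t : B) (ht : t ∈ lat G A β) : (oneAdd h t ht : B) = 1 + t :=
  IsUnit.unit_spec _

theorem oneAdd_mem_unitsT {i : ℕ} (t : B) (ht : t ∈ latT G π β i) :
    oneAdd h t (latT_le_lat i ht) ∈ unitsT h i := by
  rw [mem_unitsT, coe_oneAdd, add_sub_cancel_left]
  exact ht

theorem coe_smul_oneAdd_sub_one (σ : G) (t : B) (ht : t ∈ lat G A β) :
    ((σ • oneAdd h t ht : Bˣ) : B) - 1 = σ • t := by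
  rw [Units.coe_smul, coe_oneAdd, smul_add, smul_one, add_sub_cancel_left]

theorem pow_smul_smul_mem_latT (i : ℕ) (a : A) : π ^ i • (a • β) ∈ latT G π β i := by
  rw [mem_latT]
  refine ⟨a • β, Submodule.smul_mem _ a ?_, rfl⟩
  have := smul_self_mem_lat (A := A) (β := β) (1 : G)
  rwa [one_smul] at this

end Fermat.Agent.CFT.Local.L2
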