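/-
CFT local part (L2) (helper8), part 4: the two approximation steps for the filtration `1 + T i`
of a normal basis lattice (multiplicative form).
-/
import Fermat.Agent.CFT.Local.L2_helper8_Units

set_option autoImplicit false
set_option linter.unusedSectionVars false

namespace Fermat.Agent.CFT.Local.L2

attribute [local instance] Units.mulDistribMulActionRight

variable {G : Type} [Group G] [Fintype G] {A B : Type} [CommRing A] [CommRing B] [Algebra A B]
  [IsDomain B] [MulSemiringAction G B] [SMulCommClass G A B] {π : A} {β : B} {c : ℕ}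
  (h : LatHyp G π β c)

/-- the `Ĥ⁰`-step: a `G`-invariant element of `1 + T i` is, modulo `1 + T (i + 1)`, the norm of an
element of `1 + T i` -/
theorem step_H0 {i : ℕ} {x : Bˣ} (hx : x ∈ unitsT h i) (hinv : ∀ σ : G, σ • x = x) :
    ∃ w ∈ unitsT h i, x * (∏ σ : G, σ • w)⁻¹ ∈ unitsT h (i + 1) := by
  obtain ⟨m, hm, hmx⟩ := mem_latT.mp hx
  -- `m` is invariant
  have hminv : ∀ σ : G, σ • m = m := by
    intro σ
    apply h.pow_smul_cancel i
    rw [← smul_comm σ (π ^ i) m, hmx, smul_sub, smul_one, ← Units.coe_smul, hinv σ]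
  obtain ⟨a, ha⟩ := exists_coord hm
  -- the coordinates are constant
  have hconst : ∀ σ : G, a σ = a 1 := by
    intro σ
    have h1 : ∑ ρ : G, a (σ⁻¹ * ρ) • (ρ • β) = ∑ ρ : G, a ρ • (ρ • β) := by
      rw [← smul_sum_smul, ← ha, hminv σ]
    have h2 := congrFun (h.coord_unique h1) σ
    rw [inv_mul_cancel] at h2
    exact h2.symm
  have ht₀ : π ^ i • (a 1 • β) ∈ latT G π β i := pow_smul_smul_mem_latT i (a 1)
  refine ⟨oneAdd h _ (latT_le_lat i ht₀), oneAdd_mem_unitsT h _ ht₀, ?_⟩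
  set w := oneAdd h _ (latT_le_lat i ht₀) with hw
  have hwmem : w ∈ unitsT h i := oneAdd_mem_unitsT h _ ht₀
  have hNmem : ∏ σ : G, σ • w ∈ unitsT h i :=
    Subgroup.prod_mem _ fun σ _ => smul_mem_unitsT h hwmem σ
  apply mul_inv_mem_unitsT h (unitsT_antitone h (Nat.zero_le i) hNmem)
  have hcongr := prod_sub_one_congr h Finset.univ (fun σ : G => σ • w)
    (fun σ _ => smul_mem_unitsT h hwmem σ)
  have hsum : ∑ σ : G, (((σ • w : Bˣ) : B) - 1) = (x : B) - 1 := by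
    rw [← hmx, ha, Finset.smul_sum]
    refine Finset.sum_congr rfl fun σ _ => ?_
    rw [hw, coe_smul_oneAdd_sub_one, hconst σ, smul_comm σ (π ^ i), smul_comm σ (a 1)]
  rw [hsum] at hcongr
  have e : (x : B) - ((∏ σ : G, σ • w : Bˣ) : B) =
      -((((∏ σ : G, σ • w : Bˣ) : B) - 1) - ((x : B) - 1)) := by ring
  rw [e]
  exact Submodule.neg_mem _ hcongr

/-- congruence modulo `T (i + 1)` as equality in the quotient -/
theorem mkQ_eq_of_sub_mem {i : ℕ} {x y : B} (hxy : x - y ∈ latT G π β (i + 1)) :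
    (latT G π β (i + 1)).mkQ x = (latT G π β (i + 1)).mkQ y := by
  rw [← sub_eq_zero, ← map_sub]
  exact (Submodule.Quotient.mk_eq_zero _).mpr hxy

theorem mkQ_mul_sub_one {i : ℕ} {u u' : Bˣ} (hu : u ∈ unitsT h i) (hu' : u' ∈ unitsT h i) :
    (latT G π β (i + 1)).mkQ (((u * u' : Bˣ) : B) - 1) =
      (latT G π β (i + 1)).mkQ ((u : B) - 1) + (latT G π β (i + 1)).mkQ ((u' : B) - 1) := by
  rw [← map_add]
  exact mkQ_eq_of_sub_mem (mul_sub_one_congr h hu hu')

theorem mkQ_inv_sub_one {i : ℕ} {u : Bˣ} (hu : u ∈ unitsT h i) :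
    (latT G π β (i + 1)).mkQ (((u⁻¹ : Bˣ) : B) - 1) =
      -(latT G π β (i + 1)).mkQ ((u : B) - 1) := by
  rw [← map_neg]
  apply mkQ_eq_of_sub_mem
  rw [sub_neg_eq_add]
  exact inv_sub_one_congr h hu

theorem mkQ_prod_sub_one {i : ℕ} {ι : Type} (s : Finset ι) (f : ι → Bˣ)
    (hf : ∀ j ∈ s, f j ∈ unitsT h i) :
    (latT G π β (i + 1)).mkQ (((∏ j ∈ s, f j : Bˣ) : B) - 1) =
      ∑ j ∈ s, (latT G π β (i + 1)).mkQ ((f j : B) - 1) := by
  rw [← map_sum]
  exact mkQ_eq_of_sub_mem (prod_sub_one_congr h s f hf)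

/-- the `Ĥ⁻¹`-step: an element of `1 + T i` of norm `1` is, modulo `1 + T (i + 1)`, a product of
elements `σ y / y` with `y ∈ 1 + T i` -/
theorem step_Hm1 {i : ℕ} {x : Bˣ} (hx : x ∈ unitsT h i) (hN : ∏ σ : G, σ • x = 1) :
    ∃ y : G → Bˣ, (∀ σ, y σ ∈ unitsT h i) ∧
      x * (∏ σ : G, (σ • y σ) * (y σ)⁻¹)⁻¹ ∈ unitsT h (i + 1) := by
  obtain ⟨m, hm, hmx⟩ := mem_latT.mp hx
  obtain ⟨a, ha⟩ := exists_coord hm
  -- the sum of the coordinates is divisible by `π`
  have hs : ∃ a' : A, ∑ σ : G, a σ = π * a' := by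
    have h1 := mkQ_prod_sub_one h Finset.univ (fun σ : G => σ • x)
      (fun σ _ => smul_mem_unitsT h hx σ)
    rw [hN, Units.val_one, sub_self, map_zero] at h1
    have h2 : ∑ σ : G, (((σ • x : Bˣ) : B) - 1) =
        π ^ i • ∑ ρ : G, (∑ σ : G, a σ) • (ρ • β) := by
      rw [← sum_smul_sum_smul, ← ha, Finset.smul_sum]
      refine Finset.sum_congr rfl fun σ _ => ?_
      have e1 : ((σ • x : Bˣ) : B) - 1 = σ • ((x : B) - 1) := by
        rw [Units.coe_smul, smul_sub, smul_one]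
      rw [e1, ← hmx, smul_comm σ (π ^ i)]
    rw [← map_sum, h2] at h1
    have h3 : π ^ i • ∑ ρ : G, (∑ σ : G, a σ) • (ρ • β) ∈ latT G π β (i + 1) :=
      (Submodule.Quotient.mk_eq_zero _).mp h1.symm
    obtain ⟨m', hm', hmm'⟩ := mem_latT.mp h3
    obtain ⟨a', ha'⟩ := exists_coord hm'
    have h4 : ∑ ρ : G, (∑ σ : G, a σ) • (ρ • β) = ∑ ρ : G, (π * a' ρ) • (ρ • β) := by
      apply h.pow_smul_cancel i
      rw [← hmm', ha', pow_succ, mul_smul, Finset.smul_sum]
      congr 1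
      refine Finset.sum_congr rfl fun ρ _ => ?_
      rw [mul_smul]
    exact ⟨a' 1, congrFun (h.coord_unique h4) 1⟩
  obtain ⟨a', ha'⟩ := hs
  have ht : ∀ σ : G, π ^ i • (a σ • β) ∈ latT G π β i := fun σ => pow_smul_smul_mem_latT i (a σ)
  let y : G → Bˣ := fun σ => oneAdd h _ (latT_le_lat i (ht σ))
  have hy : ∀ σ, y σ ∈ unitsT h i := fun σ => oneAdd_mem_unitsT h _ (ht σ)
  refine ⟨y, hy, ?_⟩
  have hq : ∀ σ : G, (σ • y σ) * (y σ)⁻¹ ∈ unitsT h i := fun σ =>
    Subgroup.mul_mem _ (smul_mem_unitsT h (hy σ) σ) (Subgroup.inv_mem _ (hy σ))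
  have hqmem : ∏ σ : G, (σ • y σ) * (y σ)⁻¹ ∈ unitsT h i := Subgroup.prod_mem _ fun σ _ => hq σ
  apply mul_inv_mem_unitsT h (unitsT_antitone h (Nat.zero_le i) hqmem)
  have h1 := mkQ_prod_sub_one h Finset.univ (fun σ : G => (σ • y σ) * (y σ)⁻¹) (fun σ _ => hq σ)
  have h2 : ∀ σ : G, (latT G π β (i + 1)).mkQ ((((σ • y σ) * (y σ)⁻¹ : Bˣ) : B) - 1) =
      (latT G π β (i + 1)).mkQ (π ^ i • (a σ • (σ • β)) - π ^ i • (a σ • β)) := by
    intro σ
    rw [mkQ_mul_sub_one h (smul_mem_unitsT h (hy σ) σ) (Subgroup.inv_mem _ (hy σ)),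
      mkQ_inv_sub_one h (hy σ), ← sub_eq_add_neg, ← map_sub]
    congr 2
    · rw [coe_smul_oneAdd_sub_one, smul_comm σ (π ^ i), smul_comm σ (a σ)]
    · rw [coe_oneAdd, add_sub_cancel_left]
  rw [Finset.sum_congr rfl fun σ _ => h2 σ, ← map_sum, Finset.sum_sub_distrib] at h1
  have h3 : ∑ σ : G, π ^ i • (a σ • (σ • β)) = (x : B) - 1 := by
    rw [← Finset.smul_sum, ← ha, hmx]
  have h4 : ∑ σ : G, π ^ i • (a σ • β) ∈ latT G π β (i + 1) := by
    rw [← Finset.smul_sum, ← Finset.sum_smul, ha', mem_latT]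
    refine ⟨a' • β, ?_, ?_⟩
    · have := smul_self_mem_lat (A := A) (β := β) (1 : G)
      rw [one_smul] at this
      exact Submodule.smul_mem _ a' this
    · rw [pow_succ, mul_smul, mul_smul]
  rw [h3] at h1
  have h5 : (latT G π β (i + 1)).mkQ (((∏ σ : G, (σ • y σ) * (y σ)⁻¹ : Bˣ) : B) - 1) =
      (latT G π β (i + 1)).mkQ ((x : B) - 1) := by
    have h4' : (latT G π β (i + 1)).mkQ (∑ σ : G, π ^ i • (a σ • β)) = 0 :=
      (Submodule.Quotient.mk_eq_zero _).mpr h4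
    rw [h1, map_sub, h4', sub_zero]
  have h6 := (Submodule.Quotient.eq _).mp h5
  have e : (x : B) - ((∏ σ : G, (σ • y σ) * (y σ)⁻¹ : Bˣ) : B) =
      -((((∏ σ : G, (σ • y σ) * (y σ)⁻¹ : Bˣ) : B) - 1) - ((x : B) - 1)) := by ring
  rw [e]
  exact Submodule.neg_mem _ h6

/-- `ϖ`-adic completeness and separatedness of `B`, elementwise -/
structure AdicHyp (ϖ : B) : Prop where
  complete : ∀ f : ℕ → B, (∀ n, ∃ b, f (n + 1) - f n = ϖ ^ n * b) →
    ∃ L : B, ∀ n, ∃ b, L - f n = ϖ ^ n * b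
  haus : ∀ x : B, (∀ n, ∃ b, x = ϖ ^ n * b) → x = 0

/-- separatedness of the filtration `1 + T i` -/
theorem unitsT_sep (hA : AdicHyp (algebraMap A B π)) {u : Bˣ} (hu : ∀ i, u ∈ unitsT h i) :
    u = 1 := by
  apply Units.ext
  rw [Units.val_one, ← sub_eq_zero]
  exact hA.haus _ fun n => exists_eq_pow_mul_of_mem_latT (hu n)

/-- completeness of the filtration `1 + T i`: convergence of infinite products -/
theorem unitsT_complete (hA : AdicHyp (algebraMap A B π)) (y : ℕ → Bˣ)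
    (hy : ∀ i, y i ∈ unitsT h i) :
    ∃ s ∈ unitsT h 0, ∀ n, s * (∏ i ∈ Finset.range n, y i)⁻¹ ∈ unitsT h n := by
  have hPmem : ∀ n, ∏ i ∈ Finset.range n, y i ∈ unitsT h 0 := fun n =>
    Subgroup.prod_mem _ fun i _ => unitsT_antitone h (Nat.zero_le i) (hy i)
  have hstep : ∀ n, ((∏ i ∈ Finset.range (n + 1), y i : Bˣ) : B) -
      ((∏ i ∈ Finset.range n, y i : Bˣ) : B) = ((y n : B) - 1) +
        (((∏ i ∈ Finset.range n, y i : Bˣ) : B) - 1) * ((y n : B) - 1) := by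
    intro n
    rw [Finset.prod_range_succ, Units.val_mul]
    ring
  have hstepT : ∀ n k, ((∏ i ∈ Finset.range (n + k), y i : Bˣ) : B) -
      ((∏ i ∈ Finset.range n, y i : Bˣ) : B) ∈ latT G π β n := by
    intro n k
    induction k with
    | zero =>
      rw [add_zero, sub_self]
      exact Submodule.zero_mem _
    | succ k ih =>
      have e : ((∏ i ∈ Finset.range (n + (k + 1)), y i : Bˣ) : B) -
          ((∏ i ∈ Finset.range n, y i : Bˣ) : B) =
          (((∏ i ∈ Finset.range (n + k + 1), y i : Bˣ) : B) -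
            ((∏ i ∈ Finset.range (n + k), y i : Bˣ) : B)) +
          (((∏ i ∈ Finset.range (n + k), y i : Bˣ) : B) -
            ((∏ i ∈ Finset.range n, y i : Bˣ) : B)) := by
        rw [← add_assoc]
        ring
      rw [e, hstep]
      refine Submodule.add_mem _ (Submodule.add_mem _ ?_ ?_) ih
      · exact latT_antitone (Nat.le_add_right n k) (hy (n + k))
      · exact latT_antitone (by omega) (h.latT_mul_mem (hPmem (n + k)) (hy (n + k)))
  obtain ⟨L, hL⟩ := hA.complete (fun n => ((∏ i ∈ Finset.range n, y i : Bˣ) : B)) (fun n =>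
    exists_eq_pow_mul_of_mem_latT (hstepT n 1))
  have hLT : ∀ n, L - ((∏ i ∈ Finset.range n, y i : Bˣ) : B) ∈ latT G π β n := by
    intro n
    obtain ⟨b, hb⟩ := hL (n + c)
    have e : L - ((∏ i ∈ Finset.range n, y i : Bˣ) : B) =
        (L - ((∏ i ∈ Finset.range (n + c), y i : Bˣ) : B)) +
        (((∏ i ∈ Finset.range (n + c), y i : Bˣ) : B) -
          ((∏ i ∈ Finset.range n, y i : Bˣ) : B)) := by ring
    rw [e]
    refine Submodule.add_mem _ ?_ (hstepT n c)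
    have hb' : L - ((∏ i ∈ Finset.range (n + c), y i : Bˣ) : B) =
        algebraMap A B π ^ (n + c) * b := hb
    rw [hb', add_comm n c]
    exact h.pow_mul_mem_latT n b
  have hL1 : L - 1 ∈ lat G A β := by
    have := hLT 0
    rw [Finset.range_zero, Finset.prod_empty, Units.val_one, latT_zero] at this
    exact this
  refine ⟨oneAdd h (L - 1) hL1, ?_, ?_⟩
  · rw [mem_unitsT, coe_oneAdd, add_sub_cancel_left, latT_zero]
    exact hL1
  · intro n
    apply mul_inv_mem_unitsT h (hPmem n)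
    rw [coe_oneAdd, add_sub_cancel]
    exact hLT n

end Fermat.Agent.CFT.Local.L2
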