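/-
CFT local part (L2) (helper8), part 5: the representation `Bˣ` of `G`, its subrepresentation
`1 + M` for a normal basis lattice `M`, and the vanishing of `Ĥ⁰` and `Ĥ⁻¹` of the latter.
-/
import Fermat.Agent.CFT.Local.L2_helper8_Limit
import Fermat.Agent.CFT.Local.L2_helper8_Steps
import Fermat.Agent.CFT.Coh.Cyclic_helper6_Herbrand

set_option autoImplicit false
set_option linter.unusedSectionVars false

namespace Fermat.Agent.CFT.Local.L2

open Fermat.Agent.CFT.Coh

section Abstract

variable {k G : Type} [CommRing k] [Group G] [Fintype G]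

/-- elementwise criterion for the vanishing of `Ĥ⁰` of a subrepresentation -/
theorem subsingleton_tateH0_subrepresentation (U : Rep k G) (W : Submodule k U.V)
    (hW : ∀ g, W ≤ W.comap (U.ρ g))
    (H : ∀ x ∈ W, x ∈ U.ρ.invariants → ∃ y ∈ W, normMap U y = x) :
    Subsingleton (TateH0 (Rep.subrepresentation U W hW)) := by
  refine ⟨fun z z' => ?_⟩
  suffices hz : ∀ z : TateH0 (Rep.subrepresentation U W hW), z = 0 by rw [hz z, hz z']
  intro z
  obtain ⟨a, rfl⟩ := TateH0.mk_surjective _ z
  rw [TateH0.mk_eq_zero_iff]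
  have hainv : ((a : (Rep.subrepresentation U W hW).V) : U.V) ∈ U.ρ.invariants := by
    intro g
    have := congrArg Subtype.val (a.2 g)
    exact this
  obtain ⟨y, hy, hyx⟩ := H _ (a : (Rep.subrepresentation U W hW).V).2 hainv
  refine ⟨⟨y, hy⟩, Subtype.ext ?_⟩
  have := hom_normMap (Rep.subtype U W hW) (⟨y, hy⟩ : (Rep.subrepresentation U W hW).V)
  exact this.trans hyx

/-- elementwise criterion for the vanishing of `Ĥ⁻¹` of a subrepresentation -/
theorem subsingleton_tateHm1_subrepresentation (U : Rep k G) (W : Submodule k U.V)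
    (hW : ∀ g, W ≤ W.comap (U.ρ g))
    (H : ∀ x ∈ W, normMap U x = 0 →
      ∃ y : G → U.V, (∀ g, y g ∈ W) ∧ x = ∑ g, (U.ρ g (y g) - y g)) :
    Subsingleton (TateHm1 (Rep.subrepresentation U W hW)) := by
  refine ⟨fun z z' => ?_⟩
  suffices hz : ∀ z : TateHm1 (Rep.subrepresentation U W hW), z = 0 by rw [hz z, hz z']
  intro z
  obtain ⟨a, rfl⟩ := TateHm1.mk_surjective _ z
  rw [TateHm1.mk_eq_zero_iff]
  have haN : normMap U ((a : (Rep.subrepresentation U W hW).V) : U.V) = 0 := by
    have := hom_normMap (Rep.subtype U W hW) (a : (Rep.subrepresentation U W hW).V)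
    rw [LinearMap.mem_ker.mp a.2, map_zero] at this
    exact this.symm
  obtain ⟨y, hy, hyx⟩ := H _ (a : (Rep.subrepresentation U W hW).V).2 haN
  have e : (a : (Rep.subrepresentation U W hW).V) =
      ∑ g, ((Rep.subrepresentation U W hW).ρ g ⟨y g, hy g⟩ - ⟨y g, hy g⟩) := by
    apply Subtype.ext
    rw [hyx, AddSubmonoidClass.coe_finsetSum]
    rfl
  rw [e]
  exact Submodule.sum_mem _ fun g _ => Representation.Coinvariants.sub_mem_ker g _

/-- a representation with trivial `Ĥ⁰` and `Ĥ⁻¹` has Herbrand quotient `1` -/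
theorem herbrand_of_subsingleton (V : Rep k G) [Subsingleton (TateH0 V)]
    [Subsingleton (TateHm1 V)] : HerbrandFinite V ∧ herbrand V = 1 := by
  have hfin : HerbrandFinite V := ⟨inferInstance, inferInstance⟩
  refine ⟨hfin, ?_⟩
  rw [herbrand_eq_iff hfin, one_mul, Nat.card_unique, Nat.card_unique]

end Abstract

/-- the type of submodules of a representation (to fix the module instance when `k = ℤ`) -/
abbrev RepSubmodule {k G : Type} [CommRing k] [Group G] (U : Rep k G) : Type := Submodule k U.V

section Concrete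

attribute [local instance] Units.mulDistribMulActionRight

variable {G : Type} [Group G] [Fintype G] {A B : Type} [CommRing A] [CommRing B] [Algebra A B]
  [IsDomain B] [MulSemiringAction G B] [SMulCommClass G A B] {π : A} {β : B} {c : ℕ}

/-- the representation of `G` on (the additive version of) `Bˣ` -/
noncomputable abbrev unitsRep (G B : Type) [Group G] [CommRing B] [MulSemiringAction G B] :
    Rep ℤ G := Rep.ofMulDistribMulAction G Bˣ

/-- from the representation to `Bˣ` -/
def tm (x : (unitsRep G B).V) : Bˣ := Additive.toMul (α := Bˣ) x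

/-- from `Bˣ` to the representation -/
def om (u : Bˣ) : (unitsRep G B).V := Additive.ofMul (α := Bˣ) u

theorem tm_om (u : Bˣ) : tm (G := G) (om u) = u := rfl

theorem om_tm (x : (unitsRep G B).V) : om (tm x) = x := rfl

theorem tm_injective : Function.Injective (tm : (unitsRep G B).V → Bˣ) := fun _ _ hxy => hxy

theorem tm_zero : tm (0 : (unitsRep G B).V) = 1 := rfl

theorem tm_add (x y : (unitsRep G B).V) : tm (x + y) = tm x * tm y := rfl

theorem tm_neg (x : (unitsRep G B).V) : tm (-x) = (tm x)⁻¹ := rfl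

theorem tm_sub (x y : (unitsRep G B).V) : tm (x - y) = tm x * (tm y)⁻¹ := by
  rw [sub_eq_add_neg, tm_add, tm_neg]

theorem tm_sum {ι : Type} (s : Finset ι) (f : ι → (unitsRep G B).V) :
    tm (∑ j ∈ s, f j) = ∏ j ∈ s, tm (f j) := by
  classical
  induction s using Finset.induction_on with
  | empty => rw [Finset.sum_empty, Finset.prod_empty, tm_zero]
  | insert a s ha ih => rw [Finset.sum_insert ha, Finset.prod_insert ha, tm_add, ih]

theorem tm_ρ (g : G) (x : (unitsRep G B).V) : tm ((unitsRep G B).ρ g x) = g • tm x := rfl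

theorem tm_normMap (x : (unitsRep G B).V) :
    tm (normMap (unitsRep G B) x) = ∏ g : G, g • tm x := by
  rw [normMap_apply, tm_sum]
  rfl

variable (h : LatHyp G π β c)

/-- the filtration `1 + T i` as submodules of the representation `Bˣ` -/
def unitsF (i : ℕ) : RepSubmodule (unitsRep G B) where
  carrier := {x | tm x ∈ unitsT h i}
  add_mem' := fun hx hy => (unitsT h i).mul_mem hx hy
  zero_mem' := (unitsT h i).one_mem
  smul_mem' := fun n _ hx => (unitsT h i).zpow_mem hx n

theorem mem_unitsF {i : ℕ} {x : (unitsRep G B).V} :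
    x ∈ unitsF h i ↔ tm x ∈ unitsT h i := Iff.rfl

theorem unitsF_stable (i : ℕ) (g : G) : unitsF h i ≤ (unitsF h i).comap ((unitsRep G B).ρ g) :=
  fun _ hx => smul_mem_unitsT h hx g

theorem completeFiltration_unitsF (hA : AdicHyp (algebraMap A B π)) :
    CompleteFiltration (unitsRep G B) (unitsF h) where
  anti := fun i _ hx => unitsT_antitone h (Nat.le_succ i) hx
  stable := fun i g _ hv => unitsF_stable h i g hv
  sep := by
    intro v hv
    exact tm_injective (unitsT_sep h hA (u := tm v) hv)
  complete := by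
    intro y hy
    obtain ⟨s, hs0, hs⟩ := unitsT_complete h hA (fun i => tm (y i)) hy
    refine ⟨om s, hs0, fun n => ?_⟩
    rw [mem_unitsF, tm_sub, tm_sum, tm_om]
    exact hs n

/-- **the open subgroup `1 + M` of `Bˣ` has trivial `Ĥ⁰` and `Ĥ⁻¹`** -/
theorem subsingleton_tate_unitsF (hA : AdicHyp (algebraMap A B π)) :
    Subsingleton (TateH0 (Rep.subrepresentation (unitsRep G B) (unitsF h 0)
        (unitsF_stable h 0))) ∧
      Subsingleton (TateHm1 (Rep.subrepresentation (unitsRep G B) (unitsF h 0)
        (unitsF_stable h 0))) := by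
  have hF := completeFiltration_unitsF h hA
  constructor
  · apply subsingleton_tateH0_subrepresentation
    intro x hx hxinv
    refine hF.exists_normMap_eq ?_ hx hxinv
    intro i x hx hxinv
    have hinv : ∀ σ : G, σ • tm x = tm x := fun σ => congrArg tm (hxinv σ)
    obtain ⟨w, hw, hxw⟩ := step_H0 h hx hinv
    refine ⟨om w, hw, ?_⟩
    rw [mem_unitsF, tm_sub, tm_normMap, tm_om]
    exact hxw
  · apply subsingleton_tateHm1_subrepresentation
    intro x hx hxN
    refine hF.exists_eq_sum_sub ?_ hx hxN
    intro i x hx hxN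
    have hN : ∏ σ : G, σ • tm x = 1 := by
      rw [← tm_normMap, hxN, tm_zero]
    obtain ⟨y, hy, hxy⟩ := step_Hm1 h hx hN
    refine ⟨fun g => om (y g), hy, ?_⟩
    rw [mem_unitsF, tm_sub, tm_sum]
    have e : ∏ g : G, tm ((unitsRep G B).ρ g (om (y g)) - om (y g)) =
        ∏ σ : G, (σ • y σ) * (y σ)⁻¹ := by
      refine Finset.prod_congr rfl fun g _ => ?_
      rw [tm_sub, tm_ρ, tm_om]
    rw [e]
    exact hxy

/-- **the open subgroup `1 + M` of `Bˣ` has Herbrand quotient `1`** -/
theorem herbrand_unitsF (hA : AdicHyp (algebraMap A B π)) :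
    HerbrandFinite (Rep.subrepresentation (unitsRep G B) (unitsF h 0) (unitsF_stable h 0)) ∧
      herbrand (Rep.subrepresentation (unitsRep G B) (unitsF h 0) (unitsF_stable h 0)) = 1 := by
  obtain ⟨h0, h1⟩ := subsingleton_tate_unitsF h hA
  exact herbrand_of_subsingleton _

end Concrete

end Fermat.Agent.CFT.Local.L2
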