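/-
CFT local part (L2) (helper8), part 6: existence of a normal basis lattice satisfying `LatHyp` in
the AKLB setting of discrete valuation rings (setting S1 of `Local/Ramification.lean`), for any
action of `Gal(L/K)` on `B` compatible with the action on `L`.
-/
import Fermat.Agent.CFT.Local.L2_helper8_Rep
import Fermat.Agent.CFT.Local.Ramification

set_option autoImplicit false
set_option linter.unusedSectionVars false

namespace Fermat.Agent.CFT.Local.L2

open IsLocalRing Fermat.Agent.CFT Fermat.Agent.CFT.Local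

section Lattice

variable (A K L B : Type) [CommRing A] [IsDomain A] [IsDiscreteValuationRing A]
  [Field K] [Algebra A K] [IsFractionRing A K]
  [Field L] [Algebra K L] [FiniteDimensional K L] [IsGalois K L]
  [CommRing B] [IsDomain B] [IsDiscreteValuationRing B]
  [Algebra A B] [Algebra B L] [Algebra A L] [IsScalarTower A K L] [IsScalarTower A B L]
  [IsFractionRing B L] [Module.Finite A B]

include A in
/-- an integral normal basis generator -/
theorem exists_integral_normal_basis :
    ∃ α : B, LinearIndependent K (fun σ : L ≃ₐ[K] L => σ (algebraMap B L α)) := by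
  obtain ⟨x, hx⟩ := exists_linearIndependent_algEquiv_apply K L
  obtain ⟨π, hπ⟩ := IsDiscreteValuationRing.exists_irreducible A
  have hπK : algebraMap A K π ≠ 0 := by
    rw [Ne, map_eq_zero_iff _ (IsFractionRing.injective A K)]
    exact hπ.ne_zero
  have hx0 : x ≠ 0 := by
    have := hx.ne_zero (1 : L ≃ₐ[K] L)
    simpa using this
  set k : ℕ := (-(ord B x)).toNat with hk
  have hpow0 : algebraMap K L (algebraMap A K π ^ k) ≠ 0 := by
    rw [Ne, map_eq_zero]
    exact pow_ne_zero _ hπK
  have hord : 0 ≤ ord B (algebraMap K L (algebraMap A K π ^ k) * x) := by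
    rw [ord_mul B hpow0 hx0, ord_algebraMap A K L B, ord_pow, ord_algebraMap_irreducible A hπ]
    have he : (1 : ℤ) ≤ ramIdx A B := by exact_mod_cast ramIdx_pos A K L B
    have hk' : -(ord B x) ≤ (k : ℤ) := Int.self_le_toNat _
    nlinarith
  obtain ⟨α, hα⟩ := exists_algebraMap_eq_of_ord_nonneg B hord
  refine ⟨α, ?_⟩
  have h1 := hx.units_smul (fun _ => Units.mk0 (algebraMap A K π ^ k) (pow_ne_zero _ hπK))
  convert h1 using 1
  funext σ
  rw [hα]
  show _ = Units.mk0 (algebraMap A K π ^ k) (pow_ne_zero _ hπK) • σ x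
  rw [Units.smul_mk0, ← Algebra.smul_def, map_smul]

include K L in
omit [IsGalois K L] in
theorem algebraMap_irreducible_mem_maximalIdeal {π : A} (hπ : Irreducible π) :
    algebraMap A B π ∈ maximalIdeal B := by
  have := isLocalHom' A K L B
  rw [mem_maximalIdeal, mem_nonunits_iff]
  intro hu
  exact hπ.not_isUnit (isUnit_of_map_unit (algebraMap A B) π hu)

variable [MulSemiringAction (L ≃ₐ[K] L) B] [SMulCommClass (L ≃ₐ[K] L) A B]
  (hcompat : ∀ (σ : L ≃ₐ[K] L) (b : B), algebraMap B L (σ • b) = σ (algebraMap B L b))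

include hcompat in
/-- the normal basis lattice is open: it contains `π ^ c₀ B` -/
theorem exists_pow_mul_mem_lat {π : A} (hπ : Irreducible π) {α : B}
    (hα : LinearIndependent K (fun σ : L ≃ₐ[K] L => σ (algebraMap B L α))) :
    ∃ c₀ : ℕ, ∀ b : B, algebraMap A B π ^ c₀ * b ∈ lat (L ≃ₐ[K] L) A α := by
  classical
  let _ : Fintype (L ≃ₐ[K] L) := Fintype.ofFinite _
  have hcard : Fintype.card (L ≃ₐ[K] L) = Module.finrank K L :=
    Fintype.card_eq_nat_card.trans (IsGalois.card_aut_eq_finrank K L)
  let bs : Module.Basis (L ≃ₐ[K] L) K L := basisOfLinearIndependentOfCardEqFinrank hα hcard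
  have hbs : ∀ σ, bs σ = σ (algebraMap B L α) := fun σ => by
    rw [coe_basisOfLinearIndependentOfCardEqFinrank]
  obtain ⟨S, hS⟩ := Module.Finite.fg_top (R := A) (M := B)
  let T : Finset K := (S ×ˢ (Finset.univ : Finset (L ≃ₐ[K] L))).image
    (fun p => bs.repr (algebraMap B L p.1) p.2)
  obtain ⟨d, hd⟩ := IsLocalization.exist_integer_multiples_of_finset (nonZeroDivisors A) T
  have hd0 : (d : A) ≠ 0 := nonZeroDivisors.ne_zero d.2
  -- `d • s` is in the lattice for the generators `s`
  have hgen : ∀ s ∈ S, (d : A) • s ∈ lat (L ≃ₐ[K] L) A α := by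
    intro s hs
    have hcoef : ∀ σ : L ≃ₐ[K] L, ∃ a : A, algebraMap A K a =
        algebraMap A K (d : A) * bs.repr (algebraMap B L s) σ := by
      intro σ
      have hmem : bs.repr (algebraMap B L s) σ ∈ T :=
        Finset.mem_image.mpr ⟨(s, σ), Finset.mem_product.mpr ⟨hs, Finset.mem_univ σ⟩, rfl⟩
      obtain ⟨a, ha⟩ := hd _ hmem
      exact ⟨a, by rw [ha, Algebra.smul_def]⟩
    choose a ha using hcoef
    have hsum : (d : A) • s = ∑ σ : L ≃ₐ[K] L, a σ • (σ • α) := by
      apply IsFractionRing.injective B L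
      rw [map_sum]
      have h1 : algebraMap B L ((d : A) • s) =
          algebraMap A K (d : A) • algebraMap B L s := by
        rw [Algebra.smul_def, map_mul, ← IsScalarTower.algebraMap_apply A B L,
          IsScalarTower.algebraMap_apply A K L, ← Algebra.smul_def]
      rw [h1]
      conv_lhs => rw [← bs.sum_repr (algebraMap B L s), Finset.smul_sum]
      refine Finset.sum_congr rfl fun σ _ => ?_
      rw [smul_smul, ← ha σ, hbs σ, Algebra.smul_def (a σ) (σ • α), map_mul, hcompat,
        ← IsScalarTower.algebraMap_apply A B L, IsScalarTower.algebraMap_apply A K L,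
        ← Algebra.smul_def]
    rw [hsum]
    exact sum_smul_mem_lat a
  have hall : ∀ b : B, (d : A) • b ∈ lat (L ≃ₐ[K] L) A α := by
    intro b
    have hb : b ∈ Submodule.span A (S : Set B) := by rw [hS]; exact Submodule.mem_top
    refine Submodule.span_induction ?_ ?_ ?_ ?_ hb
    · exact fun s hs => hgen s hs
    · rw [smul_zero]; exact Submodule.zero_mem _
    · intro x y _ _ hx hy
      rw [smul_add]; exact Submodule.add_mem _ hx hy
    · intro r x _ hx
      rw [smul_comm]; exact Submodule.smul_mem _ r hx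
  obtain ⟨c₀, u, hu⟩ := IsDiscreteValuationRing.eq_unit_mul_pow_irreducible hd0 hπ
  refine ⟨c₀, fun b => ?_⟩
  have e : algebraMap A B π ^ c₀ * b = ((u⁻¹ : Aˣ) : A) • ((d : A) • b) := by
    rw [smul_smul, hu, ← mul_assoc, ← Units.val_mul, inv_mul_cancel, Units.val_one, one_mul,
      Algebra.smul_def, map_pow]
  rw [e]
  exact Submodule.smul_mem _ _ (hall b)

omit [IsGalois K L] [FiniteDimensional K L] [Module.Finite A B] in
theorem smul_mem_lat_smul {α : B} (a : A) {m : B} (hm : m ∈ lat (L ≃ₐ[K] L) A α) :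
    a • m ∈ lat (L ≃ₐ[K] L) A (a • α) := by
  unfold lat at hm ⊢
  refine Submodule.span_induction ?_ ?_ ?_ ?_ hm
  · rintro _ ⟨σ, rfl⟩
    refine Submodule.subset_span ⟨σ, ?_⟩
    exact smul_comm σ a α
  · rw [smul_zero]; exact Submodule.zero_mem _
  · intro x y _ _ hx hy
    rw [smul_add]; exact Submodule.add_mem _ hx hy
  · intro r x _ hx
    rw [smul_comm]; exact Submodule.smul_mem _ r hx

include hcompat in
/-- **existence of a normal basis lattice with all the required properties** -/
theorem exists_latHyp : ∃ (π : A) (β : B) (c : ℕ), Irreducible π ∧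
    LatHyp (L ≃ₐ[K] L) π β c := by
  obtain ⟨π, hπ⟩ := IsDiscreteValuationRing.exists_irreducible A
  obtain ⟨α, hα⟩ := exists_integral_normal_basis A K L B
  obtain ⟨c₀, hc₀⟩ := exists_pow_mul_mem_lat A K L B hcompat hπ hα
  have hπK : algebraMap A K π ≠ 0 := by
    rw [Ne, map_eq_zero_iff _ (IsFractionRing.injective A K)]
    exact hπ.ne_zero
  have hϖ0 : algebraMap A B π ≠ 0 := by
    rw [Ne, map_eq_zero_iff _ (algebraMap_injective' A K L B)]
    exact hπ.ne_zero
  have hϖm := algebraMap_irreducible_mem_maximalIdeal A K L B hπ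
  refine ⟨π, π ^ (c₀ + 1) • α, 2 * c₀ + 1, hπ, ?_, ?_, ?_, hϖ0, ?_⟩
  · -- linear independence
    let f : B →ₗ[A] L := (IsScalarTower.toAlgHom A B L).toLinearMap
    apply LinearIndependent.of_comp f
    have h1 := hα.units_smul
      (fun _ => Units.mk0 (algebraMap A K π ^ (c₀ + 1)) (pow_ne_zero _ hπK))
    have h2 : LinearIndependent A ((fun _ : L ≃ₐ[K] L =>
        Units.mk0 (algebraMap A K π ^ (c₀ + 1)) (pow_ne_zero _ hπK)) •
        fun σ : L ≃ₐ[K] L => σ (algebraMap B L α)) :=
      h1.restrict_scalars (R := A) (by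
        intro r r' hrr'
        simp only [Algebra.smul_def, mul_one] at hrr'
        exact IsFractionRing.injective A K hrr')
    convert h2 using 1
    funext σ
    show algebraMap B L (σ • (π ^ (c₀ + 1) • α)) =
      Units.mk0 (algebraMap A K π ^ (c₀ + 1)) (pow_ne_zero _ hπK) • σ (algebraMap B L α)
    rw [hcompat, Units.smul_mk0, Algebra.smul_def (π ^ (c₀ + 1)) α, map_mul, map_mul,
      ← IsScalarTower.algebraMap_apply A B L, IsScalarTower.algebraMap_apply A K L, σ.commutes,
      map_pow, ← Algebra.smul_def]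
  · -- openness
    intro b
    have e : algebraMap A B π ^ (2 * c₀ + 1) * b =
        π ^ (c₀ + 1) • (algebraMap A B π ^ c₀ * b) := by
      rw [Algebra.smul_def, map_pow]
      ring
    rw [e]
    exact smul_mem_lat_smul A K L B _ (hc₀ b)
  · -- products
    intro σ τ
    refine ⟨(σ • α) * (τ • α), ?_⟩
    rw [smul_comm σ, smul_comm τ, Algebra.smul_def, Algebra.smul_def, map_pow]
    ring
  · -- units
    intro t ht
    have hle : lat (L ≃ₐ[K] L) A (π ^ (c₀ + 1) • α) ≤ (maximalIdeal B).restrictScalars A := by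
      unfold lat
      rw [Submodule.span_le]
      rintro _ ⟨σ, rfl⟩
      show σ • (π ^ (c₀ + 1) • α) ∈ maximalIdeal B
      rw [smul_comm σ, Algebra.smul_def, map_pow, pow_succ, mul_assoc]
      exact Ideal.mul_mem_left _ _ (Ideal.mul_mem_right _ _ hϖm)
    have htm : t ∈ maximalIdeal B := hle ht
    have := isUnit_one_sub_self_of_mem_nonunits (-t) (by
      have : -t ∈ maximalIdeal B := neg_mem htm
      exact this)
    rwa [sub_neg_eq_add] at this

end Lattice

section Adic

variable (A K L B : Type) [CommRing A] [IsDomain A] [IsDiscreteValuationRing A]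
  [Field K] [Algebra A K] [IsFractionRing A K]
  [Field L] [Algebra K L] [FiniteDimensional K L]
  [CommRing B] [IsDomain B] [IsDiscreteValuationRing B]
  [Algebra A B] [Algebra B L] [Algebra A L] [IsScalarTower A K L] [IsScalarTower A B L]
  [IsFractionRing B L] [Module.Finite A B]

include K L in
/-- `𝔪_B ^ (e n) = π ^ n B` -/
theorem maximalIdeal_pow_ramIdx_mul {π : A} (hπ : Irreducible π) (n : ℕ) :
    maximalIdeal B ^ (ramIdx A B * n) = Ideal.span {algebraMap A B π ^ n} := by
  rw [pow_mul, ← map_maximalIdeal_eq A K L B,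
    (IsDiscreteValuationRing.irreducible_iff_uniformizer π).mp hπ, Ideal.map_span,
    Set.image_singleton, Ideal.span_singleton_pow]

include K L in
/-- `π`-adic completeness and separatedness of `B`, from `𝔪_B`-adic completeness -/
theorem adicHyp_of_isAdicComplete [IsAdicComplete (maximalIdeal B) B] {π : A}
    (hπ : Irreducible π) : AdicHyp (algebraMap A B π) := by
  have hϖm := algebraMap_irreducible_mem_maximalIdeal A K L B hπ
  have hmem : ∀ (n : ℕ) (b : B), algebraMap A B π ^ n * b ∈ maximalIdeal B ^ n := fun n b =>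
    Ideal.mul_mem_right _ _ (Ideal.pow_mem_pow hϖm n)
  have htop : ∀ n : ℕ, (maximalIdeal B ^ n • ⊤ : Submodule B B) = maximalIdeal B ^ n := fun n => by
    rw [smul_eq_mul, Ideal.mul_top]
  have he : 1 ≤ ramIdx A B := ramIdx_pos A K L B
  constructor
  · intro f hf
    -- telescoping
    have htel : ∀ n k, ∃ b, f (n + k) - f n = algebraMap A B π ^ n * b := by
      intro n k
      induction k with
      | zero => exact ⟨0, by simp⟩
      | succ k ih =>
        obtain ⟨b, hb⟩ := ih
        obtain ⟨b', hb'⟩ := hf (n + k)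
        refine ⟨algebraMap A B π ^ k * b' + b, ?_⟩
        have e : f (n + (k + 1)) - f n = (f (n + k + 1) - f (n + k)) + (f (n + k) - f n) := by
          rw [← add_assoc]; ring
        rw [e, hb, hb', pow_add]
        ring
    have hcauchy : ∀ {m n}, m ≤ n → f m ≡ f n [SMOD (maximalIdeal B ^ m • ⊤ : Submodule B B)] := by
      intro m n hmn
      obtain ⟨k, rfl⟩ := Nat.exists_eq_add_of_le hmn
      obtain ⟨b, hb⟩ := htel m k
      rw [SModEq.comm, SModEq.sub_mem, htop, hb]
      exact hmem m b
    obtain ⟨Lim, hLim⟩ := IsPrecomplete.prec (I := maximalIdeal B) (M := B) inferInstance hcauchy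
    refine ⟨Lim, fun n => ?_⟩
    obtain ⟨b, hb⟩ := htel n (ramIdx A B * n)
    have h1 := hLim (n + ramIdx A B * n)
    rw [SModEq.comm, SModEq.sub_mem, htop] at h1
    have h2 : Lim - f (n + ramIdx A B * n) ∈ maximalIdeal B ^ (ramIdx A B * n) :=
      Ideal.pow_le_pow_right (Nat.le_add_left _ _) h1
    rw [maximalIdeal_pow_ramIdx_mul A K L B hπ, Ideal.mem_span_singleton'] at h2
    obtain ⟨b', hb'⟩ := h2
    refine ⟨b' + b, ?_⟩
    have e : Lim - f n = (Lim - f (n + ramIdx A B * n)) + (f (n + ramIdx A B * n) - f n) := by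
      ring
    rw [e, hb, ← hb']
    ring
  · intro x hx
    apply IsHausdorff.haus (I := maximalIdeal B) (M := B) inferInstance
    intro n
    obtain ⟨b, hb⟩ := hx n
    rw [SModEq.zero, htop, hb]
    exact hmem n b

end Adic

end Fermat.Agent.CFT.Local.L2
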