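/-
CFT local part (L2) (helper8), part 7: the Herbrand quotient of the units and of the multiplicative
group of a cyclic extension of complete discretely valued fields with finite residue fields.
-/
import Fermat.Agent.CFT.Local.L2_helper8_Exists
import Fermat.Agent.CFT.Coh.Cyclic_helper6_HerbrandCalc
import Fermat.Agent.CFT.Coh.Cyclic_helper6_H1

set_option autoImplicit false
set_option linter.unusedSectionVars false

namespace Fermat.Agent.CFT.Local.L2

open IsLocalRing Fermat.Agent.CFT Fermat.Agent.CFT.Local Fermat.Agent.CFT.Coh CategoryTheory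

attribute [local instance] Units.mulDistribMulActionRight

section FiniteIndex

variable {G : Type} [Group G] [Fintype G] {A B : Type} [CommRing A] [CommRing B] [Algebra A B]
  [IsDomain B] [MulSemiringAction G B] [SMulCommClass G A B] {π : A} {β : B} {c : ℕ}
  (h : LatHyp G π β c)

/-- `1 + M` has finite index in `Bˣ` when `B / π ^ c B` is finite -/
theorem finite_quotient_unitsF [Finite (B ⧸ Ideal.span {algebraMap A B π ^ c})] :
    Finite ((unitsRep G B).V ⧸ unitsF h 0) := by
  let I : Ideal B := Ideal.span {algebraMap A B π ^ c}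
  let f : Bˣ →* (B ⧸ I)ˣ := Units.map (Ideal.Quotient.mk I : B →* B ⧸ I)
  have hker : f.ker ≤ unitsT h 0 := by
    intro u hu
    rw [MonoidHom.mem_ker] at hu
    have h1 : (Ideal.Quotient.mk I) (u : B) = 1 := by
      have := congrArg Units.val hu
      simpa [f] using this
    have h2 : (u : B) - 1 ∈ I := by
      rw [← Ideal.Quotient.eq, h1, map_one]
    obtain ⟨b, hb⟩ := Ideal.mem_span_singleton'.mp h2
    rw [mem_unitsT, latT_zero, ← hb, mul_comm]
    exact h.isOpen b
  have hfi : (unitsT h 0).FiniteIndex := Subgroup.finiteIndex_of_le hker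
  have hfi' : (Subgroup.toAddSubgroup (unitsT h 0)).FiniteIndex :=
    Subgroup.finiteIndex_toAddSubgroup_iff.mpr hfi
  exact AddSubgroup.finite_quotient_of_finiteIndex (H := Subgroup.toAddSubgroup (unitsT h 0))

end FiniteIndex

section Fields

variable (A K L B : Type) [CommRing A] [IsDomain A] [IsDiscreteValuationRing A]
  [Field K] [Algebra A K] [IsFractionRing A K]
  [Field L] [Algebra K L] [FiniteDimensional K L] [IsGalois K L]
  [CommRing B] [IsDomain B] [IsDiscreteValuationRing B]
  [Algebra A B] [Algebra B L] [Algebra A L] [IsScalarTower A K L] [IsScalarTower A B L]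
  [IsFractionRing B L] [Module.Finite A B]
  [MulSemiringAction (L ≃ₐ[K] L) B] [SMulCommClass (L ≃ₐ[K] L) A B]
  (hcompat : ∀ (σ : L ≃ₐ[K] L) (b : B), algebraMap B L (σ • b) = σ (algebraMap B L b))

/-- the inclusion `Bˣ → Lˣ` as a morphism of representations of `Gal(L/K)` -/
noncomputable def unitsIncl : unitsRep (L ≃ₐ[K] L) B ⟶ Rep.ofAlgebraAutOnUnits K L :=
  Rep.ofHom ⟨(MonoidHom.toAdditive (Units.map (algebraMap B L : B →* L))).toIntLinearMap,
    fun σ => by
      apply LinearMap.ext
      intro v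
      apply Additive.toMul.injective
      apply Units.ext
      exact hcompat σ ((Additive.toMul (α := Bˣ) v : Bˣ) : B)⟩

/-- `ord_B` as an additive map on (the additive version of) `Lˣ` -/
noncomputable def ordAddHom : Additive Lˣ →+ ℤ where
  toFun x := ord B ((Additive.toMul x : Lˣ) : L)
  map_zero' := ord_one B
  map_add' x y := ord_mul B (Additive.toMul x : Lˣ).ne_zero (Additive.toMul y : Lˣ).ne_zero

include A in
/-- `ord_B : Lˣ → ℤ` as a morphism of representations of `Gal(L/K)` -/
noncomputable def ordRepHom [IsLocalHom (algebraMap A B)] :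
    Rep.ofAlgebraAutOnUnits K L ⟶ Rep.trivial ℤ (L ≃ₐ[K] L) ℤ :=
  Rep.ofHom ⟨(ordAddHom L B).toIntLinearMap, fun σ => by
    apply LinearMap.ext
    intro v
    exact ord_algEquiv A K L B σ ((Additive.toMul (α := Lˣ) v : Lˣ) : L)⟩

theorem unitsIncl_injective : Function.Injective (unitsIncl K L B hcompat).hom := by
  intro x y hxy
  apply Additive.toMul.injective
  have h1 : Units.map (algebraMap B L : B →* L) (Additive.toMul (α := Bˣ) x) =
      Units.map (algebraMap B L : B →* L) (Additive.toMul (α := Bˣ) y) :=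
    congrArg (Additive.toMul (α := Lˣ)) hxy
  exact Units.map_injective (IsFractionRing.injective B L) h1

include A in
theorem ordRepHom_surjective [IsLocalHom (algebraMap A B)] :
    Function.Surjective (ordRepHom A K L B).hom := by
  intro n
  obtain ⟨x, hx⟩ := ordHom_surjective B (F := L) (Multiplicative.ofAdd (n : ℤ))
  exact ⟨Additive.ofMul x, congrArg Multiplicative.toAdd hx⟩

include A in
theorem unitsIncl_ordRepHom_exact [IsLocalHom (algebraMap A B)] :
    Function.Exact (unitsIncl K L B hcompat).hom (ordRepHom A K L B).hom := by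
  intro y
  constructor
  · intro hy
    have h1 : ord B ((Additive.toMul (α := Lˣ) y : Lˣ) : L) = 0 := hy
    obtain ⟨u, hu⟩ := (mem_unitGroup_iff_exists B).mp ((mem_unitGroup_iff B).mpr h1)
    refine ⟨Additive.ofMul u, ?_⟩
    apply Additive.toMul.injective
    apply Units.ext
    exact hu
  · rintro ⟨x, rfl⟩
    have h1 : Units.map (algebraMap B L : B →* L) (Additive.toMul (α := Bˣ) x) ∈
        unitGroup B L := (mem_unitGroup_iff_exists B).mpr ⟨Additive.toMul (α := Bˣ) x, rfl⟩
    exact (mem_unitGroup_iff B).mp h1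

include A hcompat in
/-- **(L2), abstract-action form**: for a cyclic extension of complete discretely valued fields
with finite residue fields, `h(𝒪_Lˣ) = 1` and `h(Lˣ) = [L : K]` -/
theorem herbrand_units_and_mul_aux [IsLocalHom (algebraMap A B)] [Finite (ResidueField A)]
    [IsAdicComplete (maximalIdeal B) B] {g : L ≃ₐ[K] L} (hg : ∀ σ, σ ∈ Subgroup.zpowers g) :
    (HerbrandFinite (unitsRep (L ≃ₐ[K] L) B) ∧ herbrand (unitsRep (L ≃ₐ[K] L) B) = 1) ∧
      (HerbrandFinite (Rep.ofAlgebraAutOnUnits K L) ∧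
        herbrand (Rep.ofAlgebraAutOnUnits K L) = Module.finrank K L) := by
  classical
  let _ : Fintype (L ≃ₐ[K] L) := Fintype.ofFinite _
  obtain ⟨π, β, c, hπ, hL⟩ := exists_latHyp A K L B hcompat
  have hA := adicHyp_of_isAdicComplete A K L B hπ
  -- the open subgroup `1 + M`
  obtain ⟨hVfin, hV1⟩ := herbrand_unitsF hL hA
  -- finite index
  have hresB : Finite (ResidueField B) := IsLocalRing.ResidueField.finite_of_finite ‹_›
  have hfinq : Finite (B ⧸ Ideal.span {algebraMap A B π ^ c}) := by
    rw [IsLocalRing.finite_quotient_iff]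
    exact ⟨ramIdx A B * c, (maximalIdeal_pow_ramIdx_mul A K L B hπ c).le⟩
  have hfin := finite_quotient_unitsF hL
  have hfin' : Finite ((unitsRep (L ≃ₐ[K] L) B).V ⧸ LinearMap.range
      (Rep.subtype (unitsRep (L ≃ₐ[K] L) B) (unitsF hL 0)
        (unitsF_stable hL 0)).hom.toLinearMap) := by
    have e : LinearMap.range (Rep.subtype (unitsRep (L ≃ₐ[K] L) B) (unitsF hL 0)
        (unitsF_stable hL 0)).hom.toLinearMap = unitsF hL 0 := Submodule.range_subtype _
    rw [e]
    exact hfin
  obtain ⟨hiff, heq⟩ := herbrand_eq_of_finite_coker hg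
    (Rep.subtype (unitsRep (L ≃ₐ[K] L) B) (unitsF hL 0) (unitsF_stable hL 0))
    Subtype.val_injective
  have hUfin : HerbrandFinite (unitsRep (L ≃ₐ[K] L) B) := hiff.mp hVfin
  have hU1 : herbrand (unitsRep (L ≃ₐ[K] L) B) = 1 := (heq hVfin).trans hV1
  refine ⟨⟨hUfin, hU1⟩, ?_⟩
  -- the exact sequence `1 → Bˣ → Lˣ → ℤ → 0`
  obtain ⟨h0, hX⟩ := shortExact_mk (unitsIncl K L B hcompat) (ordRepHom A K L B)
    (unitsIncl_injective K L B hcompat) (ordRepHom_surjective A K L B)
    (unitsIncl_ordRepHom_exact A K L B hcompat)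
  obtain ⟨hZfin, hZ, -, -⟩ := herbrand_trivial_int (G := L ≃ₐ[K] L)
  obtain ⟨hCfin, hC⟩ := herbrand_mul₁₃ hX hg hUfin hZfin
  refine ⟨hCfin, ?_⟩
  have hC' : herbrand (Rep.ofAlgebraAutOnUnits K L) =
      herbrand (unitsRep (L ≃ₐ[K] L) B) * herbrand (Rep.trivial ℤ (L ≃ₐ[K] L) ℤ) := hC
  rw [hC', hU1, hZ, one_mul, IsGalois.card_aut_eq_finrank]

end Fields

section Final

variable (A K L B : Type) [CommRing A] [IsDomain A] [IsDiscreteValuationRing A]
  [Field K] [Algebra A K] [IsFractionRing A K]
  [Field L] [Algebra K L] [FiniteDimensional K L] [IsGalois K L]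
  [CommRing B] [IsDomain B] [IsDiscreteValuationRing B]
  [Algebra A B] [Algebra B L] [Algebra A L] [IsScalarTower A K L] [IsScalarTower A B L]
  [IsFractionRing B L] [Module.Finite A B] [IsIntegralClosure B A L]
  [Finite (ResidueField A)] [IsAdicComplete (maximalIdeal B) B]

/-- the action of `Gal(L/K)` on the ring of integers `B` (through `galRestrict`) -/
@[reducible] noncomputable def galActionB : MulSemiringAction (L ≃ₐ[K] L) B :=
  MulSemiringAction.compHom B (galRestrict A K L B).toMonoidHom

include A B in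
/-- **(L2)**: for a cyclic extension `L/K` of complete discretely valued fields with finite
residue fields, `h(Lˣ) = [L : K]` -/
theorem herbrand_ofAlgebraAutOnUnits {g : L ≃ₐ[K] L} (hg : ∀ σ, σ ∈ Subgroup.zpowers g) :
    HerbrandFinite (Rep.ofAlgebraAutOnUnits K L) ∧
      herbrand (Rep.ofAlgebraAutOnUnits K L) = Module.finrank K L := by
  let _ := galActionB A K L B
  have : SMulCommClass (L ≃ₐ[K] L) A B := ⟨fun σ a b => by
    show galRestrict A K L B σ (a • b) = a • galRestrict A K L B σ b
    rw [map_smul]⟩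
  have := isLocalHom' A K L B
  exact (herbrand_units_and_mul_aux A K L B
    (fun σ b => algebraMap_galRestrict_apply A σ b) hg).2

include A B in
/-- **(L2)**: `|Ĥ⁰(Gal(L/K), Lˣ)| = [Kˣ : N Lˣ] = [L : K]` for a cyclic extension of complete
discretely valued fields with finite residue fields -/
theorem card_tateH0_ofAlgebraAutOnUnits {g : L ≃ₐ[K] L} (hg : ∀ σ, σ ∈ Subgroup.zpowers g) :
    Finite (TateH0 (Rep.ofAlgebraAutOnUnits K L)) ∧
      Nat.card (TateH0 (Rep.ofAlgebraAutOnUnits K L)) = Module.finrank K L := by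
  obtain ⟨hfin, hh⟩ := herbrand_ofAlgebraAutOnUnits A K L B hg
  refine ⟨hfin.1, ?_⟩
  have h1 : Nat.card (TateHm1 (Rep.ofAlgebraAutOnUnits K L)) = 1 := by
    rw [← Nat.card_congr (H1EquivTateHm1 hg (Rep.ofAlgebraAutOnUnits K L)).toEquiv]
    exact Nat.card_unique
  rw [herbrand_eq_iff hfin, h1, Nat.cast_one, mul_one] at hh
  exact_mod_cast hh

include K L in
/-- **(L2), units**: `h(𝒪_Lˣ) = 1` (the action of `Gal(L/K)` on `B` is `galActionB`) -/
theorem herbrand_unitsRep {g : L ≃ₐ[K] L} (hg : ∀ σ, σ ∈ Subgroup.zpowers g) :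
    HerbrandFinite (@unitsRep (L ≃ₐ[K] L) B _ _ (galActionB A K L B)) ∧
      herbrand (@unitsRep (L ≃ₐ[K] L) B _ _ (galActionB A K L B)) = 1 := by
  let _ := galActionB A K L B
  have : SMulCommClass (L ≃ₐ[K] L) A B := ⟨fun σ a b => by
    show galRestrict A K L B σ (a • b) = a • galRestrict A K L B σ b
    rw [map_smul]⟩
  have := isLocalHom' A K L B
  exact (herbrand_units_and_mul_aux A K L B
    (fun σ b => algebraMap_galRestrict_apply A σ b) hg).1

end Final

end Fermat.Agent.CFT.Local.L2
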