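/-
CFT (G1)/(G2), helper2: the Herbrand quotients of `Lˣ` and of the units of the valuation ring for
a cyclic extension `L/K` of finite extensions of `ℚ_[p]` (from helper8's (L2) through helper7's
bridge (L6)), with the units of the valuation ring as a SUBGROUP of `Lˣ`; cohomological
triviality of the units in the unramified case ((L1c)).
-/
import Fermat.Agent.CFT.Local.L2_helper8_Main
import Fermat.Agent.CFT.Local.L6_helper7
import Fermat.Agent.CFT.Coh.Transport_helper2
import Fermat.Agent.CFT.Coh.MulTate_helper2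

set_option autoImplicit false
set_option linter.unusedSectionVars false

namespace Fermat.Agent.CFT.Local

open Fermat.Agent.CFT.Coh
open scoped Fermat.Agent.CFT.Local.PadicBridge

section Tower

variable (p : ℕ) [Fact p.Prime] (K L : Type) [Field K] [Algebra ℚ_[p] K]
  [FiniteDimensional ℚ_[p] K] [Algebra ℤ_[p] K] [IsScalarTower ℤ_[p] ℚ_[p] K]
  [Field L] [Algebra ℚ_[p] L] [FiniteDimensional ℚ_[p] L] [Algebra ℤ_[p] L]
  [IsScalarTower ℤ_[p] ℚ_[p] L] [Algebra K L] [IsScalarTower ℚ_[p] K L] [IsScalarTower ℤ_[p] K L]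
  [FiniteDimensional K L] [IsGalois K L]

/-- the units of the valuation ring of `L`, as a subgroup of `Lˣ`. -/
noncomputable def padicIntUnits : Subgroup Lˣ := (padicInts p L).toSubmonoid.units

variable {p L} in
lemma mem_padicIntUnits_iff {z : Lˣ} : z ∈ padicIntUnits p L ↔
    (z : L) ∈ padicInts p L ∧ ((z⁻¹ : Lˣ) : L) ∈ padicInts p L :=
  Submonoid.mem_units_iff _ _

variable {p K L} in
lemma algEquiv_mem_padicInts_iff (σ : L ≃ₐ[K] L) {x : L} :
    σ x ∈ padicInts p L ↔ x ∈ padicInts p L := by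
  constructor
  · intro h
    have := IsIntegral.map (R := ℤ_[p]) (A := K) σ.symm h
    rwa [AlgEquiv.symm_apply_apply] at this
  · intro h
    exact IsIntegral.map (R := ℤ_[p]) (A := K) σ h

variable {p K L} in
lemma smul_mem_padicIntUnits_iff (σ : L ≃ₐ[K] L) {z : Lˣ} :
    σ • z ∈ padicIntUnits p L ↔ z ∈ padicIntUnits p L := by
  rw [mem_padicIntUnits_iff, mem_padicIntUnits_iff, ← smul_inv']
  exact and_congr (algEquiv_mem_padicInts_iff σ) (algEquiv_mem_padicInts_iff σ)

/-- the Galois action on the units of the valuation ring. -/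
noncomputable instance padicIntUnitsAction : MulDistribMulAction (L ≃ₐ[K] L) (padicIntUnits p L) where
  smul σ z := ⟨σ • z.1, (smul_mem_padicIntUnits_iff σ).2 z.2⟩
  one_smul z := Subtype.ext (one_smul _ z.1)
  mul_smul σ τ z := Subtype.ext (mul_smul σ τ z.1)
  smul_mul σ y z := Subtype.ext (smul_mul' σ y.1 z.1)
  smul_one σ := Subtype.ext (smul_one σ)

@[simp] lemma coe_smul_padicIntUnits (σ : L ≃ₐ[K] L) (z : padicIntUnits p L) :
    ((σ • z : padicIntUnits p L) : Lˣ) = σ • (z : Lˣ) := rfl

/-- units of the valuation ring as a ring, as elements of the subgroup `padicIntUnits`. -/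
noncomputable def padicIntUnitsEquiv : (padicInts p L)ˣ ≃* padicIntUnits p L where
  toFun u := ⟨Units.map ((padicInts p L).val : padicInts p L →* L) u, by
    rw [mem_padicIntUnits_iff]
    refine ⟨(u : padicInts p L).2, ?_⟩
    rw [← map_inv]
    exact ((u⁻¹ : (padicInts p L)ˣ) : padicInts p L).2⟩
  invFun z := ⟨⟨(z.1 : L), (mem_padicIntUnits_iff.1 z.2).1⟩,
    ⟨((z.1⁻¹ : Lˣ) : L), (mem_padicIntUnits_iff.1 z.2).2⟩,
    Subtype.ext (by simp), Subtype.ext (by simp)⟩
  left_inv u := Units.ext (Subtype.ext rfl)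
  right_inv z := Subtype.ext (Units.ext rfl)
  map_mul' u v := Subtype.ext (map_mul _ u v)

@[simp] lemma coe_padicIntUnitsEquiv (u : (padicInts p L)ˣ) :
    (((padicIntUnitsEquiv p L u : padicIntUnits p L) : Lˣ) : L) = ((u : padicInts p L) : L) := rfl

include p in
/-- **(L2)** in the `p`-adic setting: `h(Lˣ) = [L : K]`. -/
theorem padic_herbrand_units {g : L ≃ₐ[K] L} (hg : ∀ σ, σ ∈ Subgroup.zpowers g) :
    HerbrandFinite (Rep.ofMulDistribMulAction (L ≃ₐ[K] L) Lˣ) ∧
      herbrand (Rep.ofMulDistribMulAction (L ≃ₐ[K] L) Lˣ) = Module.finrank K L :=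
  Local.L2.herbrand_ofAlgebraAutOnUnits (padicInts p K) K L (padicInts p L) hg

/-- the comparison between `Bˣ` with the `galRestrict` action and the subgroup `padicIntUnits`. -/
noncomputable def padicIntUnitsSemiEquiv :
    RepSemiEquiv (@Local.L2.unitsRep (L ≃ₐ[K] L) (padicInts p L) _ _
      (Local.L2.galActionB (padicInts p K) K L (padicInts p L)))
      (Rep.ofMulDistribMulAction (L ≃ₐ[K] L) (padicIntUnits p L)) where
  e := MulEquiv.refl _
  φ := (MulEquiv.toAdditive (padicIntUnitsEquiv p L)).toIntLinearEquiv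
  comm σ v := by
    apply Additive.toMul.injective
    apply Subtype.ext
    apply Units.ext
    exact algebraMap_galRestrict_apply (padicInts p K) σ
      ((Additive.toMul (α := (padicInts p L)ˣ) v : (padicInts p L)ˣ) : padicInts p L)

/-- **(L2), units** in the `p`-adic setting: `h(𝒪_Lˣ) = 1`. -/
theorem padic_herbrand_intUnits {g : L ≃ₐ[K] L} (hg : ∀ σ, σ ∈ Subgroup.zpowers g) :
    HerbrandFinite (Rep.ofMulDistribMulAction (L ≃ₐ[K] L) (padicIntUnits p L)) ∧
      herbrand (Rep.ofMulDistribMulAction (L ≃ₐ[K] L) (padicIntUnits p L)) = 1 := by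
  obtain ⟨h1, h2⟩ := Local.L2.herbrand_unitsRep (padicInts p K) K L (padicInts p L) hg
  exact ⟨(padicIntUnitsSemiEquiv p K L).herbrandFinite_iff.1 h1,
    (padicIntUnitsSemiEquiv p K L).herbrand_eq.symm.trans h2⟩

/-- **(L1c)+(L2)**: in the unramified case the units of the valuation ring are cohomologically
trivial: `Ĥ⁰ = Ĥ⁻¹ = 0`. -/
theorem padic_tate_intUnits_of_unramified
    (h : ramIdx (padicInts p K) (padicInts p L) = 1)
    {g : L ≃ₐ[K] L} (hg : ∀ σ, σ ∈ Subgroup.zpowers g) :
    Subsingleton (TateH0 (Rep.ofMulDistribMulAction (L ≃ₐ[K] L) (padicIntUnits p L))) ∧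
      Subsingleton (TateHm1 (Rep.ofMulDistribMulAction (L ≃ₐ[K] L) (padicIntUnits p L))) := by
  have h0 : Subsingleton (TateH0 (Rep.ofMulDistribMulAction (L ≃ₐ[K] L) (padicIntUnits p L))) := by
    rw [MulTate.tateH0_subsingleton_iff]
    intro z hz
    -- `z` comes from `K`
    have hzK : ((z : Lˣ) : L) ∈ (⊥ : IntermediateField K L) := by
      rw [IsGalois.mem_bot_iff_fixed]
      intro σ
      exact congrArg (fun y : padicIntUnits p L => ((y : Lˣ) : L)) (hz σ)
    obtain ⟨a, ha⟩ := IntermediateField.mem_bot.1 hzK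
    have hinj := (algebraMap K L).injective
    have ha0 : a ≠ 0 := by
      rintro rfl
      rw [map_zero] at ha
      exact (z : Lˣ).ne_zero ha.symm
    have haint : a ∈ padicInts p K := by
      have : algebraMap K L a ∈ padicInts p L := by rw [ha]; exact (mem_padicIntUnits_iff.1 z.2).1
      exact (isIntegral_algebraMap_iff hinj).1 this
    have haint' : a⁻¹ ∈ padicInts p K := by
      have : algebraMap K L a⁻¹ ∈ padicInts p L := by
        rw [map_inv₀, ha, ← Units.val_inv_eq_inv_val]; exact (mem_padicIntUnits_iff.1 z.2).2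
      exact (isIntegral_algebraMap_iff hinj).1 this
    let u : (padicInts p K)ˣ := ⟨⟨a, haint⟩, ⟨a⁻¹, haint'⟩,
      Subtype.ext (mul_inv_cancel₀ ha0), Subtype.ext (inv_mul_cancel₀ ha0)⟩
    obtain ⟨w, hw⟩ := padicInts_norm_units_surjective' p K L h u
    refine ⟨padicIntUnitsEquiv p L w, ?_⟩
    apply Subtype.ext
    apply Units.ext
    rw [Subgroup.val_finsetProd, Units.coe_prod, ← ha]
    have hu : ((u : padicInts p K) : K) = a := rfl
    rw [← hu, ← hw, Algebra.norm_eq_prod_automorphisms]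
    rfl
  refine ⟨h0, ?_⟩
  obtain ⟨hfin, h1⟩ := padic_herbrand_intUnits p K L hg
  exact tateHm1_subsingleton_of_herbrand_eq_one hfin h1

end Tower

end Fermat.Agent.CFT.Local
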