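/-
CFT local part (L1a): cyclotomic extensions `K(ζ_m)/K` with `m` prime to the residue
characteristic are unramified, cyclic, generated by the Frobenius.
-/
import Mathlib
import Fermat.Agent.CFT.Local.Basic
import Fermat.Agent.CFT.Local.Ramification

set_option autoImplicit false
set_option linter.unusedSectionVars false
set_option linter.style.haveILetI false

namespace Fermat.Agent.CFT.Local

open IsLocalRing Polynomial

/-- The cardinality `q` of the residue field. -/
noncomputable abbrev resCard (A : Type*) [CommRing A] [IsLocalRing A] : ℕ :=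
  Nat.card (ResidueField A)

/-- Reduction of a primitive `m`-th root of unity modulo the maximal ideal is primitive when
`m` is a unit. -/
theorem isPrimitiveRoot_residue {B : Type*} [CommRing B] [IsDomain B] [IsLocalRing B] {m : ℕ}
    (hm : IsUnit (m : B)) {z : B} (hz : IsPrimitiveRoot z m) :
    IsPrimitiveRoot (residue B z) m := by
  haveI : NeZero (m : B) := ⟨hm.ne_zero⟩
  haveI : NeZero (m : ResidueField B) := ⟨by
    have := (hm.map (residue B)).ne_zero
    simpa using this⟩
  have h1 : IsRoot (cyclotomic m B) z := (isRoot_cyclotomic_iff).mpr hz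
  have h2 : IsRoot ((cyclotomic m B).map (residue B)) (residue B z) := h1.map
  rw [map_cyclotomic] at h2
  exact isRoot_cyclotomic_iff.mp h2

/-- Automorphisms of a finite field over a subfield are powers of the Frobenius. -/
theorem exists_pow_card_pow_of_algEquiv {k k' : Type*} [Field k] [Field k'] [Algebra k k']
    [Finite k'] (τ : k' ≃ₐ[k] k') : ∃ j : ℕ, ∀ x : k', τ x = x ^ (Nat.card k ^ j) := by
  haveI := Finite.of_injective _ (algebraMap k k').injective
  letI := Fintype.ofFinite k
  obtain ⟨j, hj⟩ := (FiniteField.bijective_frobeniusAlgEquivOfAlgebraic_pow k k').2 τ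
  refine ⟨j.1, fun x => ?_⟩
  rw [← hj]
  simp only [AlgEquiv.coe_pow, FiniteField.coe_frobeniusAlgEquivOfAlgebraic_iterate,
    Nat.card_eq_fintype_card]

theorem _root_.IsPrimitiveRoot.pow_eq_pow_iff_modEq' {M : Type*} [CommMonoid M] {ζ : M} {k : ℕ}
    (h : IsPrimitiveRoot ζ k) (hk : k ≠ 0) (a b : ℕ) : ζ ^ a = ζ ^ b ↔ a ≡ b [MOD k] := by
  have h1 : ∀ n, ζ ^ (n % k) = ζ ^ n := fun n => by
    conv_rhs => rw [← Nat.mod_add_div n k, pow_add, pow_mul, h.pow_eq_one, one_pow, mul_one]
  constructor
  · intro hab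
    rw [← h1 a, ← h1 b] at hab
    exact h.pow_inj (Nat.mod_lt _ (Nat.pos_of_ne_zero hk)) (Nat.mod_lt _ (Nat.pos_of_ne_zero hk)) hab
  · intro hab
    rw [← h1 a, ← h1 b, hab]

section

variable (A K L B : Type*) [CommRing A] [IsDomain A] [IsDiscreteValuationRing A]
  [Field K] [Algebra A K] [IsFractionRing A K]
  [Field L] [Algebra K L] [FiniteDimensional K L]
  [CommRing B] [IsDomain B] [IsDiscreteValuationRing B]
  [Algebra A B] [Algebra B L] [Algebra A L] [IsScalarTower A K L] [IsScalarTower A B L]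
  [IsIntegralClosure B A L] [IsFractionRing B L] [Module.Finite A B] [IsLocalHom (algebraMap A B)]
  [Finite (ResidueField A)]

include A K in
/-- Data extracted from a cyclotomic extension: a primitive root in `B`. -/
theorem exists_isPrimitiveRoot_integers (m : ℕ) (hm0 : m ≠ 0) [IsCyclotomicExtension {m} K L] :
    ∃ z : B, IsPrimitiveRoot z m ∧ IsPrimitiveRoot (algebraMap B L z) m := by
  obtain ⟨ζ, hζ⟩ := IsCyclotomicExtension.exists_isPrimitiveRoot K L (Set.mem_singleton m) hm0
  have hint : IsIntegral A ζ := by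
    apply IsIntegral.of_pow (Nat.pos_of_ne_zero hm0)
    rw [hζ.pow_eq_one]
    exact isIntegral_one
  obtain ⟨z, hz⟩ := (IsIntegralClosure.isIntegral_iff (A := B)).mp hint
  refine ⟨z, ?_, hz ▸ hζ⟩
  exact IsPrimitiveRoot.of_map_of_injective (f := algebraMap B L) (hz ▸ hζ)
    (IsFractionRing.injective B L)

include K L in
/-- The residue field of `B` contains a primitive `m`-th root of unity, hence `m ∣ q^f - 1`. -/
theorem natCast_resCard_pow_resDeg (m : ℕ) (hm : IsUnit (m : A)) [IsCyclotomicExtension {m} K L] :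
    ((resCard A : ℕ) : ZMod m) ^ resDeg A B = 1 := by
  have hm0 : m ≠ 0 := by rintro rfl; simp at hm
  obtain ⟨z, hz, -⟩ := exists_isPrimitiveRoot_integers A K L B m hm0
  have hmB : IsUnit (m : B) := by simpa using hm.map (algebraMap A B)
  have hzbar := isPrimitiveRoot_residue hmB hz
  haveI : Finite (ResidueField B) := IsLocalRing.ResidueField.finite_of_finite ‹_›
  have hcard : Nat.card (ResidueField B) = resCard A ^ resDeg A B := card_residueField A B
  have hne : residue B z ≠ 0 := hzbar.ne_zero hm0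
  have h1 : residue B z ^ (resCard A ^ resDeg A B - 1) = 1 := by
    letI := Fintype.ofFinite (ResidueField B)
    rw [← hcard, Nat.card_eq_fintype_card]
    exact FiniteField.pow_card_sub_one_eq_one _ hne
  have hdvd : m ∣ resCard A ^ resDeg A B - 1 := hzbar.dvd_of_pow_eq_one _ h1
  have hpos : 1 ≤ resCard A ^ resDeg A B := Nat.one_le_pow _ _ Nat.card_pos
  have : ((resCard A ^ resDeg A B - 1 : ℕ) : ZMod m) = 0 :=
    (ZMod.natCast_eq_zero_iff _ _).mpr hdvd
  rw [Nat.cast_sub hpos, Nat.cast_pow, Nat.cast_one, sub_eq_zero] at this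
  exact this

/-- Every `K`-automorphism of `L` acts on the residue field of `B` as a power of the
`q`-Frobenius, and accordingly on the `m`-th roots of unity (`m` prime to `p`). -/
theorem exists_frobenius_pow_of_algEquiv (σ : L ≃ₐ[K] L) :
    ∃ j : ℕ, (∀ b : B, residue B (galRestrict A K L B σ b) = residue B b ^ (resCard A ^ j)) ∧
      ∀ (m : ℕ) (_ : IsUnit (m : A)) (z : B) (_ : IsPrimitiveRoot z m),
        σ (algebraMap B L z) = algebraMap B L z ^ (resCard A ^ j) := by
  haveI : Finite (ResidueField B) := IsLocalRing.ResidueField.finite_of_finite ‹_›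
  set σ' := galRestrict A K L B σ with hσ'
  obtain ⟨j, hj⟩ := exists_pow_card_pow_of_algEquiv (ResidueField.mapAlgEquiv' σ')
  have hres : ∀ b : B, residue B (σ' b) = residue B b ^ (resCard A ^ j) := fun b => by
    rw [← hj, ResidueField.mapAlgEquiv'_residue]
  refine ⟨j, hres, fun m hm z hz => ?_⟩
  have hm0 : m ≠ 0 := by rintro rfl; simp at hm
  haveI : NeZero m := ⟨hm0⟩
  have hmB : IsUnit (m : B) := by simpa using hm.map (algebraMap A B)
  have hzbar := isPrimitiveRoot_residue hmB hz
  have hσz : (σ' z) ^ m = 1 := by rw [← map_pow, hz.pow_eq_one, map_one]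
  obtain ⟨a, -, ha⟩ := hz.eq_pow_of_pow_eq_one hσz
  have h1 : residue B z ^ a = residue B z ^ (resCard A ^ j) := by
    rw [← map_pow, ha, hres]
  have h2 : a ≡ resCard A ^ j [MOD m] := (hzbar.pow_eq_pow_iff_modEq' hm0 _ _).mp h1
  have h3 : z ^ a = z ^ (resCard A ^ j) := (hz.pow_eq_pow_iff_modEq' hm0 _ _).mpr h2
  rw [← algebraMap_galRestrict_apply A σ z, ← hσ', ← ha, h3, map_pow]

include A B in
/-- Key counting step: the Galois group of a cyclotomic extension (`m` prime to `p`) injects into
the powers of `q` in `(ZMod m)ˣ`. -/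
theorem card_aut_le_orderOf (m : ℕ) (hm : IsUnit (m : A)) [IsCyclotomicExtension {m} K L] :
    Nat.card (L ≃ₐ[K] L) ≤ orderOf ((resCard A : ℕ) : ZMod m) := by
  have hm0 : m ≠ 0 := by rintro rfl; simp at hm
  haveI : NeZero m := ⟨hm0⟩
  obtain ⟨z, hz, hζ⟩ := exists_isPrimitiveRoot_integers A K L B m hm0
  have hq1 := natCast_resCard_pow_resDeg A K L B m hm
  have hf := resDeg_pos A B
  have hqu : IsUnit ((resCard A : ℕ) : ZMod m) := IsUnit.of_pow_eq_one hq1 hf.ne'
  set uq := hqu.unit with huq
  have hmem : ∀ σ : L ≃ₐ[K] L, hζ.autToPow K σ ∈ Subgroup.zpowers uq := by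
    intro σ
    obtain ⟨j, -, hj⟩ := exists_frobenius_pow_of_algEquiv A K L B σ
    have h1 := hj m hm z hz
    have h2 := hζ.autToPow_spec K σ
    rw [h1, hζ.pow_eq_pow_iff_modEq' hm0] at h2
    have h3 : hζ.autToPow K σ = uq ^ j := by
      apply Units.ext
      rw [Units.val_pow_eq_pow_val, huq, IsUnit.unit_spec]
      have := (ZMod.natCast_eq_natCast_iff _ _ _).mpr h2
      rw [ZMod.natCast_zmod_val] at this
      rw [this]; push_cast; rfl
    rw [h3]
    exact Subgroup.pow_mem _ (Subgroup.mem_zpowers uq) j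
  let g : (L ≃ₐ[K] L) → Subgroup.zpowers uq := fun σ => ⟨hζ.autToPow K σ, hmem σ⟩
  have hg : Function.Injective g := by
    intro σ τ h
    exact hζ.autToPow_injective K (Subtype.ext_iff.mp h)
  have := Nat.card_le_card_of_injective g hg
  rwa [Nat.card_zpowers, huq, ← orderOf_units, IsUnit.unit_spec] at this


include A B in
theorem isCyclotomicExtension_chain (m : ℕ) (hm : IsUnit (m : A)) [IsCyclotomicExtension {m} K L] :
    ramIdx A B = 1 ∧ resDeg A B = Module.finrank K L ∧
      Module.finrank K L = orderOf ((resCard A : ℕ) : ZMod m) := by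
  have hm0 : m ≠ 0 := by rintro rfl; simp at hm
  haveI : NeZero m := ⟨hm0⟩
  haveI : IsGalois K L := IsCyclotomicExtension.isGalois {m} K L
  have h1 := card_aut_le_orderOf A K L B m hm
  rw [IsGalois.card_aut_eq_finrank] at h1
  have hq1 := natCast_resCard_pow_resDeg A K L B m hm
  have hf := resDeg_pos A B
  have he := ramIdx_pos A K L B
  have h2 : orderOf ((resCard A : ℕ) : ZMod m) ≤ resDeg A B :=
    Nat.le_of_dvd hf (orderOf_dvd_of_pow_eq_one hq1)
  have h3 := ramIdx_mul_resDeg A K L B
  have h4 : resDeg A B ≤ ramIdx A B * resDeg A B := Nat.le_mul_of_pos_left _ he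
  have h5 : resDeg A B = Module.finrank K L := by omega
  refine ⟨?_, h5, by omega⟩
  rw [← h5] at h3
  exact Nat.eq_of_mul_eq_mul_right hf (by rw [h3, one_mul])

include A B in
/-- (L1a) A cyclotomic extension `K(ζ_m)/K` with `m` prime to the residue characteristic is
unramified. -/
theorem ramIdx_eq_one_of_isCyclotomicExtension (m : ℕ) (hm : IsUnit (m : A))
    [IsCyclotomicExtension {m} K L] : ramIdx A B = 1 :=
  (isCyclotomicExtension_chain A K L B m hm).1

include A B in
theorem resDeg_eq_finrank_of_isCyclotomicExtension (m : ℕ) (hm : IsUnit (m : A))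
    [IsCyclotomicExtension {m} K L] : resDeg A B = Module.finrank K L :=
  (isCyclotomicExtension_chain A K L B m hm).2.1

include A B in
/-- (L1a) The degree of `K(ζ_m)/K` (`m` prime to `p`) is the order of `q` modulo `m`. -/
theorem finrank_eq_orderOf_of_isCyclotomicExtension (m : ℕ) (hm : IsUnit (m : A))
    [IsCyclotomicExtension {m} K L] :
    Module.finrank K L = orderOf ((resCard A : ℕ) : ZMod m) :=
  (isCyclotomicExtension_chain A K L B m hm).2.2


/-- In a finite field with `q^f` elements, `x ^ (q ^ j) = x ^ q` as soon as `f ∣ j - 1`. -/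
theorem pow_card_pow_eq_of_dvd {k : Type*} [Field k] [Finite k] {q f : ℕ}
    (hcard : Nat.card k = q ^ f) {j : ℕ} (hj : f ∣ j) (x : k) : x ^ (q ^ j) = x := by
  letI := Fintype.ofFinite k
  obtain ⟨t, rfl⟩ := hj
  rw [pow_mul, ← hcard, Nat.card_eq_fintype_card]
  exact FiniteField.pow_card_pow t x

include A B in
/-- (L1a) The Frobenius of a cyclotomic extension `K(ζ_m)/K`, `m` prime to `p`: it raises the
`m`-th roots of unity to the `q`-th power, generates the Galois group, and induces `x ↦ x^q` on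
the residue field. -/
theorem exists_frobenius_of_isCyclotomicExtension (m : ℕ) (hm : IsUnit (m : A))
    [IsCyclotomicExtension {m} K L] :
    ∃ φ : L ≃ₐ[K] L, (∀ ζ : L, ζ ^ m = 1 → φ ζ = ζ ^ resCard A) ∧
      (∀ σ : L ≃ₐ[K] L, σ ∈ Subgroup.zpowers φ) ∧
      ∀ b : B, galRestrict A K L B φ b - b ^ resCard A ∈ maximalIdeal B := by
  have hm0 : m ≠ 0 := by rintro rfl; simp at hm
  haveI : NeZero m := ⟨hm0⟩
  haveI : IsGalois K L := IsCyclotomicExtension.isGalois {m} K L
  obtain ⟨z, hz, hζ⟩ := exists_isPrimitiveRoot_integers A K L B m hm0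
  have hq1 := natCast_resCard_pow_resDeg A K L B m hm
  have hf := resDeg_pos A B
  have hqu : IsUnit ((resCard A : ℕ) : ZMod m) := IsUnit.of_pow_eq_one hq1 hf.ne'
  set uq := hqu.unit with huq
  have huqval : (uq : ZMod m) = ((resCard A : ℕ) : ZMod m) := IsUnit.unit_spec hqu
  have hkey : ∀ σ : L ≃ₐ[K] L, ∀ j : ℕ,
      σ (algebraMap B L z) = algebraMap B L z ^ (resCard A ^ j) → hζ.autToPow K σ = uq ^ j := by
    intro σ j h1
    have h2 := hζ.autToPow_spec K σ
    rw [h1, hζ.pow_eq_pow_iff_modEq' hm0] at h2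
    apply Units.ext
    rw [Units.val_pow_eq_pow_val, huqval]
    have := (ZMod.natCast_eq_natCast_iff _ _ _).mpr h2
    rw [ZMod.natCast_zmod_val] at this
    rw [this]; push_cast; rfl
  have hmem : ∀ σ : L ≃ₐ[K] L, hζ.autToPow K σ ∈ Subgroup.zpowers uq := by
    intro σ
    obtain ⟨j, -, hj⟩ := exists_frobenius_pow_of_algEquiv A K L B σ
    rw [hkey σ j (hj m hm z hz)]
    exact Subgroup.pow_mem _ (Subgroup.mem_zpowers uq) j
  let g : (L ≃ₐ[K] L) → Subgroup.zpowers uq := fun σ => ⟨hζ.autToPow K σ, hmem σ⟩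
  have hg : Function.Injective g := by
    intro σ τ h
    exact hζ.autToPow_injective K (Subtype.ext_iff.mp h)
  have hdeg := finrank_eq_orderOf_of_isCyclotomicExtension A K L B m hm
  have hcard : Nat.card (Subgroup.zpowers uq) ≤ Nat.card (L ≃ₐ[K] L) := by
    rw [Nat.card_zpowers, IsGalois.card_aut_eq_finrank, hdeg, ← orderOf_units, huqval]
  obtain ⟨φ, hφ⟩ := (hg.bijective_of_nat_card_le hcard).2 ⟨uq, Subgroup.mem_zpowers uq⟩
  have hφ' : hζ.autToPow K φ = uq := Subtype.ext_iff.mp hφ
  -- action on the primitive root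
  have hφζ : φ (algebraMap B L z) = algebraMap B L z ^ resCard A := by
    have h2 := hζ.autToPow_spec K φ
    rw [hφ', huqval, ZMod.val_natCast] at h2
    rw [← h2, hζ.pow_eq_pow_iff_modEq' hm0]
    exact Nat.mod_modEq _ _
  refine ⟨φ, ?_, ?_, ?_⟩
  · intro ξ hξ
    obtain ⟨i, -, rfl⟩ := hζ.eq_pow_of_pow_eq_one hξ
    rw [map_pow, hφζ, ← pow_mul, ← pow_mul, mul_comm]
  · intro σ
    obtain ⟨k, hk⟩ := Subgroup.mem_zpowers_iff.mp (hmem σ)
    rw [← hφ', ← map_zpow] at hk
    rw [← hζ.autToPow_injective K hk]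
    exact Subgroup.zpow_mem_zpowers φ k
  · intro b
    obtain ⟨j, hres, hj⟩ := exists_frobenius_pow_of_algEquiv A K L B φ
    have h1 := hkey φ j (hj m hm z hz)
    rw [hφ'] at h1
    haveI : Finite (ResidueField B) := IsLocalRing.ResidueField.finite_of_finite ‹_›
    have hcardB : Nat.card (ResidueField B) = resCard A ^ resDeg A B := card_residueField A B
    have hfd : resDeg A B = orderOf uq := by
      rw [resDeg_eq_finrank_of_isCyclotomicExtension A K L B m hm, hdeg, ← orderOf_units, huqval]
    have hpow : residue B b ^ (resCard A ^ j) = residue B b ^ resCard A := by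
      rcases Nat.eq_zero_or_pos j with rfl | hjpos
      · -- uq = 1, so f = 1
        rw [pow_zero] at h1
        have hf1 : resDeg A B = 1 := by rw [hfd, h1, orderOf_one]
        rw [hf1, pow_one] at hcardB
        letI := Fintype.ofFinite (ResidueField B)
        rw [pow_zero, pow_one, ← hcardB, Nat.card_eq_fintype_card, FiniteField.pow_card]
      · obtain ⟨j', rfl⟩ : ∃ j', j = j' + 1 := ⟨j - 1, by omega⟩
        have h2 : uq ^ j' = 1 := by
          have : uq * uq ^ j' = uq * 1 := by rw [mul_one, ← pow_succ']; exact h1.symm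
          exact mul_left_cancel this
        have h3 : resDeg A B ∣ j' := hfd ▸ orderOf_dvd_of_pow_eq_one h2
        rw [pow_succ, pow_mul, pow_card_pow_eq_of_dvd hcardB h3]
    rw [← residue_eq_zero_iff, map_sub, map_pow, hres, hpow, sub_self]

end

end Fermat.Agent.CFT.Local
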