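/-
CFT local part (L1b): an unramified extension of complete discrete valuation rings with finite
residue field is generated by a root of unity of order `q ^ [L:K] - 1` (Hensel / Teichmüller
lift), i.e. it is a cyclotomic extension.
-/
import Mathlib
import Fermat.Agent.CFT.Local.Basic
import Fermat.Agent.CFT.Local.Ramification
import Fermat.Agent.CFT.Local.Unramified

set_option autoImplicit false
set_option linter.unusedSectionVars false
set_option linter.style.haveILetI false

namespace Fermat.Agent.CFT.Local

open IsLocalRing Polynomial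

section Teichmuller

variable {B : Type*} [CommRing B] [IsLocalRing B] [IsAdicComplete (maximalIdeal B) B]
  [Finite (ResidueField B)]

/-- **Teichmüller lift of a generator**: a complete local ring with finite residue field of
cardinality `N` contains a primitive `(N - 1)`-th root of unity whose residue generates the
multiplicative group of the residue field. -/
theorem exists_isPrimitiveRoot_card_sub_one :
    ∃ ζ : B, IsPrimitiveRoot ζ (Nat.card (ResidueField B) - 1) ∧
      IsPrimitiveRoot (residue B ζ) (Nat.card (ResidueField B) - 1) ∧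
      ∀ x : ResidueField B, x ≠ 0 → ∃ j : ℕ, x = residue B ζ ^ j := by
  classical
  letI := Fintype.ofFinite (ResidueField B)
  set N := Nat.card (ResidueField B) with hN
  have hNcard : N = Fintype.card (ResidueField B) := Nat.card_eq_fintype_card
  have hN1 : 1 < N := by rw [hNcard]; exact Fintype.one_lt_card
  -- a generator of the unit group of the residue field
  obtain ⟨g, hg⟩ := IsCyclic.exists_generator (α := (ResidueField B)ˣ)
  have hordg : orderOf g = N - 1 := by
    rw [orderOf_eq_card_of_forall_mem_zpowers hg, Nat.card_units]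
  have hgprim : IsPrimitiveRoot (g : ResidueField B) (N - 1) := by
    have := IsPrimitiveRoot.orderOf g
    rw [hordg] at this
    exact IsPrimitiveRoot.coe_units_iff.mpr this
  have hm0 : N - 1 ≠ 0 := by omega
  -- lift `g` arbitrarily, then correct by Hensel
  obtain ⟨a₀, ha₀⟩ := residue_surjective (R := B) (g : ResidueField B)
  have hNzero : ((N : ℕ) : ResidueField B) = 0 := by
    rw [hNcard]; exact Nat.cast_card_eq_zero _
  have hm1 : (((N - 1 : ℕ) : ℕ) : ResidueField B) = -1 := by
    rw [Nat.cast_sub hN1.le, hNzero, Nat.cast_one, zero_sub]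
  have hens : HenselianRing B (maximalIdeal B) := inferInstance
  obtain ⟨ζ, hζroot, hζ⟩ := hens.is_henselian (X ^ (N - 1) - 1)
    (monic_X_pow_sub_C (1 : B) hm0) a₀ (by
      rw [← residue_eq_zero_iff]
      simp only [eval_sub, eval_pow, eval_X, eval_one, map_sub, map_pow, map_one, ha₀]
      rw [hgprim.pow_eq_one, sub_self]) (by
      change IsUnit (residue B _)
      simp only [derivative_sub, derivative_X_pow, derivative_one, sub_zero, eval_mul, eval_pow,
        eval_X, map_mul, map_pow, ha₀]
      rw [show (eval a₀ (C ((N - 1 : ℕ) : B))) = ((N - 1 : ℕ) : B) from eval_C, map_natCast, hm1]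
      exact (isUnit_one.neg).mul ((Units.isUnit g).pow _))
  have hζpow : ζ ^ (N - 1) = 1 := by
    have := hζroot
    simp only [IsRoot.def, eval_sub, eval_pow, eval_X, eval_one] at this
    exact sub_eq_zero.mp this
  have hres : residue B ζ = g := by
    rw [← ha₀, ← sub_eq_zero, ← map_sub, residue_eq_zero_iff]
    exact hζ
  refine ⟨ζ, ⟨hζpow, fun l hl => ?_⟩, hres ▸ hgprim, fun x hx => ?_⟩
  · have : (g : ResidueField B) ^ l = 1 := by rw [← hres, ← map_pow, hl, map_one]
    exact hgprim.dvd_of_pow_eq_one l this
  · have h1 : Units.mk0 x hx ∈ Submonoid.powers g :=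
      mem_powers_iff_mem_zpowers.mpr (hg (Units.mk0 x hx))
    obtain ⟨j, hj⟩ := Submonoid.mem_powers_iff _ _ |>.mp h1
    refine ⟨j, ?_⟩
    rw [hres, ← Units.val_pow_eq_pow_val, hj, Units.val_mk0]

end Teichmuller

section Main

variable (A K L B : Type*) [CommRing A] [IsDomain A] [IsDiscreteValuationRing A]
  [Field K] [Algebra A K] [IsFractionRing A K]
  [Field L] [Algebra K L] [FiniteDimensional K L]
  [CommRing B] [IsDomain B] [IsDiscreteValuationRing B]
  [Algebra A B] [Algebra B L] [Algebra A L] [IsScalarTower A K L] [IsScalarTower A B L]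
  [IsIntegralClosure B A L] [IsFractionRing B L] [Module.Finite A B] [IsLocalHom (algebraMap A B)]
  [Finite (ResidueField A)] [IsAdicComplete (maximalIdeal B) B]

/-- degree bound: if the residue of `ζ ∈ B` generates the residue field extension, then
`[K(ζ):K] ≥ f`. -/
theorem resDeg_le_natDegree_minpoly (ζ : B)
    (hgen : ∀ x : ResidueField B, x ≠ 0 → ∃ j : ℕ, x = residue B ζ ^ j) :
    resDeg A B ≤ (minpoly K (algebraMap B L ζ)).natDegree := by
  haveI : Algebra.IsIntegral A B := Algebra.IsIntegral.of_finite A B
  have hint : IsIntegral A ζ := Algebra.IsIntegral.isIntegral ζ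
  have hintL : IsIntegral A (algebraMap B L ζ) := hint.map (IsScalarTower.toAlgHom A B L)
  -- the minimal polynomial over `K` comes from `A`
  have h1 : minpoly K (algebraMap B L ζ) = (minpoly A (algebraMap B L ζ)).map (algebraMap A K) :=
    minpoly.isIntegrallyClosed_eq_field_fractions' K hintL
  have h2 : minpoly A (algebraMap B L ζ) = minpoly A ζ :=
    minpoly.algebraMap_eq (IsFractionRing.injective B L) ζ
  have hmonic : (minpoly A ζ).Monic := minpoly.monic hint
  rw [h1, h2, hmonic.natDegree_map]
  -- reduce modulo the maximal ideal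
  set g : ResidueField B := residue B ζ with hg
  have hroot : aeval g ((minpoly A ζ).map (residue A)) = 0 := by
    rw [aeval_def, eval₂_map]
    have hcomp : (algebraMap (ResidueField A) (ResidueField B)).comp (residue A) =
        (residue B).comp (algebraMap A B) := by
      ext a
      simp
    rw [hcomp, hg, ← hom_eval₂, ← aeval_def, minpoly.aeval, map_zero]
  have hdvd := minpoly.dvd (ResidueField A) g hroot
  have hne : (minpoly A ζ).map (residue A) ≠ 0 := (hmonic.map _).ne_zero
  have hle := natDegree_le_of_dvd hdvd hne
  rw [(hmonic).natDegree_map] at hle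
  refine le_trans ?_ hle
  -- `k_A(g) = k_B`
  haveI : Finite (ResidueField B) := IsLocalRing.ResidueField.finite_of_finite ‹_›
  have hgint : IsIntegral (ResidueField A) g := Algebra.IsIntegral.isIntegral g
  have htop : IntermediateField.adjoin (ResidueField A) {g} = ⊤ := by
    rw [eq_top_iff]
    intro x _
    by_cases hx : x = 0
    · rw [hx]; exact zero_mem _
    · obtain ⟨j, rfl⟩ := hgen x hx
      exact pow_mem (IntermediateField.mem_adjoin_simple_self _ g) j
  rw [← IntermediateField.adjoin.finrank hgint, htop, IntermediateField.finrank_top']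
  exact le_rfl

include A B in
/-- **(L1b)** an unramified extension of complete discrete valuation rings with finite residue
field of cardinality `q` is the cyclotomic extension generated by the `(q ^ [L:K] - 1)`-th roots of
unity. -/
theorem isCyclotomicExtension_of_ramIdx_eq_one (h : ramIdx A B = 1) :
    IsCyclotomicExtension {resCard A ^ Module.finrank K L - 1} K L := by
  haveI : Finite (ResidueField B) := IsLocalRing.ResidueField.finite_of_finite ‹_›
  have hf : resDeg A B = Module.finrank K L := by
    have := ramIdx_mul_resDeg A K L B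
    rwa [h, one_mul] at this
  have hcard : Nat.card (ResidueField B) = resCard A ^ Module.finrank K L := by
    rw [card_residueField A B, hf]
  obtain ⟨ζ, hζ, -, hgen⟩ := exists_isPrimitiveRoot_card_sub_one (B := B)
  rw [hcard] at hζ
  set m := resCard A ^ Module.finrank K L - 1 with hm
  have hq : 1 < resCard A := Finite.one_lt_card
  have hn : 0 < Module.finrank K L := Module.finrank_pos
  have hm0 : m ≠ 0 := by
    have : 1 < resCard A ^ Module.finrank K L := Nat.one_lt_pow hn.ne' hq
    omega
  haveI : NeZero m := ⟨hm0⟩
  have hζL : IsPrimitiveRoot (algebraMap B L ζ) m :=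
    hζ.map_of_injective (IsFractionRing.injective B L)
  have hdeg := resDeg_le_natDegree_minpoly A K L B ζ hgen
  have hintK : IsIntegral K (algebraMap B L ζ) := Algebra.IsIntegral.isIntegral _
  rw [hf, ← IntermediateField.adjoin.finrank hintK] at hdeg
  have htop : IntermediateField.adjoin K {algebraMap B L ζ} = ⊤ := by
    apply IntermediateField.eq_of_le_of_finrank_le le_top
    rw [IntermediateField.finrank_top']
    exact hdeg
  rw [IsCyclotomicExtension.iff_singleton]
  refine ⟨⟨_, hζL⟩, fun x => ?_⟩
  have hx : x ∈ (IntermediateField.adjoin K {algebraMap B L ζ}).toSubalgebra := by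
    rw [htop]; exact Algebra.mem_top
  rw [IntermediateField.adjoin_simple_toSubalgebra_of_isAlgebraic hintK.isAlgebraic] at hx
  refine Algebra.adjoin_mono ?_ hx
  intro y hy
  rw [Set.mem_singleton_iff] at hy
  rw [hy]
  exact hζL.pow_eq_one

omit [IsAdicComplete (maximalIdeal B) B] [IsIntegralClosure B A L] in
/-- `q ^ n - 1` is a unit of `A` (`q` the cardinality of the residue field, `n ≥ 1`). -/
theorem isUnit_natCast_resCard_pow_sub_one {n : ℕ} (hn : n ≠ 0) :
    IsUnit (((resCard A ^ n - 1 : ℕ) : ℕ) : A) := by
  classical
  letI := Fintype.ofFinite (ResidueField A)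
  rw [← residue_ne_zero_iff_isUnit, map_natCast]
  have hq0 : ((resCard A : ℕ) : ResidueField A) = 0 := by
    rw [resCard, Nat.card_eq_fintype_card]; exact Nat.cast_card_eq_zero _
  have h1 : 1 ≤ resCard A ^ n := Nat.one_le_pow _ _ Nat.card_pos
  rw [Nat.cast_sub h1, Nat.cast_pow, hq0, zero_pow hn, Nat.cast_one, zero_sub]
  exact neg_ne_zero.mpr one_ne_zero

include A B in
/-- an unramified extension (complete, finite residue field) is Galois. -/
theorem isGalois_of_ramIdx_eq_one (h : ramIdx A B = 1) : IsGalois K L := by
  haveI := isCyclotomicExtension_of_ramIdx_eq_one A K L B h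
  have hn : Module.finrank K L ≠ 0 := Module.finrank_pos.ne'
  have hu := isUnit_natCast_resCard_pow_sub_one A (n := Module.finrank K L) hn
  haveI : NeZero (resCard A ^ Module.finrank K L - 1) := ⟨by
    intro h0; rw [h0] at hu; simp at hu⟩
  exact IsCyclotomicExtension.isGalois {resCard A ^ Module.finrank K L - 1} K L

include A B in
/-- an unramified extension (complete, finite residue field) is cyclic, generated by a Frobenius
element `φ` with `φ b ≡ b ^ q mod 𝔪_B`. -/
theorem exists_frobenius_of_ramIdx_eq_one (h : ramIdx A B = 1) :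
    ∃ φ : L ≃ₐ[K] L, (∀ σ : L ≃ₐ[K] L, σ ∈ Subgroup.zpowers φ) ∧
      ∀ b : B, galRestrict A K L B φ b - b ^ resCard A ∈ maximalIdeal B := by
  haveI := isCyclotomicExtension_of_ramIdx_eq_one A K L B h
  have hn : Module.finrank K L ≠ 0 := Module.finrank_pos.ne'
  have hu := isUnit_natCast_resCard_pow_sub_one A (n := Module.finrank K L) hn
  obtain ⟨φ, -, h2, h3⟩ := exists_frobenius_of_isCyclotomicExtension A K L B
    (resCard A ^ Module.finrank K L - 1) hu
  exact ⟨φ, h2, h3⟩

include A B in
theorem isCyclic_of_ramIdx_eq_one (h : ramIdx A B = 1) : IsCyclic (L ≃ₐ[K] L) := by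
  obtain ⟨φ, hφ, -⟩ := exists_frobenius_of_ramIdx_eq_one A K L B h
  exact ⟨⟨φ, hφ⟩⟩

end Main

end Fermat.Agent.CFT.Local
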