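import Fermat.Agent.CFT.Local.Basic
import Fermat.Agent.CFT.Local.Ramification

/-!
# CFT local (L4): one-line access to the local structure of a finite separable extension

`exists_localExt_instances A K L B` bundles the structure theorem of `Local/Basic.lean`: for `A` a
complete DVR with fraction field `K`, `L/K` finite separable and `B` the integral closure of `A`
in `L`, all the hypotheses of settings S0/S1 hold for `(A, K, L, B)` and `B` is again complete
(with finite residue field if `A` has one).  Use as
`obtain ⟨_, _, _, _, _, _, hres⟩ := exists_localExt_instances A K L B`.
-/

set_option autoImplicit false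

open IsLocalRing

namespace Fermat.Agent.CFT.Local

variable (A K L B : Type*) [CommRing A] [IsDomain A] [IsDiscreteValuationRing A]
  [IsAdicComplete (maximalIdeal A) A]
  [Field K] [Algebra A K] [IsFractionRing A K]
  [Field L] [Algebra K L] [FiniteDimensional K L] [Algebra.IsSeparable K L]
  [CommRing B] [Algebra A B] [Algebra B L] [Algebra A L] [IsScalarTower A K L]
  [IsScalarTower A B L] [IsIntegralClosure B A L]

include K in
theorem exists_localExt_instances :
    ∃ (_ : IsDomain B) (_ : IsDiscreteValuationRing B), IsFractionRing B L ∧ Module.Finite A B ∧
      IsLocalHom (algebraMap A B) ∧ IsAdicComplete (maximalIdeal B) B ∧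
      (Finite (ResidueField A) → Finite (ResidueField B)) := by
  haveI hdom := isDomain A K L B
  haveI hdvr := isDiscreteValuationRing A K L B
  refine ⟨hdom, hdvr, isFractionRing A K L B, moduleFinite A K L B, isLocalHom A K L B,
    isAdicComplete A K L B, fun h => ?_⟩
  exact finite_residueField A K L B

end Fermat.Agent.CFT.Local
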