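import Mathlib
import Fermat.Prelude.Def_ExtEndgame_ProductionDatum
import Fermat.Agent.CFT.Local.IntClosure
import Fermat.Agent.CFT.Local.Kummer_helper1


/-!
# CFT local (PT5.a): the level fields `F·ℚ_q ⊆ PadicAlgCl q` and the module `B_q`

`q` prime, `G_q = Gal(PadicAlgCl q/ℚ_q)`, `ι_q = localGaloisToGlobal q : G_q →* G_ℚ`.
* `localLevel q F : IntermediateField ℚ_[q] (PadicAlgCl q)` := `ℚ_q(padicEmbedding q '' F)`;
  `localLevel_mono`, `localLevel_sup`, `localLevel_le_iff`, `finiteDimensional_localLevel`,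
  `map_localLevel`, `mem_fixingSubgroup_localLevel_iff` / `fixingSubgroup_localLevel`
  (`fixingSubgroup (F·ℚ_q) = ι_q⁻¹(G_F)`), `mem_of_fixed`;
* `IsStableField F` (instance-free normality of `F/ℚ`), `isStableField_of_normal`,
  `exists_finite_stable_ge`, `exists_finite_stable_mem`, `IsStableField.sup`,
  `normal_localLevel`, `isGalois_localLevel`;
* `levelUnits q : Subgroup (PadicAlgCl q)ˣ` (`= B_q`, the units lying in some `F·ℚ_q`),
  `mem_levelUnits_iff`, `mem_levelUnits_iff_stable`, `mem_levelUnits_iff_fixed`, the `G_q`-action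
  (`MulDistribMulAction`), `levelUnitsRep q : Rep ℤ G_q`, `levelUnits_fixed_iff`
  (`B_q^{U_F} = (F·ℚ_q)ˣ`);
* `isIntegral_of_norm_le_one`, `exists_approx_of_mem_adjoin` (density of `F` in `F·ℚ_q`);
* **`exists_pow_eq_levelUnits p hp x : ∃ y : levelUnits q, y ^ p = x`** (`B_q` is divisible).
-/

set_option autoImplicit false
set_option linter.unusedSectionVars false
set_option linter.style.haveILetI false

open IntermediateField Polynomial IsLocalRing

namespace Fermat.Agent.CFT.Local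

instance instIsAlgebraicQbar_h4 : Algebra.IsAlgebraic ℚ (AlgebraicClosure ℚ) :=
  AlgebraicClosure.isAlgebraic ℚ
instance instIsAlgClosureQbar_h4 : IsAlgClosure ℚ (AlgebraicClosure ℚ) :=
  ⟨inferInstance, inferInstance⟩
instance instNormalQbar_h4 : Normal ℚ (AlgebraicClosure ℚ) :=
  IsAlgClosure.normal ℚ (AlgebraicClosure ℚ)

section Levels

variable (q : ℕ) [Fact q.Prime]

/-- The local level field `F·ℚ_q ⊆ PadicAlgCl q` attached to `F ⊆ ℚbar` (via the fixed embedding
`padicEmbedding q`). -/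
noncomputable def localLevel (F : IntermediateField ℚ (AlgebraicClosure ℚ)) :
    IntermediateField ℚ_[q] (PadicAlgCl q) :=
  IntermediateField.adjoin ℚ_[q] ((padicEmbedding q) '' (F : Set (AlgebraicClosure ℚ)))

variable {q}

lemma padicEmbedding_mem_localLevel {F : IntermediateField ℚ (AlgebraicClosure ℚ)}
    {x : AlgebraicClosure ℚ} (hx : x ∈ F) : padicEmbedding q x ∈ localLevel q F :=
  IntermediateField.subset_adjoin _ _ ⟨x, hx, rfl⟩

lemma localLevel_mono {F F' : IntermediateField ℚ (AlgebraicClosure ℚ)} (h : F ≤ F') :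
    localLevel q F ≤ localLevel q F' :=
  IntermediateField.adjoin.mono _ _ _ (Set.image_mono h)

lemma localLevel_le_iff {F : IntermediateField ℚ (AlgebraicClosure ℚ)}
    {L : IntermediateField ℚ_[q] (PadicAlgCl q)} :
    localLevel q F ≤ L ↔ ∀ x ∈ F, padicEmbedding q x ∈ L := by
  rw [localLevel, IntermediateField.adjoin_le_iff]
  constructor
  · intro h x hx
    exact h ⟨x, hx, rfl⟩
  · rintro h _ ⟨x, hx, rfl⟩
    exact h x hx

/-- `τ` fixes `F·ℚ_q` iff its restriction to `ℚbar` fixes `F`. -/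
lemma mem_fixingSubgroup_localLevel_iff (F : IntermediateField ℚ (AlgebraicClosure ℚ))
    (τ : PadicAlgCl q ≃ₐ[ℚ_[q]] PadicAlgCl q) :
    τ ∈ (localLevel q F).fixingSubgroup ↔ localGaloisToGlobal q τ ∈ F.fixingSubgroup := by
  rw [IntermediateField.mem_fixingSubgroup_iff, IntermediateField.mem_fixingSubgroup_iff]
  constructor
  · intro h x hx
    apply (padicEmbedding q).injective
    show padicEmbedding q _ = padicEmbedding q _
    rw [padicEmbedding_localGaloisToGlobal]
    exact h _ (padicEmbedding_mem_localLevel hx)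
  · intro h y hy
    induction hy using IntermediateField.adjoin_induction with
    | mem y hy =>
      obtain ⟨x, hx, rfl⟩ := hy
      rw [← padicEmbedding_localGaloisToGlobal, h x hx]
    | algebraMap c => exact τ.commutes c
    | add y z _ _ hy hz => rw [map_add, hy, hz]
    | inv y _ hy => rw [map_inv₀, hy]
    | mul y z _ _ hy hz => rw [map_mul, hy, hz]

/-- `F·ℚ_q` is generated by the image of a `ℚ`-basis of `F`. -/
lemma localLevel_eq_adjoin_basis {F : IntermediateField ℚ (AlgebraicClosure ℚ)}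
    {ι : Type*} (b : Module.Basis ι ℚ F) :
    localLevel q F = IntermediateField.adjoin ℚ_[q]
      (Set.range fun i => padicEmbedding q (b i : AlgebraicClosure ℚ)) := by
  apply le_antisymm
  · rw [localLevel_le_iff]
    intro x hx
    have this : x = ∑ i ∈ (b.repr ⟨x, hx⟩).support,
        (b.repr ⟨x, hx⟩ i) • ((b i : F) : AlgebraicClosure ℚ) := by
      have h2 := congrArg (fun y : F => (y : AlgebraicClosure ℚ))
        (b.linearCombination_repr ⟨x, hx⟩)
      simp only [Finsupp.linearCombination_apply, Finsupp.sum] at h2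
      refine h2.symm.trans ?_
      rw [AddSubmonoidClass.coe_finsetSum]
      rfl
    rw [this, map_sum]
    refine Subalgebra.sum_mem _ fun i _ => ?_
    rw [Algebra.smul_def, map_mul]
    refine mul_mem ?_ (IntermediateField.subset_adjoin _ _ ⟨i, rfl⟩)
    have : padicEmbedding q (algebraMap ℚ (AlgebraicClosure ℚ) (b.repr ⟨x, hx⟩ i)) =
        algebraMap ℚ_[q] (PadicAlgCl q) (algebraMap ℚ ℚ_[q] (b.repr ⟨x, hx⟩ i)) := by
      rw [AlgHom.commutes]
      exact IsScalarTower.algebraMap_apply ℚ ℚ_[q] (PadicAlgCl q) _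
    rw [this]
    exact IntermediateField.algebraMap_mem _ _
  · apply IntermediateField.adjoin.mono
    rintro _ ⟨i, rfl⟩
    exact ⟨b i, (b i).2, rfl⟩

instance finiteDimensional_localLevel (F : IntermediateField ℚ (AlgebraicClosure ℚ))
    [FiniteDimensional ℚ F] : FiniteDimensional ℚ_[q] (localLevel q F) := by
  rw [localLevel_eq_adjoin_basis (Module.finBasis ℚ F)]
  haveI : Finite (Set.range fun i => padicEmbedding q (Module.finBasis ℚ F i : AlgebraicClosure ℚ)) :=
    Set.finite_range _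
  apply IntermediateField.finiteDimensional_adjoin
  intro x _
  exact Algebra.IsIntegral.isIntegral x

/-- The image of `F·ℚ_q` under `τ` is `(τ|_{ℚbar} F)·ℚ_q`. -/
lemma map_localLevel (F : IntermediateField ℚ (AlgebraicClosure ℚ))
    (τ : PadicAlgCl q ≃ₐ[ℚ_[q]] PadicAlgCl q) :
    (localLevel q F).map (τ : PadicAlgCl q →ₐ[ℚ_[q]] PadicAlgCl q) =
      localLevel q (F.map (localGaloisToGlobal q τ : AlgebraicClosure ℚ →ₐ[ℚ] AlgebraicClosure ℚ)) := by
  rw [localLevel, IntermediateField.adjoin_map, localLevel]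
  congr 1
  ext y
  constructor
  · rintro ⟨_, ⟨x, hx, rfl⟩, rfl⟩
    refine ⟨localGaloisToGlobal q τ x, ⟨x, hx, rfl⟩, ?_⟩
    exact padicEmbedding_localGaloisToGlobal q τ x
  · rintro ⟨_, ⟨x, hx, rfl⟩, rfl⟩
    refine ⟨padicEmbedding q x, ⟨x, hx, rfl⟩, ?_⟩
    exact (padicEmbedding_localGaloisToGlobal q τ x).symm

/-- Stability of `F` under `Gal(ℚbar/ℚ)` (an instance-free way to say that `F/ℚ` is normal). -/
def IsStableField (F : IntermediateField ℚ (AlgebraicClosure ℚ)) : Prop :=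
  ∀ σ : AlgebraicClosure ℚ ≃ₐ[ℚ] AlgebraicClosure ℚ, ∀ x ∈ F, σ x ∈ F

lemma isStableField_of_normal' (F : IntermediateField ℚ (AlgebraicClosure ℚ))
    (h' : @Normal ℚ F _ _ (IntermediateField.algebra' F)) : IsStableField F := by
  intro σ x hx
  have := (IntermediateField.normal_iff_forall_map_le' (K := F)).1 h' σ
  exact this ⟨x, hx, rfl⟩

lemma isStableField_of_normal (F : IntermediateField ℚ (AlgebraicClosure ℚ)) [h : Normal ℚ F] :
    IsStableField F := by
  apply isStableField_of_normal'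
  convert h
  exact Subsingleton.elim _ _

lemma normal_localLevel {F : IntermediateField ℚ (AlgebraicClosure ℚ)} (hF : IsStableField F) :
    Normal ℚ_[q] (localLevel q F) := by
  rw [IntermediateField.normal_iff_forall_map_le']
  intro τ
  rw [map_localLevel]
  apply localLevel_mono
  rintro _ ⟨x, hx, rfl⟩
  exact hF (localGaloisToGlobal q τ) x hx

lemma isGalois_localLevel {F : IntermediateField ℚ (AlgebraicClosure ℚ)} (hF : IsStableField F) :
    IsGalois ℚ_[q] (localLevel q F) :=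
  haveI := normal_localLevel (q := q) hF
  ⟨⟩

lemma exists_finite_stable_ge (F : IntermediateField ℚ (AlgebraicClosure ℚ))
    [FiniteDimensional ℚ F] :
    ∃ F' : IntermediateField ℚ (AlgebraicClosure ℚ), F ≤ F' ∧ FiniteDimensional ℚ F' ∧
      IsStableField F' := by
  refine ⟨IntermediateField.normalClosure ℚ F (AlgebraicClosure ℚ), F.le_normalClosure,
    inferInstance, isStableField_of_normal' _ inferInstance⟩

lemma exists_finite_stable_mem (x : AlgebraicClosure ℚ) :
    ∃ F : IntermediateField ℚ (AlgebraicClosure ℚ), x ∈ F ∧ FiniteDimensional ℚ F ∧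
      IsStableField F := by
  haveI : FiniteDimensional ℚ ℚ⟮x⟯ :=
    IntermediateField.adjoin.finiteDimensional (Algebra.IsIntegral.isIntegral x)
  obtain ⟨F, hle, hfd, hst⟩ := exists_finite_stable_ge ℚ⟮x⟯
  exact ⟨F, hle (IntermediateField.mem_adjoin_simple_self ℚ x), hfd, hst⟩

lemma IsStableField.sup {F F' : IntermediateField ℚ (AlgebraicClosure ℚ)}
    (hF : IsStableField F) (hF' : IsStableField F') : IsStableField (F ⊔ F') := by
  intro σ x hx
  have h1 : (F ⊔ F').map (σ : AlgebraicClosure ℚ →ₐ[ℚ] AlgebraicClosure ℚ) ≤ F ⊔ F' := by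
    rw [IntermediateField.map_sup]
    apply sup_le_sup
    · rintro _ ⟨y, hy, rfl⟩; exact hF σ y hy
    · rintro _ ⟨y, hy, rfl⟩; exact hF' σ y hy
  exact h1 ⟨x, hx, rfl⟩

lemma localLevel_sup (F F' : IntermediateField ℚ (AlgebraicClosure ℚ)) :
    localLevel q (F ⊔ F') = localLevel q F ⊔ localLevel q F' := by
  apply le_antisymm
  · rw [localLevel_le_iff]
    intro x hx
    -- the set of `x` whose image lies in the compositum is an intermediate field
    let T : IntermediateField ℚ (AlgebraicClosure ℚ) :=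
      ((localLevel q F ⊔ localLevel q F').restrictScalars ℚ).comap (padicEmbedding q)
    have hT : F ⊔ F' ≤ T := by
      apply sup_le
      · intro y hy
        exact (le_sup_left : localLevel q F ≤ _) (padicEmbedding_mem_localLevel hy)
      · intro y hy
        exact (le_sup_right : localLevel q F' ≤ _) (padicEmbedding_mem_localLevel hy)
    exact hT hx
  · exact sup_le (localLevel_mono le_sup_left) (localLevel_mono le_sup_right)

/-- `fixingSubgroup (F·ℚ_q)` is the preimage of `fixingSubgroup F` under `G_q → G_ℚ`. -/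
lemma fixingSubgroup_localLevel (F : IntermediateField ℚ (AlgebraicClosure ℚ)) :
    (localLevel q F).fixingSubgroup = F.fixingSubgroup.comap (localGaloisToGlobal q) := by
  ext τ
  rw [mem_fixingSubgroup_localLevel_iff, Subgroup.mem_comap]

/-- An element of `PadicAlgCl q` fixed by the fixing subgroup of `L` lies in `L`. -/
lemma mem_of_fixed (L : IntermediateField ℚ_[q] (PadicAlgCl q)) {x : PadicAlgCl q}
    (hx : ∀ τ ∈ L.fixingSubgroup, τ x = x) : x ∈ L := by
  rw [← InfiniteGalois.fixedField_fixingSubgroup L, IntermediateField.mem_fixedField_iff]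
  exact hx

variable (q) in
/-- `B_q`: the units of `PadicAlgCl q` lying in some `F·ℚ_q`, `F/ℚ` finite. -/
def levelUnits : Subgroup (PadicAlgCl q)ˣ where
  carrier := {x | ∃ F : IntermediateField ℚ (AlgebraicClosure ℚ), FiniteDimensional ℚ F ∧
    (x : PadicAlgCl q) ∈ localLevel q F}
  mul_mem' := by
    rintro x y ⟨F, hF, hx⟩ ⟨F', hF', hy⟩
    refine ⟨F ⊔ F', IntermediateField.finiteDimensional_sup F F', ?_⟩
    rw [Units.val_mul]
    exact mul_mem (localLevel_mono le_sup_left hx) (localLevel_mono le_sup_right hy)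
  one_mem' := ⟨⊥, inferInstance, by rw [Units.val_one]; exact one_mem _⟩
  inv_mem' := by
    rintro x ⟨F, hF, hx⟩
    refine ⟨F, hF, ?_⟩
    rw [Units.val_inv_eq_inv_val]
    exact inv_mem hx

lemma mem_levelUnits_iff {x : (PadicAlgCl q)ˣ} :
    x ∈ levelUnits q ↔ ∃ F : IntermediateField ℚ (AlgebraicClosure ℚ), FiniteDimensional ℚ F ∧
      (x : PadicAlgCl q) ∈ localLevel q F := Iff.rfl

/-- membership can be tested with finite stable (= Galois) fields -/
lemma mem_levelUnits_iff_stable {x : (PadicAlgCl q)ˣ} :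
    x ∈ levelUnits q ↔ ∃ F : IntermediateField ℚ (AlgebraicClosure ℚ), FiniteDimensional ℚ F ∧
      IsStableField F ∧ (x : PadicAlgCl q) ∈ localLevel q F := by
  constructor
  · rintro ⟨F, hF, hx⟩
    obtain ⟨F', hle, hfd, hst⟩ := exists_finite_stable_ge F
    exact ⟨F', hfd, hst, localLevel_mono hle hx⟩
  · rintro ⟨F, hF, -, hx⟩
    exact ⟨F, hF, hx⟩

lemma smul_mem_levelUnits (τ : PadicAlgCl q ≃ₐ[ℚ_[q]] PadicAlgCl q) {x : (PadicAlgCl q)ˣ}
    (hx : x ∈ levelUnits q) : τ • x ∈ levelUnits q := by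
  obtain ⟨F, hF, hst, hx⟩ := mem_levelUnits_iff_stable.1 hx
  refine ⟨F, hF, ?_⟩
  haveI := normal_localLevel (q := q) hst
  have h1 := (IntermediateField.normal_iff_forall_map_le' (K := localLevel q F)).1 inferInstance τ
  exact h1 ⟨x, hx, rfl⟩

noncomputable instance instMulDistribMulActionLevelUnits :
    MulDistribMulAction (PadicAlgCl q ≃ₐ[ℚ_[q]] PadicAlgCl q) (levelUnits q) where
  smul τ x := ⟨τ • (x : (PadicAlgCl q)ˣ), smul_mem_levelUnits τ x.2⟩
  one_smul x := Subtype.ext (one_smul _ (x : (PadicAlgCl q)ˣ))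
  mul_smul σ τ x := Subtype.ext (mul_smul σ τ (x : (PadicAlgCl q)ˣ))
  smul_mul τ x y := Subtype.ext (smul_mul' τ (x : (PadicAlgCl q)ˣ) (y : (PadicAlgCl q)ˣ))
  smul_one τ := Subtype.ext (smul_one τ)

lemma coe_smul_levelUnits (τ : PadicAlgCl q ≃ₐ[ℚ_[q]] PadicAlgCl q) (x : levelUnits q) :
    (((τ • x : levelUnits q) : (PadicAlgCl q)ˣ) : PadicAlgCl q) = τ ((x : (PadicAlgCl q)ˣ) : PadicAlgCl q) :=
  rfl

variable (q) in
/-- `B_q` as a `G_q`-module. -/
noncomputable abbrev levelUnitsRep : Rep ℤ (PadicAlgCl q ≃ₐ[ℚ_[q]] PadicAlgCl q) :=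
  Rep.ofMulDistribMulAction (PadicAlgCl q ≃ₐ[ℚ_[q]] PadicAlgCl q) (levelUnits q)

/-- An element of `B_q` as an element of the carrier of `levelUnitsRep q`. -/
def ofB (x : levelUnits q) : (levelUnitsRep q).V := Additive.ofMul x

/-- An element of the carrier of `levelUnitsRep q` as an element of `B_q`. -/
def toB (v : (levelUnitsRep q).V) : levelUnits q := Additive.toMul (α := levelUnits q) v

@[simp] lemma toB_ofB (x : levelUnits q) : toB (ofB x) = x := rfl
@[simp] lemma ofB_toB (v : (levelUnitsRep q).V) : ofB (toB v) = v := rfl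

lemma ofB_surjective : Function.Surjective (ofB (q := q)) := fun v => ⟨toB v, rfl⟩

lemma toB_injective : Function.Injective (toB (q := q)) := fun x y h => by
  simpa using congrArg ofB h

lemma coe_toB_ρ (τ : PadicAlgCl q ≃ₐ[ℚ_[q]] PadicAlgCl q) (v : (levelUnitsRep q).V) :
    (((toB ((levelUnitsRep q).ρ τ v) : levelUnits q) : (PadicAlgCl q)ˣ) : PadicAlgCl q) =
      τ (((toB v : levelUnits q) : (PadicAlgCl q)ˣ) : PadicAlgCl q) := rfl

@[simp] lemma ofB_one : ofB (1 : levelUnits q) = 0 := rfl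
@[simp] lemma ofB_mul (x y : levelUnits q) : ofB (x * y) = ofB x + ofB y := rfl
@[simp] lemma toB_zero : toB (0 : (levelUnitsRep q).V) = 1 := rfl
@[simp] lemma toB_add (v w : (levelUnitsRep q).V) : toB (v + w) = toB v * toB w := rfl

/-- The elements of `B_q` fixed by `fixingSubgroup (F·ℚ_q)` are the units of `F·ℚ_q`. -/
lemma levelUnits_fixed_iff (F : IntermediateField ℚ (AlgebraicClosure ℚ)) (x : levelUnits q) :
    (∀ τ ∈ (localLevel q F).fixingSubgroup, τ • x = x) ↔
      (((x : (PadicAlgCl q)ˣ) : PadicAlgCl q)) ∈ localLevel q F := by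
  constructor
  · intro h
    apply mem_of_fixed
    intro τ hτ
    have := congrArg (fun y : levelUnits q => (((y : (PadicAlgCl q)ˣ)) : PadicAlgCl q)) (h τ hτ)
    exact this
  · intro h τ hτ
    apply Subtype.ext
    apply Units.ext
    exact (IntermediateField.mem_fixingSubgroup_iff _ _).1 hτ _ h

end Levels


section Divisible

variable {q : ℕ} [Fact q.Prime]


/-- An element of `PadicAlgCl q` of norm `≤ 1` is integral over `ℤ_[q]`. -/
lemma isIntegral_of_norm_le_one {x : PadicAlgCl q} (hx : ‖x‖ ≤ 1) : IsIntegral ℤ_[q] x := by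
  have hint : IsIntegral ℚ_[q] x := Algebra.IsIntegral.isIntegral x
  have hmonic : (minpoly ℚ_[q] x).Monic := minpoly.monic hint
  have hsv : spectralValue (minpoly ℚ_[q] x) ≤ 1 := hx
  rw [spectralValue_le_one_iff hmonic] at hsv
  have hlift : minpoly ℚ_[q] x ∈ Polynomial.lifts (algebraMap ℤ_[q] ℚ_[q]) := by
    rw [Polynomial.lifts_iff_coeff_lifts]
    intro n
    exact ⟨⟨(minpoly ℚ_[q] x).coeff n, hsv n⟩, rfl⟩
  obtain ⟨P, hP, -, hPm⟩ := Polynomial.lifts_and_natDegree_eq_and_monic hlift hmonic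
  refine ⟨P, hPm, ?_⟩
  have h1 : Polynomial.eval₂ (algebraMap ℤ_[q] (PadicAlgCl q)) x P =
      Polynomial.eval₂ (algebraMap ℚ_[q] (PadicAlgCl q)) x (P.map (algebraMap ℤ_[q] ℚ_[q])) := by
    rw [Polynomial.eval₂_map, ← IsScalarTower.algebraMap_eq]
  rw [h1, hP]
  exact minpoly.aeval ℚ_[q] x

/-- The image of `ℚbar` is dense in every `F·ℚ_q`, with approximants in `F`. -/
lemma exists_approx_of_mem_adjoin (F : IntermediateField ℚ (AlgebraicClosure ℚ))
    {x : PadicAlgCl q}
    (hx : x ∈ Algebra.adjoin ℚ_[q] ((padicEmbedding q) '' (F : Set (AlgebraicClosure ℚ)))) :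
    ∀ δ : ℝ, 0 < δ → ∃ x₀ ∈ F, ‖x - padicEmbedding q x₀‖ < δ := by
  induction hx using Algebra.adjoin_induction with
  | mem x hx =>
    obtain ⟨f, hf, rfl⟩ := hx
    intro δ hδ
    exact ⟨f, hf, by simpa using hδ⟩
  | algebraMap c =>
    intro δ hδ
    obtain ⟨r, hr⟩ := Padic.rat_dense q c hδ
    refine ⟨algebraMap ℚ (AlgebraicClosure ℚ) r, F.algebraMap_mem r, ?_⟩
    have h1 : padicEmbedding q (algebraMap ℚ (AlgebraicClosure ℚ) r) =
        algebraMap ℚ_[q] (PadicAlgCl q) (r : ℚ_[q]) := by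
      rw [AlgHom.commutes]
      exact IsScalarTower.algebraMap_apply ℚ ℚ_[q] (PadicAlgCl q) r
    rw [h1, ← map_sub, PadicAlgCl.norm_extends]
    exact hr
  | add x y _ _ hx hy =>
    intro δ hδ
    obtain ⟨x₀, hx₀, hx'⟩ := hx δ hδ
    obtain ⟨y₀, hy₀, hy'⟩ := hy δ hδ
    refine ⟨x₀ + y₀, add_mem hx₀ hy₀, ?_⟩
    have : x + y - padicEmbedding q (x₀ + y₀) =
        (x - padicEmbedding q x₀) + (y - padicEmbedding q y₀) := by
      rw [map_add]; ring
    rw [this]
    exact lt_of_le_of_lt (IsUltrametricDist.norm_add_le_max _ _) (max_lt hx' hy')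
  | mul x y _ _ hx hy =>
    intro δ hδ
    -- first approximate `y`
    have hδ1 : 0 < δ / (‖x‖ + 1) := div_pos hδ (by positivity)
    obtain ⟨y₀, hy₀, hy'⟩ := hy _ hδ1
    have hδ2 : 0 < δ / (‖padicEmbedding q y₀‖ + 1) := div_pos hδ (by positivity)
    obtain ⟨x₀, hx₀, hx'⟩ := hx _ hδ2
    refine ⟨x₀ * y₀, mul_mem hx₀ hy₀, ?_⟩
    have : x * y - padicEmbedding q (x₀ * y₀) =
        x * (y - padicEmbedding q y₀) + (x - padicEmbedding q x₀) * padicEmbedding q y₀ := by
      rw [map_mul]; ring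
    rw [this]
    refine lt_of_le_of_lt (IsUltrametricDist.norm_add_le_max _ _) (max_lt ?_ ?_)
    · rw [norm_mul]
      calc ‖x‖ * ‖y - padicEmbedding q y₀‖ ≤ ‖x‖ * (δ / (‖x‖ + 1)) := by gcongr
        _ = δ * (‖x‖ / (‖x‖ + 1)) := by ring
        _ < δ * 1 := by
          apply mul_lt_mul_of_pos_left _ hδ
          rw [div_lt_one (by positivity)]
          linarith
        _ = δ := mul_one δ
    · rw [norm_mul]
      calc ‖x - padicEmbedding q x₀‖ * ‖padicEmbedding q y₀‖
          ≤ (δ / (‖padicEmbedding q y₀‖ + 1)) * ‖padicEmbedding q y₀‖ := by gcongr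
        _ = δ * (‖padicEmbedding q y₀‖ / (‖padicEmbedding q y₀‖ + 1)) := by ring
        _ < δ * 1 := by
          apply mul_lt_mul_of_pos_left _ hδ
          rw [div_lt_one (by positivity)]
          linarith
        _ = δ := mul_one δ


lemma mem_adjoin_of_mem_localLevel {F : IntermediateField ℚ (AlgebraicClosure ℚ)}
    {x : PadicAlgCl q} (hx : x ∈ localLevel q F) :
    x ∈ Algebra.adjoin ℚ_[q] ((padicEmbedding q) '' (F : Set (AlgebraicClosure ℚ))) := by
  have h := IntermediateField.adjoin_toSubalgebra (F := ℚ_[q])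
    ((padicEmbedding q) '' (F : Set (AlgebraicClosure ℚ)))
  rw [← h]
  exact hx

/-- For primes `p, q`: `q²` is divisible by `p²` in any `ℤ_[q]`-algebra. -/
lemma exists_sq_eq_sq_mul (p : ℕ) (hp : p.Prime) (B : Type*) [CommRing B] [Algebra ℤ_[q] B] :
    ∃ d : B, (q : B) ^ 2 = (p : B) ^ 2 * d := by
  by_cases hpq : p = q
  · exact ⟨1, by rw [hpq, mul_one]⟩
  · have hunit : IsUnit ((p : ℕ) : ℤ_[q]) := by
      rw [PadicInt.isUnit_iff]
      apply le_antisymm (PadicInt.norm_le_one _)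
      by_contra hlt
      push Not at hlt
      have : ‖((p : ℤ) : ℤ_[q])‖ < 1 := by exact_mod_cast hlt
      rw [PadicInt.norm_int_lt_one_iff_dvd] at this
      have h2 : q ∣ p := by exact_mod_cast this
      rcases (Nat.dvd_prime hp).1 h2 with h | h
      · exact (Fact.out : q.Prime).one_lt.ne' h
      · exact hpq h.symm
    obtain ⟨w, hw⟩ := hunit
    refine ⟨algebraMap ℤ_[q] B ((w⁻¹ : ℤ_[q]ˣ) : ℤ_[q]) ^ 2 * (q : B) ^ 2, ?_⟩
    have h1 : (p : B) = algebraMap ℤ_[q] B (w : ℤ_[q]) := by rw [hw, map_natCast]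
    rw [h1, ← mul_assoc, ← mul_pow, ← map_mul, Units.mul_inv, map_one, one_pow, one_mul]

/-- **`B_q` is `p`-divisible.** -/
theorem exists_pow_eq_levelUnits (p : ℕ) (hp : p.Prime) (x : levelUnits q) :
    ∃ y : levelUnits q, y ^ p = x := by
  obtain ⟨x, hxmem⟩ := x
  obtain ⟨F, hFfd, hx⟩ := hxmem
  have hx0 : (x : PadicAlgCl q) ≠ 0 := x.ne_zero
  have hq0 : ((q : ℕ) : PadicAlgCl q) ≠ 0 := by
    exact_mod_cast (Fact.out : q.Prime).ne_zero
  -- approximation
  have hδ : 0 < ‖(x : PadicAlgCl q)‖ * ‖((q : ℕ) : PadicAlgCl q)‖ ^ 3 := by positivity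
  obtain ⟨x₀, hx₀F, hx₀⟩ := exists_approx_of_mem_adjoin F (mem_adjoin_of_mem_localLevel hx) _ hδ
  set L := localLevel q F with hL
  have he_mem : padicEmbedding q x₀ ∈ L := padicEmbedding_mem_localLevel hx₀F
  have hqL : ((q : ℕ) : PadicAlgCl q) ∈ L := _root_.natCast_mem L q
  -- `w = e(x₀)/x`, `u = (w - 1)/q³`
  set w : PadicAlgCl q := padicEmbedding q x₀ / x with hw
  set u : PadicAlgCl q := (w - 1) / (q : PadicAlgCl q) ^ 3 with hu
  have hwL : w ∈ L := div_mem he_mem hx
  have huL : u ∈ L := div_mem (sub_mem hwL (one_mem L)) (pow_mem hqL 3)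
  have hw1 : w - 1 = (padicEmbedding q x₀ - x) / x := by
    rw [hw]; field_simp
  have hunorm : ‖u‖ ≤ 1 := by
    rw [hu, hw1, norm_div, norm_div, norm_pow, ← norm_sub_rev]
    rw [div_div, div_le_one (by positivity)]
    exact hx₀.le
  have hwu : w = 1 + (q : PadicAlgCl q) ^ 3 * u := by
    rw [hu]; field_simp; ring
  -- integrality
  haveI : IsScalarTower ℤ_[q] L (PadicAlgCl q) := IsScalarTower.of_algebraMap_eq (fun _ => rfl)
  have huint : IsIntegral ℤ_[q] (⟨u, huL⟩ : L) := by
    rw [← isIntegral_algebraMap_iff (algebraMap L (PadicAlgCl q)).injective]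
    exact isIntegral_of_norm_le_one hunorm
  obtain ⟨_, _, _, _, _, _, hres⟩ := exists_localExt_instances ℤ_[q] ℚ_[q] L (integralClosure ℤ_[q] L)
  set uB : integralClosure ℤ_[q] L := ⟨⟨u, huL⟩, huint⟩ with huB
  -- Hensel
  have hqB : ((q : ℕ) : integralClosure ℤ_[q] L) ∈ maximalIdeal (integralClosure ℤ_[q] L) := by
    rw [mem_maximalIdeal, mem_nonunits_iff]
    intro hunit
    have h1 : IsUnit (algebraMap ℤ_[q] (integralClosure ℤ_[q] L) ((q : ℕ) : ℤ_[q])) := by
      rwa [map_natCast]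
    exact PadicInt.p_nonunit (isUnit_of_map_unit (algebraMap ℤ_[q] (integralClosure ℤ_[q] L)) _ h1)
  obtain ⟨d, hd⟩ := exists_sq_eq_sq_mul (q := q) p hp (integralClosure ℤ_[q] L)
  obtain ⟨z, hz⟩ := LocalKummer.exists_one_add_mul_pow_eq
    (maximalIdeal (integralClosure ℤ_[q] L)) p hqB (d * uB)
  set v : integralClosure ℤ_[q] L := 1 + (p : integralClosure ℤ_[q] L) * (q : _) * z with hv
  have hvw : (((v : L) : PadicAlgCl q)) ^ p = w := by
    have h1 : v ^ p = 1 + ((q : ℕ) : integralClosure ℤ_[q] L) ^ 3 * uB := by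
      rw [hz]
      have : (p : integralClosure ℤ_[q] L) ^ 2 * (q : _) * (d * uB) =
          ((p : integralClosure ℤ_[q] L) ^ 2 * d) * (q : _) * uB := by ring
      rw [this, ← hd]; ring
    have h2 := congrArg (fun b : integralClosure ℤ_[q] L => ((b : L) : PadicAlgCl q)) h1
    simp only [huB] at h2
    rw [hwu]
    simpa using h2
  have hw0 : w ≠ 0 := by
    rw [hw]
    intro h0
    rw [div_eq_zero_iff] at h0
    rcases h0 with h0 | h0
    · rw [h0, sub_zero] at hx₀
      have : ‖((q : ℕ) : PadicAlgCl q)‖ ^ 3 ≤ 1 := by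
        apply pow_le_one₀ (norm_nonneg _)
        rw [← map_natCast (algebraMap ℚ_[q] (PadicAlgCl q)), PadicAlgCl.norm_extends]
        exact_mod_cast (PadicInt.norm_le_one ((q : ℕ) : ℤ_[q]))
      nlinarith [norm_pos_iff.2 hx0]
    · exact hx0 h0
  have hv0 : ((v : L) : PadicAlgCl q) ≠ 0 := by
    intro h0
    rw [h0, zero_pow hp.ne_zero] at hvw
    exact hw0 hvw.symm
  -- the root of `x₀`
  obtain ⟨g, hg⟩ := IsAlgClosed.exists_pow_nat_eq x₀ hp.pos
  haveI : FiniteDimensional ℚ ℚ⟮g⟯ :=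
    IntermediateField.adjoin.finiteDimensional (Algebra.IsIntegral.isIntegral g)
  have hy0 : padicEmbedding q g / ((v : L) : PadicAlgCl q) ≠ 0 := by
    apply div_ne_zero _ hv0
    intro h0
    have h0' : g = 0 := (padicEmbedding q).injective (h0.trans (map_zero _).symm)
    rw [h0', zero_pow hp.ne_zero] at hg
    rw [hw, ← hg, map_zero, zero_div] at hw0
    exact hw0 rfl
  refine ⟨⟨Units.mk0 _ hy0, F ⊔ ℚ⟮g⟯, IntermediateField.finiteDimensional_sup F ℚ⟮g⟯, ?_⟩, ?_⟩
  · rw [Units.val_mk0]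
    apply div_mem
    · exact padicEmbedding_mem_localLevel
        ((le_sup_right : ℚ⟮g⟯ ≤ F ⊔ ℚ⟮g⟯) (IntermediateField.mem_adjoin_simple_self ℚ g))
    · exact localLevel_mono le_sup_left (v : L).2
  · apply Subtype.ext
    apply Units.ext
    show (padicEmbedding q g / ((v : L) : PadicAlgCl q)) ^ p = (x : PadicAlgCl q)
    have he0 : padicEmbedding q x₀ ≠ 0 := by
      intro h0
      rw [hw, h0, zero_div] at hw0
      exact hw0 rfl
    rw [div_pow, ← map_pow, hg, hvw, hw]
    field_simp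

/-- `B_q` = the elements fixed by the preimage of some open subgroup `G_F` of `G_ℚ`. -/
lemma mem_levelUnits_iff_fixed {x : (PadicAlgCl q)ˣ} :
    x ∈ levelUnits q ↔ ∃ F : IntermediateField ℚ (AlgebraicClosure ℚ), FiniteDimensional ℚ F ∧
      ∀ τ : PadicAlgCl q ≃ₐ[ℚ_[q]] PadicAlgCl q, localGaloisToGlobal q τ ∈ F.fixingSubgroup →
        τ (x : PadicAlgCl q) = x := by
  constructor
  · rintro ⟨F, hF, hx⟩
    refine ⟨F, hF, fun τ hτ => ?_⟩
    rw [← mem_fixingSubgroup_localLevel_iff] at hτ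
    exact (IntermediateField.mem_fixingSubgroup_iff _ _).1 hτ _ hx
  · rintro ⟨F, hF, hx⟩
    refine ⟨F, hF, mem_of_fixed _ fun τ hτ => hx τ ?_⟩
    rwa [← mem_fixingSubgroup_localLevel_iff]

end Divisible

end Fermat.Agent.CFT.Local
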