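import Fermat.Agent.CFT.Local.BrMap
import Fermat.Agent.CFT.Coh.H2InfRes_helper9

/-!
# CFT local (L4): inflation–restriction for `H²(Gal(E/K), Eˣ)` in a tower `K ⊆ L ⊆ E`

* `resIso`: for `S = ` the image of `Gal(E/L)` in `Gal(E/K)`,
  `Hⁿ(S, Eˣ) ≅ Hⁿ(Gal(E/L), Eˣ)`, compatibly with restriction (`res_comp_resIso`);
* `inflIso`: for `L/K` normal, `Hⁿ(Gal(E/K)/S, (Eˣ)^S) ≅ Hⁿ(Gal(L/K), Lˣ)` compatibly with
  inflation;
* the exact sequence `0 → H²(Gal(L/K), Lˣ) → H²(Gal(E/K), Eˣ) → H²(Gal(E/L), Eˣ)`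
  (`brMap_infl_injective`, `exists_brMap_infl_eq_of_brMap_res_eq_zero`).
-/

set_option autoImplicit false

open CategoryTheory groupCohomology Rep

namespace Fermat.Agent.CFT.Local

open Fermat.Agent.CFT.Coh

section Res

variable (K L E : Type) [Field K] [Field L] [Field E] [Algebra K L] [Algebra K E] [Algebra L E]
  [IsScalarTower K L E] [Normal K E]

/-- The inclusion `Gal(E/L) →* Gal(E/K)`. -/
noncomputable abbrev galIncl : (E ≃ₐ[L] E) →* (E ≃ₐ[K] E) := galRes K L (AlgHom.id K E)

lemma galIncl_apply (σ : E ≃ₐ[L] E) (x : E) : galIncl K L E σ x = σ x :=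
  galRes_commutes K L (AlgHom.id K E) σ x

lemma galIncl_injective : Function.Injective (galIncl K L E) := by
  intro σ τ h
  ext x
  rw [← galIncl_apply K L E σ x, h, galIncl_apply]

lemma mem_range_galIncl_iff (σ : E ≃ₐ[K] E) :
    σ ∈ (galIncl K L E).range ↔ ∀ x : L, σ (algebraMap L E x) = algebraMap L E x := by
  constructor
  · rintro ⟨τ, rfl⟩ x
    rw [galIncl_apply, τ.commutes]
  · intro h
    refine ⟨{ σ with commutes' := h }, ?_⟩
    ext x
    rw [galIncl_apply]
    rfl

/-- The restriction map `Hⁿ(Gal(E/K), Eˣ) ⟶ Hⁿ(Gal(E/L), Eˣ)`. -/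
noncomputable abbrev brRes (n : ℕ) :
    groupCohomology (Rep.ofAlgebraAutOnUnits K E) n ⟶
      groupCohomology (Rep.ofAlgebraAutOnUnits L E) n :=
  brMap K L (AlgHom.id K E) n

/-- `Gal(E/L) ≃* S` where `S` is its image in `Gal(E/K)`. -/
noncomputable def galInclEquiv : (E ≃ₐ[L] E) ≃* (galIncl K L E).range :=
  MonoidHom.ofInjective (galIncl_injective K L E)

lemma coe_galInclEquiv (σ : E ≃ₐ[L] E) : (galInclEquiv K L E σ : E ≃ₐ[K] E) = galIncl K L E σ :=
  rfl

lemma galIncl_galInclEquiv_symm (s : (galIncl K L E).range) :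
    galIncl K L E ((galInclEquiv K L E).symm s) = s := by
  rw [← coe_galInclEquiv, MulEquiv.apply_symm_apply]

/-- The identity of `Eˣ`, between the carriers of the `S`-module and the `Gal(E/L)`-module. -/
noncomputable def resLinEquiv :
    (res (galIncl K L E).range.subtype (Rep.ofAlgebraAutOnUnits K E)).V ≃ₗ[ℤ]
      (Rep.ofAlgebraAutOnUnits L E).V :=
  LinearEquiv.refl ℤ (Additive Eˣ)

/-- **`Hⁿ(S, Eˣ) ≅ Hⁿ(Gal(E/L), Eˣ)`** for `S` the image of `Gal(E/L)` in `Gal(E/K)`. -/
noncomputable def resIso (n : ℕ) :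
    groupCohomology (res (galIncl K L E).range.subtype (Rep.ofAlgebraAutOnUnits K E)) n ≅
      groupCohomology (Rep.ofAlgebraAutOnUnits L E) n :=
  groupCohomology.mapIso (galInclEquiv K L E).symm (resLinEquiv K L E) (by
    intro s
    refine LinearMap.ext fun v => ?_
    apply toU_injective L E
    apply Units.ext
    show (galIncl K L E).range.subtype s ((Additive.toMul (α := Eˣ) v : Eˣ) : E) =
      (galInclEquiv K L E).symm s ((Additive.toMul (α := Eˣ) v : Eˣ) : E)
    rw [← galIncl_apply K L E, galIncl_galInclEquiv_symm]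
    rfl) n

/-- Restriction to the subgroup `S`, followed by `resIso`, is `brRes`. -/
theorem res_comp_resIso_hom (n : ℕ) :
    groupCohomology.map (galIncl K L E).range.subtype (𝟙 _) n ≫ (resIso K L E n).hom =
      brRes K L E n := by
  unfold resIso brRes brMap
  change groupCohomology.map _ _ n ≫ groupCohomology.map _ _ n = _
  rw [← groupCohomology.map_comp]
  refine groupCohomology.map_congr ?_ ?_ n
  · ext σ : 1
    rfl
  · rfl

end Res

section Infl

variable (K L E : Type) [Field K] [Field L] [Field E] [Algebra K L] [Algebra K E] [Algebra L E]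
  [IsScalarTower K L E] [Normal K E] [Normal K L]

/-- The restriction `Gal(E/K) →* Gal(L/K)`. -/
noncomputable abbrev galProj : (E ≃ₐ[K] E) →* (L ≃ₐ[K] L) :=
  galRes K K (IsScalarTower.toAlgHom K L E)

omit [Normal K E] in
lemma galProj_commutes (σ : E ≃ₐ[K] E) (x : L) :
    algebraMap L E (galProj K L E σ x) = σ (algebraMap L E x) :=
  galRes_commutes K K (IsScalarTower.toAlgHom K L E) σ x

lemma galProj_surjective : Function.Surjective (galProj K L E) := by
  intro τ
  refine ⟨τ.liftNormal E, ?_⟩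
  apply galRes_eq_of_commutes
  intro x
  exact (τ.liftNormal_commutes E x).symm

/-- The inflation map `Hⁿ(Gal(L/K), Lˣ) ⟶ Hⁿ(Gal(E/K), Eˣ)`. -/
noncomputable abbrev brInfl (n : ℕ) :
    groupCohomology (Rep.ofAlgebraAutOnUnits K L) n ⟶
      groupCohomology (Rep.ofAlgebraAutOnUnits K E) n :=
  brMap K K (IsScalarTower.toAlgHom K L E) n

lemma range_galIncl_eq_ker_galProj : (galIncl K L E).range = (galProj K L E).ker := by
  ext σ
  rw [mem_range_galIncl_iff, MonoidHom.mem_ker]
  constructor
  · intro h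
    ext x
    apply (algebraMap L E).injective
    rw [galProj_commutes, h]
    rfl
  · intro h x
    rw [← galProj_commutes, h]
    rfl

instance normal_range_galIncl : ((galIncl K L E).range).Normal := by
  rw [range_galIncl_eq_ker_galProj]
  infer_instance

/-- `Gal(E/K) ⧸ S ≃* Gal(L/K)`. -/
noncomputable def galQuotEquiv : (E ≃ₐ[K] E) ⧸ (galIncl K L E).range ≃* (L ≃ₐ[K] L) :=
  QuotientGroup.liftEquiv _ (galProj_surjective K L E) (range_galIncl_eq_ker_galProj K L E)

lemma galQuotEquiv_mk (σ : E ≃ₐ[K] E) :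
    galQuotEquiv K L E (QuotientGroup.mk σ) = galProj K L E σ := rfl

lemma galQuotEquiv_symm_galProj (σ : E ≃ₐ[K] E) :
    (galQuotEquiv K L E).symm (galProj K L E σ) = QuotientGroup.mk σ := by
  rw [MulEquiv.symm_apply_eq, galQuotEquiv_mk]

section InflIso

omit [Normal K L] in
/-- The image of `Lˣ` in `Eˣ` is invariant under `S = Gal(E/L)`. -/
lemma unitsLin_mem_invariants (v : (Rep.ofAlgebraAutOnUnits K L).V) :
    unitsLin K K (IsScalarTower.toAlgHom K L E) v ∈
      Representation.invariants ((Rep.ofAlgebraAutOnUnits K E).ρ.comp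
        (galIncl K L E).range.subtype) := by
  intro s
  obtain ⟨x, rfl⟩ := ofU_surjective K L v
  apply toU_injective K E
  apply Units.ext
  exact (mem_range_galIncl_iff K L E s.1).1 s.2 (x : L)

/-- `Lˣ → (Eˣ)^S`. -/
noncomputable def toInvLin : (Rep.ofAlgebraAutOnUnits K L).V →ₗ[ℤ]
    ((Rep.ofAlgebraAutOnUnits K E).quotientToInvariants (galIncl K L E).range).V :=
  (unitsLin K K (IsScalarTower.toAlgHom K L E)).codRestrict _ (unitsLin_mem_invariants K L E)

lemma coe_toInvLin (v : (Rep.ofAlgebraAutOnUnits K L).V) :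
    ((toInvLin K L E v : ((Rep.ofAlgebraAutOnUnits K E).quotientToInvariants
      (galIncl K L E).range).V) : (Rep.ofAlgebraAutOnUnits K E).V) =
      unitsLin K K (IsScalarTower.toAlgHom K L E) v := rfl

lemma toInvLin_injective : Function.Injective (toInvLin K L E) := by
  intro v w h
  have h1 := congrArg (fun z : ((Rep.ofAlgebraAutOnUnits K E).quotientToInvariants
      (galIncl K L E).range).V => ((toU K E (z : (Rep.ofAlgebraAutOnUnits K E).V) : Eˣ) : E)) h
  simp only at h1
  apply toU_injective K L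
  apply Units.ext
  exact (IsScalarTower.toAlgHom K L E).injective h1

variable [FiniteDimensional K E] [IsGalois K E]

lemma toInvLin_surjective : Function.Surjective (toInvLin K L E) := by
  rintro ⟨w, hw⟩
  have : FiniteDimensional L E := FiniteDimensional.right K L E
  have : IsGalois L E := IsGalois.tower_top_of_isGalois K L E
  have hw' : ofU L E (toU K E w) ∈ (Rep.ofAlgebraAutOnUnits L E).ρ.invariants := by
    intro τ
    have h1 := hw ⟨galIncl K L E τ, τ, rfl⟩
    have h2 := congrArg (fun z => ((toU K E z : Eˣ) : E)) h1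
    apply toU_injective L E
    apply Units.ext
    show τ ((toU K E w : Eˣ) : E) = ((toU K E w : Eˣ) : E)
    rw [← galIncl_apply K L E τ]
    exact h2
  obtain ⟨a, ha⟩ := (mem_invariants_iff L E _).1 hw'
  refine ⟨ofU K L a, ?_⟩
  apply Subtype.ext
  rw [coe_toInvLin, unitsLin_ofU]
  have h3 := congrArg (toU L E) ha
  rw [toU_ofU, toU_ofU] at h3
  apply toU_injective K E
  rw [toU_ofU, ← h3]
  rfl

/-- `Lˣ ≃ (Eˣ)^S`. -/
noncomputable def toInvLinEquiv : (Rep.ofAlgebraAutOnUnits K L).V ≃ₗ[ℤ]
    ((Rep.ofAlgebraAutOnUnits K E).quotientToInvariants (galIncl K L E).range).V :=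
  LinearEquiv.ofBijective (toInvLin K L E) ⟨toInvLin_injective K L E, toInvLin_surjective K L E⟩

/-- **`Hⁿ(Gal(L/K), Lˣ) ≅ Hⁿ(Gal(E/K)/S, (Eˣ)^S)`**. -/
noncomputable def inflIso (n : ℕ) :
    groupCohomology (Rep.ofAlgebraAutOnUnits K L) n ≅
      groupCohomology ((Rep.ofAlgebraAutOnUnits K E).quotientToInvariants
        (galIncl K L E).range) n :=
  groupCohomology.mapIso (galQuotEquiv K L E).symm (toInvLinEquiv K L E) (by
    intro τ
    obtain ⟨σ, rfl⟩ := galProj_surjective K L E τ
    rw [galQuotEquiv_symm_galProj]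
    refine LinearMap.ext fun v => ?_
    obtain ⟨x, rfl⟩ := ofU_surjective K L v
    apply Subtype.ext
    apply toU_injective K E
    apply Units.ext
    exact galProj_commutes K L E σ (x : L)) n

/-- `inflIso` followed by the abstract inflation is the field-theoretic inflation. -/
theorem inflIso_hom_comp_H2inf :
    (inflIso K L E 2).hom ≫ H2inf (Rep.ofAlgebraAutOnUnits K E) (galIncl K L E).range =
      brInfl K L E 2 := by
  unfold inflIso brInfl brMap H2inf
  change groupCohomology.map _ _ 2 ≫ groupCohomology.map _ _ 2 = _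
  rw [← groupCohomology.map_comp]
  refine groupCohomology.map_congr ?_ ?_ 2
  · ext σ : 1
    rfl
  · rfl

omit [Normal K L] [IsGalois K E] in
/-- Hilbert 90 for `E/L`, in the form needed by the inflation–restriction sequence. -/
lemma isZero_H1_res_range_galIncl :
    Limits.IsZero (H1 (res (galIncl K L E).range.subtype (Rep.ofAlgebraAutOnUnits K E))) := by
  have : FiniteDimensional L E := FiniteDimensional.right K L E
  have h : Limits.IsZero (H1 (Rep.ofAlgebraAutOnUnits L E)) :=
    ModuleCat.isZero_of_subsingleton _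
  exact h.of_iso (resIso K L E 1)

/-- **Inflation `H²(Gal(L/K), Lˣ) → H²(Gal(E/K), Eˣ)` is injective.** -/
theorem brInfl_injective : Function.Injective (brInfl K L E 2) := by
  rw [← inflIso_hom_comp_H2inf]
  have h1 : Function.Injective (inflIso K L E 2).hom :=
    (ModuleCat.mono_iff_injective _).1 inferInstance
  have h2 := H2inf_injective (Rep.ofAlgebraAutOnUnits K E) (galIncl K L E).range
    (isZero_H1_res_range_galIncl K L E)
  intro x y hxy
  rw [ModuleCat.comp_apply, ModuleCat.comp_apply] at hxy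
  exact h1 (h2 hxy)

/-- **Exactness at `H²(Gal(E/K), Eˣ)`**: a class which restricts to `0` on `Gal(E/L)` is
inflated from `Gal(L/K)`. -/
theorem exists_brInfl_eq_of_brRes_eq_zero (x : groupCohomology (Rep.ofAlgebraAutOnUnits K E) 2)
    (hx : brRes K L E 2 x = 0) : ∃ y, brInfl K L E 2 y = x := by
  rw [← res_comp_resIso_hom, ModuleCat.comp_apply] at hx
  have h1 : Function.Injective (resIso K L E 2).hom :=
    (ModuleCat.mono_iff_injective _).1 inferInstance
  have hx' : H2res (Rep.ofAlgebraAutOnUnits K E) (galIncl K L E).range x = 0 :=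
    h1 (by rw [hx, map_zero])
  obtain ⟨y', hy'⟩ := exists_H2inf_eq_of_H2res_eq_zero (Rep.ofAlgebraAutOnUnits K E)
    (galIncl K L E).range (isZero_H1_res_range_galIncl K L E) x hx'
  refine ⟨(inflIso K L E 2).inv y', ?_⟩
  rw [← inflIso_hom_comp_H2inf, ModuleCat.comp_apply]
  have : (inflIso K L E 2).hom ((inflIso K L E 2).inv y') = y' := by
    rw [← ModuleCat.comp_apply, Iso.inv_hom_id, ModuleCat.id_apply]
  rw [this, hy']

/-- The composite of inflation and restriction vanishes. -/
theorem brInfl_comp_brRes : brInfl K L E 2 ≫ brRes K L E 2 = 0 := by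
  rw [← inflIso_hom_comp_H2inf, ← res_comp_resIso_hom, Category.assoc,
    ← Category.assoc (H2inf _ _), H2inf_comp_H2res, Limits.zero_comp, Limits.comp_zero]

end InflIso

end Infl

end Fermat.Agent.CFT.Local
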