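import Fermat.Agent.CFT.Local.PadicLevels
import Fermat.Agent.CFT.Local.BrExact

/-!
# CFT local (PT5.b): finite levels of `(G_q, B_q)`

For a finite stable `F ⊆ ℚbar`, `L = F·ℚ_q`, and `U = L.fixingSubgroup` (given as `hU : U = …`):
* `levelProj hF : G_q →* Gal(L/ℚ_q)` (restriction; `levelProj_commutes`, `_surjective`, `_ker`);
* `levelQuotEquiv hF hU : G_q ⧸ U ≃* Gal(L/ℚ_q)`;
* `levelUnitsOfLevel : Lˣ → levelUnits q`, `levelInvLinEquiv hU : Lˣ ≃ B_q^U`
  (as `(Rep.ofAlgebraAutOnUnits ℚ_[q] L).V ≃ₗ[ℤ] ((levelUnitsRep q).quotientToInvariants U).V`);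
* `levelInflIso hF hU n : Hⁿ(Gal(L/ℚ_q), Lˣ) ≅ Hⁿ(G_q ⧸ U, B_q^U)`.
-/

set_option autoImplicit false
set_option linter.unusedSectionVars false
set_option linter.style.haveILetI false

open IntermediateField CategoryTheory groupCohomology Rep

namespace Fermat.Agent.CFT.Local

section Pairs

variable {q : ℕ} [Fact q.Prime] {F : IntermediateField ℚ (AlgebraicClosure ℚ)}
  (hF : IsStableField F)

/-- The restriction `G_q →* Gal(F·ℚ_q/ℚ_q)` for a stable `F`. -/
noncomputable def levelProj :
    (PadicAlgCl q ≃ₐ[ℚ_[q]] PadicAlgCl q) →* (localLevel q F ≃ₐ[ℚ_[q]] localLevel q F) :=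
  haveI := normal_localLevel (q := q) hF
  AlgEquiv.restrictNormalHom (localLevel q F)

lemma levelProj_commutes (τ : PadicAlgCl q ≃ₐ[ℚ_[q]] PadicAlgCl q) (x : localLevel q F) :
    ((levelProj hF τ x : localLevel q F) : PadicAlgCl q) = τ (x : PadicAlgCl q) := by
  haveI := normal_localLevel (q := q) hF
  exact AlgEquiv.restrictNormal_commutes τ (localLevel q F) x

lemma levelProj_surjective : Function.Surjective (levelProj (q := q) hF) := by
  haveI := normal_localLevel (q := q) hF
  exact AlgEquiv.restrictNormalHom_surjective (PadicAlgCl q)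

lemma levelProj_ker : (levelProj (q := q) hF).ker = (localLevel q F).fixingSubgroup := by
  haveI := normal_localLevel (q := q) hF
  exact IntermediateField.restrictNormalHom_ker (localLevel q F)

variable {U : Subgroup (PadicAlgCl q ≃ₐ[ℚ_[q]] PadicAlgCl q)} [U.Normal]
  (hU : U = (localLevel q F).fixingSubgroup)

/-- `G_q ⧸ U_F ≃* Gal(F·ℚ_q/ℚ_q)`. -/
noncomputable def levelQuotEquiv :
    (PadicAlgCl q ≃ₐ[ℚ_[q]] PadicAlgCl q) ⧸ U ≃* (localLevel q F ≃ₐ[ℚ_[q]] localLevel q F) :=
  QuotientGroup.liftEquiv U (levelProj_surjective hF) (hU.trans (levelProj_ker hF).symm)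

lemma levelQuotEquiv_mk (τ : PadicAlgCl q ≃ₐ[ℚ_[q]] PadicAlgCl q) :
    levelQuotEquiv hF hU (QuotientGroup.mk τ) = levelProj hF τ := rfl

lemma levelQuotEquiv_symm_levelProj (τ : PadicAlgCl q ≃ₐ[ℚ_[q]] PadicAlgCl q) :
    (levelQuotEquiv hF hU).symm (levelProj hF τ) = QuotientGroup.mk τ := by
  rw [MulEquiv.symm_apply_eq, levelQuotEquiv_mk]

/-- A unit of `F·ℚ_q` as an element of `B_q`. -/
noncomputable def levelUnitsOfLevel [FiniteDimensional ℚ F] (x : (localLevel q F)ˣ) : levelUnits q :=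
  ⟨Units.map ((localLevel q F).val : localLevel q F →* PadicAlgCl q) x, F, inferInstance, by
    show ((x : localLevel q F) : PadicAlgCl q) ∈ localLevel q F
    exact (x : localLevel q F).2⟩

lemma coe_levelUnitsOfLevel [FiniteDimensional ℚ F] (x : (localLevel q F)ˣ) :
    (((levelUnitsOfLevel x : levelUnits q) : (PadicAlgCl q)ˣ) : PadicAlgCl q) =
      ((x : localLevel q F) : PadicAlgCl q) := rfl

variable [FiniteDimensional ℚ F]

/-- `(F·ℚ_q)ˣ → B_q^{U_F}`. -/
noncomputable def levelInvLin : (Rep.ofAlgebraAutOnUnits ℚ_[q] (localLevel q F)).V →ₗ[ℤ]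
    ((levelUnitsRep q).quotientToInvariants U).V :=
  (AddMonoidHom.toIntLinearMap
    { toFun := fun v => ofB (levelUnitsOfLevel (toU ℚ_[q] (localLevel q F) v))
      map_zero' := by
        apply toB_injective
        apply Subtype.ext
        apply Units.ext
        rfl
      map_add' := fun v w => by
        apply toB_injective
        apply Subtype.ext
        apply Units.ext
        rfl }).codRestrict _ (by
    intro v s
    subst hU
    apply toB_injective
    apply Subtype.ext
    apply Units.ext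
    exact (IntermediateField.mem_fixingSubgroup_iff _ _).1 s.2 _
      ((toU ℚ_[q] (localLevel q F) v : (localLevel q F)ˣ) : localLevel q F).2)

lemma coe_levelInvLin (v : (Rep.ofAlgebraAutOnUnits ℚ_[q] (localLevel q F)).V) :
    ((levelInvLin hU v : ((levelUnitsRep q).quotientToInvariants U).V) : (levelUnitsRep q).V) =
      ofB (levelUnitsOfLevel (toU ℚ_[q] (localLevel q F) v)) := rfl

lemma levelInvLin_injective : Function.Injective (levelInvLin (q := q) (F := F) hU) := by
  intro v w h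
  have h1 := congrArg (fun z : ((levelUnitsRep q).quotientToInvariants U).V =>
    (((toB (z : (levelUnitsRep q).V) : levelUnits q) : (PadicAlgCl q)ˣ) : PadicAlgCl q)) h
  dsimp only at h1
  apply toU_injective ℚ_[q] (localLevel q F)
  apply Units.ext
  exact Subtype.ext h1

lemma levelInvLin_surjective : Function.Surjective (levelInvLin (q := q) (F := F) hU) := by
  rintro ⟨w, hw⟩
  subst hU
  have hmem : (((toB w : levelUnits q) : (PadicAlgCl q)ˣ) : PadicAlgCl q) ∈ localLevel q F := by
    apply mem_of_fixed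
    intro τ hτ
    have := hw ⟨τ, hτ⟩
    exact congrArg (fun z : (levelUnitsRep q).V =>
      (((toB z : levelUnits q) : (PadicAlgCl q)ˣ) : PadicAlgCl q)) this
  have hne : (⟨_, hmem⟩ : localLevel q F) ≠ 0 := by
    intro h0
    have := congrArg (fun z : localLevel q F => (z : PadicAlgCl q)) h0
    exact ((toB w : levelUnits q) : (PadicAlgCl q)ˣ).ne_zero this
  refine ⟨ofU ℚ_[q] (localLevel q F) (Units.mk0 ⟨_, hmem⟩ hne), ?_⟩
  apply Subtype.ext
  rw [coe_levelInvLin]
  apply toB_injective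
  apply Subtype.ext
  apply Units.ext
  rfl

/-- `(F·ℚ_q)ˣ ≃ B_q^{U_F}`. -/
noncomputable def levelInvLinEquiv : (Rep.ofAlgebraAutOnUnits ℚ_[q] (localLevel q F)).V ≃ₗ[ℤ]
    ((levelUnitsRep q).quotientToInvariants U).V :=
  LinearEquiv.ofBijective (levelInvLin hU) ⟨levelInvLin_injective hU, levelInvLin_surjective hU⟩

/-- **`Hⁿ(Gal(F·ℚ_q/ℚ_q), (F·ℚ_q)ˣ) ≅ Hⁿ(G_q/U_F, B_q^{U_F})`**. -/
noncomputable def levelInflIso (n : ℕ) :
    groupCohomology (Rep.ofAlgebraAutOnUnits ℚ_[q] (localLevel q F)) n ≅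
      groupCohomology ((levelUnitsRep q).quotientToInvariants U) n :=
  groupCohomology.mapIso (levelQuotEquiv hF hU).symm (levelInvLinEquiv hU) (by
    intro τ
    obtain ⟨σ, rfl⟩ := levelProj_surjective hF τ
    rw [levelQuotEquiv_symm_levelProj]
    refine LinearMap.ext fun v => ?_
    obtain ⟨x, rfl⟩ := ofU_surjective ℚ_[q] (localLevel q F) v
    apply Subtype.ext
    apply toB_injective
    apply Subtype.ext
    apply Units.ext
    exact levelProj_commutes hF σ (x : localLevel q F)) n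

end Pairs

end Fermat.Agent.CFT.Local
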