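import Fermat.Agent.CFT.Local.FundClass
import Fermat.Agent.CFT.Coh.Nakayama_helper9

/-!
# CFT local (L4): local reciprocity

For a finite Galois extension `L/K` of complete discretely valued fields with finite residue
field, every 2-cocycle `f` representing the local fundamental class is a fundamental cocycle in
the sense of helper9's Tate–Nakayama theorem (`isFundamentalCocycle_of_H2π_eq`).  Hence the
**local reciprocity isomorphism** `Kˣ / N Lˣ ≃ Gal(L/K)^ab` (`localArtinHom`,
`localArtinHom_surjective`, `localArtinHom_eq_one_iff`).
-/

set_option autoImplicit false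
set_option linter.unusedSectionVars false
set_option linter.style.haveILetI false

open IsLocalRing Module CategoryTheory groupCohomology Rep

namespace Fermat.Agent.CFT.Local

open Fermat.Agent.CFT.Coh

section Reciprocity

variable (A K L : Type) [CommRing A] [IsDomain A] [IsDiscreteValuationRing A]
  [IsAdicComplete (maximalIdeal A) A] [Finite (ResidueField A)]
  [Field K] [Algebra A K] [IsFractionRing A K]
  [Field L] [Algebra K L] [FiniteDimensional K L] [IsGalois K L]
  [Algebra A L] [IsScalarTower A K L]

/-- Hilbert 90 on every subgroup. -/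
theorem isZero_H1_res_subgroup (S : Subgroup (L ≃ₐ[K] L)) :
    Limits.IsZero (groupCohomology (res S.subtype (Rep.ofAlgebraAutOnUnits K L)) 1) := by
  obtain ⟨e⟩ := groupCohomology_res_subgroup_equiv K L S 1
  haveI : FiniteDimensional (IntermediateField.fixedField S) L :=
    FiniteDimensional.right K (IntermediateField.fixedField S) L
  haveI : Subsingleton (groupCohomology
      (Rep.ofAlgebraAutOnUnits (IntermediateField.fixedField S) L) 1) :=
    (inferInstance : Subsingleton (H1 (Rep.ofAlgebraAutOnUnits (IntermediateField.fixedField S) L)))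
  haveI : Subsingleton (groupCohomology (res S.subtype (Rep.ofAlgebraAutOnUnits K L)) 1) :=
    e.toEquiv.subsingleton
  exact ModuleCat.isZero_of_subsingleton _

include A in
/-- `|H²(S, Lˣ)| = |S|` for every subgroup `S` of `Gal(L/K)`. -/
theorem card_H2_res_subgroup (S : Subgroup (L ≃ₐ[K] L)) :
    Nat.card (groupCohomology (res S.subtype (Rep.ofAlgebraAutOnUnits K L)) 2) = Nat.card S := by
  obtain ⟨e⟩ := groupCohomology_res_subgroup_equiv K L S 2
  set F := IntermediateField.fixedField S with hF
  haveI : FiniteDimensional F L := FiniteDimensional.right K F L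
  haveI : IsGalois F L := IsGalois.tower_top_of_isGalois K F L
  haveI : Algebra.IsSeparable K F := inferInstance
  obtain ⟨_, _, _, _, _, _, hres⟩ := exists_localExt_instances A K F (integralClosure A F)
  haveI := hres inferInstance
  rw [Nat.card_congr e.toEquiv]
  have h := card_H2_eq_finrank (integralClosure A F) F L
  rw [hF, IntermediateField.finrank_fixedField_eq_card] at h
  exact h

/-- **Every cocycle representing the local fundamental class is a fundamental cocycle.** -/
theorem isFundamentalCocycle_of_H2π_eq (f : cocycles₂ (Rep.ofAlgebraAutOnUnits K L))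
    (hf : H2π (Rep.ofAlgebraAutOnUnits K L) f = localFundClass A K L) :
    IsFundamentalCocycle (Rep.ofAlgebraAutOnUnits K L) f :=
  isFundamentalCocycle_of_card _ f (isZero_H1_res_subgroup K L) (card_H2_res_subgroup A K L)
    (fun x => by rw [hf]; exact exists_zsmul_localFundClass A K L x)

/-- A cocycle representing the local fundamental class. -/
noncomputable def localFundCocycle : cocycles₂ (Rep.ofAlgebraAutOnUnits K L) :=
  (H2π_surjective (Rep.ofAlgebraAutOnUnits K L) (localFundClass A K L)).choose

lemma H2π_localFundCocycle :
    H2π (Rep.ofAlgebraAutOnUnits K L) (localFundCocycle A K L) = localFundClass A K L :=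
  (H2π_surjective (Rep.ofAlgebraAutOnUnits K L) (localFundClass A K L)).choose_spec

theorem isFundamentalCocycle_localFundCocycle :
    IsFundamentalCocycle (Rep.ofAlgebraAutOnUnits K L) (localFundCocycle A K L) :=
  isFundamentalCocycle_of_H2π_eq A K L _ (H2π_localFundCocycle A K L)

/-- **Local reciprocity**, Nakayama form: `Gal(L/K)^ab ≃ Ĥ⁰(Gal(L/K), Lˣ) = Kˣ / N Lˣ`. -/
noncomputable def localNakayamaEquiv :
    Abelianization (L ≃ₐ[K] L) ≃* Multiplicative (TateH0 (Rep.ofAlgebraAutOnUnits K L)) :=
  nakayamaEquiv (isFundamentalCocycle_localFundCocycle A K L)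

/-- **The local Artin map** (norm residue symbol) `Kˣ →* Gal(L/K)^ab`. -/
noncomputable def localArtinHom : Kˣ →* Abelianization (L ≃ₐ[K] L) :=
  (localNakayamaEquiv A K L).symm.toMonoidHom.comp
    (AddMonoidHom.toMultiplicativeRight (tateMk K L))

lemma localNakayamaEquiv_localArtinHom (a : Kˣ) :
    localNakayamaEquiv A K L (localArtinHom A K L a) =
      Multiplicative.ofAdd (tateMk K L (Additive.ofMul a)) := by
  rw [localArtinHom, MonoidHom.comp_apply]
  exact (localNakayamaEquiv A K L).apply_symm_apply _

/-- The local Artin map is surjective. -/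
theorem localArtinHom_surjective : Function.Surjective (localArtinHom A K L) := by
  intro g
  obtain ⟨a, ha⟩ := tateMk_surjective K L (Multiplicative.toAdd (localNakayamaEquiv A K L g))
  refine ⟨Additive.toMul a, ?_⟩
  apply (localNakayamaEquiv A K L).injective
  rw [localNakayamaEquiv_localArtinHom, ofMul_toMul, ha, ofAdd_toAdd]

/-- **The kernel of the local Artin map is the norm group `N_{L/K} Lˣ`.** -/
theorem localArtinHom_eq_one_iff (a : Kˣ) :
    localArtinHom A K L a = 1 ↔ ∃ y : Lˣ, Algebra.norm K (y : L) = a := by
  rw [← tateMk_eq_zero_iff, ← (localNakayamaEquiv A K L).injective.eq_iff,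
    localNakayamaEquiv_localArtinHom, map_one]
  constructor
  · intro h
    exact congrArg Multiplicative.toAdd h
  · intro h
    rw [h]
    rfl

end Reciprocity

end Fermat.Agent.CFT.Local
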