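import Mathlib

/-!
# CFT local (L4): the field `L(ζ_m)` over `K`, for `L/K` finite Galois

For `L/K` finite Galois and `m` invertible in `L`, `E := CyclotomicField m L` is (via Mathlib's
instances) a `K`-algebra in the tower `K ⊆ L ⊆ E`.  We show that `E/K` is finite Galois, that `E`
contains a primitive `m`-th root of unity, and that `E` embeds over `L` into every extension of `L`
containing a primitive `m`-th root of unity.
-/

set_option autoImplicit false
set_option linter.unusedSectionVars false
set_option linter.style.haveILetI false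

open Polynomial

namespace Fermat.Agent.CFT.Local

variable (K L : Type*) [Field K] [Field L] [Algebra K L] [FiniteDimensional K L] [IsGalois K L]
  (m : ℕ) [NeZero (m : L)]

theorem finiteDimensional_cyclotomicField : FiniteDimensional K (CyclotomicField m L) := by
  haveI : NeZero m := ⟨fun h => NeZero.ne (m : L) (by rw [h, Nat.cast_zero])⟩
  haveI : FiniteDimensional L (CyclotomicField m L) :=
    IsCyclotomicExtension.finiteDimensional {m} L (CyclotomicField m L)
  exact FiniteDimensional.trans K L (CyclotomicField m L)

theorem isGalois_cyclotomicField : IsGalois K (CyclotomicField m L) := by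
  haveI hm0 : NeZero m := ⟨fun h => NeZero.ne (m : L) (by rw [h, Nat.cast_zero])⟩
  haveI : Algebra.IsSeparable L (CyclotomicField m L) :=
    IsCyclotomicExtension.isSeparable {m} L (CyclotomicField m L)
  haveI : Algebra.IsSeparable K (CyclotomicField m L) :=
    Algebra.IsSeparable.trans K L (CyclotomicField m L)
  obtain ⟨f, hfsep, hf⟩ := IsGalois.is_separable_splitting_field K L
  haveI := hf
  haveI : IsSplittingField L (CyclotomicField m L) ((X ^ m - 1 : K[X]).map (algebraMap K L)) := by
    have : (X ^ m - 1 : K[X]).map (algebraMap K L) = X ^ m - 1 := by simp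
    rw [this]
    exact IsCyclotomicExtension.isSplittingField_X_pow_sub_one m L (CyclotomicField m L)
  have hf0 : f ≠ 0 := hfsep.ne_zero
  have hg0 : (X ^ m - 1 : K[X]) ≠ 0 := X_pow_sub_C_ne_zero (NeZero.pos m) (1 : K)
  haveI : IsSplittingField K (CyclotomicField m L) (f * (X ^ m - 1)) :=
    IsSplittingField.mul (F := K) (K := L) (L := CyclotomicField m L) f (X ^ m - 1) hf0 hg0
  haveI : Normal K (CyclotomicField m L) := Normal.of_isSplittingField (f * (X ^ m - 1))
  exact ⟨⟩

theorem exists_isPrimitiveRoot_cyclotomicField :
    ∃ r : CyclotomicField m L, IsPrimitiveRoot r m := by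
  have hm0 : m ≠ 0 := fun h => NeZero.ne (m : L) (by rw [h, Nat.cast_zero])
  haveI : NeZero m := ⟨hm0⟩
  exact IsCyclotomicExtension.exists_isPrimitiveRoot L (CyclotomicField m L)
    (Set.mem_singleton m) hm0

/-- `L(ζ_m)` embeds over `L` into every extension containing a primitive `m`-th root of unity. -/
theorem nonempty_algHom_cyclotomicField (Ω : Type*) [Field Ω] [Algebra L Ω]
    (h : ∃ r : Ω, IsPrimitiveRoot r m) : Nonempty (CyclotomicField m L →ₐ[L] Ω) := by
  haveI hm0 : NeZero m := ⟨fun h => NeZero.ne (m : L) (by rw [h, Nat.cast_zero])⟩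
  obtain ⟨r, hr⟩ := h
  haveI := IsCyclotomicExtension.isSplittingField_X_pow_sub_one m L (CyclotomicField m L)
  refine ⟨IsSplittingField.lift (CyclotomicField m L) (X ^ m - 1 : L[X]) ?_⟩
  have : (X ^ m - 1 : L[X]).map (algebraMap L Ω) = X ^ m - C 1 := by simp
  rw [this]
  exact X_pow_sub_one_splits hr

end Fermat.Agent.CFT.Local
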