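import Fermat.Agent.CFT.Local.BrExact
import Fermat.Agent.CFT.Local.IntClosure
import Fermat.Agent.CFT.Local.L2_helper8_Main
import Fermat.Agent.CFT.Coh.ResDelta_helper9
import Fermat.Agent.CFT.Coh.Cyclic_helper6_H2

/-!
# CFT local (L4): `|H²(Gal(L/K), Lˣ)|` divides `[L : K]`

For a finite Galois extension `L/K` of complete discretely valued fields with finite residue
field: `H²(Gal(L/K), Lˣ)` is finite of order dividing `[L : K]` (`card_H2_dvd_finrank`).
Cyclic case: helper8's (L2) + helper6's `H² ≃ Ĥ⁰`.  `p`-groups: induction along a central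
subgroup of order `p` and the inflation–restriction sequence.  General case: helper9's Sylow
dévissage.
-/

set_option autoImplicit false
set_option linter.unusedSectionVars false
set_option linter.style.haveILetI false

open IsLocalRing Module CategoryTheory groupCohomology Rep

namespace Fermat.Agent.CFT.Local

open Fermat.Agent.CFT.Coh

section Cyclic

variable (A K L : Type) [CommRing A] [IsDomain A] [IsDiscreteValuationRing A]
  [IsAdicComplete (maximalIdeal A) A] [Finite (ResidueField A)]
  [Field K] [Algebra A K] [IsFractionRing A K]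
  [Field L] [Algebra K L] [FiniteDimensional K L] [IsGalois K L]
  [Algebra A L] [IsScalarTower A K L]

include A in
/-- **Cyclic case**: `|H²(Gal(L/K), Lˣ)| = [L : K]`. -/
theorem card_H2_of_isCyclic [IsCyclic (L ≃ₐ[K] L)] :
    Finite (H2 (Rep.ofAlgebraAutOnUnits K L)) ∧
      Nat.card (H2 (Rep.ofAlgebraAutOnUnits K L)) = finrank K L := by
  obtain ⟨g, hg⟩ := IsCyclic.exists_generator (α := L ≃ₐ[K] L)
  obtain ⟨_, _, _, _, _, _, hres⟩ := exists_localExt_instances A K L (integralClosure A L)
  obtain ⟨hfin, hcard⟩ := L2.card_tateH0_ofAlgebraAutOnUnits A K L (integralClosure A L) hg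
  have e := (H2EquivTateH0 hg (Rep.ofAlgebraAutOnUnits K L)).toEquiv
  exact ⟨Finite.of_equiv _ e.symm, by rw [Nat.card_congr e, hcard]⟩

end Cyclic

section SubgroupDict

variable (K L : Type) [Field K] [Field L] [Algebra K L] [FiniteDimensional K L] [IsGalois K L]
  (S : Subgroup (L ≃ₐ[K] L))

/-- The image of `Gal(L/L^S)` in `Gal(L/K)` is `S`. -/
lemma range_galIncl_fixedField :
    (galIncl K (IntermediateField.fixedField S) L).range = S := by
  ext σ
  rw [mem_range_galIncl_iff]
  conv_rhs => rw [← IntermediateField.fixingSubgroup_fixedField S]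
  rw [IntermediateField.mem_fixingSubgroup_iff]
  constructor
  · intro h x hx
    exact h ⟨x, hx⟩
  · intro h x
    exact h x x.2

/-- Transport of a statement about `Hⁿ(S, Lˣ)` to `Hⁿ(Gal(L/L^S), Lˣ)`. -/
lemma groupCohomology_res_subgroup_equiv (n : ℕ) :
    Nonempty (groupCohomology (res S.subtype (Rep.ofAlgebraAutOnUnits K L)) n ≃+
      groupCohomology (Rep.ofAlgebraAutOnUnits (IntermediateField.fixedField S) L) n) := by
  have h := range_galIncl_fixedField K L S
  have key : ∀ T : Subgroup (L ≃ₐ[K] L), T = S →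
      Nonempty (groupCohomology (res T.subtype (Rep.ofAlgebraAutOnUnits K L)) n ≃+
        groupCohomology (res S.subtype (Rep.ofAlgebraAutOnUnits K L)) n) := by
    rintro T rfl
    exact ⟨AddEquiv.refl _⟩
  obtain ⟨e⟩ := key _ h
  exact ⟨e.symm.trans
    (resIso K (IntermediateField.fixedField S) L n).toLinearEquiv.toAddEquiv⟩

end SubgroupDict

section ExactCard

/-- Cardinality bound from a (left-)exact sequence `X → Y → Z`. -/
theorem card_dvd_of_exact {X Y Z : Type*} [AddCommGroup X] [AddCommGroup Y] [AddCommGroup Z]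
    (f : X →+ Y) (g : Y →+ Z) (hexact : ∀ y, g y = 0 → ∃ x, f x = y)
    [Finite X] [Finite Z] : Finite Y ∧ Nat.card Y ∣ Nat.card X * Nat.card Z := by
  have hle : g.ker ≤ f.range := fun y hy => hexact y hy
  haveI : Finite f.range := Finite.of_surjective f.rangeRestrict f.rangeRestrict_surjective
  haveI : Finite g.ker := Finite.of_injective (AddSubgroup.inclusion hle)
    (AddSubgroup.inclusion_injective hle)
  have h1 : Nat.card g.ker ∣ Nat.card X := by
    have h2 : Nat.card g.ker ∣ Nat.card f.range := AddSubgroup.card_dvd_of_le hle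
    have h3 : Nat.card f.range ∣ Nat.card X := by
      rw [← Nat.card_congr (QuotientAddGroup.quotientKerEquivRange f).toEquiv]
      exact AddSubgroup.card_quotient_dvd_card _
    exact h2.trans h3
  have h4 : Nat.card (Y ⧸ g.ker) ∣ Nat.card Z := by
    rw [Nat.card_congr (QuotientAddGroup.quotientKerEquivRange g).toEquiv]
    exact AddSubgroup.card_addSubgroup_dvd_card _
  have h5 : Nat.card Y = Nat.card (Y ⧸ g.ker) * Nat.card g.ker :=
    AddSubgroup.card_eq_card_quotient_mul_card_addSubgroup g.ker
  have hX : Nat.card X ≠ 0 := Nat.card_pos.ne'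
  have hZ : Nat.card Z ≠ 0 := Nat.card_pos.ne'
  have h6 : Nat.card Y ∣ Nat.card X * Nat.card Z := by
    rw [h5, mul_comm]
    exact Nat.mul_dvd_mul h1 h4
  refine ⟨Nat.finite_of_card_ne_zero ?_, h6⟩
  intro h0
  rw [h0, zero_dvd_iff] at h6
  exact (mul_ne_zero hX hZ) h6

end ExactCard

section PGroup

/-- **`p`-group case**, by induction on the degree. -/
theorem card_H2_dvd_of_isPGroup (p : ℕ) [Fact p.Prime] :
    ∀ (n : ℕ) (A K L : Type) [CommRing A] [IsDomain A] [IsDiscreteValuationRing A]
      [IsAdicComplete (maximalIdeal A) A] [Finite (ResidueField A)]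
      [Field K] [Algebra A K] [IsFractionRing A K]
      [Field L] [Algebra K L] [FiniteDimensional K L] [IsGalois K L]
      [Algebra A L] [IsScalarTower A K L],
      finrank K L = n → IsPGroup p (L ≃ₐ[K] L) →
      Finite (H2 (Rep.ofAlgebraAutOnUnits K L)) ∧
        Nat.card (H2 (Rep.ofAlgebraAutOnUnits K L)) ∣ n := by
  intro n
  induction n using Nat.strong_induction_on with
  | _ n ih =>
  intro A K L _ _ _ _ _ _ _ _ _ _ _ _ _ _ hn hp
  by_cases htriv : Subsingleton (L ≃ₐ[K] L)
  · -- trivial group: cyclic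
    haveI := htriv
    haveI : IsCyclic (L ≃ₐ[K] L) := isCyclic_of_subsingleton
    obtain ⟨h1, h2⟩ := card_H2_of_isCyclic A K L
    exact ⟨h1, by rw [h2, hn]⟩
  · rw [not_subsingleton_iff_nontrivial] at htriv
    haveI := htriv
    -- a central subgroup of order `p`
    haveI := hp.center_nontrivial
    have hpc : p ∣ Nat.card (Subgroup.center (L ≃ₐ[K] L)) := by
      obtain ⟨k, hk⟩ := (IsPGroup.iff_card.1 (hp.to_subgroup (Subgroup.center (L ≃ₐ[K] L))))
      rcases Nat.eq_zero_or_pos k with rfl | hk0
      · rw [pow_zero] at hk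
        exact absurd (Finite.one_lt_card (α := Subgroup.center (L ≃ₐ[K] L))) (by omega)
      · rw [hk]
        exact dvd_pow_self p hk0.ne'
    obtain ⟨z, hz⟩ := exists_prime_orderOf_dvd_card' p hpc
    set Z : Subgroup (L ≃ₐ[K] L) := Subgroup.zpowers (z : L ≃ₐ[K] L) with hZ
    have hzord : orderOf (z : L ≃ₐ[K] L) = p := by
      rw [← hz]
      exact (Subgroup.orderOf_coe z)
    have hZcard : Nat.card Z = p := by rw [hZ, Nat.card_zpowers, hzord]
    haveI hZnormal : Z.Normal := by
      refine ⟨fun x hx g => ?_⟩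
      have hxc : x ∈ Subgroup.center (L ≃ₐ[K] L) :=
        (Subgroup.zpowers_le.2 z.2) hx
      have : g * x * g⁻¹ = x := by
        rw [Subgroup.mem_center_iff] at hxc
        rw [hxc g, mul_inv_cancel_right]
      rw [this]
      exact hx
    -- the fixed field
    set F := IntermediateField.fixedField Z with hF
    haveI : IsGalois K F := IsGalois.of_fixedField_normal_subgroup Z
    haveI : FiniteDimensional K F := inferInstance
    haveI : FiniteDimensional F L := FiniteDimensional.right K F L
    haveI : IsGalois F L := IsGalois.tower_top_of_isGalois K F L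
    have hFL : finrank F L = p := by
      rw [hF, IntermediateField.finrank_fixedField_eq_card, hZcard]
    have hKF : finrank K F * p = n := by
      rw [← hFL, Module.finrank_mul_finrank, hn]
    have hppos : 1 < p := (Fact.out : p.Prime).one_lt
    have hKFpos : 0 < finrank K F := Module.finrank_pos
    have hlt : finrank K F < n := by
      rw [← hKF]
      exact lt_mul_of_one_lt_right hKFpos hppos
    -- Gal(F/K) is a p-group
    have hpF : IsPGroup p (F ≃ₐ[K] F) := by
      obtain ⟨k, hk⟩ := IsPGroup.iff_card.1 hp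
      rw [IsGalois.card_aut_eq_finrank, hn] at hk
      have h1 : finrank K F ∣ p ^ k := by rw [← hk, ← hKF]; exact dvd_mul_right _ _
      obtain ⟨j, -, hj⟩ := (Nat.dvd_prime_pow (Fact.out : p.Prime)).1 h1
      exact IsPGroup.of_card (n := j) (by rw [IsGalois.card_aut_eq_finrank, hj])
    -- bottom layer by induction
    obtain ⟨hfinX, hcardX⟩ := ih (finrank K F) hlt A K F rfl hpF
    -- top layer: cyclic of order `p`
    haveI : Algebra.IsSeparable K F := inferInstance
    obtain ⟨_, _, _, _, _, _, hres⟩ := exists_localExt_instances A K F (integralClosure A F)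
    haveI := hres inferInstance
    haveI : IsCyclic (L ≃ₐ[F] L) :=
      isCyclic_of_prime_card (p := p) (by rw [IsGalois.card_aut_eq_finrank, hFL])
    obtain ⟨hfinZ, hcardZ⟩ := card_H2_of_isCyclic (integralClosure A F) F L
    -- exact sequence
    obtain ⟨hfinY, hcardY⟩ := card_dvd_of_exact
      (brInfl K F L 2).hom.toAddMonoidHom (brRes K F L 2).hom.toAddMonoidHom
      (fun y hy => exists_brInfl_eq_of_brRes_eq_zero K F L y hy)
    refine ⟨hfinY, hcardY.trans ?_⟩
    rw [hcardZ, hFL, ← hKF]
    exact Nat.mul_dvd_mul_right hcardX p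

end PGroup

section General

variable (A K L : Type) [CommRing A] [IsDomain A] [IsDiscreteValuationRing A]
  [IsAdicComplete (maximalIdeal A) A] [Finite (ResidueField A)]
  [Field K] [Algebra A K] [IsFractionRing A K]
  [Field L] [Algebra K L] [FiniteDimensional K L] [IsGalois K L]
  [Algebra A L] [IsScalarTower A K L]

include A in
/-- `H²(S, Lˣ)` is finite of order dividing `|S|` for every `p`-subgroup `S` of `Gal(L/K)`. -/
theorem card_H2_res_dvd_of_isPGroup (p : ℕ) [Fact p.Prime] (S : Subgroup (L ≃ₐ[K] L))
    (hS : IsPGroup p S) :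
    Finite (groupCohomology (res S.subtype (Rep.ofAlgebraAutOnUnits K L)) 2) ∧
      Nat.card (groupCohomology (res S.subtype (Rep.ofAlgebraAutOnUnits K L)) 2) ∣
        Nat.card S := by
  obtain ⟨e⟩ := groupCohomology_res_subgroup_equiv K L S 2
  set F := IntermediateField.fixedField S with hF
  haveI : FiniteDimensional F L := FiniteDimensional.right K F L
  haveI : IsGalois F L := IsGalois.tower_top_of_isGalois K F L
  have hFL : finrank F L = Nat.card S := by
    rw [hF, IntermediateField.finrank_fixedField_eq_card]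
  have hpF : IsPGroup p (L ≃ₐ[F] L) := by
    obtain ⟨k, hk⟩ := IsPGroup.iff_card.1 hS
    exact IsPGroup.of_card (n := k) (by rw [IsGalois.card_aut_eq_finrank, hFL, hk])
  haveI : Algebra.IsSeparable K F := inferInstance
  obtain ⟨_, _, _, _, _, _, hres⟩ := exists_localExt_instances A K F (integralClosure A F)
  haveI := hres inferInstance
  obtain ⟨h1, h2⟩ := card_H2_dvd_of_isPGroup p (finrank F L) (integralClosure A F) F L rfl hpF
  refine ⟨Finite.of_equiv _ e.symm.toEquiv, ?_⟩
  rw [Nat.card_congr e.toEquiv, ← hFL]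
  exact h2

include A in
/-- **`H²(Gal(L/K), Lˣ)` is finite of order dividing `[L : K]`.** -/
theorem card_H2_dvd_finrank :
    Finite (H2 (Rep.ofAlgebraAutOnUnits K L)) ∧
      Nat.card (H2 (Rep.ofAlgebraAutOnUnits K L)) ∣ finrank K L := by
  rw [← IsGalois.card_aut_eq_finrank]
  refine card_groupCohomology_dvd_of_sylow (Rep.ofAlgebraAutOnUnits K L) 1 ?_
  intro p _ _
  obtain ⟨P⟩ : Nonempty (Sylow p (L ≃ₐ[K] L)) := inferInstance
  exact ⟨P, card_H2_res_dvd_of_isPGroup A K L p (P : Subgroup (L ≃ₐ[K] L)) P.isPGroup'⟩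

end General

end Fermat.Agent.CFT.Local
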