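import Fermat.Agent.CFT.Local.UnrCls
import Fermat.Agent.CFT.Local.H2Bound
import Fermat.Agent.CFT.Local.CanonField
import Fermat.Agent.CFT.Local.L1b_helper7

/-!
# CFT local (L4): the fundamental class of a finite Galois extension of local fields

`(A, K)` complete discretely valued field with finite residue field, `L/K` finite Galois of
degree `n`.

* `brRes_unrCls_eq_zero` : an unramified class of `K` of "invariant `1/n`" restricts to zero
  over `L`;
* `exists_unique_brInfl_eq_unrCls` : hence it is inflated from a unique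
  `u ∈ H²(Gal(L/K), Lˣ)`, which has order `n` and generates `H²(Gal(L/K), Lˣ)`
  (`card_H2_eq_finrank`: this group is cyclic of order `n`).
-/

set_option autoImplicit false
set_option linter.unusedSectionVars false
set_option linter.style.haveILetI false

open IsLocalRing Module CategoryTheory groupCohomology Rep

namespace Fermat.Agent.CFT.Local

open Fermat.Agent.CFT.Coh

section Exist

variable (A K L : Type) [CommRing A] [IsDomain A] [IsDiscreteValuationRing A]
  [IsAdicComplete (maximalIdeal A) A] [Finite (ResidueField A)]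
  [Field K] [Algebra A K] [IsFractionRing A K]
  [Field L] [Algebra K L] [FiniteDimensional K L] [IsGalois K L]
  [Algebra A L] [IsScalarTower A K L]
  (Ω : Type) [Field Ω] [Algebra K Ω] [Algebra L Ω] [IsScalarTower K L Ω]
  [FiniteDimensional K Ω] [IsGalois K Ω]
  (m : ℕ) (hm : IsUnit (m : A)) (hprim : ∃ r : Ω, IsPrimitiveRoot r m)

include K hm hprim in
lemma unrDeg_pos : 0 < unrDeg A m := by
  rw [← finrank_cycSub A K Ω m hm hprim]
  haveI := isCyclotomicExtension_cycSub K Ω m hprim
  haveI : NeZero m := ⟨ne_zero_of_isUnit_natCast A m hm⟩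
  haveI : FiniteDimensional K (cycSub K Ω m) :=
    IsCyclotomicExtension.finiteDimensional {m} K (cycSub K Ω m)
  exact Module.finrank_pos

/-- **An unramified class of invariant `1/[L:K]` dies over `L`.** -/
theorem brRes_unrCls_eq_zero {s : ℕ} (hs : s * finrank K L = unrDeg A m) {π : Kˣ}
    (hπ : ord A (π : K) = 1) :
    brRes K L Ω 2 (unrCls A K Ω m hm hprim (π ^ s)) = 0 := by
  obtain ⟨_, _, _, _, _, _, hres⟩ := exists_localExt_instances A K L (integralClosure A L)
  haveI := hres inferInstance
  haveI : FiniteDimensional L Ω := FiniteDimensional.right K L Ω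
  haveI : IsGalois L Ω := IsGalois.tower_top_of_isGalois K L Ω
  have hm' : IsUnit (m : integralClosure A L) := by
    simpa using hm.map (algebraMap A (integralClosure A L))
  set f := resDeg A (integralClosure A L) with hf
  set e := ramIdx A (integralClosure A L) with he
  set d := unrDeg A m with hd
  set d' := unrDeg (integralClosure A L) m with hd'
  have hef : e * f = finrank K L := ramIdx_mul_resDeg A K L (integralClosure A L)
  -- `d ∣ f d'`
  have hdvd : d ∣ f * d' := by
    rw [hd, unrDeg]
    apply orderOf_dvd_of_pow_eq_one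
    rw [pow_mul, ← Nat.cast_pow, hf, ← card_residueField A (integralClosure A L)]
    exact pow_orderOf_eq_one _
  obtain ⟨t, ht⟩ := hdvd
  have ht' : t * d = f * d' := by rw [ht, mul_comm]
  have hrule := brMap_unrCls A K L (integralClosure A L) Ω Ω m m hm hm' hprim hprim
    (AlgHom.id K Ω) (dvd_refl m) ht' (π ^ s)
  show brMap K L (AlgHom.id K Ω) 2 _ = 0
  rw [hrule, unrCls_eq_zero_iff]
  have hord : ord (integralClosure A L)
      ((((Units.map (algebraMap K L : K →* L)) (π ^ s) ^ t : Lˣ) : Lˣ) : L) = (s * t * e : ℕ) := by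
    rw [Units.val_pow_eq_pow_val, Units.coe_map, Units.val_pow_eq_pow_val, MonoidHom.coe_coe,
      map_pow, ← pow_mul, ord_pow, ord_algebraMap A K L (integralClosure A L), hπ]
    push_cast
    ring
  rw [hord]
  -- `s t e = d'`
  have hn : 0 < finrank K L := Module.finrank_pos
  have key : s * t * e * finrank K L = d' * finrank K L := by
    calc s * t * e * finrank K L = t * e * (s * finrank K L) := by ring
      _ = t * e * d := by rw [hs]
      _ = e * (t * d) := by ring
      _ = e * (f * d') := by rw [ht']
      _ = d' * (e * f) := by ring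
      _ = d' * finrank K L := by rw [hef]
  have key' : s * t * e = d' := Nat.eq_of_mul_eq_mul_right hn key
  rw [key']

/-- Existence of a class of `L/K` inflating to the unramified class of invariant `1/[L:K]`. -/
theorem exists_brInfl_eq_unrCls {s : ℕ} (hs : s * finrank K L = unrDeg A m) {π : Kˣ}
    (hπ : ord A (π : K) = 1) :
    ∃ u : H2 (Rep.ofAlgebraAutOnUnits K L),
      brInfl K L Ω 2 u = unrCls A K Ω m hm hprim (π ^ s) :=
  exists_brInfl_eq_of_brRes_eq_zero K L Ω _ (brRes_unrCls_eq_zero A K L Ω m hm hprim hs hπ)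

/-- Such a class has order exactly `[L : K]`. -/
theorem zsmul_eq_zero_iff_of_brInfl_eq_unrCls {s : ℕ} (hs : s * finrank K L = unrDeg A m)
    {π : Kˣ} (hπ : ord A (π : K) = 1) {u : H2 (Rep.ofAlgebraAutOnUnits K L)}
    (hu : brInfl K L Ω 2 u = unrCls A K Ω m hm hprim (π ^ s)) (j : ℤ) :
    j • u = 0 ↔ (finrank K L : ℤ) ∣ j := by
  have hinj := brInfl_injective K L Ω
  have h1 : j • u = 0 ↔ brInfl K L Ω 2 (j • u) = 0 := by
    constructor
    · intro h; rw [h, map_zero]
    · intro h; exact hinj (by rw [h, map_zero])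
  have hs0 : 0 < s := by
    rcases Nat.eq_zero_or_pos s with rfl | h
    · rw [zero_mul] at hs
      exact absurd hs.symm (unrDeg_pos A K Ω m hm hprim).ne'
    · exact h
  rw [h1, map_zsmul, hu, ← unrCls_zpow, unrCls_eq_zero_iff, ← hs, Units.val_zpow_eq_zpow_val,
    Units.val_pow_eq_pow_val, ord_zpow, ord_pow, hπ, mul_one]
  push_cast
  rw [mul_comm j, mul_dvd_mul_iff_left (by exact_mod_cast hs0.ne')]

/-- **`H²(Gal(L/K), Lˣ)` is cyclic of order `[L : K]`, generated by any class inflating to the
unramified class of invariant `1/[L:K]`.** -/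
theorem generates_of_brInfl_eq_unrCls {s : ℕ} (hs : s * finrank K L = unrDeg A m)
    {π : Kˣ} (hπ : ord A (π : K) = 1) {u : H2 (Rep.ofAlgebraAutOnUnits K L)}
    (hu : brInfl K L Ω 2 u = unrCls A K Ω m hm hprim (π ^ s)) :
    Nat.card (H2 (Rep.ofAlgebraAutOnUnits K L)) = finrank K L ∧
      ∀ x : H2 (Rep.ofAlgebraAutOnUnits K L), ∃ j : ℤ, x = j • u := by
  obtain ⟨hfin, hdvd⟩ := card_H2_dvd_finrank A K L
  have hn : 0 < finrank K L := Module.finrank_pos
  have hord : addOrderOf u = finrank K L := by
    apply Nat.dvd_antisymm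
    · apply addOrderOf_dvd_of_nsmul_eq_zero
      have := (zsmul_eq_zero_iff_of_brInfl_eq_unrCls A K L Ω m hm hprim hs hπ hu
        (finrank K L : ℤ)).2 (dvd_refl _)
      rwa [natCast_zsmul] at this
    · have h0 : (addOrderOf u : ℤ) • u = 0 := by
        rw [natCast_zsmul]; exact addOrderOf_nsmul_eq_zero u
      have := (zsmul_eq_zero_iff_of_brInfl_eq_unrCls A K L Ω m hm hprim hs hπ hu _).1 h0
      exact_mod_cast this
  have hcardZ : Nat.card (AddSubgroup.zmultiples u) = finrank K L := by
    rw [Nat.card_zmultiples, hord]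
  have hle : Nat.card (AddSubgroup.zmultiples u) ∣ Nat.card (H2 (Rep.ofAlgebraAutOnUnits K L)) :=
    AddSubgroup.card_addSubgroup_dvd_card _
  have hcard : Nat.card (H2 (Rep.ofAlgebraAutOnUnits K L)) = finrank K L :=
    Nat.dvd_antisymm hdvd (hcardZ ▸ hle)
  refine ⟨hcard, ?_⟩
  have htop : AddSubgroup.zmultiples u = ⊤ :=
    AddSubgroup.eq_top_of_card_eq _ (by rw [hcardZ, hcard])
  intro x
  have hx : x ∈ AddSubgroup.zmultiples u := htop ▸ AddSubgroup.mem_top x
  obtain ⟨j, hj⟩ := AddSubgroup.mem_zmultiples_iff.1 hx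
  exact ⟨j, hj.symm⟩

end Exist

section Arith

/-- The order of `q` modulo `q ^ n - 1` is `n`. -/
theorem orderOf_natCast_pow_sub_one {q n : ℕ} (hq : 2 ≤ q) (hn : 0 < n) :
    orderOf ((q : ℕ) : ZMod (q ^ n - 1)) = n := by
  have h1 : ∀ j : ℕ, 1 ≤ q ^ j := fun j => Nat.one_le_pow _ _ (by omega)
  rw [orderOf_eq_iff hn]
  constructor
  · rw [← Nat.cast_pow]
    have : q ^ n = (q ^ n - 1) + 1 := (Nat.sub_add_cancel (h1 n)).symm
    rw [this, Nat.cast_add, ZMod.natCast_self, zero_add, Nat.cast_one]
  · intro j hj hj0 h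
    rw [← Nat.cast_pow] at h
    have h2 : ((q ^ j - 1 : ℕ) : ZMod (q ^ n - 1)) = 0 := by
      rw [Nat.cast_sub (h1 j), h, Nat.cast_one, sub_self]
    rw [ZMod.natCast_eq_zero_iff] at h2
    have h3 : q ^ j < q ^ n := Nat.pow_lt_pow_right (by omega) hj
    have h4 : q ^ 1 ≤ q ^ j := Nat.pow_le_pow_right (by omega) hj0
    have h5 : 0 < q ^ j - 1 := by
      rw [pow_one] at h4; omega
    have := Nat.le_of_dvd h5 h2
    omega

end Arith

section Canon

variable (A K L : Type) [CommRing A] [IsDomain A] [IsDiscreteValuationRing A]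
  [IsAdicComplete (maximalIdeal A) A] [Finite (ResidueField A)]
  [Field K] [Algebra A K] [IsFractionRing A K]
  [Field L] [Algebra K L] [FiniteDimensional K L] [IsGalois K L]
  [Algebra A L] [IsScalarTower A K L]

/-- The canonical modulus `m = q ^ [L:K] - 1`. -/
noncomputable def canonM : ℕ := resCard A ^ finrank K L - 1

lemma two_le_resCard : 2 ≤ resCard A := Finite.one_lt_card (α := ResidueField A)

lemma isUnit_canonM : IsUnit ((canonM A K L : ℕ) : A) :=
  isUnit_natCast_resCard_pow_sub_one A (n := finrank K L) Module.finrank_pos.ne'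

lemma unrDeg_canonM : unrDeg A (canonM A K L) = finrank K L :=
  orderOf_natCast_pow_sub_one (two_le_resCard A) Module.finrank_pos

instance neZero_canonM : NeZero ((canonM A K L : ℕ) : L) := ⟨by
  have h := (isUnit_canonM A K L).map (algebraMap A L)
  rw [map_natCast] at h
  exact h.ne_zero⟩

omit [IsAdicComplete (maximalIdeal A) A] [Finite (ResidueField A)] in
lemma exists_ord_eq_one : ∃ π : Kˣ, ord A (π : K) = 1 := by
  obtain ⟨x, hx⟩ := ordHom_surjective A (F := K) (Multiplicative.ofAdd 1)
  refine ⟨x, ?_⟩
  rw [ordHom_apply] at hx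
  exact congrArg Multiplicative.toAdd hx

/-- The canonical overfield `L(ζ_m)`, `m = q ^ [L:K] - 1`, of `L`. -/
def canonField : Type := CyclotomicField (canonM A K L) L

noncomputable instance : Field (canonField A K L) :=
  inferInstanceAs (Field (CyclotomicField (canonM A K L) L))

noncomputable instance : Algebra L (canonField A K L) :=
  inferInstanceAs (Algebra L (CyclotomicField (canonM A K L) L))

noncomputable instance : Algebra K (canonField A K L) :=
  inferInstanceAs (Algebra K (CyclotomicField (canonM A K L) L))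

instance : IsScalarTower K L (canonField A K L) :=
  inferInstanceAs (IsScalarTower K L (CyclotomicField (canonM A K L) L))

instance : FiniteDimensional K (canonField A K L) :=
  finiteDimensional_cyclotomicField K L (canonM A K L)

instance : IsGalois K (canonField A K L) :=
  isGalois_cyclotomicField K L (canonM A K L)

lemma exists_isPrimitiveRoot_canonField :
    ∃ r : canonField A K L, IsPrimitiveRoot r (canonM A K L) :=
  exists_isPrimitiveRoot_cyclotomicField L (canonM A K L)

/-- Existence of the local fundamental class. -/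
theorem exists_localFundClass :
    ∃ u : H2 (Rep.ofAlgebraAutOnUnits K L), ∀ π : Kˣ, ord A (π : K) = 1 →
      brInfl K L (canonField A K L) 2 u =
        unrCls A K (canonField A K L) (canonM A K L) (isUnit_canonM A K L)
          (exists_isPrimitiveRoot_canonField A K L) π := by
  obtain ⟨π₀, hπ₀⟩ := exists_ord_eq_one A K
  have hs : 1 * finrank K L = unrDeg A (canonM A K L) := by rw [one_mul, unrDeg_canonM]
  obtain ⟨u, hu⟩ := exists_brInfl_eq_unrCls A K L (canonField A K L) (canonM A K L)
    (isUnit_canonM A K L) (exists_isPrimitiveRoot_canonField A K L) hs hπ₀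
  refine ⟨u, fun π hπ => ?_⟩
  rw [hu, pow_one, unrCls_eq_unrCls_iff, hπ₀, hπ, sub_self]
  exact dvd_zero _

/-- **The local fundamental class** `u_{L/K} ∈ H²(Gal(L/K), Lˣ)`. -/
noncomputable def localFundClass : H2 (Rep.ofAlgebraAutOnUnits K L) :=
  (exists_localFundClass A K L).choose

theorem brInfl_canonField_localFundClass {π : Kˣ} (hπ : ord A (π : K) = 1) :
    brInfl K L (canonField A K L) 2 (localFundClass A K L) =
      unrCls A K (canonField A K L) (canonM A K L) (isUnit_canonM A K L)
        (exists_isPrimitiveRoot_canonField A K L) π :=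
  (exists_localFundClass A K L).choose_spec π hπ

include A in
/-- **`|H²(Gal(L/K), Lˣ)| = [L : K]`.** -/
theorem card_H2_eq_finrank : Nat.card (H2 (Rep.ofAlgebraAutOnUnits K L)) = finrank K L := by
  obtain ⟨π, hπ⟩ := exists_ord_eq_one A K
  have hs : 1 * finrank K L = unrDeg A (canonM A K L) := by rw [one_mul, unrDeg_canonM]
  have hu := brInfl_canonField_localFundClass A K L hπ
  rw [← pow_one π] at hu
  exact (generates_of_brInfl_eq_unrCls A K L (canonField A K L) (canonM A K L)
    (isUnit_canonM A K L) (exists_isPrimitiveRoot_canonField A K L) hs hπ hu).1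

/-- **The local fundamental class generates `H²(Gal(L/K), Lˣ)`.** -/
theorem exists_zsmul_localFundClass (x : H2 (Rep.ofAlgebraAutOnUnits K L)) :
    ∃ j : ℤ, x = j • localFundClass A K L := by
  obtain ⟨π, hπ⟩ := exists_ord_eq_one A K
  have hs : 1 * finrank K L = unrDeg A (canonM A K L) := by rw [one_mul, unrDeg_canonM]
  have hu := brInfl_canonField_localFundClass A K L hπ
  rw [← pow_one π] at hu
  exact (generates_of_brInfl_eq_unrCls A K L (canonField A K L) (canonM A K L)
    (isUnit_canonM A K L) (exists_isPrimitiveRoot_canonField A K L) hs hπ hu).2 x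

/-- The local fundamental class has order `[L : K]`. -/
theorem zsmul_localFundClass_eq_zero_iff (j : ℤ) :
    j • localFundClass A K L = 0 ↔ (finrank K L : ℤ) ∣ j := by
  obtain ⟨π, hπ⟩ := exists_ord_eq_one A K
  have hs : 1 * finrank K L = unrDeg A (canonM A K L) := by rw [one_mul, unrDeg_canonM]
  have hu := brInfl_canonField_localFundClass A K L hπ
  rw [← pow_one π] at hu
  exact zsmul_eq_zero_iff_of_brInfl_eq_unrCls A K L (canonField A K L) (canonM A K L)
    (isUnit_canonM A K L) (exists_isPrimitiveRoot_canonField A K L) hs hπ hu j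

end Canon

end Fermat.Agent.CFT.Local
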