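import Fermat.Agent.CFT.Local.GalUnits

/-!
# CFT local (L4): functoriality of `H^n(Gal(M/K), Mˣ)` in the extension `M/K`

Let `K ⊆ F` be fields, `M/K` a normal extension, `M'` an `F`-algebra (field) and
`j : M →ₐ[K] M'` a `K`-embedding.  Restriction of automorphisms along `j` is a group homomorphism
`galRes K F j : Gal(M'/F) →* Gal(M/K)` (characterised by `j (galRes σ x) = σ (j x)`), and `j`
induces a morphism of representations `unitsHom K F j : res (galRes j) Mˣ ⟶ M'ˣ`.  The induced maps

`brMap K F j n : Hⁿ(Gal(M/K), Mˣ) ⟶ Hⁿ(Gal(M'/F), M'ˣ)`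

specialise to inflation (`F = K`) and restriction (`M' = M`, `j = id`).  They are functorial
(`brMap_comp`, `brMap_id`).  No `Algebra M M'` instance is used: all embeddings are explicit
`AlgHom`s, so that several overfields can coexist.
-/

set_option autoImplicit false

open CategoryTheory groupCohomology Rep

namespace Fermat.Agent.CFT.Local

section GalRes

variable (K F : Type*) {M M' : Type*} [Field K] [Field F] [Field M] [Field M']
  [Algebra K F] [Algebra K M] [Algebra F M'] [Algebra K M'] [IsScalarTower K F M']
  [Normal K M] (j : M →ₐ[K] M')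

/-- Restriction of automorphisms along a `K`-embedding `j : M → M'` of a normal extension `M/K`,
`Gal(M'/F) →* Gal(M/K)`. -/
noncomputable def galRes : (M' ≃ₐ[F] M') →* (M ≃ₐ[K] M) :=
  letI := j.toRingHom.toAlgebra
  haveI : IsScalarTower K M M' := IsScalarTower.of_algebraMap_eq fun x => (j.commutes x).symm
  (AlgEquiv.restrictNormalHom M).comp (AlgEquiv.restrictScalarsHom K)

lemma galRes_commutes (σ : M' ≃ₐ[F] M') (x : M) : j (galRes K F j σ x) = σ (j x) := by
  let _ := j.toRingHom.toAlgebra
  have : IsScalarTower K M M' := IsScalarTower.of_algebraMap_eq fun x => (j.commutes x).symm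
  exact AlgEquiv.restrictNormal_commutes (σ.restrictScalars K) M x

variable {K F j} in
/-- `galRes` is characterised by `j (galRes σ x) = σ (j x)`. -/
lemma galRes_eq_of_commutes {σ : M' ≃ₐ[F] M'} {τ : M ≃ₐ[K] M}
    (h : ∀ x, j (τ x) = σ (j x)) : galRes K F j σ = τ := by
  ext x
  have hj : Function.Injective j := j.injective
  apply hj
  rw [galRes_commutes, h]

end GalRes

section UnitsHom

variable (K F : Type) {M M' : Type} [Field K] [Field F] [Field M] [Field M']
  [Algebra K F] [Algebra K M] [Algebra F M'] [Algebra K M'] [IsScalarTower K F M']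
  [Normal K M] (j : M →ₐ[K] M')

/-- The additive map `Mˣ → M'ˣ` induced by `j`, on the carriers of the representations. -/
noncomputable def unitsLin :
    (Rep.ofAlgebraAutOnUnits K M).V →ₗ[ℤ] (Rep.ofAlgebraAutOnUnits F M').V :=
  AddMonoidHom.toIntLinearMap
    { toFun := fun v => ofU F M' (Units.map (j : M →* M') (toU K M v))
      map_zero' := by rw [toU_zero, map_one, ofU_one]
      map_add' := fun v w => by rw [toU_add, map_mul, ofU_mul] }

omit [Normal K M] [Algebra K F] [IsScalarTower K F M'] in
@[simp] lemma unitsLin_ofU (x : Mˣ) :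
    unitsLin K F j (ofU K M x) = ofU F M' (Units.map (j : M →* M') x) := rfl

omit [Normal K M] [Algebra K F] [IsScalarTower K F M'] in
@[simp] lemma toU_unitsLin (v : (Rep.ofAlgebraAutOnUnits K M).V) :
    toU F M' (unitsLin K F j v) = Units.map (j : M →* M') (toU K M v) := rfl

/-- `j : M → M'` as a morphism of `Gal(M'/F)`-representations `res (galRes j) Mˣ ⟶ M'ˣ`. -/
noncomputable def unitsHom :
    res (galRes K F j) (Rep.ofAlgebraAutOnUnits K M) ⟶ Rep.ofAlgebraAutOnUnits F M' :=
  ofHom ⟨unitsLin K F j, fun σ => by
    ext v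
    obtain ⟨x, rfl⟩ := ofU_surjective K M v
    show j (galRes K F j σ (x : M)) = σ (j (x : M))
    exact galRes_commutes K F j σ x⟩

@[simp] lemma unitsHom_hom_apply (v : (Rep.ofAlgebraAutOnUnits K M).V) :
    (unitsHom K F j).hom v = unitsLin K F j v := rfl

/-- **Functoriality of `Hⁿ(Gal(M/K), Mˣ)`** in the pair `(K, M)`. -/
noncomputable def brMap (n : ℕ) :
    groupCohomology (Rep.ofAlgebraAutOnUnits K M) n ⟶
      groupCohomology (Rep.ofAlgebraAutOnUnits F M') n :=
  groupCohomology.map (galRes K F j) (unitsHom K F j) n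

end UnitsHom

section Functoriality

variable (K F F' : Type) {M M' M'' : Type} [Field K] [Field F] [Field F'] [Field M] [Field M']
  [Field M'']
  [Algebra K F] [Algebra F F'] [Algebra K F']
  [Algebra K M] [Normal K M]
  [Algebra F M'] [Algebra K M'] [IsScalarTower K F M'] [Normal F M']
  [Algebra F' M''] [Algebra F M''] [Algebra K M''] [IsScalarTower F F' M'']
  [IsScalarTower K F' M''] [IsScalarTower K F M'']
  (j : M →ₐ[K] M') (j' : M' →ₐ[F] M'')

lemma galRes_comp :
    galRes K F' ((j'.restrictScalars K).comp j) = (galRes K F j).comp (galRes F F' j') := by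
  ext σ : 1
  apply galRes_eq_of_commutes
  intro x
  rw [MonoidHom.comp_apply, AlgHom.comp_apply, AlgHom.restrictScalars_apply,
    galRes_commutes, galRes_commutes]
  rfl

/-- **Functoriality**: `brMap` of a composite is the composite of the `brMap`s. -/
theorem brMap_comp (n : ℕ) :
    brMap K F' ((j'.restrictScalars K).comp j) n = brMap K F j n ≫ brMap F F' j' n := by
  unfold brMap
  rw [← groupCohomology.map_comp]
  exact groupCohomology.map_congr (galRes_comp K F F' j j') rfl n

omit [Field F] [Field F'] [Field M'] [Field M''] in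
lemma galRes_id : galRes K K (AlgHom.id K M) = MonoidHom.id _ := by
  ext σ : 1
  apply galRes_eq_of_commutes
  intro x
  rfl

omit [Field F] [Field F'] [Field M'] [Field M''] in
theorem brMap_id (n : ℕ) : brMap K K (AlgHom.id K M) n = 𝟙 _ := by
  unfold brMap
  rw [← groupCohomology.map_id]
  exact groupCohomology.map_congr (galRes_id K) rfl n

end Functoriality

end Fermat.Agent.CFT.Local
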