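import Fermat.Agent.CFT.Local.BrMap
import Fermat.Agent.CFT.Coh.CyclicPullback_helper4

/-!
# CFT local (L4): the classes `[a, φ] ∈ H²(Gal(M/K), Mˣ)` of a cyclic extension

For a finite cyclic Galois extension `M/K` with a chosen generator `φ` of `Gal(M/K)`, helper6's
isomorphism `H² ≃ Ĥ⁰ = Kˣ / N Mˣ` attaches to every `a ∈ Kˣ` a class
`cycClass K M hφ a ∈ H²(Gal(M/K), Mˣ)` (the cup product `a ∪ δχ_φ`).

* `cycClassHom` : `Kˣ → H²` is a surjective homomorphism with kernel the norm group;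
* `brMap_cycClass` : **functoriality**.  If `K ⊆ F`, `M'/F` is cyclic with generator `φ'`,
  `j : M →ₐ[K] M'` and `φ'|_M = φ ^ f`, then `brMap K F j 2 [a, φ] = [a ^ t, φ']` where
  `t [M:K] = f [M':F]`.
-/

set_option autoImplicit false

open CategoryTheory groupCohomology Rep Module

namespace Fermat.Agent.CFT.Local

open Fermat.Agent.CFT.Coh

section CycClass

variable (K M : Type) [Field K] [Field M] [Algebra K M] [FiniteDimensional K M]
  {φ : M ≃ₐ[K] M} (hφ : ∀ σ, σ ∈ Subgroup.zpowers φ)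

/-- The homomorphism `Kˣ → H²(Gal(M/K), Mˣ)`, `a ↦ [a, φ]`, attached to a generator `φ`. -/
noncomputable def cycClassHom : Additive Kˣ →+ H2 (Rep.ofAlgebraAutOnUnits K M) :=
  ((H2EquivTateH0 hφ (Rep.ofAlgebraAutOnUnits K M)).symm.toLinearMap.toAddMonoidHom).comp
    (tateMk K M)

/-- The class `[a, φ] ∈ H²(Gal(M/K), Mˣ)`. -/
noncomputable def cycClass (a : Kˣ) : H2 (Rep.ofAlgebraAutOnUnits K M) :=
  cycClassHom K M hφ (Additive.ofMul a)

lemma cycClass_def (a : Kˣ) :
    cycClass K M hφ a = (H2EquivTateH0 hφ (Rep.ofAlgebraAutOnUnits K M)).symm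
      (tateMk K M (Additive.ofMul a)) := rfl

lemma H2EquivTateH0_cycClass (a : Kˣ) :
    H2EquivTateH0 hφ (Rep.ofAlgebraAutOnUnits K M) (cycClass K M hφ a) =
      tateMk K M (Additive.ofMul a) := by
  rw [cycClass_def, LinearEquiv.apply_symm_apply]

@[simp] lemma cycClass_one : cycClass K M hφ 1 = 0 := by
  rw [cycClass, ofMul_one, map_zero]

lemma cycClass_mul (a b : Kˣ) :
    cycClass K M hφ (a * b) = cycClass K M hφ a + cycClass K M hφ b := by
  rw [cycClass, ofMul_mul, map_add]; rfl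

lemma cycClass_pow (a : Kˣ) (n : ℕ) : cycClass K M hφ (a ^ n) = n • cycClass K M hφ a := by
  rw [cycClass, ofMul_pow, map_nsmul]; rfl

lemma cycClass_zpow (a : Kˣ) (n : ℤ) : cycClass K M hφ (a ^ n) = n • cycClass K M hφ a := by
  rw [cycClass, ofMul_zpow, map_zsmul]; rfl

lemma cycClass_inv (a : Kˣ) : cycClass K M hφ a⁻¹ = -cycClass K M hφ a := by
  rw [cycClass, ofMul_inv, map_neg]; rfl

variable [IsGalois K M]

/-- `[a, φ] = 0` iff `a` is a norm from `M`. -/
lemma cycClass_eq_zero_iff (a : Kˣ) :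
    cycClass K M hφ a = 0 ↔ ∃ y : Mˣ, Algebra.norm K (y : M) = a := by
  rw [cycClass_def, LinearEquiv.map_eq_zero_iff, tateMk_eq_zero_iff]

lemma cycClass_eq_cycClass_iff (a b : Kˣ) :
    cycClass K M hφ a = cycClass K M hφ b ↔ ∃ y : Mˣ, Algebra.norm K (y : M) = a / b := by
  rw [← sub_eq_zero, sub_eq_add_neg, ← cycClass_inv, ← cycClass_mul, cycClass_eq_zero_iff,
    div_eq_mul_inv]
  simp

/-- Every class in `H²(Gal(M/K), Mˣ)` (`M/K` cyclic) is of the form `[a, φ]`. -/
lemma cycClass_surjective (x : H2 (Rep.ofAlgebraAutOnUnits K M)) :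
    ∃ a : Kˣ, cycClass K M hφ a = x := by
  obtain ⟨a, ha⟩ := tateMk_surjective K M (H2EquivTateH0 hφ (Rep.ofAlgebraAutOnUnits K M) x)
  refine ⟨Additive.toMul a, ?_⟩
  rw [cycClass_def, ofMul_toMul, ha, LinearEquiv.symm_apply_apply]

include hφ in
lemma orderOf_eq_finrank_of_generator : orderOf φ = finrank K M := by
  rw [orderOf_eq_card_of_generator hφ, IsGalois.card_aut_eq_finrank]

end CycClass

section Functoriality

variable (K F : Type) {M M' : Type} [Field K] [Field F] [Field M] [Field M']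
  [Algebra K F] [Algebra K M] [Algebra F M'] [Algebra K M'] [IsScalarTower K F M']
  [FiniteDimensional K M] [IsGalois K M] [FiniteDimensional F M'] [IsGalois F M']
  {φ : M ≃ₐ[K] M} (hφ : ∀ σ, σ ∈ Subgroup.zpowers φ)
  {φ' : M' ≃ₐ[F] M'} (hφ' : ∀ σ, σ ∈ Subgroup.zpowers φ')
  (j : M →ₐ[K] M')

omit [FiniteDimensional K M] [FiniteDimensional F M'] [IsGalois F M'] in
lemma pullbackInv_invOfUnits (a : Kˣ) :
    pullbackInv (Rep.ofAlgebraAutOnUnits K M) (Rep.ofAlgebraAutOnUnits F M') (galRes K F j)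
      (unitsHom K F j) (invOfUnits K M (Additive.ofMul a)) =
      invOfUnits F M' (Additive.ofMul (Units.map (algebraMap K F : K →* F) a)) := by
  apply Subtype.ext
  rw [coe_pullbackInv, coe_invOfUnits, coe_invOfUnits, unitsHom_hom_apply, unitsLin_ofU]
  congr 1
  apply Units.ext
  simp only [Units.coe_map, MonoidHom.coe_coe, AlgHom.commutes]
  exact IsScalarTower.algebraMap_apply K F M' (a : K)

/-- **Functoriality of the classes `[a, φ]`.** -/
theorem brMap_cycClass {f t : ℕ} (hf : galRes K F j φ' = φ ^ f)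
    (ht : t * finrank K M = f * finrank F M') (a : Kˣ) :
    brMap K F j 2 (cycClass K M hφ a) =
      cycClass F M' hφ' (Units.map (algebraMap K F : K →* F) a ^ t) := by
  have h := map_H2EquivTateH0_symm_mk hφ hφ' (Rep.ofAlgebraAutOnUnits K M)
    (Rep.ofAlgebraAutOnUnits F M') (galRes K F j) (unitsHom K F j) hf (t := t)
    (by rw [orderOf_eq_finrank_of_generator K M hφ, orderOf_eq_finrank_of_generator F M' hφ', ht])
    (invOfUnits K M (Additive.ofMul a))
  rw [pullbackInv_invOfUnits] at h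
  rw [cycClass_def, cycClass_def, tateMk_apply, tateMk_apply, ofMul_pow, map_nsmul]
  exact h

end Functoriality

end Fermat.Agent.CFT.Local
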