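import Fermat.Agent.CFT.Local.Unramified
import Fermat.Agent.CFT.Local.IntClosure
import Fermat.Agent.CFT.Local.BrMap

/-!
# CFT local (L4): the Frobenius of `K(ζ_m)/K`, `m` prime to `p`, without reference to integers

For `(A, K)` a complete discretely valued field with finite residue field of cardinality `q`
and `M = K(ζ_m)` with `m` a unit of `A`:

* `exists_cycFrob` : there is `φ ∈ Gal(M/K)` with `φ ζ = ζ ^ q` for all `ζ ∈ μ_m(M)`, and it
  generates `Gal(M/K)`;
* `cycFrob_unique` : it is unique;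
* `finrank_eq_orderOf_of_cyclotomic` : `[M : K]` is the order of `q` modulo `m`;
* `galRes_cycFrob` : compatibility with finite base change `K ⊆ F` (residue degree `f`):
  the Frobenius of `M'/F` restricts to `φ ^ f` on `M`.
-/

set_option autoImplicit false
set_option linter.unusedSectionVars false
set_option linter.style.haveILetI false

open IsLocalRing Module

namespace Fermat.Agent.CFT.Local

section Exists

variable (A K : Type*) [CommRing A] [IsDomain A] [IsDiscreteValuationRing A]
  [IsAdicComplete (maximalIdeal A) A] [Finite (ResidueField A)]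
  [Field K] [Algebra A K] [IsFractionRing A K]
  (M : Type*) [Field M] [Algebra K M] (m : ℕ) (hm : IsUnit (m : A))
  [IsCyclotomicExtension {m} K M]

include hm in
lemma ne_zero_of_isUnit_natCast : m ≠ 0 := by
  rintro rfl
  simp at hm

include A hm in
/-- The Frobenius of `K(ζ_m)/K` exists, generates the Galois group, and the degree is the order
of `q` mod `m`. -/
theorem exists_cycFrob_aux :
    ∃ φ : M ≃ₐ[K] M, (∀ ζ : M, ζ ^ m = 1 → φ ζ = ζ ^ resCard A) ∧
      (∀ σ : M ≃ₐ[K] M, σ ∈ Subgroup.zpowers φ) ∧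
      finrank K M = orderOf ((resCard A : ℕ) : ZMod m) := by
  have hm0 : m ≠ 0 := ne_zero_of_isUnit_natCast A m hm
  haveI : NeZero m := ⟨hm0⟩
  letI : Algebra A M := ((algebraMap K M).comp (algebraMap A K)).toAlgebra
  haveI : IsScalarTower A K M := IsScalarTower.of_algebraMap_eq (fun _ => rfl)
  haveI : FiniteDimensional K M := IsCyclotomicExtension.finiteDimensional {m} K M
  haveI : Algebra.IsSeparable K M := IsCyclotomicExtension.isSeparable {m} K M
  obtain ⟨_, _, _, _, _, _, hres⟩ := exists_localExt_instances A K M (integralClosure A M)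
  obtain ⟨φ, h1, h2, -⟩ :=
    exists_frobenius_of_isCyclotomicExtension A K M (integralClosure A M) m hm
  exact ⟨φ, h1, h2,
    finrank_eq_orderOf_of_isCyclotomicExtension A K M (integralClosure A M) m hm⟩

end Exists

section Unique

variable (K : Type*) [Field K] {M : Type*} [Field M] [Algebra K M] (m : ℕ)
  [IsCyclotomicExtension {m} K M]

/-- Two `K`-algebra maps out of `K(ζ_m)` agreeing on `μ_m` are equal. -/
theorem algHom_ext_of_cyclotomic {R : Type*} [Semiring R] [Algebra K R] {f g : M →ₐ[K] R}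
    (h : ∀ ζ : M, ζ ^ m = 1 → f ζ = g ζ) : f = g := by
  have htop : Algebra.adjoin K {b : M | ∃ n ∈ ({m} : Set ℕ), n ≠ 0 ∧ b ^ n = 1} = ⊤ :=
    ((IsCyclotomicExtension.iff_adjoin_eq_top {m} K M).1 inferInstance).2
  refine AlgHom.ext_of_adjoin_eq_top htop ?_
  rintro x ⟨n, hn, -, hx⟩
  rw [Set.mem_singleton_iff] at hn
  subst hn
  exact h x hx

theorem algEquiv_ext_of_cyclotomic {φ ψ : M ≃ₐ[K] M}
    (h : ∀ ζ : M, ζ ^ m = 1 → φ ζ = ψ ζ) : φ = ψ := by
  have : (φ : M →ₐ[K] M) = (ψ : M →ₐ[K] M) := algHom_ext_of_cyclotomic K m h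
  ext x
  exact congrArg (fun f : M →ₐ[K] M => f x) this

omit [IsCyclotomicExtension {m} K M] in
/-- Powers of a Frobenius-like automorphism on roots of unity. -/
theorem pow_apply_of_forall_rootsOfUnity {φ : M ≃ₐ[K] M} {q : ℕ}
    (hφ : ∀ ζ : M, ζ ^ m = 1 → φ ζ = ζ ^ q) (k : ℕ) (ζ : M) (hζ : ζ ^ m = 1) :
    (φ ^ k) ζ = ζ ^ (q ^ k) := by
  induction k generalizing ζ with
  | zero => simp
  | succ k ih =>
    rw [pow_succ, AlgEquiv.mul_apply, hφ ζ hζ, ih (ζ ^ q) (by rw [← pow_mul, mul_comm, pow_mul,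
      hζ, one_pow]), ← pow_mul, pow_succ, mul_comm]

end Unique

section BaseChange

variable (A K F B : Type*) [CommRing A] [IsDomain A] [IsDiscreteValuationRing A]
  [Finite (ResidueField A)]
  [Field K] [Algebra A K] [IsFractionRing A K]
  [Field F] [Algebra K F] [FiniteDimensional K F]
  [CommRing B] [IsDomain B] [IsDiscreteValuationRing B]
  [Algebra A B] [Algebra B F] [Algebra A F] [IsScalarTower A K F] [IsScalarTower A B F]
  [IsFractionRing B F] [Module.Finite A B] [IsLocalHom (algebraMap A B)]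
  {M M' : Type*} [Field M] [Field M'] [Algebra K M] [Algebra F M'] [Algebra K M']
  [IsScalarTower K F M'] (m : ℕ) [IsCyclotomicExtension {m} K M] [Normal K M]
  (j : M →ₐ[K] M')

/-- **Base change of the Frobenius**: if `φ` is the Frobenius of `M = K(ζ_m)` over `K` and `φ'`
acts on `μ_m(M')` as the Frobenius of `F`, then `φ'` restricts to `φ ^ f` on `M`, `f = f(F/K)`. -/
theorem galRes_cycFrob {φ : M ≃ₐ[K] M} (hφ : ∀ ζ : M, ζ ^ m = 1 → φ ζ = ζ ^ resCard A)
    {φ' : M' ≃ₐ[F] M'} (hφ' : ∀ ζ : M', ζ ^ m = 1 → φ' ζ = ζ ^ resCard B) :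
    galRes K F j φ' = φ ^ resDeg A B := by
  apply algEquiv_ext_of_cyclotomic K m
  intro ζ hζ
  have hj : Function.Injective j := j.injective
  apply hj
  have hjζ : (j ζ) ^ m = 1 := by rw [← map_pow, hζ, map_one]
  rw [galRes_commutes, hφ' (j ζ) hjζ, pow_apply_of_forall_rootsOfUnity K m hφ _ ζ hζ, map_pow]
  congr 1
  exact card_residueField A B

end BaseChange

end Fermat.Agent.CFT.Local
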