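import Mathlib

/-!
# CFT local (L4): the subfield `K(μ_m)` of an extension `Ω/K`

`cycSub K Ω m : IntermediateField K Ω` is the subfield generated by the `m`-th roots of unity of
`Ω`.  If `Ω` contains a primitive `m`-th root of unity it is an `{m}`-cyclotomic extension of `K`.
We record its functoriality in `m` (divisibility), in `Ω` (embeddings) and in `K` (base change).
-/

set_option autoImplicit false

namespace Fermat.Agent.CFT.Local

section Defs

variable (K Ω : Type*) [Field K] [Field Ω] [Algebra K Ω] (m : ℕ)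

/-- `K(μ_m) ⊆ Ω`. -/
def cycSub : IntermediateField K Ω :=
  IntermediateField.adjoin K {b : Ω | ∃ n ∈ ({m} : Set ℕ), n ≠ 0 ∧ b ^ n = 1}

variable {K Ω m}

lemma mem_cycSub_of_pow_eq_one (hm : m ≠ 0) {ζ : Ω} (hζ : ζ ^ m = 1) : ζ ∈ cycSub K Ω m :=
  IntermediateField.subset_adjoin K _ ⟨m, rfl, hm, hζ⟩

variable (K Ω m)

theorem isCyclotomicExtension_cycSub (hprim : ∃ r : Ω, IsPrimitiveRoot r m) :
    IsCyclotomicExtension {m} K (cycSub K Ω m) :=
  IntermediateField.isCyclotomicExtension_adjoin_of_exists_isPrimitiveRoot {m} K Ω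
    (fun n hn _ => by rw [Set.mem_singleton_iff] at hn; subst hn; exact hprim)

variable {K Ω m}

lemma cycSub_le_iff {S : IntermediateField K Ω} :
    cycSub K Ω m ≤ S ↔ ∀ ζ : Ω, m ≠ 0 → ζ ^ m = 1 → ζ ∈ S := by
  rw [cycSub, IntermediateField.adjoin_le_iff]
  constructor
  · intro h ζ hm hζ
    exact h ⟨m, rfl, hm, hζ⟩
  · rintro h ζ ⟨n, hn, hn0, hζ⟩
    rw [Set.mem_singleton_iff] at hn
    subst hn
    exact h ζ hn0 hζ

/-- `K(μ_{m₁}) ⊆ K(μ_{m₂})` if `m₁ ∣ m₂`. -/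
lemma cycSub_le_of_dvd {m₁ m₂ : ℕ} (h : m₁ ∣ m₂) (h2 : m₂ ≠ 0) :
    cycSub K Ω m₁ ≤ cycSub K Ω m₂ := by
  rw [cycSub_le_iff]
  intro ζ _ hζ
  obtain ⟨c, rfl⟩ := h
  exact mem_cycSub_of_pow_eq_one h2 (by rw [pow_mul, hζ, one_pow])

end Defs

section Map

variable {K Ω Ω' : Type*} [Field K] [Field Ω] [Field Ω'] [Algebra K Ω] [Algebra K Ω'] (m : ℕ)
  (k : Ω →ₐ[K] Ω')

lemma map_mem_cycSub {x : Ω} (hx : x ∈ cycSub K Ω m) : k x ∈ cycSub K Ω' m := by
  have h : cycSub K Ω m ≤ (cycSub K Ω' m).comap k := by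
    rw [cycSub_le_iff]
    intro ζ hm hζ
    show k ζ ∈ cycSub K Ω' m
    exact mem_cycSub_of_pow_eq_one hm (by rw [← map_pow, hζ, map_one])
  exact h hx

/-- The map `K(μ_m(Ω)) → K(μ_m(Ω'))` induced by a `K`-embedding `Ω → Ω'`. -/
noncomputable def cycSubMap : cycSub K Ω m →ₐ[K] cycSub K Ω' m :=
  (k.comp (cycSub K Ω m).val).codRestrict (cycSub K Ω' m).toSubalgebra
    (fun x => map_mem_cycSub m k x.2)

@[simp] lemma coe_cycSubMap (x : cycSub K Ω m) : ((cycSubMap m k x : cycSub K Ω' m) : Ω') = k x :=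
  rfl

end Map

section Incl

variable {K Ω : Type*} [Field K] [Field Ω] [Algebra K Ω] {m₁ m₂ : ℕ}

/-- The inclusion `K(μ_{m₁}) → K(μ_{m₂})` for `m₁ ∣ m₂`. -/
noncomputable def cycSubIncl (h : m₁ ∣ m₂) (h2 : m₂ ≠ 0) : cycSub K Ω m₁ →ₐ[K] cycSub K Ω m₂ :=
  IntermediateField.inclusion (cycSub_le_of_dvd h h2)

@[simp] lemma coe_cycSubIncl (h : m₁ ∣ m₂) (h2 : m₂ ≠ 0) (x : cycSub K Ω m₁) :
    ((cycSubIncl h h2 x : cycSub K Ω m₂) : Ω) = x := by
  rw [cycSubIncl, IntermediateField.coe_inclusion]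

end Incl

section BaseChange

variable (K F : Type*) {Ω : Type*} [Field K] [Field F] [Field Ω] [Algebra K F] [Algebra F Ω]
  [Algebra K Ω] [IsScalarTower K F Ω] (m : ℕ)

lemma mem_cycSub_of_mem_cycSub {x : Ω} (hx : x ∈ cycSub K Ω m) : x ∈ cycSub F Ω m := by
  have h : cycSub K Ω m ≤ (cycSub F Ω m).restrictScalars K := by
    rw [cycSub_le_iff]
    intro ζ hm hζ
    rw [IntermediateField.mem_restrictScalars]
    exact mem_cycSub_of_pow_eq_one hm hζ
  exact h hx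

/-- The inclusion `K(μ_m) → F(μ_m)` inside `Ω`, for `K ⊆ F ⊆ Ω`. -/
noncomputable def cycSubBaseChange : cycSub K Ω m →ₐ[K] cycSub F Ω m where
  toFun x := ⟨x, mem_cycSub_of_mem_cycSub K F m x.2⟩
  map_one' := rfl
  map_mul' _ _ := rfl
  map_zero' := rfl
  map_add' _ _ := rfl
  commutes' r := by
    apply Subtype.ext
    rw [IsScalarTower.algebraMap_apply K F (cycSub F Ω m)]
    show ((algebraMap K (cycSub K Ω m) r : cycSub K Ω m) : Ω) = algebraMap F Ω (algebraMap K F r)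
    rw [IntermediateField.coe_algebraMap_apply]
    exact IsScalarTower.algebraMap_apply K F Ω r

lemma coe_cycSubBaseChange (x : cycSub K Ω m) :
    ((cycSubBaseChange K F m x : cycSub F Ω m) : Ω) = x := by
  show ((⟨x, mem_cycSub_of_mem_cycSub K F m x.2⟩ : cycSub F Ω m) : Ω) = x
  rfl

end BaseChange

end Fermat.Agent.CFT.Local
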