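import Fermat.Agent.CFT.Local.ExistenceP

/-!
# CFT local (L5'): the local existence theorem modulo `p`-th powers, general case

* `exists_pow_eq_of_norm_subset` : if `E/K` is finite Galois with `μ_p ⊆ E` and `N_{E/K} Eˣ ⊆ (Kˣ)ᵖ`,
  then an element of `Kˣ` which is a norm from every Galois extension of degree `p` is a `p`-th
  power (character argument on `Gal(E/K)^ab / p`);
* `exists_pow_eq_of_localArtinHom_eq_one` : for `μ_p ⊆ K` and `E` a Kummer field,
  `ker rec_{E/K} ⊆ (Kˣ)ᵖ`;
* `exists_pow_eq_of_forall_norm_general` : **for `p ≠ 0` in `K`** (no root of unity assumption), an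
  element of `Kˣ` which is a norm from every Galois extension of degree `p` is a `p`-th power.
-/

set_option autoImplicit false
set_option linter.unusedSectionVars false
set_option linter.style.haveILetI false

open IsLocalRing Module Polynomial

namespace Fermat.Agent.CFT.Local

section NormSubset

variable (A K E : Type) [CommRing A] [IsDomain A] [IsDiscreteValuationRing A]
  [IsAdicComplete (maximalIdeal A) A] [Finite (ResidueField A)]
  [Field K] [Algebra A K] [IsFractionRing A K]
  [Field E] [Algebra K E] [FiniteDimensional K E] [IsGalois K E]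
  [Algebra A E] [IsScalarTower A K E]
  (p : ℕ) [Fact p.Prime]

/-- A character of `Gal(E/K)` with values in `μ_p(E)` which does not kill `σ` has a kernel of
index `p` not containing `σ`. -/
lemma index_ker_eq_prime {G : Type} [Group G] [Finite G] (ψ : G →* Eˣ) (hψ : ∀ g, ψ g ^ p = 1)
    {σ : G} (hσ : ψ σ ≠ 1) : ψ.ker.index = p := by
  have hp : p.Prime := Fact.out
  rw [Subgroup.index_ker]
  haveI : Finite ψ.range := Set.finite_range ψ
  haveI : IsCyclic ψ.range := isCyclic_subgroup_units _
  rw [← IsCyclic.exponent_eq_card]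
  have hdvd : Monoid.exponent ψ.range ∣ p := by
    apply Monoid.exponent_dvd_of_forall_pow_eq_one
    rintro ⟨_, g, rfl⟩
    exact Subtype.ext (hψ g)
  rcases (Nat.dvd_prime hp).1 hdvd with h1 | h1
  · exfalso
    have : (⟨ψ σ, σ, rfl⟩ : ψ.range) ^ 1 = 1 := by
      rw [← h1]; exact Monoid.pow_exponent_eq_one _
    rw [pow_one] at this
    exact hσ (congrArg Subtype.val this)
  · exact h1

include A in
/-- If the norm group of `E/K` consists of `p`-th powers (and `μ_p ⊆ E`), then an element of `Kˣ`
which is a norm from every Galois extension of degree `p` of `K` is a `p`-th power. -/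
theorem exists_pow_eq_of_norm_subset {ζ : E} (hζ : IsPrimitiveRoot ζ p)
    (hE : ∀ y : Eˣ, ∃ c : Kˣ, ((c ^ p : Kˣ) : K) = Algebra.norm K (y : E)) (a : Kˣ)
    (hnorm : ∀ (L : Type) [Field L] [Algebra K L] [FiniteDimensional K L] [IsGalois K L],
      finrank K L = p → ∃ y : L, Algebra.norm K y = (a : K)) :
    ∃ c : Kˣ, c ^ p = a := by
  have hp : p.Prime := Fact.out
  haveI : NeZero p := ⟨hp.ne_zero⟩
  by_contra hcon
  push Not at hcon
  -- the class of `rec a` modulo `p`-th powers is nontrivial
  set P : Subgroup (Abelianization (E ≃ₐ[K] E)) := (powMonoidHom p).range with hP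
  have hx : (QuotientGroup.mk (localArtinHom A K E a) : Abelianization (E ≃ₐ[K] E) ⧸ P) ≠ 1 := by
    rw [Ne, QuotientGroup.eq_one_iff]
    rintro ⟨g, hg⟩
    obtain ⟨c, rfl⟩ := localArtinHom_surjective A K E g
    rw [powMonoidHom_apply, ← map_pow] at hg
    have h1 : localArtinHom A K E (a * (c ^ p)⁻¹) = 1 := by
      rw [map_mul, map_inv, hg, mul_inv_cancel]
    obtain ⟨y, hy⟩ := (localArtinHom_eq_one_iff A K E _).1 h1
    obtain ⟨d, hd⟩ := hE y
    apply hcon (d * c)
    apply Units.ext
    rw [mul_pow, Units.val_mul, hd, hy]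
    simp
  -- a character detecting it
  haveI : HasEnoughRootsOfUnity E p := ⟨⟨ζ, hζ⟩, inferInstance⟩
  have hexp : Monoid.exponent (Abelianization (E ≃ₐ[K] E) ⧸ P) ∣ p := by
    apply Monoid.exponent_dvd_of_forall_pow_eq_one
    intro v
    obtain ⟨c, rfl⟩ := QuotientGroup.mk_surjective v
    rw [← QuotientGroup.mk_pow, QuotientGroup.eq_one_iff]
    exact ⟨c, rfl⟩
  haveI : HasEnoughRootsOfUnity E (Monoid.exponent (Abelianization (E ≃ₐ[K] E) ⧸ P)) :=
    HasEnoughRootsOfUnity.of_dvd E hexp
  obtain ⟨φ, hφ⟩ := CommGroup.exists_apply_ne_one_of_hasEnoughRootsOfUnity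
    (Abelianization (E ≃ₐ[K] E) ⧸ P) E hx
  obtain ⟨σ, hσ⟩ := QuotientGroup.mk_surjective (localArtinHom A K E a)
  have hσ' : localArtinHom A K E a = Abelianization.of σ := hσ.symm
  let ψ : (E ≃ₐ[K] E) →* Eˣ := (φ.comp (QuotientGroup.mk' P)).comp Abelianization.of
  have hψp : ∀ g, ψ g ^ p = 1 := by
    intro g
    show φ (QuotientGroup.mk (Abelianization.of g)) ^ p = 1
    rw [← map_pow, ← QuotientGroup.mk_pow]
    have : (QuotientGroup.mk (Abelianization.of g ^ p) : Abelianization (E ≃ₐ[K] E) ⧸ P) = 1 := by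
      rw [QuotientGroup.eq_one_iff]; exact ⟨_, rfl⟩
    rw [this, map_one]
  have hψσ : ψ σ ≠ 1 := by
    show φ (QuotientGroup.mk (Abelianization.of σ)) ≠ 1
    rw [← hσ']; exact hφ
  have hidx : ψ.ker.index = p := index_ker_eq_prime E p ψ hψp hψσ
  -- the corresponding field
  set L := IntermediateField.fixedField ψ.ker with hL
  haveI : IsGalois K L := IsGalois.of_fixedField_normal_subgroup ψ.ker
  have hfr : finrank K L = p := by
    rw [IntermediateField.finrank_eq_fixingSubgroup_index, hL,
      IntermediateField.fixingSubgroup_fixedField, hidx]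
  obtain ⟨y, hy⟩ := hnorm L hfr
  have hy0 : y ≠ 0 := by
    rintro rfl
    rw [Algebra.norm_zero] at hy
    exact a.ne_zero hy.symm
  have hrecL : localArtinHom A K L a = 1 :=
    (localArtinHom_eq_one_iff A K L a).2 ⟨Units.mk0 y hy0, hy⟩
  have hproj := map_galProj_localArtinHom A K L E a
  rw [hrecL, hσ', Abelianization.map_of] at hproj
  -- `ψ` factors through `Gal(L/K)`
  have hker : (galProj K L E).ker ≤ ψ.ker := by
    intro τ hτ
    rw [MonoidHom.mem_ker] at hτ
    have hfix : τ ∈ L.fixingSubgroup := by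
      rw [IntermediateField.mem_fixingSubgroup_iff]
      intro x hx
      have := galProj_commutes K L E τ ⟨x, hx⟩
      rw [hτ] at this
      exact this.symm
    rwa [hL, IntermediateField.fixingSubgroup_fixedField] at hfix
  let ψbar : (L ≃ₐ[K] L) →* Eˣ :=
    (galProj K L E).liftOfSurjective (galProj_surjective K L E) ⟨ψ, hker⟩
  have hψbar : ψbar (galProj K L E σ) = ψ σ :=
    MonoidHom.liftOfRightInverse_comp_apply _ _ _ ⟨ψ, hker⟩ σ
  have := congrArg (Abelianization.lift ψbar) hproj
  rw [Abelianization.lift_apply_of, map_one, hψbar] at this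
  exact hψσ this

end NormSubset


section General

variable (A K : Type) [CommRing A] [IsDomain A] [IsDiscreteValuationRing A]
  [IsAdicComplete (maximalIdeal A) A] [Finite (ResidueField A)]
  [Field K] [Algebra A K] [IsFractionRing A K]
  (p : ℕ) [Fact p.Prime]

/-- With `μ_p ⊆ K` and `E` a Kummer field: the norm group of `E/K` consists of `p`-th powers. -/
theorem exists_pow_eq_of_localArtinHom_eq_one (E : Type) [Field E] [Algebra K E]
    [FiniteDimensional K E] [IsGalois K E] [Algebra A E] [IsScalarTower A K E]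
    {ζ : K} (hζ : IsPrimitiveRoot ζ p)
    (hroot : ∀ b : Kˣ, ∃ β : E, β ^ p = algebraMap K E b)
    [Finite (Kˣ ⧸ (powMonoidHom p : Kˣ →* Kˣ).range)] (a : Kˣ)
    (ha : localArtinHom A K E a = 1) : ∃ c : Kˣ, c ^ p = a := by
  by_contra hcon
  push Not at hcon
  obtain ⟨b, hb⟩ := exists_kumPairHom_ne_one A K E p hζ hroot a hcon
  apply hb
  show kumChar K E p hζ hroot b (localArtinHom A K E a) = 1
  rw [ha, map_one]

include A in
/-- **Local existence theorem modulo `p`-th powers** (general case, `p ≠ 0` in `K`): an element of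
`Kˣ` which is a norm from every Galois extension of degree `p` is a `p`-th power. -/
theorem exists_pow_eq_of_forall_norm_general (hpK : ((p : ℕ) : K) ≠ 0) (a : Kˣ)
    (hnorm : ∀ (L : Type) [Field L] [Algebra K L] [FiniteDimensional K L] [IsGalois K L],
      finrank K L = p → ∃ y : L, Algebra.norm K y = (a : K)) :
    ∃ c : Kˣ, c ^ p = a := by
  have hp : p.Prime := Fact.out
  haveI : NeZero p := ⟨hp.ne_zero⟩
  haveI : NeZero ((p : ℕ) : K) := ⟨hpK⟩
  -- the cyclotomic extension `K' = K(ζ_p)`
  let K' := CyclotomicField p K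
  haveI : FiniteDimensional K K' := IsCyclotomicExtension.finiteDimensional {p} K K'
  haveI : IsGalois K K' := IsCyclotomicExtension.isGalois {p} K K'
  have hζ' : IsPrimitiveRoot (IsCyclotomicExtension.zeta p K K') p :=
    IsCyclotomicExtension.zeta_spec p K K'
  obtain ⟨_, _, _, _, _, _, hres⟩ := exists_localExt_instances A K K' (integralClosure A K')
  haveI := hres inferInstance
  haveI hpK' : NeZero ((p : ℕ) : K') := hζ'.neZero'
  have hpB : ((p : ℕ) : integralClosure A K') ≠ 0 := by
    intro h
    have := congrArg (algebraMap (integralClosure A K') K') h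
    rw [map_natCast, map_zero] at this
    exact NeZero.ne ((p : ℕ) : K') this
  haveI : Finite (K'ˣ ⧸ (powMonoidHom p : K'ˣ →* K'ˣ).range) :=
    (LocalKummer.card_units_quotient_pow_le (integralClosure A K') K' p hp.ne_zero hpB).1
  -- the Kummer field `E'` of `K'`
  obtain ⟨E', _, _, _, _, hroot⟩ := exists_kummer_field K' p
  letI : Algebra K E' := ((algebraMap K' E').comp (algebraMap K K')).toAlgebra
  haveI : IsScalarTower K K' E' := IsScalarTower.of_algebraMap_eq (fun _ => rfl)
  haveI : FiniteDimensional K E' := FiniteDimensional.trans K K' E'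
  haveI : Algebra.IsSeparable K E' := Algebra.IsSeparable.trans K K' E'
  -- a Galois extension `E/K` containing `E'`
  obtain ⟨θ, hθ⟩ := Field.exists_primitive_element K E'
  have hsep : (minpoly K θ).Separable := Algebra.IsSeparable.isSeparable K θ
  let E := (minpoly K θ).SplittingField
  haveI : IsGalois K E := IsGalois.of_separable_splitting_field hsep
  obtain ⟨φ⟩ : Nonempty (E' →ₐ[K] E) := by
    apply IntermediateField.nonempty_algHom_of_adjoin_splits (S := {θ}) _ hθ
    intro s hs
    rw [Set.mem_singleton_iff] at hs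
    subst hs
    exact ⟨Algebra.IsIntegral.isIntegral s, SplittingField.splits _⟩
  letI : Algebra E' E := φ.toRingHom.toAlgebra
  haveI : IsScalarTower K E' E := IsScalarTower.of_algebraMap_eq (fun x => (φ.commutes x).symm)
  letI : Algebra K' E := ((algebraMap E' E).comp (algebraMap K' E')).toAlgebra
  haveI : IsScalarTower K' E' E := IsScalarTower.of_algebraMap_eq (fun _ => rfl)
  haveI : IsScalarTower K K' E := IsScalarTower.of_algebraMap_eq (fun x => by
    show algebraMap K E x = algebraMap E' E (algebraMap K' E' (algebraMap K K' x))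
    rw [← IsScalarTower.algebraMap_apply K K' E', ← IsScalarTower.algebraMap_apply K E' E])
  haveI : FiniteDimensional E' E := FiniteDimensional.right K E' E
  haveI : FiniteDimensional K' E := FiniteDimensional.right K K' E
  have hζE : IsPrimitiveRoot (algebraMap K' E (IsCyclotomicExtension.zeta p K K')) p :=
    hζ'.map_of_injective (algebraMap K' E).injective
  refine exists_pow_eq_of_norm_subset A K E p hζE ?_ a hnorm
  intro y
  have h1 : Algebra.norm K (y : E) = Algebra.norm K (Algebra.norm K' (y : E)) :=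
    (Algebra.norm_norm (R := K) (S := K') (A := E)).symm
  have h2 : Algebra.norm K' (y : E) = Algebra.norm K' (Algebra.norm E' (y : E)) :=
    (Algebra.norm_norm (R := K') (S := E') (A := E)).symm
  have hz0 : Algebra.norm E' (y : E) ≠ 0 := by
    rw [Ne, Algebra.norm_eq_zero_iff]; exact y.ne_zero
  have ha'0 : Algebra.norm K' (Algebra.norm E' (y : E)) ≠ 0 := by
    rw [Ne, Algebra.norm_eq_zero_iff]; exact hz0
  have hrec : localArtinHom (integralClosure A K') K' E' (Units.mk0 _ ha'0) = 1 :=
    (localArtinHom_eq_one_iff (integralClosure A K') K' E' _).2 ⟨Units.mk0 _ hz0, rfl⟩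
  obtain ⟨c', hc'⟩ := exists_pow_eq_of_localArtinHom_eq_one (integralClosure A K') K' p E' hζ'
    hroot _ hrec
  have hc'' : (c' : K') ^ p = Algebra.norm K' (Algebra.norm E' (y : E)) := by
    have := congrArg (fun u : K'ˣ => (u : K')) hc'
    simpa using this
  have hn0 : Algebra.norm K (c' : K') ≠ 0 := by
    rw [Ne, Algebra.norm_eq_zero_iff]; exact c'.ne_zero
  refine ⟨Units.mk0 _ hn0, ?_⟩
  rw [Units.val_pow_eq_pow_val, Units.val_mk0, ← map_pow, hc'', ← h2, ← h1]

end General

end Fermat.Agent.CFT.Local
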