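import Fermat.Agent.CFT.Local.RecFunct
import Fermat.Agent.CFT.Local.Kummer_helper1

/-!
# CFT local (L5): the local existence theorem modulo `p`-th powers when `μ_p ⊆ K`

* `kummerHom p hζ hβ0 hβ : Gal(M/K) →* Mˣ`, `σ ↦ σβ/β` for `β ^ p ∈ K` (`ζ` a primitive `p`-th root
  of unity of `K`), with `kummerHom_congr`, `kummerHom_mul`, `kummerHom_eq_one_iff`,
  `kummerHom_galProj`;
* `exists_kummer_field` : if `Kˣ/(Kˣ)ᵖ` is finite, a finite Galois `E/K` containing `p`-th roots
  of all elements of `Kˣ`;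
* `kumPairHom A K E p hζ hroot b a = χ_b(rec_{E/K} a)`, the Kummer pairing/norm residue symbol;
  `kumPairing` (bimultiplicative), `exists_kumPairHom_ne_one` (nondegeneracy),
  `kumPairHom_eq_one_of_norm`;
* `exists_pow_eq_of_forall_norm` : an element of `Kˣ` which is a norm from every Galois extension
  of degree `p` is a `p`-th power.
-/

set_option autoImplicit false
set_option linter.unusedSectionVars false
set_option linter.style.haveILetI false

open IsLocalRing Module Polynomial

namespace Fermat.Agent.CFT.Local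

section KummerHom

variable {K : Type} [Field K] (p : ℕ) {ζ : K} (hζ : IsPrimitiveRoot ζ p)
  (M : Type) [Field M] [Algebra K M]

include hζ in
/-- A `p`-th root of unity of `M` lies in `K` (which contains a primitive `p`-th root). -/
lemma exists_algebraMap_eq_of_pow_eq_one [NeZero p] {ξ : M} (hξ : ξ ^ p = 1) :
    ∃ c : K, algebraMap K M c = ξ := by
  have h := (hζ.map_of_injective (algebraMap K M).injective)
  obtain ⟨i, _, hi⟩ := h.eq_pow_of_pow_eq_one hξ
  exact ⟨ζ ^ i, by rw [map_pow, hi]⟩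

variable {M} in
include hζ in
lemma kummer_aux [NeZero p] {β : M} (hβ0 : β ≠ 0) {b : K} (hβ : β ^ p = algebraMap K M b)
    (σ : M ≃ₐ[K] M) : ∃ c : K, algebraMap K M c = σ β / β := by
  apply exists_algebraMap_eq_of_pow_eq_one p hζ M
  rw [div_pow, ← map_pow, hβ, σ.commutes, div_self]
  rw [← hβ]
  exact pow_ne_zero _ hβ0

variable {M} in
/-- The Kummer character `σ ↦ σ β / β` attached to a `p`-th root `β` of an element of `K`. -/
noncomputable def kummerHom [NeZero p] {β : M} (hβ0 : β ≠ 0) {b : K}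
    (hβ : β ^ p = algebraMap K M b) : (M ≃ₐ[K] M) →* Mˣ where
  toFun σ := Units.mk0 (σ β / β) (div_ne_zero (by simpa using hβ0) hβ0)
  map_one' := by
    apply Units.ext
    simp [div_self hβ0]
  map_mul' σ τ := by
    apply Units.ext
    obtain ⟨c, hc⟩ := kummer_aux p hζ hβ0 hβ τ
    have h1 : τ β = algebraMap K M c * β := by rw [hc, div_mul_cancel₀ _ hβ0]
    simp only [Units.val_mul, Units.val_mk0, AlgEquiv.mul_apply]
    rw [h1, map_mul, σ.commutes]
    field_simp

variable {M} in
lemma kummerHom_apply [NeZero p] {β : M} (hβ0 : β ≠ 0) {b : K}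
    (hβ : β ^ p = algebraMap K M b) (σ : M ≃ₐ[K] M) :
    ((kummerHom p hζ hβ0 hβ σ : Mˣ) : M) = σ β / β := rfl

variable {M} in
lemma kummerHom_pow [NeZero p] {β : M} (hβ0 : β ≠ 0) {b : K}
    (hβ : β ^ p = algebraMap K M b) (σ : M ≃ₐ[K] M) :
    kummerHom p hζ hβ0 hβ σ ^ p = 1 := by
  apply Units.ext
  rw [Units.val_pow_eq_pow_val, kummerHom_apply, div_pow, ← map_pow, hβ, σ.commutes, div_self,
    Units.val_one]
  rw [← hβ]
  exact pow_ne_zero _ hβ0

variable {M} in
/-- The Kummer character does not depend on the choice of the root. -/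
lemma kummerHom_congr [NeZero p] {β β' : M} (hβ0 : β ≠ 0) (hβ'0 : β' ≠ 0) {b : K}
    (hβ : β ^ p = algebraMap K M b) (hβ' : β' ^ p = algebraMap K M b) :
    kummerHom p hζ hβ0 hβ = kummerHom p hζ hβ'0 hβ' := by
  ext σ
  rw [kummerHom_apply, kummerHom_apply]
  have h1 : (β' / β) ^ p = 1 := by
    rw [div_pow, hβ, hβ', div_self]
    rw [← hβ]; exact pow_ne_zero _ hβ0
  obtain ⟨c, hc⟩ := exists_algebraMap_eq_of_pow_eq_one p hζ M h1
  have h2 : β' = algebraMap K M c * β := by rw [hc, div_mul_cancel₀ _ hβ0]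
  rw [h2, map_mul, σ.commutes]
  have hc0 : algebraMap K M c ≠ 0 := by
    intro h0; rw [h0, zero_mul] at h2; exact hβ'0 h2
  field_simp

variable {M} in
/-- The Kummer character of a product. -/
lemma kummerHom_mul [NeZero p] {β β' : M} (hβ0 : β ≠ 0) (hβ'0 : β' ≠ 0) {b b' : K}
    (hβ : β ^ p = algebraMap K M b) (hβ' : β' ^ p = algebraMap K M b') :
    kummerHom p hζ (mul_ne_zero hβ0 hβ'0)
      (show (β * β') ^ p = algebraMap K M (b * b') by rw [mul_pow, hβ, hβ', map_mul]) =
      kummerHom p hζ hβ0 hβ * kummerHom p hζ hβ'0 hβ' := by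
  ext σ
  rw [MonoidHom.mul_apply, Units.val_mul, kummerHom_apply, kummerHom_apply, kummerHom_apply,
    map_mul]
  field_simp

variable {M} in
/-- The Kummer character is trivial iff the root lies in `K` (for `M/K` Galois). -/
lemma kummerHom_eq_one_iff [NeZero p] [FiniteDimensional K M] [IsGalois K M] {β : M}
    (hβ0 : β ≠ 0) {b : K} (hβ : β ^ p = algebraMap K M b) :
    kummerHom p hζ hβ0 hβ = 1 ↔ ∃ c : K, algebraMap K M c = β := by
  constructor
  · intro h
    have hfix : ∀ σ : M ≃ₐ[K] M, σ β = β := by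
      intro σ
      have := congrArg (fun φ : (M ≃ₐ[K] M) →* Mˣ => ((φ σ : Mˣ) : M)) h
      simp only [kummerHom_apply, MonoidHom.one_apply, Units.val_one] at this
      rwa [div_eq_one_iff_eq hβ0] at this
    exact (IsGalois.mem_range_algebraMap_iff_fixed β).2 hfix
  · rintro ⟨c, rfl⟩
    ext σ
    rw [kummerHom_apply, σ.commutes, div_self hβ0, MonoidHom.one_apply, Units.val_one]

end KummerHom

section KummerField

variable (K : Type) [Field K] (p : ℕ)

lemma isCoprime_X_pow_sub_C {a b : K} (hab : a ≠ b) :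
    IsCoprime (X ^ p - C a : K[X]) (X ^ p - C b) := by
  have hne : b - a ≠ 0 := sub_ne_zero.mpr (Ne.symm hab)
  refine ⟨C (b - a)⁻¹, -C (b - a)⁻¹, ?_⟩
  have : C (b - a)⁻¹ * (X ^ p - C a) + -C (b - a)⁻¹ * (X ^ p - C b) =
      (C ((b - a)⁻¹ * (b - a)) : K[X]) := by
    simp only [C_mul, C_sub]
    ring
  rw [this, inv_mul_cancel₀ hne, C_1]

/-- If `Kˣ/(Kˣ)ᵖ` is finite and `p ≠ 0` in `K`, there is a finite Galois extension of `K` in which
every element of `Kˣ` has a `p`-th root. -/
theorem exists_kummer_field [NeZero (p : K)]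
    [Finite (Kˣ ⧸ (powMonoidHom p : Kˣ →* Kˣ).range)] :
    ∃ (E : Type) (_ : Field E) (_ : Algebra K E) (_ : FiniteDimensional K E) (_ : IsGalois K E),
      ∀ b : Kˣ, ∃ β : E, β ^ p = algebraMap K E b := by
  classical
  haveI : Fintype (Kˣ ⧸ (powMonoidHom p : Kˣ →* Kˣ).range) := Fintype.ofFinite _
  let g : (Kˣ ⧸ (powMonoidHom p : Kˣ →* Kˣ).range) → K[X] :=
    fun v => X ^ p - C ((Quotient.out v : Kˣ) : K)
  let f : K[X] := ∏ v, g v
  have hp0 : 0 < p := Nat.pos_of_ne_zero (fun h => by
    have := NeZero.ne ((p : ℕ) : K); rw [h] at this; simp at this)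
  have hsep : f.Separable := by
    apply separable_prod'
    · intro v _ w _ hvw
      apply isCoprime_X_pow_sub_C
      intro h
      apply hvw
      have : (Quotient.out v : Kˣ) = Quotient.out w := Units.ext h
      rw [← Quotient.out_eq v, ← Quotient.out_eq w, this]
    · intro v _
      exact separable_X_pow_sub_C _ (NeZero.ne _) (Units.ne_zero _)
  refine ⟨f.SplittingField, inferInstance, inferInstance, inferInstance,
    IsGalois.of_separable_splitting_field hsep, ?_⟩
  intro b
  set v : Kˣ ⧸ (powMonoidHom p : Kˣ →* Kˣ).range := QuotientGroup.mk b with hv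
  have hsplit : (f.map (algebraMap K f.SplittingField)).Splits := SplittingField.splits f
  have hgv : g v ∣ f := Finset.dvd_prod_of_mem g (Finset.mem_univ v)
  have hsplit' : ((g v).map (algebraMap K f.SplittingField)).Splits :=
    hsplit.of_dvd (Polynomial.map_ne_zero hsep.ne_zero) (Polynomial.map_dvd _ hgv)
  have hdeg : ((g v).map (algebraMap K f.SplittingField)).degree ≠ 0 := by
    rw [degree_map]
    simp only [g]
    rw [degree_X_pow_sub_C hp0]
    exact_mod_cast hp0.ne'
  obtain ⟨β, hβ⟩ := hsplit'.exists_eval_eq_zero hdeg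
  have hβ' : β ^ p = algebraMap K f.SplittingField ((Quotient.out v : Kˣ) : K) := by
    simp only [g, Polynomial.map_sub, Polynomial.map_pow, map_X, map_C, eval_sub, eval_pow,
      eval_X, eval_C] at hβ
    exact sub_eq_zero.mp hβ
  -- `b = out v * c ^ p`
  have hmk : (QuotientGroup.mk (Quotient.out v) : Kˣ ⧸ (powMonoidHom p : Kˣ →* Kˣ).range) =
      QuotientGroup.mk b := Quotient.out_eq v
  rw [QuotientGroup.eq] at hmk
  obtain ⟨c, hc⟩ := hmk
  have hb : b = Quotient.out v * c ^ p := by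
    rw [powMonoidHom_apply] at hc
    rw [hc]; group
  refine ⟨β * algebraMap K _ (c : K), ?_⟩
  rw [mul_pow, hβ', ← map_pow, ← map_mul, hb]
  simp

end KummerField

section KummerNat

variable {K : Type} [Field K] (p : ℕ) {ζ : K} (hζ : IsPrimitiveRoot ζ p)
  (L E : Type) [Field L] [Algebra K L] [Field E] [Algebra K E] [Algebra L E] [IsScalarTower K L E]
  [Normal K L]

/-- Naturality of the Kummer character with respect to the restriction `Gal(E/K) → Gal(L/K)`. -/
lemma kummerHom_galProj [NeZero p] {γ : L} (hγ0 : γ ≠ 0) {b : K}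
    (hγ : γ ^ p = algebraMap K L b) (σ : E ≃ₐ[K] E) :
    ((kummerHom p hζ (β := algebraMap L E γ)
        (by rwa [Ne, map_eq_zero_iff _ (algebraMap L E).injective])
        (by rw [← map_pow, hγ, ← IsScalarTower.algebraMap_apply]) σ : Eˣ) : E) =
      algebraMap L E ((kummerHom p hζ hγ0 hγ (galProj K L E σ) : Lˣ) : L) := by
  rw [kummerHom_apply, kummerHom_apply, map_div₀, galProj_commutes]

end KummerNat

section Pairing

variable (A K E : Type) [CommRing A] [IsDomain A] [IsDiscreteValuationRing A]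
  [IsAdicComplete (maximalIdeal A) A] [Finite (ResidueField A)]
  [Field K] [Algebra A K] [IsFractionRing A K]
  [Field E] [Algebra K E] [FiniteDimensional K E] [IsGalois K E]
  [Algebra A E] [IsScalarTower A K E]
  (p : ℕ) [Fact p.Prime] {ζ : K} (hζ : IsPrimitiveRoot ζ p)
  (hroot : ∀ b : Kˣ, ∃ β : E, β ^ p = algebraMap K E b)

/-- A chosen `p`-th root of `b` in `E`. -/
noncomputable def kumRoot (b : Kˣ) : E := Classical.choose (hroot b)

lemma kumRoot_pow (b : Kˣ) : kumRoot K E p hroot b ^ p = algebraMap K E b :=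
  Classical.choose_spec (hroot b)

lemma kumRoot_ne_zero (b : Kˣ) : kumRoot K E p hroot b ≠ 0 := by
  intro h
  have := kumRoot_pow K E p hroot b
  rw [h, zero_pow (Fact.out : p.Prime).ne_zero] at this
  exact (map_ne_zero (algebraMap K E)).2 b.ne_zero this.symm

/-- The Kummer character of `b`, on the abelianised Galois group. -/
noncomputable def kumChar (b : Kˣ) : Abelianization (E ≃ₐ[K] E) →* Eˣ :=
  haveI : NeZero p := ⟨(Fact.out : p.Prime).ne_zero⟩
  Abelianization.lift (kummerHom p hζ (kumRoot_ne_zero K E p hroot b) (kumRoot_pow K E p hroot b))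

lemma kumChar_of (b : Kˣ) (σ : E ≃ₐ[K] E) :
    haveI : NeZero p := ⟨(Fact.out : p.Prime).ne_zero⟩
    kumChar K E p hζ hroot b (Abelianization.of σ) =
      kummerHom p hζ (kumRoot_ne_zero K E p hroot b) (kumRoot_pow K E p hroot b) σ :=
  Abelianization.lift_apply_of _ σ

/-- The Kummer character computed with any root. -/
lemma kumChar_of_eq (b : Kˣ) (σ : E ≃ₐ[K] E) {β : E} (hβ0 : β ≠ 0)
    (hβ : β ^ p = algebraMap K E b) :
    haveI : NeZero p := ⟨(Fact.out : p.Prime).ne_zero⟩
    kumChar K E p hζ hroot b (Abelianization.of σ) = kummerHom p hζ hβ0 hβ σ := by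
  haveI : NeZero p := ⟨(Fact.out : p.Prime).ne_zero⟩
  rw [kumChar_of, kummerHom_congr p hζ (kumRoot_ne_zero K E p hroot b) hβ0
    (kumRoot_pow K E p hroot b) hβ]

lemma kumChar_pow (b : Kˣ) (g : Abelianization (E ≃ₐ[K] E)) :
    kumChar K E p hζ hroot b g ^ p = 1 := by
  haveI : NeZero p := ⟨(Fact.out : p.Prime).ne_zero⟩
  obtain ⟨σ, rfl⟩ := QuotientGroup.mk_surjective g
  exact (congrArg (· ^ p) (kumChar_of K E p hζ hroot b σ)).trans (kummerHom_pow p hζ _ _ σ)

lemma kumChar_mul (b b' : Kˣ) :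
    kumChar K E p hζ hroot (b * b') = kumChar K E p hζ hroot b * kumChar K E p hζ hroot b' := by
  haveI : NeZero p := ⟨(Fact.out : p.Prime).ne_zero⟩
  apply MonoidHom.ext
  intro g
  obtain ⟨σ, rfl⟩ := QuotientGroup.mk_surjective g
  have h1 := kumChar_of_eq K E p hζ hroot (b * b') σ
    (mul_ne_zero (kumRoot_ne_zero K E p hroot b) (kumRoot_ne_zero K E p hroot b'))
    (show (kumRoot K E p hroot b * kumRoot K E p hroot b') ^ p = algebraMap K E ((b * b' : Kˣ) : K)
      by rw [mul_pow, kumRoot_pow, kumRoot_pow, Units.val_mul, map_mul])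
  refine h1.trans ?_
  show _ = kumChar K E p hζ hroot b (Abelianization.of σ) *
    kumChar K E p hζ hroot b' (Abelianization.of σ)
  have h2 := kummerHom_mul p hζ (kumRoot_ne_zero K E p hroot b) (kumRoot_ne_zero K E p hroot b')
    (kumRoot_pow K E p hroot b) (kumRoot_pow K E p hroot b')
  have h3 := congrArg (fun φ : (E ≃ₐ[K] E) →* Eˣ => φ σ) h2
  simp only [MonoidHom.mul_apply] at h3
  rw [kumChar_of, kumChar_of]
  exact h3

/-- If the Kummer character of `b` is trivial, `b` is a `p`-th power. -/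
lemma exists_pow_eq_of_kumChar_eq_one (b : Kˣ) (h : kumChar K E p hζ hroot b = 1) :
    ∃ c : Kˣ, c ^ p = b := by
  haveI : NeZero p := ⟨(Fact.out : p.Prime).ne_zero⟩
  have h1 : kummerHom p hζ (kumRoot_ne_zero K E p hroot b) (kumRoot_pow K E p hroot b) = 1 := by
    ext σ
    rw [← kumChar_of, h]
    rfl
  obtain ⟨c, hc⟩ := (kummerHom_eq_one_iff p hζ _ _).1 h1
  have hc0 : c ≠ 0 := by
    rintro rfl
    rw [map_zero] at hc
    exact kumRoot_ne_zero K E p hroot b hc.symm
  refine ⟨Units.mk0 c hc0, Units.ext ?_⟩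
  apply (algebraMap K E).injective
  rw [Units.val_pow_eq_pow_val, Units.val_mk0, map_pow, hc, kumRoot_pow]

/-- The Kummer pairing `(a, b) ↦ χ_b(rec a)`. -/
noncomputable def kumPairHom (b : Kˣ) : Kˣ →* Eˣ :=
  (kumChar K E p hζ hroot b).comp (localArtinHom A K E)

lemma kumPairHom_mul (b b' : Kˣ) :
    kumPairHom A K E p hζ hroot (b * b') =
      kumPairHom A K E p hζ hroot b * kumPairHom A K E p hζ hroot b' := by
  rw [kumPairHom, kumChar_mul]
  rfl

lemma kumPairHom_pow_apply (b a : Kˣ) : kumPairHom A K E p hζ hroot b a ^ p = 1 :=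
  kumChar_pow K E p hζ hroot b _

lemma exists_pow_eq_of_kumPairHom_eq_one (b : Kˣ) (h : kumPairHom A K E p hζ hroot b = 1) :
    ∃ c : Kˣ, c ^ p = b := by
  apply exists_pow_eq_of_kumChar_eq_one K E p hζ hroot b
  apply MonoidHom.ext
  intro g
  obtain ⟨a, rfl⟩ := localArtinHom_surjective A K E g
  exact congrArg (fun φ : Kˣ →* Eˣ => φ a) h

end Pairing

section Nondeg

variable (A K E : Type) [CommRing A] [IsDomain A] [IsDiscreteValuationRing A]
  [IsAdicComplete (maximalIdeal A) A] [Finite (ResidueField A)]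
  [Field K] [Algebra A K] [IsFractionRing A K]
  [Field E] [Algebra K E] [FiniteDimensional K E] [IsGalois K E]
  [Algebra A E] [IsScalarTower A K E]
  (p : ℕ) [Fact p.Prime] {ζ : K} (hζ : IsPrimitiveRoot ζ p)
  (hroot : ∀ b : Kˣ, ∃ β : E, β ^ p = algebraMap K E b)

/-- The Kummer pairing as a bimultiplicative map. -/
noncomputable def kumPairing : Kˣ →* (Kˣ →* Eˣ) :=
  MonoidHom.mk' (kumPairHom A K E p hζ hroot) (kumPairHom_mul A K E p hζ hroot)

lemma kumPairing_apply (b a : Kˣ) :
    kumPairing A K E p hζ hroot b a = kumPairHom A K E p hζ hroot b a := rfl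

lemma range_pow_le_ker_kumPairing (b : Kˣ) :
    (powMonoidHom p : Kˣ →* Kˣ).range ≤ (kumPairing A K E p hζ hroot b).ker := by
  rintro _ ⟨c, rfl⟩
  rw [MonoidHom.mem_ker, powMonoidHom_apply, map_pow, kumPairing_apply, kumPairHom_pow_apply]

/-- The character of `Kˣ/(Kˣ)ᵖ` attached to `b`. -/
noncomputable def kumQuotChar (b : Kˣ) : (Kˣ ⧸ (powMonoidHom p : Kˣ →* Kˣ).range) →* Eˣ :=
  QuotientGroup.lift _ (kumPairing A K E p hζ hroot b) (range_pow_le_ker_kumPairing A K E p hζ hroot b)

lemma kumQuotChar_mk (b a : Kˣ) :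
    kumQuotChar A K E p hζ hroot b (QuotientGroup.mk a) = kumPairHom A K E p hζ hroot b a := rfl

lemma kumQuotChar_out_injective :
    Function.Injective (fun v : Kˣ ⧸ (powMonoidHom p : Kˣ →* Kˣ).range =>
      kumQuotChar A K E p hζ hroot (Quotient.out v)) := by
  intro v w hvw
  have h1 : kumPairing A K E p hζ hroot ((Quotient.out v)⁻¹ * Quotient.out w) = 1 := by
    apply MonoidHom.ext
    intro a
    have := congrArg (fun φ : (Kˣ ⧸ (powMonoidHom p : Kˣ →* Kˣ).range) →* Eˣ =>
      φ (QuotientGroup.mk a)) hvw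
    simp only [kumQuotChar_mk] at this
    rw [map_mul, map_inv, MonoidHom.mul_apply, MonoidHom.inv_apply, kumPairing_apply,
      kumPairing_apply, this, inv_mul_cancel, MonoidHom.one_apply]
  obtain ⟨c, hc⟩ := exists_pow_eq_of_kumPairHom_eq_one A K E p hζ hroot _ h1
  rw [← Quotient.out_eq v, ← Quotient.out_eq w]
  exact (QuotientGroup.eq (s := (powMonoidHom p : Kˣ →* Kˣ).range)).2 ⟨c, hc⟩

include hζ in
lemma hasEnoughRootsOfUnity_of_isPrimitiveRoot : HasEnoughRootsOfUnity E p :=
  ⟨⟨algebraMap K E ζ, hζ.map_of_injective (algebraMap K E).injective⟩, inferInstance⟩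

/-- **Nondegeneracy of the Kummer pairing (norm residue symbol) on the left.** -/
theorem exists_kumPairHom_ne_one [Finite (Kˣ ⧸ (powMonoidHom p : Kˣ →* Kˣ).range)] (a : Kˣ)
    (ha : ∀ c : Kˣ, c ^ p ≠ a) : ∃ b : Kˣ, kumPairHom A K E p hζ hroot b a ≠ 1 := by
  haveI : NeZero p := ⟨(Fact.out : p.Prime).ne_zero⟩
  haveI := hasEnoughRootsOfUnity_of_isPrimitiveRoot K E p hζ
  have hexp : Monoid.exponent (Kˣ ⧸ (powMonoidHom p : Kˣ →* Kˣ).range) ∣ p := by
    apply Monoid.exponent_dvd_of_forall_pow_eq_one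
    intro v
    obtain ⟨c, rfl⟩ := QuotientGroup.mk_surjective v
    rw [← QuotientGroup.mk_pow, QuotientGroup.eq_one_iff]
    exact ⟨c, rfl⟩
  haveI : HasEnoughRootsOfUnity E (Monoid.exponent (Kˣ ⧸ (powMonoidHom p : Kˣ →* Kˣ).range)) :=
    HasEnoughRootsOfUnity.of_dvd E hexp
  have hcard := CommGroup.card_monoidHom_of_hasEnoughRootsOfUnity
    (Kˣ ⧸ (powMonoidHom p : Kˣ →* Kˣ).range) E
  haveI : Finite ((Kˣ ⧸ (powMonoidHom p : Kˣ →* Kˣ).range) →* Eˣ) := by
    apply Nat.finite_of_card_ne_zero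
    rw [hcard]
    exact Nat.card_pos.ne'
  have hbij := (kumQuotChar_out_injective A K E p hζ hroot).bijective_of_nat_card_le hcard.le
  have hne : (QuotientGroup.mk a : Kˣ ⧸ (powMonoidHom p : Kˣ →* Kˣ).range) ≠ 1 := by
    rw [Ne, QuotientGroup.eq_one_iff]
    rintro ⟨c, hc⟩
    exact ha c hc
  obtain ⟨φ, hφ⟩ := CommGroup.exists_apply_ne_one_of_hasEnoughRootsOfUnity
    (Kˣ ⧸ (powMonoidHom p : Kˣ →* Kˣ).range) E hne
  obtain ⟨w, rfl⟩ := hbij.2 φ
  exact ⟨Quotient.out w, hφ⟩

end Nondeg

section NormImpliesTrivial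

variable (A K E : Type) [CommRing A] [IsDomain A] [IsDiscreteValuationRing A]
  [IsAdicComplete (maximalIdeal A) A] [Finite (ResidueField A)]
  [Field K] [Algebra A K] [IsFractionRing A K]
  [Field E] [Algebra K E] [FiniteDimensional K E] [IsGalois K E]
  [Algebra A E] [IsScalarTower A K E]
  (p : ℕ) [Fact p.Prime] {ζ : K} (hζ : IsPrimitiveRoot ζ p)
  (hroot : ∀ b : Kˣ, ∃ β : E, β ^ p = algebraMap K E b)

/-- If `a` is a norm from every Galois extension of degree `p`, then `a` is orthogonal to every `b`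
for the Kummer pairing. -/
theorem kumPairHom_eq_one_of_norm (a b : Kˣ)
    (hnorm : ∀ (L : Type) [Field L] [Algebra K L] [FiniteDimensional K L] [IsGalois K L],
      finrank K L = p → ∃ y : L, Algebra.norm K y = (a : K)) :
    kumPairHom A K E p hζ hroot b a = 1 := by
  have hp : p.Prime := Fact.out
  haveI : NeZero p := ⟨hp.ne_zero⟩
  by_cases hb : ∃ c : Kˣ, c ^ p = b
  · obtain ⟨c, rfl⟩ := hb
    have : kumPairing A K E p hζ hroot (c ^ p) a = 1 := by
      rw [map_pow, MonoidHom.pow_apply, kumPairing_apply, kumPairHom_pow_apply]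
    exact this
  · push Not at hb
    have hb' : ∀ c : K, c ^ p ≠ (b : K) := by
      intro c hc
      have hc0 : c ≠ 0 := by
        rintro rfl
        rw [zero_pow hp.ne_zero] at hc
        exact b.ne_zero hc.symm
      exact hb (Units.mk0 c hc0) (Units.ext hc)
    have H : Irreducible (X ^ p - C (b : K)) := X_pow_sub_C_irreducible_of_prime hp hb'
    haveI := Fact.mk H
    have hζ' : (primitiveRoots p K).Nonempty := ⟨ζ, (mem_primitiveRoots hp.pos).2 hζ⟩
    haveI := isSplittingField_AdjoinRoot_X_pow_sub_C hζ' H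
    haveI : IsGalois K (AdjoinRoot (X ^ p - C (b : K))) :=
      isGalois_of_isSplittingField_X_pow_sub_C hζ' H _
    haveI : FiniteDimensional K (AdjoinRoot (X ^ p - C (b : K))) :=
      IsSplittingField.finiteDimensional _ (X ^ p - C (b : K))
    have hfr : finrank K (AdjoinRoot (X ^ p - C (b : K))) = p :=
      finrank_of_isSplittingField_X_pow_sub_C hζ' H _
    -- the embedding into `E`
    set β := kumRoot K E p hroot b with hβdef
    have hβ : β ^ p = algebraMap K E b := kumRoot_pow K E p hroot b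
    have hβ0 : β ≠ 0 := kumRoot_ne_zero K E p hroot b
    let φ : AdjoinRoot (X ^ p - C (b : K)) →ₐ[K] E :=
      AdjoinRoot.liftAlgHom _ (Algebra.ofId K E) β (by
        rw [eval₂_sub, eval₂_pow, eval₂_X, eval₂_C, hβ]
        exact sub_self _)
    letI : Algebra (AdjoinRoot (X ^ p - C (b : K))) E := φ.toRingHom.toAlgebra
    haveI : IsScalarTower K (AdjoinRoot (X ^ p - C (b : K))) E :=
      IsScalarTower.of_algebraMap_eq (fun x => (φ.commutes x).symm)
    have hφroot : algebraMap (AdjoinRoot (X ^ p - C (b : K))) E (AdjoinRoot.root _) = β :=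
      AdjoinRoot.liftAlgHom_root _ _ _ _
    -- `a` is a norm from `L`
    obtain ⟨y, hy⟩ := hnorm (AdjoinRoot (X ^ p - C (b : K))) hfr
    have hy0 : y ≠ 0 := by
      rintro rfl
      rw [Algebra.norm_zero] at hy
      exact a.ne_zero hy.symm
    have hrecL : localArtinHom A K (AdjoinRoot (X ^ p - C (b : K))) a = 1 :=
      (localArtinHom_eq_one_iff A K _ a).2 ⟨Units.mk0 y hy0, hy⟩
    have hproj := map_galProj_localArtinHom A K (AdjoinRoot (X ^ p - C (b : K))) E a
    rw [hrecL] at hproj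
    obtain ⟨σ, hσ⟩ := QuotientGroup.mk_surjective (localArtinHom A K E a)
    have hσ' : localArtinHom A K E a = Abelianization.of σ := hσ.symm
    rw [hσ', Abelianization.map_of] at hproj
    -- the Kummer character on `L`
    have hγ0 : (AdjoinRoot.root (X ^ p - C (b : K))) ≠ 0 := by
      intro h0
      rw [h0, map_zero] at hφroot
      exact hβ0 hφroot.symm
    have hγ : (AdjoinRoot.root (X ^ p - C (b : K))) ^ p =
        algebraMap K (AdjoinRoot (X ^ p - C (b : K))) b := by
      apply (algebraMap (AdjoinRoot (X ^ p - C (b : K))) E).injective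
      rw [map_pow, hφroot, hβ, ← IsScalarTower.algebraMap_apply]
    have h1 : kummerHom p hζ hγ0 hγ (galProj K (AdjoinRoot (X ^ p - C (b : K))) E σ) = 1 := by
      have := congrArg (Abelianization.lift (kummerHom p hζ hγ0 hγ)) hproj
      rwa [Abelianization.lift_apply_of, map_one] at this
    have h2 := kummerHom_galProj p hζ (AdjoinRoot (X ^ p - C (b : K))) E hγ0 hγ σ
    rw [h1, Units.val_one, map_one] at h2
    show kumChar K E p hζ hroot b (localArtinHom A K E a) = 1
    rw [hσ']
    apply Units.ext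
    rw [Units.val_one, ← h2]
    refine congrArg Units.val (kumChar_of_eq K E p hζ hroot b σ _ _)

include A E hζ hroot in
/-- Local existence theorem modulo `p`-th powers, given a Kummer field `E`. -/
theorem exists_pow_eq_of_forall_norm_aux [Finite (Kˣ ⧸ (powMonoidHom p : Kˣ →* Kˣ).range)]
    (a : Kˣ)
    (hnorm : ∀ (L : Type) [Field L] [Algebra K L] [FiniteDimensional K L] [IsGalois K L],
      finrank K L = p → ∃ y : L, Algebra.norm K y = (a : K)) :
    ∃ c : Kˣ, c ^ p = a := by
  by_contra hcon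
  push Not at hcon
  obtain ⟨b, hb⟩ := exists_kumPairHom_ne_one A K E p hζ hroot a hcon
  exact hb (kumPairHom_eq_one_of_norm A K E p hζ hroot a b hnorm)

end NormImpliesTrivial

section Final

variable (A K : Type) [CommRing A] [IsDomain A] [IsDiscreteValuationRing A]
  [IsAdicComplete (maximalIdeal A) A] [Finite (ResidueField A)]
  [Field K] [Algebra A K] [IsFractionRing A K]
  (p : ℕ) [Fact p.Prime] {ζ : K} (hζ : IsPrimitiveRoot ζ p)

include A hζ in
/-- **Local existence theorem modulo `p`-th powers** (when `μ_p ⊆ K`): an element of `Kˣ` which is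
a norm from every Galois extension of degree `p` is a `p`-th power. -/
theorem exists_pow_eq_of_forall_norm (a : Kˣ)
    (hnorm : ∀ (L : Type) [Field L] [Algebra K L] [FiniteDimensional K L] [IsGalois K L],
      finrank K L = p → ∃ y : L, Algebra.norm K y = (a : K)) :
    ∃ c : Kˣ, c ^ p = a := by
  have hp : p.Prime := Fact.out
  haveI : NeZero p := ⟨hp.ne_zero⟩
  haveI hpK : NeZero ((p : ℕ) : K) := hζ.neZero'
  have hpA : (p : A) ≠ 0 := by
    intro h
    have := congrArg (algebraMap A K) h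
    rw [map_natCast, map_zero] at this
    exact NeZero.ne ((p : ℕ) : K) this
  haveI : Finite (Kˣ ⧸ (powMonoidHom p : Kˣ →* Kˣ).range) :=
    (LocalKummer.card_units_quotient_pow_le A K p hp.ne_zero hpA).1
  obtain ⟨E, _, _, _, _, hroot⟩ := exists_kummer_field K p
  letI : Algebra A E := ((algebraMap K E).comp (algebraMap A K)).toAlgebra
  haveI : IsScalarTower A K E := IsScalarTower.of_algebraMap_eq (fun _ => rfl)
  exact exists_pow_eq_of_forall_norm_aux A K E p hζ hroot a hnorm

end Final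

end Fermat.Agent.CFT.Local
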