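import Fermat.Agent.CFT.Local.FundClass

/-!
# CFT local (L4): compatibilities of the local fundamental class

* `brInfl_localFundClass` : flexibility of the definition (any cyclotomic overfield);
* `brInfl_localFundClass_eq_nsmul` : `infl u_{L/K} = [E:L] • u_{E/K}`;
* `brRes_localFundClass` : `res_{K}^{F} u_{E/K} = u_{E/F}`;
* `localFundClass_eq_frobClass` : in the unramified case `u_{L/K} = [π, Frob]`.

Together with `card_H2_eq_finrank`, `exists_zsmul_localFundClass` these are the axioms of a class
formation for local fields.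
-/

set_option autoImplicit false
set_option linter.unusedSectionVars false
set_option linter.style.haveILetI false

open IsLocalRing Module CategoryTheory groupCohomology Rep

namespace Fermat.Agent.CFT.Local

open Fermat.Agent.CFT.Coh

section ResDegSelf

variable (A K : Type) [CommRing A] [IsDomain A] [IsDiscreteValuationRing A]
  [Field K] [Algebra A K] [IsFractionRing A K]

include K in
lemma resDeg_self : resDeg A A = 1 := by
  have h := ramIdx_mul_resDeg A K K A
  rw [Module.finrank_self] at h
  exact Nat.eq_one_of_mul_eq_one_left h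

end ResDegSelf

section Flex

variable (A K L : Type) [CommRing A] [IsDomain A] [IsDiscreteValuationRing A]
  [IsAdicComplete (maximalIdeal A) A] [Finite (ResidueField A)]
  [Field K] [Algebra A K] [IsFractionRing A K]
  [Field L] [Algebra K L] [FiniteDimensional K L] [IsGalois K L]
  [Algebra A L] [IsScalarTower A K L]
  (Ω : Type) [Field Ω] [Algebra K Ω] [Algebra L Ω] [IsScalarTower K L Ω]
  [FiniteDimensional K Ω] [IsGalois K Ω]
  (m : ℕ) (hm : IsUnit (m : A)) (hprim : ∃ r : Ω, IsPrimitiveRoot r m)

/-- Inflation of unramified classes (`F = K` in `brMap_unrCls`). -/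
theorem brMap_unrCls_infl (Ω' : Type) [Field Ω'] [Algebra K Ω'] [FiniteDimensional K Ω']
    [IsGalois K Ω'] (m' : ℕ) (hm' : IsUnit (m' : A)) (hprim' : ∃ r : Ω', IsPrimitiveRoot r m')
    (k : Ω →ₐ[K] Ω') (hdvd : m ∣ m') {t : ℕ} (ht : t * unrDeg A m = unrDeg A m') (a : Kˣ) :
    brMap K K k 2 (unrCls A K Ω m hm hprim a) = unrCls A K Ω' m' hm' hprim' (a ^ t) := by
  have ht' : t * unrDeg A m = resDeg A A * unrDeg A m' := by
    rw [resDeg_self A K, one_mul, ht]
  have h := brMap_unrCls A K K A Ω Ω' m m' hm hm' hprim hprim' k hdvd ht' a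
  rw [h]
  congr 2

/-- **Flexibility of the definition of the fundamental class**: the inflation of `u_{L/K}` to any
finite Galois `Ω ⊇ L` containing the `m`-th roots of unity, `(q ^ [L:K] - 1) ∣ m`, is the
unramified class of invariant `1/[L:K]`. -/
theorem brInfl_localFundClass {s : ℕ} (hdvd : canonM A K L ∣ m)
    (hs : s * finrank K L = unrDeg A m) {π : Kˣ} (hπ : ord A (π : K) = 1) :
    brInfl K L Ω 2 (localFundClass A K L) = unrCls A K Ω m hm hprim (π ^ s) := by
  obtain ⟨r, hr⟩ := hprim
  have hm0 : m ≠ 0 := ne_zero_of_isUnit_natCast A m hm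
  obtain ⟨c, hc⟩ := hdvd
  have hc0 : c ≠ 0 := by
    rintro rfl
    rw [mul_zero] at hc
    exact hm0 hc
  have hr' : IsPrimitiveRoot (r ^ c) (canonM A K L) := by
    have := hr.pow_of_dvd hc0 ⟨canonM A K L, by rw [hc, mul_comm]⟩
    rwa [hc, Nat.mul_div_cancel _ (Nat.pos_of_ne_zero hc0)] at this
  obtain ⟨k₀⟩ := nonempty_algHom_cyclotomicField L (canonM A K L) Ω ⟨_, hr'⟩
  let k₁ : canonField A K L →ₐ[L] Ω := k₀
  let k : canonField A K L →ₐ[K] Ω := k₁.restrictScalars K
  have hcomp : (IsScalarTower.toAlgHom K L Ω) =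
      (k.restrictScalars K).comp (IsScalarTower.toAlgHom K L (canonField A K L)) := by
    ext x
    exact (k₁.commutes x).symm
  have h1 := brMap_comp K K K (IsScalarTower.toAlgHom K L (canonField A K L)) k 2
  show brMap K K (IsScalarTower.toAlgHom K L Ω) 2 _ = _
  rw [hcomp, h1, ModuleCat.comp_apply]
  have h2 := brInfl_canonField_localFundClass A K L hπ
  rw [h2]
  have hs' : s * unrDeg A (canonM A K L) = unrDeg A m := by rw [unrDeg_canonM, hs]
  exact brMap_unrCls_infl A K (canonField A K L) (canonM A K L) (isUnit_canonM A K L)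
    (exists_isPrimitiveRoot_canonField A K L) Ω m hm ⟨r, hr⟩ k ⟨c, hc⟩ hs' π

end Flex


section Infl

variable (A K L E : Type) [CommRing A] [IsDomain A] [IsDiscreteValuationRing A]
  [IsAdicComplete (maximalIdeal A) A] [Finite (ResidueField A)]
  [Field K] [Algebra A K] [IsFractionRing A K]
  [Field L] [Algebra K L] [FiniteDimensional K L] [IsGalois K L]
  [Algebra A L] [IsScalarTower A K L]
  [Field E] [Algebra K E] [FiniteDimensional K E] [IsGalois K E]
  [Algebra A E] [IsScalarTower A K E]
  [Algebra L E] [IsScalarTower K L E]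

lemma canonM_dvd_canonM : canonM A K L ∣ canonM A K E := by
  unfold canonM
  rw [← Module.finrank_mul_finrank K L E]
  exact Nat.pow_sub_one_dvd_pow_sub_one _ (Dvd.intro _ rfl)

/-- **Inflation compatibility of fundamental classes**:
`infl_{L}^{E} u_{L/K} = [E : L] • u_{E/K}`. -/
theorem brInfl_localFundClass_eq_nsmul :
    brInfl K L E 2 (localFundClass A K L) = finrank L E • localFundClass A K E := by
  obtain ⟨π, hπ⟩ := exists_ord_eq_one A K
  letI : Algebra L (canonField A K E) :=
    ((algebraMap E (canonField A K E)).comp (algebraMap L E)).toAlgebra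
  haveI : IsScalarTower L E (canonField A K E) := IsScalarTower.of_algebraMap_eq fun _ => rfl
  haveI : IsScalarTower K L (canonField A K E) := IsScalarTower.of_algebraMap_eq fun x => by
    rw [IsScalarTower.algebraMap_apply K E (canonField A K E),
      IsScalarTower.algebraMap_apply K L E]
    rfl
  have hs : finrank L E * finrank K L = unrDeg A (canonM A K E) := by
    rw [unrDeg_canonM, mul_comm, Module.finrank_mul_finrank]
  have h1 := brInfl_localFundClass A K L (canonField A K E) (canonM A K E) (isUnit_canonM A K E)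
    (exists_isPrimitiveRoot_canonField A K E) (canonM_dvd_canonM A K L E) hs hπ
  rw [unrCls_pow, ← brInfl_canonField_localFundClass A K E hπ, ← map_nsmul] at h1
  apply brInfl_injective K E (canonField A K E)
  rw [← h1]
  have hcomp : (IsScalarTower.toAlgHom K L (canonField A K E)) =
      ((IsScalarTower.toAlgHom K E (canonField A K E)).restrictScalars K).comp
        (IsScalarTower.toAlgHom K L E) := by
    ext x
    rfl
  have h2 := brMap_comp K K K (IsScalarTower.toAlgHom K L E)
    (IsScalarTower.toAlgHom K E (canonField A K E)) 2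
  show brMap K K (IsScalarTower.toAlgHom K E (canonField A K E)) 2
      (brMap K K (IsScalarTower.toAlgHom K L E) 2 _) =
    brMap K K (IsScalarTower.toAlgHom K L (canonField A K E)) 2 _
  rw [hcomp, h2, ModuleCat.comp_apply]

end Infl


section Res

variable (A K F B E : Type) [CommRing A] [IsDomain A] [IsDiscreteValuationRing A]
  [IsAdicComplete (maximalIdeal A) A] [Finite (ResidueField A)]
  [Field K] [Algebra A K] [IsFractionRing A K]
  [Field F] [Algebra K F] [FiniteDimensional K F]
  [CommRing B] [IsDomain B] [IsDiscreteValuationRing B]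
  [IsAdicComplete (maximalIdeal B) B] [Finite (ResidueField B)]
  [Algebra A B] [Algebra B F] [Algebra A F] [IsScalarTower A K F] [IsScalarTower A B F]
  [IsFractionRing B F] [Module.Finite A B] [IsLocalHom (algebraMap A B)]
  [Field E] [Algebra K E] [FiniteDimensional K E] [IsGalois K E]
  [Algebra A E] [IsScalarTower A K E]
  [Algebra F E] [IsScalarTower K F E] [FiniteDimensional F E] [IsGalois F E]
  [Algebra B E] [IsScalarTower B F E]

/-- The degree of `F(ζ_m)/F` for `m = q_K ^ [E:K] - 1`. -/
lemma unrDeg_canonM_of_tower :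
    unrDeg B (canonM A K E) = ramIdx A B * finrank F E := by
  have hN : finrank K E = ramIdx A B * resDeg A B * finrank F E := by
    rw [ramIdx_mul_resDeg A K F B, Module.finrank_mul_finrank]
  have hf : 0 < resDeg A B := resDeg_pos A B
  have hx := unrDeg_canonM A K E
  unfold unrDeg at hx ⊢
  have hq : ((resCard B : ℕ) : ZMod (canonM A K E)) =
      ((resCard A : ℕ) : ZMod (canonM A K E)) ^ resDeg A B := by
    rw [← Nat.cast_pow]
    congr 1
    exact card_residueField A B
  rw [hq, orderOf_pow' _ hf.ne', hx, hN]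
  have : (ramIdx A B * resDeg A B * finrank F E).gcd (resDeg A B) = resDeg A B :=
    Nat.gcd_eq_right ⟨ramIdx A B * finrank F E, by ring⟩
  rw [this]
  have h2 : ramIdx A B * resDeg A B * finrank F E =
      (ramIdx A B * finrank F E) * resDeg A B := by ring
  rw [h2, Nat.mul_div_cancel _ hf]

lemma canonM_dvd_canonM_of_tower : canonM B F E ∣ canonM A K E := by
  have hN : finrank K E = ramIdx A B * resDeg A B * finrank F E := by
    rw [ramIdx_mul_resDeg A K F B, Module.finrank_mul_finrank]
  unfold canonM
  have hq : resCard B = resCard A ^ resDeg A B := card_residueField A B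
  rw [hq, ← pow_mul, hN]
  exact Nat.pow_sub_one_dvd_pow_sub_one _ ⟨ramIdx A B, by ring⟩

/-- **Restriction compatibility of fundamental classes**: `res_{K}^{F} u_{E/K} = u_{E/F}`. -/
theorem brRes_localFundClass :
    brRes K F E 2 (localFundClass A K E) = localFundClass B F E := by
  obtain ⟨π, hπ⟩ := exists_ord_eq_one A K
  obtain ⟨ϖ, hϖ⟩ := exists_ord_eq_one B F
  set Ω := canonField A K E with hΩ
  set m := canonM A K E with hmdef
  letI : Algebra F Ω := ((algebraMap E Ω).comp (algebraMap F E)).toAlgebra
  haveI : IsScalarTower F E Ω := IsScalarTower.of_algebraMap_eq fun _ => rfl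
  haveI : IsScalarTower K F Ω := IsScalarTower.of_algebraMap_eq fun x => by
    rw [IsScalarTower.algebraMap_apply K E Ω, IsScalarTower.algebraMap_apply K F E]
    rfl
  haveI : FiniteDimensional F Ω := FiniteDimensional.right K F Ω
  haveI : IsGalois F Ω := IsGalois.tower_top_of_isGalois K F Ω
  have hm : IsUnit (m : A) := isUnit_canonM A K E
  have hmB : IsUnit (m : B) := by simpa using hm.map (algebraMap A B)
  have hprim : ∃ r : Ω, IsPrimitiveRoot r m := exists_isPrimitiveRoot_canonField A K E
  apply brInfl_injective F E Ω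
  -- left side
  have hL : brInfl F E Ω 2 (brRes K F E 2 (localFundClass A K E)) =
      brMap K F (AlgHom.id K Ω) 2 (brInfl K E Ω 2 (localFundClass A K E)) := by
    have h1 := brMap_comp K F F (AlgHom.id K E) (IsScalarTower.toAlgHom F E Ω) 2
    have h2 := brMap_comp K K F (IsScalarTower.toAlgHom K E Ω) (AlgHom.id K Ω) 2
    have e1 : ((IsScalarTower.toAlgHom F E Ω).restrictScalars K).comp (AlgHom.id K E) =
        IsScalarTower.toAlgHom K E Ω := by
      ext x; rfl
    have e2 : ((AlgHom.id K Ω).restrictScalars K).comp (IsScalarTower.toAlgHom K E Ω) =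
        IsScalarTower.toAlgHom K E Ω := by
      ext x; rfl
    rw [e1] at h1
    rw [e2] at h2
    show (brMap K F (AlgHom.id K E) 2 ≫ brMap F F (IsScalarTower.toAlgHom F E Ω) 2) _ =
      (brMap K K (IsScalarTower.toAlgHom K E Ω) 2 ≫ brMap K F (AlgHom.id K Ω) 2) _
    rw [← h1, ← h2]
  rw [hL, brInfl_canonField_localFundClass A K E hπ]
  have hdF : unrDeg B m = ramIdx A B * finrank F E := unrDeg_canonM_of_tower A K F B E
  have hN : finrank K E = ramIdx A B * resDeg A B * finrank F E := by
    rw [ramIdx_mul_resDeg A K F B, Module.finrank_mul_finrank]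
  have ht : 1 * unrDeg A m = resDeg A B * unrDeg B m := by
    rw [hdF, hmdef, unrDeg_canonM, hN]; ring
  rw [brMap_unrCls A K F B Ω Ω m m hm hmB hprim hprim (AlgHom.id K Ω) (dvd_refl m) ht π]
  have hs : ramIdx A B * finrank F E = unrDeg B m := hdF.symm
  rw [brInfl_localFundClass B F E Ω m hmB hprim (canonM_dvd_canonM_of_tower A K F B E) hs hϖ,
    unrCls_eq_unrCls_iff]
  have h1 : ord B (((Units.map (algebraMap K F : K →* F) π ^ 1 : Fˣ) : Fˣ) : F) = ramIdx A B := by
    rw [pow_one, Units.coe_map, MonoidHom.coe_coe, ord_algebraMap A K F B, hπ, mul_one]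
  have h2 : ord B (((ϖ ^ ramIdx A B : Fˣ) : Fˣ) : F) = ramIdx A B := by
    rw [Units.val_pow_eq_pow_val, ord_pow, hϖ, mul_one]
  rw [h1, h2, sub_self]
  exact dvd_zero _

end Res


section CycSubRange

variable (K L Ω : Type) [Field K] [Field L] [Field Ω] [Algebra K L] [Algebra K Ω] [Algebra L Ω]
  [IsScalarTower K L Ω] (m : ℕ) [IsCyclotomicExtension {m} K L]

lemma algebraMap_mem_cycSub (x : L) : algebraMap L Ω x ∈ cycSub K Ω m := by
  have h : (⊤ : Subalgebra K L) ≤
      (cycSub K Ω m).toSubalgebra.comap (IsScalarTower.toAlgHom K L Ω) := by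
    rw [← (IsCyclotomicExtension.iff_adjoin_eq_top {m} K L).1 inferInstance |>.2]
    rw [Algebra.adjoin_le_iff]
    rintro b ⟨n, hn, hn0, hb⟩
    rw [Set.mem_singleton_iff] at hn
    subst hn
    show algebraMap L Ω b ∈ cycSub K Ω n
    exact mem_cycSub_of_pow_eq_one hn0 (by rw [← map_pow, hb, map_one])
  exact h (Algebra.mem_top (x := x))

/-- `L = K(μ_m) → K(μ_m)(Ω)`. -/
noncomputable def toCycSub : L →ₐ[K] cycSub K Ω m :=
  (IsScalarTower.toAlgHom K L Ω).codRestrict (cycSub K Ω m).toSubalgebra
    (algebraMap_mem_cycSub K L Ω m)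

lemma coe_toCycSub (x : L) : ((toCycSub K L Ω m x : cycSub K Ω m) : Ω) = algebraMap L Ω x := rfl

end CycSubRange

section Unram

variable (A K L : Type) [CommRing A] [IsDomain A] [IsDiscreteValuationRing A]
  [IsAdicComplete (maximalIdeal A) A] [Finite (ResidueField A)]
  [Field K] [Algebra A K] [IsFractionRing A K]
  [Field L] [Algebra K L] [FiniteDimensional K L] [IsGalois K L]
  [Algebra A L] [IsScalarTower A K L]

/-- **Normalisation in the unramified case**: if `L = K(μ_{q^n - 1})`, `n = [L : K]` (i.e. `L/K`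
is unramified), then `u_{L/K} = [π, Frob]`. -/
theorem localFundClass_eq_frobClass [IsCyclotomicExtension {canonM A K L} K L]
    {π : Kˣ} (hπ : ord A (π : K) = 1) :
    localFundClass A K L = frobClass A K L (canonM A K L) (isUnit_canonM A K L) π := by
  set Ω := canonField A K L with hΩ
  set m := canonM A K L with hmdef
  have hm : IsUnit (m : A) := isUnit_canonM A K L
  have hprim : ∃ r : Ω, IsPrimitiveRoot r m := exists_isPrimitiveRoot_canonField A K L
  haveI := isCyclotomicExtension_cycSub K Ω m hprim
  haveI : IsGalois K (cycSub K Ω m) := IsCyclotomicExtension.isGalois {m} K (cycSub K Ω m)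
  apply brInfl_injective K L Ω
  rw [brInfl_canonField_localFundClass A K L hπ]
  have ht : 1 * finrank K L = resDeg A A * finrank K (cycSub K Ω m) := by
    rw [resDeg_self A K, finrank_cycSub A K Ω m hm hprim, hmdef, unrDeg_canonM]
  have h1 := brMap_frobClass A K K A m m hm hm (toCycSub K L Ω m) (dvd_refl m) ht π
  have h2 := brMap_comp K K K (toCycSub K L Ω m) (IsScalarTower.toAlgHom K (cycSub K Ω m) Ω) 2
  have hcomp : ((IsScalarTower.toAlgHom K (cycSub K Ω m) Ω).restrictScalars K).comp
      (toCycSub K L Ω m) = IsScalarTower.toAlgHom K L Ω := by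
    ext x; rfl
  rw [hcomp] at h2
  show _ = brMap K K (IsScalarTower.toAlgHom K L Ω) 2 _
  rw [h2, ModuleCat.comp_apply, h1, unrCls_def]
  congr 2
  rw [pow_one]
  exact Units.ext rfl

end Unram

end Fermat.Agent.CFT.Local
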