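import Fermat.Agent.CFT.Coh.Basic_helper9

/-!
# CFT local (L4): the multiplicative dictionary for `Lˣ` as a Galois module

For a finite Galois extension `L/K` (types in universe `0`), `C := Rep.ofAlgebraAutOnUnits K L`
is `Lˣ` (written additively) as a `Gal(L/K)`-module.  We provide

* `ofU K L : Lˣ → C.V` and `toU K L : C.V → Lˣ`, the (definitional) dictionary between the
  multiplicative group and the additive carrier of `C`, with their API;
* the identification of the invariants of `C` with (the image of) `Kˣ`;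
* the identification of helper9's `normMap C` with the field norm;
* `TateH0 C = C^G / N C` as `Kˣ / N_{L/K} Lˣ` (`tateMk`, `tateMk_surjective`,
  `tateMk_eq_zero_iff`).
-/

set_option autoImplicit false

open CategoryTheory Rep

namespace Fermat.Agent.CFT.Local

open Fermat.Agent.CFT.Coh

section Dict

variable (K L : Type) [CommRing K] [CommRing L] [Algebra K L]

/-- An element of `Lˣ` as an element of the carrier of `Rep.ofAlgebraAutOnUnits K L`. -/
def ofU (x : Lˣ) : (Rep.ofAlgebraAutOnUnits K L).V := Additive.ofMul x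

/-- An element of the carrier of `Rep.ofAlgebraAutOnUnits K L` as an element of `Lˣ`. -/
def toU (v : (Rep.ofAlgebraAutOnUnits K L).V) : Lˣ := Additive.toMul (α := Lˣ) v

@[simp] lemma toU_ofU (x : Lˣ) : toU K L (ofU K L x) = x := rfl
@[simp] lemma ofU_toU (v : (Rep.ofAlgebraAutOnUnits K L).V) : ofU K L (toU K L v) = v := rfl

lemma ofU_injective : Function.Injective (ofU K L) := fun x y h => by
  simpa using congrArg (toU K L) h

lemma toU_injective : Function.Injective (toU K L) := fun x y h => by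
  simpa using congrArg (ofU K L) h

lemma ofU_surjective : Function.Surjective (ofU K L) := fun v => ⟨toU K L v, rfl⟩

@[simp] lemma ofU_one : ofU K L 1 = 0 := rfl
@[simp] lemma ofU_mul (x y : Lˣ) : ofU K L (x * y) = ofU K L x + ofU K L y := rfl
@[simp] lemma ofU_inv (x : Lˣ) : ofU K L x⁻¹ = -ofU K L x := rfl
@[simp] lemma ofU_div (x y : Lˣ) : ofU K L (x / y) = ofU K L x - ofU K L y := rfl
@[simp] lemma ofU_pow (x : Lˣ) (n : ℕ) : ofU K L (x ^ n) = n • ofU K L x := rfl
@[simp] lemma ofU_zpow (x : Lˣ) (n : ℤ) : ofU K L (x ^ n) = n • ofU K L x := rfl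
@[simp] lemma toU_zero : toU K L 0 = 1 := rfl
@[simp] lemma toU_add (v w : (Rep.ofAlgebraAutOnUnits K L).V) :
    toU K L (v + w) = toU K L v * toU K L w := rfl
@[simp] lemma toU_neg (v : (Rep.ofAlgebraAutOnUnits K L).V) : toU K L (-v) = (toU K L v)⁻¹ := rfl
@[simp] lemma toU_sub (v w : (Rep.ofAlgebraAutOnUnits K L).V) :
    toU K L (v - w) = toU K L v / toU K L w := rfl
@[simp] lemma toU_nsmul (n : ℕ) (v : (Rep.ofAlgebraAutOnUnits K L).V) :
    toU K L (n • v) = toU K L v ^ n := rfl
@[simp] lemma toU_zsmul (n : ℤ) (v : (Rep.ofAlgebraAutOnUnits K L).V) :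
    toU K L (n • v) = toU K L v ^ n := rfl

lemma ofU_eq_zero_iff (x : Lˣ) : ofU K L x = 0 ↔ x = 1 :=
  ⟨fun h => by simpa using congrArg (toU K L) h, fun h => by rw [h]; rfl⟩

lemma ofU_prod {ι : Type*} (s : Finset ι) (f : ι → Lˣ) :
    ofU K L (∏ i ∈ s, f i) = ∑ i ∈ s, ofU K L (f i) := by
  classical
  induction s using Finset.induction_on with
  | empty => rw [Finset.prod_empty, Finset.sum_empty]; rfl
  | insert i s hi ih => rw [Finset.prod_insert hi, Finset.sum_insert hi, ofU_mul, ih]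

@[simp] lemma unitsRep_ρ_ofU (σ : L ≃ₐ[K] L) (x : Lˣ) :
    (Rep.ofAlgebraAutOnUnits K L).ρ σ (ofU K L x) = ofU K L (Units.map (σ : L →* L) x) := rfl

@[simp] lemma toU_unitsRep_ρ (σ : L ≃ₐ[K] L) (v : (Rep.ofAlgebraAutOnUnits K L).V) :
    toU K L ((Rep.ofAlgebraAutOnUnits K L).ρ σ v) = Units.map (σ : L →* L) (toU K L v) := rfl

lemma coe_toU_unitsRep_ρ (σ : L ≃ₐ[K] L) (v : (Rep.ofAlgebraAutOnUnits K L).V) :
    ((toU K L ((Rep.ofAlgebraAutOnUnits K L).ρ σ v) : Lˣ) : L) = σ (toU K L v : L) := rfl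

/-- The image of `a ∈ Kˣ` in `Lˣ` is Galois invariant. -/
lemma ofU_map_mem_invariants (a : Kˣ) :
    ofU K L (Units.map (algebraMap K L : K →* L) a) ∈
      (Rep.ofAlgebraAutOnUnits K L).ρ.invariants := by
  intro σ
  rw [unitsRep_ρ_ofU]
  congr 1
  ext
  simp

/-- `Kˣ → (Lˣ)^G`, additively. -/
noncomputable def invOfUnits :
    Additive Kˣ →+ (Rep.ofAlgebraAutOnUnits K L).ρ.invariants where
  toFun a := ⟨ofU K L (Units.map (algebraMap K L : K →* L) (Additive.toMul a)),
    ofU_map_mem_invariants K L _⟩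
  map_zero' := by
    apply Subtype.ext
    show ofU K L (Units.map (algebraMap K L : K →* L) 1) = 0
    rw [map_one]
    rfl
  map_add' a b := by
    apply Subtype.ext
    show ofU K L (Units.map (algebraMap K L : K →* L) (Additive.toMul a * Additive.toMul b)) =
      ofU K L (Units.map (algebraMap K L : K →* L) (Additive.toMul a)) +
      ofU K L (Units.map (algebraMap K L : K →* L) (Additive.toMul b))
    rw [map_mul]
    rfl

lemma coe_invOfUnits (a : Kˣ) :
    ((invOfUnits K L (Additive.ofMul a) : (Rep.ofAlgebraAutOnUnits K L).ρ.invariants) :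
      (Rep.ofAlgebraAutOnUnits K L).V) =
      ofU K L (Units.map (algebraMap K L : K →* L) a) := rfl

end Dict

variable (K L : Type) [Field K] [Field L] [Algebra K L]

lemma invOfUnits_injective : Function.Injective (invOfUnits K L) := by
  intro a b h
  have h1 := congrArg (fun x : (Rep.ofAlgebraAutOnUnits K L).ρ.invariants =>
    ((toU K L (x : (Rep.ofAlgebraAutOnUnits K L).V) : Lˣ) : L)) h
  simp only [invOfUnits, AddMonoidHom.coe_mk, ZeroHom.coe_mk, toU_ofU, Units.coe_map,
    MonoidHom.coe_coe] at h1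
  have h2 := (algebraMap K L).injective h1
  exact Additive.toMul.injective (Units.ext h2)

variable [FiniteDimensional K L] [IsGalois K L]

/-- Galois invariants of `Lˣ` come from `Kˣ`. -/
lemma mem_invariants_iff (v : (Rep.ofAlgebraAutOnUnits K L).V) :
    v ∈ (Rep.ofAlgebraAutOnUnits K L).ρ.invariants ↔
      ∃ a : Kˣ, ofU K L (Units.map (algebraMap K L : K →* L) a) = v := by
  constructor
  · intro hv
    have hfix : ∀ σ : L ≃ₐ[K] L, σ ((toU K L v : Lˣ) : L) = ((toU K L v : Lˣ) : L) := by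
      intro σ
      rw [← coe_toU_unitsRep_ρ, hv σ]
    obtain ⟨a, ha⟩ := (IsGalois.mem_range_algebraMap_iff_fixed (F := K)
      ((toU K L v : Lˣ) : L)).2 hfix
    have ha0 : a ≠ 0 := by
      rintro rfl
      rw [map_zero] at ha
      exact (toU K L v : Lˣ).ne_zero ha.symm
    refine ⟨Units.mk0 a ha0, ?_⟩
    apply toU_injective
    apply Units.ext
    simpa using ha
  · rintro ⟨a, rfl⟩
    exact ofU_map_mem_invariants K L a

lemma invOfUnits_surjective : Function.Surjective (invOfUnits K L) := by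
  rintro ⟨v, hv⟩
  obtain ⟨a, ha⟩ := (mem_invariants_iff K L v).1 hv
  exact ⟨Additive.ofMul a, Subtype.ext ha⟩

/-- `Kˣ ≃ (Lˣ)^G`. -/
noncomputable def invEquivUnits :
    Additive Kˣ ≃+ (Rep.ofAlgebraAutOnUnits K L).ρ.invariants :=
  AddEquiv.ofBijective (invOfUnits K L) ⟨invOfUnits_injective K L, invOfUnits_surjective K L⟩

/-- helper9's `normMap` on `Lˣ` is the field norm. -/
lemma normMap_ofU (x : Lˣ) :
    normMap (Rep.ofAlgebraAutOnUnits K L) (ofU K L x) =
      ofU K L (Units.map (algebraMap K L : K →* L)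
        (Units.map (Algebra.norm K : L →* K) x)) := by
  classical
  let _ := Fintype.ofFinite (L ≃ₐ[K] L)
  rw [normMap_apply]
  simp only [unitsRep_ρ_ofU]
  rw [← ofU_prod]
  congr 1
  apply Units.ext
  rw [Units.coe_map, Units.coe_map, MonoidHom.coe_coe,
    Algebra.norm_eq_prod_automorphisms, Units.coe_prod]
  refine Finset.prod_congr ?_ fun σ _ => ?_
  · ext σ; simp
  · simp

lemma coe_toU_normMap (v : (Rep.ofAlgebraAutOnUnits K L).V) :
    ((toU K L (normMap (Rep.ofAlgebraAutOnUnits K L) v) : Lˣ) : L) =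
      algebraMap K L (Algebra.norm K ((toU K L v : Lˣ) : L)) := by
  have := normMap_ofU K L (toU K L v)
  rw [ofU_toU] at this
  rw [this]
  simp

/-- The canonical map `Kˣ → Ĥ⁰(Gal(L/K), Lˣ)`. -/
noncomputable def tateMk : Additive Kˣ →+ TateH0 (Rep.ofAlgebraAutOnUnits K L) :=
  (TateH0.mk (Rep.ofAlgebraAutOnUnits K L)).toAddMonoidHom.comp (invOfUnits K L)

omit [IsGalois K L] in
lemma tateMk_apply (a : Additive Kˣ) :
    tateMk K L a = TateH0.mk (Rep.ofAlgebraAutOnUnits K L) (invOfUnits K L a) := rfl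

lemma tateMk_surjective : Function.Surjective (tateMk K L) := by
  intro y
  obtain ⟨v, rfl⟩ := TateH0.mk_surjective _ y
  obtain ⟨a, rfl⟩ := invOfUnits_surjective K L v
  exact ⟨a, rfl⟩

/-- `Ĥ⁰(Gal(L/K), Lˣ) = Kˣ / N Lˣ`: the kernel of `Kˣ → Ĥ⁰` is the norm group. -/
lemma tateMk_eq_zero_iff (a : Kˣ) :
    tateMk K L (Additive.ofMul a) = 0 ↔ ∃ y : Lˣ, Algebra.norm K (y : L) = a := by
  rw [tateMk_apply, TateH0.mk_eq_zero_iff]
  constructor
  · rintro ⟨v, hv⟩
    refine ⟨toU K L v, ?_⟩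
    have h1 := coe_toU_normMap K L v
    rw [hv, coe_invOfUnits] at h1
    simp only [toU_ofU, Units.coe_map, MonoidHom.coe_coe] at h1
    exact ((algebraMap K L).injective h1).symm
  · rintro ⟨y, hy⟩
    refine ⟨ofU K L y, ?_⟩
    rw [normMap_ofU, coe_invOfUnits]
    congr 2
    ext
    simpa using hy

lemma tateMk_eq_tateMk_iff (a b : Kˣ) :
    tateMk K L (Additive.ofMul a) = tateMk K L (Additive.ofMul b) ↔
      ∃ y : Lˣ, Algebra.norm K (y : L) = a / b := by
  rw [← sub_eq_zero, ← map_sub, ← ofMul_div, tateMk_eq_zero_iff]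
  simp

end Fermat.Agent.CFT.Local
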