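import Mathlib

/-!
# CFT (C3) Lubin–Tate, part 1: the Lubin–Tate lemma in polynomial-approximant form

`S` is a commutative ring which is `p`-torsion free, `p`-adically separated and complete, with a
Frobenius lift `φ`; `u : ℕ` is invertible in `S` and `ε : S` satisfies `φ ε = u ε`.  With
`f = (1 + X)^p - 1` and `g = p u X + X^p` we construct polynomials `θ` with
`θ^φ ∘ f ≡ g ∘ θ` modulo `X^(r+1)` and linear term `ε X`, prove that they are unique modulo
`X^(r+1)`, and deduce `θ^φ ≡ θ ∘ ((1 + X)^u - 1)` modulo `X^(r+1)`.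
-/

namespace Fermat.Agent.CFT.LT

open Polynomial

section Complete

variable {S : Type*} [CommRing S] (p : ℕ)

/-- `p`-adic separatedness, elementwise. -/
def PHaus (S : Type*) [CommRing S] (p : ℕ) : Prop :=
  ∀ x : S, (∀ k : ℕ, (p : S) ^ k ∣ x) → x = 0

/-- `p`-adic (pre)completeness, elementwise. -/
def PPrec (S : Type*) [CommRing S] (p : ℕ) : Prop :=
  ∀ s : ℕ → S, (∀ k : ℕ, (p : S) ^ k ∣ s (k + 1) - s k) → ∃ L : S, ∀ k : ℕ, (p : S) ^ k ∣ L - s k

variable {p}

theorem dvd_sub_of_le {s : ℕ → S} (hs : ∀ k : ℕ, (p : S) ^ k ∣ s (k + 1) - s k) {m n : ℕ}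
    (hmn : m ≤ n) : (p : S) ^ m ∣ s n - s m := by
  induction n, hmn using Nat.le_induction with
  | base => simp
  | succ n hmn ih =>
    have h1 : (p : S) ^ m ∣ s (n + 1) - s n := (pow_dvd_pow _ hmn).trans (hs n)
    have : s (n + 1) - s m = (s (n + 1) - s n) + (s n - s m) := by ring
    rw [this]
    exact dvd_add h1 ih

/-- Fixed points of a `p`-adically contracting affine semilinear map. -/
theorem exists_fixed_point (hprec : PPrec S p) (hhaus : PHaus S p) (φ : S →+* S) (v c : S) {r : ℕ}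
    (hr : 1 ≤ r) : ∃ b : S, b = v * (c + (p : S) ^ r * φ b) := by
  -- the sequence of iterates
  let T : S → S := fun b => v * (c + (p : S) ^ r * φ b)
  let s : ℕ → S := fun k => T^[k] 0
  have hs1 : ∀ k, s (k + 1) = T (s k) := fun k => Function.iterate_succ_apply' T k 0
  have hT : ∀ (a b : S) (k : ℕ), (p : S) ^ k ∣ a - b → (p : S) ^ (k + 1) ∣ T a - T b := by
    intro a b k ⟨w, hw⟩
    have : T a - T b = v * ((p : S) ^ r * φ (a - b)) := by
      simp only [T, map_sub]; ring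
    rw [this, hw, map_mul, map_pow, map_natCast]
    have hr' : (p : S) ^ r = (p : S) * (p : S) ^ (r - 1) := by
      rw [← pow_succ', Nat.sub_add_cancel hr]
    rw [hr']
    exact ⟨v * (p : S) ^ (r - 1) * φ w, by ring⟩
  have hs : ∀ k, (p : S) ^ k ∣ s (k + 1) - s k := by
    intro k
    induction k with
    | zero => simp
    | succ k ih =>
      have := hT _ _ k ih
      rw [← hs1 (k + 1), ← hs1 k] at this
      exact this
  obtain ⟨L, hL⟩ := hprec s hs
  refine ⟨L, ?_⟩
  have : L - T L = 0 := by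
    apply hhaus
    intro k
    have h1 : (p : S) ^ k ∣ L - s (k + 1) :=
      (pow_dvd_pow _ (Nat.le_succ k)).trans (hL (k + 1))
    have h2 : (p : S) ^ k ∣ T (s k) - T L := by
      have := hT (s k) L k (by rw [← neg_sub]; exact (dvd_neg).mpr (hL k))
      exact (pow_dvd_pow _ (Nat.le_succ k)).trans this
    have : L - T L = (L - s (k + 1)) + (T (s k) - T L) := by rw [hs1]; ring
    rw [this]
    exact dvd_add h1 h2
  exact sub_eq_zero.mp this

/-- Uniqueness for the homogeneous equation. -/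
theorem eq_zero_of_eq_mul (hhaus : PHaus S p) (φ : S →+* S) (v d : S) {j : ℕ} (hj : 1 ≤ j)
    (hd : d = v * ((p : S) ^ j * φ d)) : d = 0 := by
  apply hhaus
  intro k
  induction k with
  | zero => simp
  | succ k ih =>
    obtain ⟨w, hw⟩ := ih
    rw [hd, hw, map_mul, map_pow, map_natCast]
    have hj' : (p : S) ^ j = (p : S) * (p : S) ^ (j - 1) := by
      rw [← pow_succ', Nat.sub_add_cancel hj]
    rw [hj', pow_succ]
    exact ⟨v * (p : S) ^ (j - 1) * φ w, by ring⟩

end Complete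

section Poly

variable {S : Type*} [CommRing S] (p : ℕ)

/-- `[p](X) = (1 + X)^p - 1` for the multiplicative formal group. -/
noncomputable def fLT (S : Type*) [CommRing S] (p : ℕ) : S[X] := (1 + X) ^ p - 1

/-- The basic Lubin–Tate polynomial for the uniformiser `p u`. -/
noncomputable def gLT (S : Type*) [CommRing S] (p u : ℕ) : S[X] :=
  C ((p : S) * (u : S)) * X + X ^ p

/-- `[a](X) = (1 + X)^a - 1`. -/
noncomputable def mulLT (S : Type*) [CommRing S] (a : ℕ) : S[X] := (1 + X) ^ a - 1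

theorem fLT_eq_mulLT : fLT S p = mulLT S p := rfl

theorem mulLT_eq (a : ℕ) : ∃ q : S[X], mulLT S a = C (a : S) * X + X ^ 2 * q := by
  refine ⟨(mulLT S a).divX.divX, ?_⟩
  have h0 : (mulLT S a).coeff 0 = 0 := by
    simp [mulLT, coeff_one_add_X_pow]
  have h1 : (mulLT S a).divX.coeff 0 = (a : S) := by
    rw [coeff_divX]
    simp only [mulLT, zero_add, coeff_sub, coeff_one_add_X_pow, Nat.choose_one_right]
    simp [coeff_one]
  have e1 := divX_mul_X_add (mulLT S a)
  have e2 := divX_mul_X_add (mulLT S a).divX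
  rw [h0] at e1
  rw [h1] at e2
  rw [← e2] at e1
  calc mulLT S a = ((mulLT S a).divX.divX * X + C (a : S)) * X + C 0 := e1.symm
    _ = C (a : S) * X + X ^ 2 * (mulLT S a).divX.divX := by
      simp only [map_zero, add_zero]
      ring

theorem fLT_eq : ∃ q : S[X], fLT S p = C (p : S) * X + X ^ 2 * q := mulLT_eq p

theorem X_dvd_mulLT (a : ℕ) : X ∣ mulLT S a := by
  obtain ⟨q, hq⟩ := mulLT_eq (S := S) a
  rw [hq]
  exact ⟨C (a : S) + X * q, by ring⟩

theorem X_dvd_fLT : X ∣ fLT S p := X_dvd_mulLT p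

theorem X_pow_dvd_fLT_pow_sub (j : ℕ) :
    X ^ (j + 1) ∣ fLT S p ^ j - C ((p : S) ^ j) * X ^ j := by
  obtain ⟨q, hq⟩ := fLT_eq (S := S) p
  have h1 : fLT S p = X * (C (p : S) + X * q) := by rw [hq]; ring
  rw [h1, mul_pow]
  have h2 : X ∣ (C (p : S) + X * q) ^ j - C ((p : S) ^ j) := by
    rw [map_pow]
    have := sub_dvd_pow_sub_pow (C (p : S) + X * q) (C (p : S)) j
    refine dvd_trans ?_ this
    exact ⟨q, by ring⟩
  obtain ⟨w, hw⟩ := h2
  refine ⟨w, ?_⟩
  have : X ^ j * (C (p : S) + X * q) ^ j - C ((p : S) ^ j) * X ^ j =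
      X ^ j * ((C (p : S) + X * q) ^ j - C ((p : S) ^ j)) := by ring
  rw [this, hw]; ring

theorem gLT_comp (u : ℕ) (ψ : S[X]) :
    (gLT S p u).comp ψ = C ((p : S) * (u : S)) * ψ + ψ ^ p := by
  simp [gLT]

theorem mulLT_map (a : ℕ) (ψ : S →+* S) : (mulLT S a).map ψ = mulLT S a := by
  simp [mulLT]

theorem fLT_map (ψ : S →+* S) : (fLT S p).map ψ = fLT S p := mulLT_map p ψ

theorem gLT_map (u : ℕ) (ψ : S →+* S) : (gLT S p u).map ψ = gLT S p u := by
  simp [gLT]

theorem mulLT_comp (a b : ℕ) : (mulLT S a).comp (mulLT S b) = mulLT S (b * a) := by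
  simp [mulLT, pow_mul]

theorem mulLT_comp_comm (a b : ℕ) :
    (mulLT S a).comp (mulLT S b) = (mulLT S b).comp (mulLT S a) := by
  rw [mulLT_comp, mulLT_comp, mul_comm]

theorem X_pow_dvd_comp {k : ℕ} {P Q : S[X]} (hP : X ^ k ∣ P) (hQ : X ∣ Q) : X ^ k ∣ P.comp Q := by
  obtain ⟨w, rfl⟩ := hP
  rw [mul_comp, pow_comp, X_comp]
  exact Dvd.dvd.mul_right (pow_dvd_pow_of_dvd hQ k) _

theorem sub_dvd_comp_sub (Q a b : S[X]) : a - b ∣ Q.comp a - Q.comp b := by
  have := Polynomial.sub_dvd_eval_sub a b (Q.map C)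
  simpa [eval_map, comp] using this

variable (φ : S →+* S) (u : ℕ)

/-- The error term `ψ^φ ∘ [p] - g ∘ ψ` of the Lubin–Tate functional equation. -/
noncomputable def errLT (ψ : S[X]) : S[X] := (ψ.map φ).comp (fLT S p) - (gLT S p u).comp ψ

theorem errLT_sub (ψ h : S[X]) :
    errLT p φ u (ψ + h) - errLT p φ u ψ =
      (h.map φ).comp (fLT S p) - C ((p : S) * (u : S)) * h - ((ψ + h) ^ p - ψ ^ p) := by
  simp only [errLT, gLT_comp, Polynomial.map_add, add_comp]
  ring

theorem X_pow_dvd_map_comp_fLT {k : ℕ} {h : S[X]} (hk : X ^ k ∣ h) :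
    X ^ k ∣ (h.map φ).comp (fLT S p) := by
  obtain ⟨η, rfl⟩ := hk
  rw [Polynomial.map_mul, Polynomial.map_pow, map_X, mul_comp, pow_comp, X_comp]
  exact Dvd.dvd.mul_right (pow_dvd_pow_of_dvd (X_dvd_fLT p) k) _

/-- (E1) the error term respects congruences modulo `X^k`. -/
theorem X_pow_dvd_errLT_sub {k : ℕ} {ψ ψ' : S[X]} (hk : X ^ k ∣ ψ' - ψ) :
    X ^ k ∣ errLT p φ u ψ' - errLT p φ u ψ := by
  have h1 : ψ' = ψ + (ψ' - ψ) := by ring
  rw [h1, errLT_sub]
  refine dvd_sub (dvd_sub (X_pow_dvd_map_comp_fLT p φ hk) (hk.mul_left _)) ?_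
  refine dvd_trans hk ?_
  have := sub_dvd_pow_sub_pow (ψ + (ψ' - ψ)) ψ p
  simpa using this

/-- (E2) first-order expansion of the error term. -/
theorem X_pow_dvd_errLT_add_sub [hp : Fact p.Prime] {j : ℕ} (hj : 1 ≤ j) {ψ : S[X]}
    (hψ : X ∣ ψ) (b : S) :
    X ^ (j + 1) ∣ errLT p φ u (ψ + C b * X ^ j) - errLT p φ u ψ -
      C ((p : S) ^ j * φ b - (p : S) * (u : S) * b) * X ^ j := by
  rw [errLT_sub]
  have h1 : ((C b * X ^ j).map φ).comp (fLT S p) = C (φ b) * fLT S p ^ j := by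
    simp
  rw [h1]
  have h2 : X ^ (j + 1) ∣ (ψ + C b * X ^ j) ^ p - ψ ^ p := by
    have hp1 : 1 ≤ p := hp.out.one_le
    have hsum := Commute.mul_geom_sum₂ (Commute.all (ψ + C b * X ^ j) ψ) p
    have hX : X ∣ ψ + C b * X ^ j :=
      dvd_add hψ (Dvd.dvd.mul_left (dvd_pow_self X (by omega)) _)
    have hsumdvd : X ∣ ∑ i ∈ Finset.range p, (ψ + C b * X ^ j) ^ i * ψ ^ (p - 1 - i) := by
      refine Finset.dvd_sum fun i hi => ?_
      rw [Finset.mem_range] at hi
      by_cases hi0 : i = 0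
      · subst hi0
        have : p - 1 - 0 ≠ 0 := by have := hp.out.two_le; omega
        exact Dvd.dvd.mul_left (dvd_pow hψ this) _
      · exact Dvd.dvd.mul_right (dvd_pow hX hi0) _
    rw [← hsum]
    have : ψ + C b * X ^ j - ψ = C b * X ^ j := by ring
    rw [this, pow_succ]
    obtain ⟨w, hw⟩ := hsumdvd
    rw [hw]
    exact ⟨C b * w, by ring⟩
  have h3 := X_pow_dvd_fLT_pow_sub (S := S) p j
  have : C (φ b) * fLT S p ^ j - C ((p : S) * (u : S)) * (C b * X ^ j) -
      ((ψ + C b * X ^ j) ^ p - ψ ^ p) -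
      C ((p : S) ^ j * φ b - (p : S) * (u : S) * b) * X ^ j =
      C (φ b) * (fLT S p ^ j - C ((p : S) ^ j) * X ^ j) -
        ((ψ + C b * X ^ j) ^ p - ψ ^ p) := by
    simp only [map_sub, map_mul, map_pow]
    ring
  rw [this]
  exact dvd_sub (h3.mul_left _) h2

/-- (E3a) `ψ^φ ∘ [p] ≡ ψ^p` modulo `p`. -/
theorem C_dvd_map_comp_fLT_sub_pow [hp : Fact p.Prime] (hφ : ∀ a : S, (p : S) ∣ φ a - a ^ p)
    (ψ : S[X]) : C (p : S) ∣ (ψ.map φ).comp (fLT S p) - ψ ^ p := by
  induction ψ using Polynomial.induction_on with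
  | C a =>
    obtain ⟨w, hw⟩ := hφ a
    refine ⟨C w, ?_⟩
    rw [map_C, C_comp, ← C_pow, ← C_sub, hw, C_mul]
  | add ψ₁ ψ₂ h₁ h₂ =>
    obtain ⟨r, hr⟩ := exists_add_pow_prime_eq hp.out ψ₁ ψ₂
    obtain ⟨w₁, hw₁⟩ := h₁
    obtain ⟨w₂, hw₂⟩ := h₂
    refine ⟨w₁ + w₂ - ψ₁ * ψ₂ * r, ?_⟩
    rw [Polynomial.map_add, add_comp, hr]
    have : ((p : ℕ) : S[X]) = C (p : S) := by simp
    rw [this]
    linear_combination hw₁ + hw₂
  | monomial n a h =>
    obtain ⟨w, hw⟩ := h
    obtain ⟨r, hr⟩ := exists_add_pow_prime_eq hp.out (1 : S[X]) X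
    have hf : fLT S p - X ^ p = C (p : S) * (X * r) := by
      have : ((p : ℕ) : S[X]) = C (p : S) := by simp
      rw [fLT, hr, this]; ring
    refine ⟨w * fLT S p + (C a * X ^ n) ^ p * (X * r), ?_⟩
    have e1 : ((C a * X ^ (n + 1)).map φ).comp (fLT S p) =
        ((C a * X ^ n).map φ).comp (fLT S p) * fLT S p := by
      simp [pow_succ, mul_assoc]
    rw [e1]
    linear_combination (fLT S p) * hw + (C a * X ^ n) ^ p * hf

/-- (E3) the error term is divisible by `p`. -/
theorem C_dvd_errLT [hp : Fact p.Prime] (hφ : ∀ a : S, (p : S) ∣ φ a - a ^ p) (ψ : S[X]) :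
    C (p : S) ∣ errLT p φ u ψ := by
  obtain ⟨w, hw⟩ := C_dvd_map_comp_fLT_sub_pow p φ hφ ψ
  refine ⟨w - C (u : S) * ψ, ?_⟩
  rw [errLT, gLT_comp, C_mul]
  linear_combination hw

theorem errLT_map (θ : S[X]) : errLT p φ u (θ.map φ) = (errLT p φ u θ).map φ := by
  rw [errLT, errLT, Polynomial.map_sub, Polynomial.map_comp, Polynomial.map_comp, fLT_map,
    gLT_map]

theorem errLT_comp_mulLT (θ : S[X]) (a : ℕ) :
    errLT p φ u (θ.comp (mulLT S a)) = (errLT p φ u θ).comp (mulLT S a) := by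
  rw [errLT, errLT, sub_comp, Polynomial.map_comp, mulLT_map, comp_assoc, comp_assoc, comp_assoc]
  congr 2
  exact mulLT_comp_comm a p

/-- `θ` solves the Lubin–Tate functional equation `θ^φ ∘ [p] = g ∘ θ` modulo `X^(r+1)`, with
linear coefficient `ε`. -/
structure IsLTSol (ε : S) (r : ℕ) (θ : S[X]) : Prop where
  lin : X ^ 2 ∣ θ - C ε * X
  err : X ^ (r + 1) ∣ errLT p φ u θ

variable {p φ u}

theorem IsLTSol.X_dvd {ε : S} {r : ℕ} {θ : S[X]} (h : IsLTSol p φ u ε r θ) : X ∣ θ := by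
  obtain ⟨w, hw⟩ := h.lin
  refine ⟨C ε + X * w, ?_⟩
  linear_combination hw

theorem IsLTSol.mono {ε : S} {r r' : ℕ} {θ : S[X]} (h : IsLTSol p φ u ε r θ) (hr : r' ≤ r) :
    IsLTSol p φ u ε r' θ :=
  ⟨h.lin, (pow_dvd_pow X (by omega)).trans h.err⟩

theorem errLT_zero [hp : Fact p.Prime] : errLT p φ u (0 : S[X]) = 0 := by
  simp [errLT, gLT, hp.out.ne_zero]

/-- Base case: `ε X` is a solution modulo `X^2` if `φ ε = u ε`. -/
theorem isLTSol_one [hp : Fact p.Prime] {ε : S} (hε : φ ε = (u : S) * ε) :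
    IsLTSol p φ u ε 1 (C ε * X) := by
  refine ⟨by simp, ?_⟩
  have := X_pow_dvd_errLT_add_sub p φ u (le_refl 1) (dvd_zero X) ε
  have e : (p : S) ^ 1 * ((u : S) * ε) - (p : S) * (u : S) * ε = 0 := by ring
  rw [errLT_zero, hε, e] at this
  simpa using this

/-- Inductive step of the existence proof. -/
theorem IsLTSol.exists_succ [hp : Fact p.Prime] (hprec : PPrec S p) (hhaus : PHaus S p)
    (hφ : ∀ a : S, (p : S) ∣ φ a - a ^ p) {v : S} (huv : (u : S) * v = 1)
    {ε : S} {r : ℕ} (hr : 1 ≤ r) {θ : S[X]} (h : IsLTSol p φ u ε r θ) :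
    ∃ b : S, IsLTSol p φ u ε (r + 1) (θ + C b * X ^ (r + 1)) := by
  obtain ⟨w, hw⟩ := C_dvd_errLT p φ u hφ θ
  obtain ⟨b, hb⟩ := exists_fixed_point hprec hhaus φ v (w.coeff (r + 1)) hr
  refine ⟨b, ?_, ?_⟩
  · have : θ + C b * X ^ (r + 1) - C ε * X = (θ - C ε * X) + C b * X ^ (r + 1) := by ring
    rw [this]
    exact dvd_add h.lin (Dvd.dvd.mul_left (pow_dvd_pow X (by omega)) _)
  · have h2 := X_pow_dvd_errLT_add_sub p φ u (j := r + 1) (by omega) h.X_dvd b
    rw [X_pow_dvd_iff] at h2 ⊢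
    intro d hd
    have h3 := h2 d hd
    rw [coeff_sub, coeff_sub, coeff_C_mul, coeff_X_pow] at h3
    have hub : (u : S) * b = w.coeff (r + 1) + (p : S) ^ r * φ b := by
      calc (u : S) * b = (u : S) * (v * (w.coeff (r + 1) + (p : S) ^ r * φ b)) := by rw [← hb]
        _ = ((u : S) * v) * (w.coeff (r + 1) + (p : S) ^ r * φ b) := by ring
        _ = _ := by rw [huv, one_mul]
    by_cases hdr : d = r + 1
    · subst hdr
      simp only [if_true, mul_one] at h3
      have h4 : (errLT p φ u θ).coeff (r + 1) = (p : S) * w.coeff (r + 1) := by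
        rw [hw, coeff_C_mul]
      rw [h4] at h3
      linear_combination h3 - (p : S) * hub
    · have hd' : d < r + 1 := by omega
      have h4 : (errLT p φ u θ).coeff d = 0 := (X_pow_dvd_iff.mp h.err) d hd'
      simp only [if_neg hdr, mul_zero, h4, sub_zero] at h3
      exact h3

/-- **Existence** of approximate solutions of the Lubin–Tate functional equation. -/
theorem exists_isLTSol [hp : Fact p.Prime] (hprec : PPrec S p) (hhaus : PHaus S p)
    (hφ : ∀ a : S, (p : S) ∣ φ a - a ^ p) {v : S} (huv : (u : S) * v = 1)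
    {ε : S} (hε : φ ε = (u : S) * ε) (r : ℕ) (hr : 1 ≤ r) :
    ∃ θ : S[X], IsLTSol p φ u ε r θ := by
  induction r, hr using Nat.le_induction with
  | base => exact ⟨_, isLTSol_one hε⟩
  | succ r hr ih =>
    obtain ⟨θ, hθ⟩ := ih
    obtain ⟨b, hb⟩ := hθ.exists_succ hprec hhaus hφ huv hr
    exact ⟨_, hb⟩

/-- **Uniqueness** of approximate solutions. -/
theorem IsLTSol.X_pow_dvd_sub [hp : Fact p.Prime] (hhaus : PHaus S p)
    (htf : ∀ x : S, (p : S) * x = 0 → x = 0)
    {v : S} (huv : (u : S) * v = 1) {ε : S} {r : ℕ} {θ θ' : S[X]}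
    (h : IsLTSol p φ u ε r θ) (h' : IsLTSol p φ u ε r θ') : X ^ (r + 1) ∣ θ' - θ := by
  have key : ∀ j, 2 ≤ j → j ≤ r + 1 → X ^ j ∣ θ' - θ := by
    intro j hj2
    induction j, hj2 using Nat.le_induction with
    | base =>
      intro _
      have : θ' - θ = (θ' - C ε * X) - (θ - C ε * X) := by ring
      rw [this]
      exact dvd_sub h'.lin h.lin
    | succ j hj2 ih =>
      intro hjr
      have ihj := ih (by omega)
      set d := (θ' - θ).coeff j with hd
      -- θ' ≡ θ + d X^j mod X^(j+1)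
      have e1 : X ^ (j + 1) ∣ θ' - (θ + C d * X ^ j) := by
        rw [X_pow_dvd_iff] at ihj ⊢
        intro i hi
        have : θ' - (θ + C d * X ^ j) = (θ' - θ) - C d * X ^ j := by ring
        rw [this, coeff_sub, coeff_C_mul, coeff_X_pow]
        by_cases hij : i = j
        · subst hij; simp [hd]
        · rw [if_neg hij, mul_zero, sub_zero]
          exact ihj i (by omega)
      have e2 := X_pow_dvd_errLT_sub p φ u e1
      have e3 := X_pow_dvd_errLT_add_sub p φ u (j := j) (by omega) h.X_dvd d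
      have e4 : X ^ (j + 1) ∣ errLT p φ u θ' := (pow_dvd_pow X (by omega)).trans h'.err
      have e5 : X ^ (j + 1) ∣ errLT p φ u θ := (pow_dvd_pow X (by omega)).trans h.err
      have e6 : X ^ (j + 1) ∣ C ((p : S) ^ j * φ d - (p : S) * (u : S) * d) * X ^ j := by
        have : C ((p : S) ^ j * φ d - (p : S) * (u : S) * d) * X ^ j =
            errLT p φ u θ' - errLT p φ u θ
            - (errLT p φ u θ' - errLT p φ u (θ + C d * X ^ j))
            - (errLT p φ u (θ + C d * X ^ j) - errLT p φ u θ -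
                C ((p : S) ^ j * φ d - (p : S) * (u : S) * d) * X ^ j) := by ring
        rw [this]
        exact dvd_sub (dvd_sub (dvd_sub e4 e5) e2) e3
      have e7 : (p : S) ^ j * φ d - (p : S) * (u : S) * d = 0 := by
        have := (X_pow_dvd_iff.mp e6) j (by omega)
        rwa [coeff_C_mul, coeff_X_pow, if_pos rfl, mul_one] at this
      have e8 : (u : S) * d = (p : S) ^ (j - 1) * φ d := by
        have : (p : S) * ((p : S) ^ (j - 1) * φ d - (u : S) * d) = 0 := by
          have hpj : (p : S) ^ j = (p : S) * (p : S) ^ (j - 1) := by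
            rw [← pow_succ', Nat.sub_add_cancel (by omega)]
          rw [hpj] at e7
          linear_combination e7
        have := htf _ this
        linear_combination -this
      have e9 : d = v * ((p : S) ^ (j - 1) * φ d) := by
        calc d = ((u : S) * v) * d := by rw [huv, one_mul]
          _ = v * ((u : S) * d) := by ring
          _ = _ := by rw [e8]
      have hd0 : d = 0 := eq_zero_of_eq_mul hhaus φ v d (j := j - 1) (by omega) e9
      rw [hd0] at e1
      simpa using e1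
  by_cases hr : 1 ≤ r
  · exact key (r + 1) (by omega) le_rfl
  · have hr0 : r = 0 := by omega
    subst hr0
    simpa using dvd_sub h'.X_dvd h.X_dvd

/-- Solutions are stable under applying `φ` to the coefficients. -/
theorem IsLTSol.map {ε : S} {r : ℕ} {θ : S[X]} (h : IsLTSol p φ u ε r θ) :
    IsLTSol p φ u (φ ε) r (θ.map φ) := by
  constructor
  · have := Polynomial.map_dvd φ h.lin
    simpa using this
  · rw [errLT_map]
    have := Polynomial.map_dvd φ h.err
    simpa using this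

/-- Solutions are stable under composition with `[a]`. -/
theorem IsLTSol.comp_mulLT {ε : S} {r : ℕ} {θ : S[X]} (h : IsLTSol p φ u ε r θ) (a : ℕ) :
    IsLTSol p φ u ((a : S) * ε) r (θ.comp (mulLT S a)) := by
  constructor
  · obtain ⟨w, hw⟩ := h.lin
    obtain ⟨q, hq⟩ := mulLT_eq (S := S) a
    have e : θ = C ε * X + X ^ 2 * w := by linear_combination hw
    refine ⟨C ε * q + (C (a : S) + X * q) ^ 2 * w.comp (mulLT S a), ?_⟩
    rw [e]
    simp only [add_comp, mul_comp, C_comp, X_comp, pow_comp]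
    rw [hq, C_mul]
    ring
  · rw [errLT_comp_mulLT]
    exact X_pow_dvd_comp h.err (X_dvd_mulLT a)

/-- **Galois equivariance** of the approximate solutions: `θ^φ ≡ θ ∘ [u]`. -/
theorem IsLTSol.X_pow_dvd_map_sub_comp [hp : Fact p.Prime] (hhaus : PHaus S p)
    (htf : ∀ x : S, (p : S) * x = 0 → x = 0) {v : S} (huv : (u : S) * v = 1) {ε : S}
    (hε : φ ε = (u : S) * ε) {r : ℕ} {θ : S[X]} (h : IsLTSol p φ u ε r θ) :
    X ^ (r + 1) ∣ θ.map φ - θ.comp (mulLT S u) := by
  have h1 := h.map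
  rw [hε] at h1
  exact IsLTSol.X_pow_dvd_sub hhaus htf huv (h.comp_mulLT u) h1

/-- The iterates of the Lubin–Tate polynomial. -/
noncomputable def gLTiter (S : Type*) [CommRing S] (p u : ℕ) : ℕ → S[X]
  | 0 => X
  | (n + 1) => (gLT S p u).comp (gLTiter S p u n)

theorem gLTiter_zero : gLTiter S p u 0 = X := rfl

theorem gLTiter_succ (n : ℕ) :
    gLTiter S p u (n + 1) = (gLT S p u).comp (gLTiter S p u n) := rfl

theorem gLTiter_succ_eq_mul (hp : 1 ≤ p) (n : ℕ) :
    gLTiter S p u (n + 1) =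
      gLTiter S p u n * (C ((p : S) * (u : S)) + gLTiter S p u n ^ (p - 1)) := by
  rw [gLTiter_succ, gLT_comp]
  have : gLTiter S p u n ^ p = gLTiter S p u n * gLTiter S p u n ^ (p - 1) := by
    rw [← pow_succ', Nat.sub_add_cancel hp]
  rw [this]
  ring

theorem IsLTSol.map_iterate {ε : S} {r : ℕ} {θ : S[X]} (h : IsLTSol p φ u ε r θ) (n : ℕ) :
    IsLTSol p φ u (φ^[n] ε) r ((fun ψ : S[X] => ψ.map φ)^[n] θ) := by
  induction n with
  | zero => simpa using h
  | succ n ih =>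
    rw [Function.iterate_succ_apply', Function.iterate_succ_apply']
    exact ih.map

/-- The iterated functional equation `θ^{φ^n} ∘ [p^n] ≡ g^{(n)} ∘ θ`. -/
theorem IsLTSol.X_pow_dvd_iterate {ε : S} {r : ℕ} {θ : S[X]} (h : IsLTSol p φ u ε r θ) (n : ℕ) :
    X ^ (r + 1) ∣ ((fun ψ : S[X] => ψ.map φ)^[n] θ).comp (mulLT S (p ^ n)) -
      (gLTiter S p u n).comp θ := by
  induction n with
  | zero => simp [gLTiter, mulLT]
  | succ n ih =>
    set θn := (fun ψ : S[X] => ψ.map φ)^[n] θ with hθn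
    have hn := h.map_iterate n
    rw [← hθn] at hn
    rw [Function.iterate_succ_apply', ← hθn]
    have e1 : mulLT S (p ^ (n + 1)) = (fLT S p).comp (mulLT S (p ^ n)) := by
      rw [fLT, ← mulLT, mulLT_comp, pow_succ]
    have e2 : (θn.map φ).comp (mulLT S (p ^ (n + 1))) =
        (gLT S p u).comp (θn.comp (mulLT S (p ^ n))) +
          (errLT p φ u θn).comp (mulLT S (p ^ n)) := by
      rw [e1, ← comp_assoc, errLT, sub_comp, comp_assoc (gLT S p u)]
      ring
    have e3 : (gLTiter S p u (n + 1)).comp θ = (gLT S p u).comp ((gLTiter S p u n).comp θ) := by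
      rw [gLTiter, comp_assoc]
    rw [e2, e3]
    have e4 : X ^ (r + 1) ∣ (errLT p φ u θn).comp (mulLT S (p ^ n)) :=
      X_pow_dvd_comp hn.err (X_dvd_mulLT _)
    have e5 := ih.trans (sub_dvd_comp_sub (gLT S p u) (θn.comp (mulLT S (p ^ n)))
      ((gLTiter S p u n).comp θ))
    have : (gLT S p u).comp (θn.comp (mulLT S (p ^ n))) +
          (errLT p φ u θn).comp (mulLT S (p ^ n)) -
        (gLT S p u).comp ((gLTiter S p u n).comp θ) =
        ((gLT S p u).comp (θn.comp (mulLT S (p ^ n))) -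
          (gLT S p u).comp ((gLTiter S p u n).comp θ)) +
          (errLT p φ u θn).comp (mulLT S (p ^ n)) := by ring
    rw [this]
    exact dvd_add e5 e4

/-- Existential form of the iterated functional equation. -/
theorem IsLTSol.exists_X_pow_dvd_iterate {ε : S} {r : ℕ} {θ : S[X]} (h : IsLTSol p φ u ε r θ)
    (n : ℕ) : ∃ ψ : S[X], X ∣ ψ ∧
      X ^ (r + 1) ∣ ψ.comp (mulLT S (p ^ n)) - (gLTiter S p u n).comp θ :=
  ⟨_, (h.map_iterate n).X_dvd, h.X_pow_dvd_iterate n⟩

end Poly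

end Fermat.Agent.CFT.LT
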