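import Mathlib
import Fermat.Agent.CFT.Local.LT_helper1_Lemma

/-!
# CFT (C3) Lubin–Tate, part 2: the limit element

In an `l`-adically complete ring `R` over `S` with a `φ`-semilinear endomorphism `Φ` such that
`Φ(1 + l) = (1 + l)^u'`, `(1 + l)^(p^n) = 1`, `u u' ≡ 1 mod p^n`, the approximate solutions `θ_r`
of the Lubin–Tate functional equation converge at `l`: `l' = lim θ_r(l)` satisfies `Φ l' = l'`,
`g^{(n)}(l') = 0`, `l' ≡ ε l mod l²`, and `g^{(m)}(l') ≠ 0` as long as `(1 + l)^(p^m) ≠ 1`.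
-/

set_option autoImplicit false

namespace Fermat.Agent.CFT.LT

open Polynomial

section Adic

variable {R : Type*} [CommRing R]

/-- `a`-adic separatedness, elementwise. -/
def DHaus (R : Type*) [CommRing R] (a : R) : Prop :=
  ∀ x : R, (∀ k : ℕ, a ^ k ∣ x) → x = 0

/-- `a`-adic (pre)completeness, elementwise. -/
def DPrec (R : Type*) [CommRing R] (a : R) : Prop :=
  ∀ s : ℕ → R, (∀ k : ℕ, a ^ k ∣ s (k + 1) - s k) → ∃ L : R, ∀ k : ℕ, a ^ k ∣ L - s k

theorem dvd_sub_of_le' {a : R} {s : ℕ → R} {c : ℕ} (hs : ∀ k : ℕ, a ^ (k + c) ∣ s (k + 1) - s k)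
    {m n : ℕ} (hmn : m ≤ n) : a ^ (m + c) ∣ s n - s m := by
  induction n, hmn using Nat.le_induction with
  | base => simp
  | succ n hmn ih =>
    have h1 : a ^ (m + c) ∣ s (n + 1) - s n := (pow_dvd_pow _ (by omega)).trans (hs n)
    have : s (n + 1) - s m = (s (n + 1) - s n) + (s n - s m) := by ring
    rw [this]
    exact dvd_add h1 ih

/-- limits of sequences converging faster -/
theorem DPrec.exists_limit {a : R} (h : DPrec R a) {s : ℕ → R} {c : ℕ}
    (hs : ∀ k : ℕ, a ^ (k + c) ∣ s (k + 1) - s k) :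
    ∃ L : R, ∀ k : ℕ, a ^ (k + c) ∣ L - s k := by
  obtain ⟨L, hL⟩ := h s fun k => (pow_dvd_pow _ (by omega)).trans (hs k)
  refine ⟨L, fun k => ?_⟩
  have h1 : a ^ (k + c) ∣ L - s (k + c) := hL (k + c)
  have h2 : a ^ (k + c) ∣ s (k + c) - s k := dvd_sub_of_le' hs (by omega)
  have : L - s k = (L - s (k + c)) + (s (k + c) - s k) := by ring
  rw [this]
  exact dvd_add h1 h2

/-- `1 + a y` is a unit in an `a`-adically complete ring. -/
theorem isUnit_one_add_mul (a : R) (hprec : DPrec R a) (hhaus : DHaus R a) (y : R) :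
    IsUnit (1 + a * y) := by
  let s : ℕ → R := fun k => ∑ i ∈ Finset.range k, (-(a * y)) ^ i
  have hs : ∀ k, a ^ k ∣ s (k + 1) - s k := by
    intro k
    have : s (k + 1) - s k = (-(a * y)) ^ k := by
      simp only [s, Finset.sum_range_succ]; ring
    rw [this, neg_pow, mul_pow]
    exact ⟨(-1) ^ k * y ^ k, by ring⟩
  obtain ⟨L, hL⟩ := hprec s hs
  have hgeom : ∀ k, (1 + a * y) * s k = 1 - (-(a * y)) ^ k := by
    intro k
    have := mul_neg_geom_sum (-(a * y)) k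
    simp only [s]
    linear_combination this
  have : (1 + a * y) * L - 1 = 0 := by
    apply hhaus
    intro k
    have h1 : (1 + a * y) * L - 1 = (1 + a * y) * (L - s k) - (-(a * y)) ^ k := by
      rw [mul_sub, hgeom]; ring
    rw [h1]
    refine dvd_sub (Dvd.dvd.mul_left (hL k) _) ?_
    rw [neg_pow, mul_pow]
    exact ⟨(-1) ^ k * y ^ k, by ring⟩
  exact IsUnit.of_mul_eq_one L (sub_eq_zero.mp this)

end Adic

section Limit

variable {S : Type*} [CommRing S] {p : ℕ} [hp : Fact p.Prime] {φ : S →+* S} {u : ℕ}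
  {R : Type*} [CommRing R] [Algebra S R]

theorem pow_dvd_aeval_of_X_pow_dvd {k : ℕ} {P : S[X]} (h : X ^ k ∣ P) (y : R) :
    y ^ k ∣ aeval y P := by
  obtain ⟨Q, rfl⟩ := h
  rw [map_mul, map_pow, aeval_X]
  exact dvd_mul_right _ _

theorem pow_dvd_aeval_of_X_pow_dvd' {k : ℕ} {P : S[X]} (h : X ^ k ∣ P) {a y : R} (hy : a ∣ y) :
    a ^ k ∣ aeval y P :=
  (pow_dvd_pow_of_dvd hy k).trans (pow_dvd_aeval_of_X_pow_dvd h y)

theorem map_aeval_semilinear (Φ : R →+* R)
    (hΦS : ∀ s, Φ (algebraMap S R s) = algebraMap S R (φ s)) (y : R) (P : S[X]) :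
    Φ (aeval y P) = aeval (Φ y) (P.map φ) := by
  rw [aeval_def, aeval_def, hom_eval₂, eval₂_map]
  congr 1
  ext s
  exact hΦS s

theorem sub_dvd_aeval_sub (P : S[X]) (a b : R) : a - b ∣ aeval a P - aeval b P := by
  rw [aeval_def, aeval_def, ← eval_map, ← eval_map]
  exact sub_dvd_eval_sub a b _

theorem aeval_mulLT (y : R) (a : ℕ) : aeval y (mulLT S a) = (1 + y) ^ a - 1 := by
  simp [mulLT]

theorem dvd_aeval_mulLT (y : R) (a : ℕ) : y ∣ aeval y (mulLT S a) := by
  have := pow_dvd_aeval_of_X_pow_dvd (k := 1) (by simpa using X_dvd_mulLT (S := S) a) y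
  simpa using this

/-- **The limit element** `λ' = lim θ_r(λ)`. -/
theorem exists_limit_element (hprec : PPrec S p) (hhaus : PHaus S p)
    (htf : ∀ x : S, (p : S) * x = 0 → x = 0) (hφ : ∀ a : S, (p : S) ∣ φ a - a ^ p) {v : S}
    (huv : (u : S) * v = 1) {ε : S} (hε : φ ε = (u : S) * ε) (l : R) (hRprec : DPrec R l)
    (hRhaus : DHaus R l) (Φ : R →+* R) (hΦS : ∀ s, Φ (algebraMap S R s) = algebraMap S R (φ s))
    (u' n : ℕ) (hΦl : Φ l = aeval l (mulLT S u')) (hroot : (1 + l) ^ (p ^ n) = 1)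
    (huu' : u * u' ≡ 1 [MOD p ^ n]) :
    ∃ l' : R, (∀ r : ℕ, 1 ≤ r → ∀ θ : S[X], IsLTSol p φ u ε r θ → l ^ (r + 1) ∣ l' - aeval l θ) ∧
      Φ l' = l' ∧ aeval l' (gLTiter S p u n) = 0 := by
  -- choice of approximants
  have hex : ∀ r : ℕ, ∃ θ : S[X], IsLTSol p φ u ε (r + 1) θ := fun r =>
    exists_isLTSol hprec hhaus hφ huv hε (r + 1) (by omega)
  choose θ hθ using hex
  have hstep : ∀ k : ℕ, l ^ (k + 2) ∣ aeval l (θ (k + 1)) - aeval l (θ k) := by
    intro k
    have h1 := IsLTSol.X_pow_dvd_sub hhaus htf huv (hθ k) ((hθ (k + 1)).mono (by omega))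
    have h2 := pow_dvd_aeval_of_X_pow_dvd h1 l
    rwa [map_sub] at h2
  obtain ⟨L, hL⟩ := hRprec.exists_limit (s := fun k => aeval l (θ k)) (c := 2) hstep
  -- comparison with arbitrary solutions
  have hcomp : ∀ r : ℕ, 1 ≤ r → ∀ θ' : S[X], IsLTSol p φ u ε r θ' →
      l ^ (r + 1) ∣ L - aeval l θ' := by
    intro r hr θ' hθ'
    obtain ⟨k, rfl⟩ : ∃ k, r = k + 1 := ⟨r - 1, by omega⟩
    have h1 := IsLTSol.X_pow_dvd_sub hhaus htf huv hθ' (hθ k)
    have h2 := pow_dvd_aeval_of_X_pow_dvd h1 l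
    rw [map_sub] at h2
    have h3 := hL k
    have : L - aeval l θ' = (L - aeval l (θ k)) + (aeval l (θ k) - aeval l θ') := by ring
    rw [this]
    exact dvd_add h3 h2
  have hlΦ : l ∣ Φ l := by
    rw [hΦl]
    exact dvd_aeval_mulLT l u'
  have hpow : (1 + l) ^ (u' * u) = 1 + l := by
    have h1 : u * u' % p ^ n = 1 % p ^ n := huu'
    have h2 := Nat.div_add_mod (u * u') (p ^ n)
    rw [mul_comm u' u, ← h2, pow_add, pow_mul, hroot, one_pow, one_mul, h1]
    rcases Nat.lt_or_ge 1 (p ^ n) with h | h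
    · rw [Nat.mod_eq_of_lt h, pow_one]
    · have hpn : p ^ n = 1 := le_antisymm h (Nat.one_le_pow _ _ hp.out.pos)
      rw [hpn] at hroot ⊢
      rw [pow_one] at hroot
      rw [Nat.mod_one, pow_zero, hroot]
  refine ⟨L, hcomp, ?_, ?_⟩
  · -- Φ L = L
    have : Φ L - L = 0 := by
      apply hRhaus
      intro k
      have hk := hcomp (k + 1) (by omega) (θ k) (hθ k)
      have hk' : l ^ (k + 2) ∣ L - aeval l (θ k) := hk
      have h1 : l ^ (k + 2) ∣ Φ L - Φ (aeval l (θ k)) := by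
        obtain ⟨c, hc⟩ := hk'
        rw [← map_sub, hc, map_mul, map_pow]
        exact (pow_dvd_pow_of_dvd hlΦ _).trans (dvd_mul_right _ _)
      have h2 : l ^ (k + 2) ∣ Φ (aeval l (θ k)) - aeval l (θ k) := by
        rw [map_aeval_semilinear Φ hΦS]
        have h3 := IsLTSol.X_pow_dvd_map_sub_comp hhaus htf huv hε (hθ k)
        have h4 := pow_dvd_aeval_of_X_pow_dvd' h3 hlΦ
        have h5 : (1 + ((1 + l) ^ u' - 1)) ^ u - 1 = l := by
          rw [add_sub_cancel, ← pow_mul, hpow, add_sub_cancel_left]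
        rw [map_sub, aeval_comp, aeval_mulLT, hΦl, aeval_mulLT, h5] at h4
        rw [hΦl, aeval_mulLT]
        exact h4
      have : Φ L - L = (Φ L - Φ (aeval l (θ k))) + (Φ (aeval l (θ k)) - aeval l (θ k)) -
          (L - aeval l (θ k)) := by ring
      rw [this]
      exact (pow_dvd_pow l (by omega)).trans (dvd_sub (dvd_add h1 h2) hk')
    exact sub_eq_zero.mp this
  · -- g^{(n)}(L) = 0
    apply hRhaus
    intro k
    have hk : l ^ (k + 2) ∣ L - aeval l (θ k) := hcomp (k + 1) (by omega) (θ k) (hθ k)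
    have h1 : l ^ (k + 2) ∣ aeval L (gLTiter S p u n) - aeval (aeval l (θ k)) (gLTiter S p u n) :=
      hk.trans (sub_dvd_aeval_sub _ _ _)
    obtain ⟨ψ, hψ0, hψ⟩ := (hθ k).exists_X_pow_dvd_iterate n
    have h2 := pow_dvd_aeval_of_X_pow_dvd hψ l
    rw [map_sub, aeval_comp, aeval_comp, aeval_mulLT, hroot, sub_self] at h2
    have h3 : aeval (0 : R) ψ = 0 := by
      obtain ⟨q, rfl⟩ := hψ0
      simp
    rw [h3, zero_sub, dvd_neg] at h2
    have : aeval L (gLTiter S p u n) = (aeval L (gLTiter S p u n) -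
        aeval (aeval l (θ k)) (gLTiter S p u n)) + aeval (aeval l (θ k)) (gLTiter S p u n) := by
      ring
    rw [this]
    exact (pow_dvd_pow l (by omega)).trans (dvd_add h1 h2)

/-- the limit element is `ε λ` modulo `λ²` -/
theorem sq_dvd_sub_of_forall_isLTSol {ε : S} (hε : φ ε = (u : S) * ε) {l l' : R}
    (ha : ∀ r : ℕ, 1 ≤ r → ∀ θ : S[X], IsLTSol p φ u ε r θ → l ^ (r + 1) ∣ l' - aeval l θ) :
    l ^ 2 ∣ l' - algebraMap S R ε * l := by
  have := ha 1 le_rfl _ (isLTSol_one hε)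
  simpa using this

/-- `g^{(m)}(λ') ≠ 0` as long as `(1 + λ)^(p^m) ≠ 1`. -/
theorem aeval_gLTiter_ne_zero (hprec : PPrec S p) (hhaus : PHaus S p)
    (hφ : ∀ a : S, (p : S) ∣ φ a - a ^ p) {v : S}
    (huv : (u : S) * v = 1) {ε : S} (hε : φ ε = (u : S) * ε) (hεu : IsUnit ε) (l : R)
    (hRprec : DPrec R l) (hRhaus : DHaus R l) {l' : R}
    (ha : ∀ r : ℕ, 1 ≤ r → ∀ θ : S[X], IsLTSol p φ u ε r θ → l ^ (r + 1) ∣ l' - aeval l θ)
    (m : ℕ) (hm : (1 + l) ^ (p ^ m) - 1 ≠ 0) : aeval l' (gLTiter S p u m) ≠ 0 := by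
  intro h0
  apply hm
  apply hRhaus
  intro k
  obtain ⟨θ, hθ⟩ := exists_isLTSol hprec hhaus hφ huv hε (k + 1) (by omega)
  have h1 : l ^ (k + 2) ∣ aeval l' (gLTiter S p u m) - aeval (aeval l θ) (gLTiter S p u m) :=
    (ha (k + 1) (by omega) θ hθ).trans (sub_dvd_aeval_sub _ _ _)
  rw [h0, zero_sub, dvd_neg] at h1
  have hψ := hθ.X_pow_dvd_iterate m
  have hlin := (hθ.map_iterate m).lin
  set ψ := (fun ψ : S[X] => ψ.map φ)^[m] θ with hψdef
  have h2 := pow_dvd_aeval_of_X_pow_dvd hψ l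
  rw [map_sub, aeval_comp, aeval_comp, aeval_mulLT] at h2
  have h3 : l ^ (k + 2) ∣ aeval ((1 + l) ^ p ^ m - 1) ψ := by
    have := dvd_add h2 h1
    rwa [sub_add_cancel] at this
  set lm : R := (1 + l) ^ p ^ m - 1 with hlm
  have hllm : l ∣ lm := by
    have := dvd_aeval_mulLT (S := S) l (p ^ m)
    rwa [aeval_mulLT] at this
  obtain ⟨w, hw⟩ := hlin
  have h4 : aeval lm ψ = lm * (algebraMap S R (φ^[m] ε) + lm * aeval lm w) := by
    have : ψ = C (φ^[m] ε) * X + X ^ 2 * w := by linear_combination hw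
    rw [this]
    simp only [map_add, map_mul, aeval_C, aeval_X, map_pow]
    ring
  have hunit : IsUnit (algebraMap S R (φ^[m] ε) + lm * aeval lm w) := by
    have hεm : IsUnit (algebraMap S R (φ^[m] ε)) := by
      apply IsUnit.map
      have : ∀ j : ℕ, IsUnit (φ^[j] ε) := by
        intro j
        induction j with
        | zero => exact hεu
        | succ j ih =>
          rw [Function.iterate_succ_apply']
          exact ih.map φ
      exact this m
    obtain ⟨e, he⟩ := hεm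
    obtain ⟨t, ht⟩ := hllm
    have h5 : algebraMap S R (φ^[m] ε) + lm * aeval lm w =
        (e : R) * (1 + l * (((e⁻¹ : Rˣ) : R) * t * aeval lm w)) := by
      rw [← he, ht]
      have : (e : R) * ((e⁻¹ : Rˣ) : R) = 1 := by simp
      linear_combination (-(l * t * aeval (l * t) w)) * this
    rw [h5]
    exact e.isUnit.mul (isUnit_one_add_mul l hRprec hRhaus _)
  rw [h4] at h3
  have := (hunit.dvd_mul_right).mp h3
  exact (pow_dvd_pow l (by omega)).trans this

end Limit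

end Fermat.Agent.CFT.LT
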