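import Mathlib
import Fermat.Agent.CFT.Local.LT_helper1_Lemma

/-!
# CFT (C3) Lubin–Tate, part 3: Witt vector inputs

`𝕎 k` (`k` algebraically closed of characteristic `p`) satisfies the hypotheses of the Lubin–Tate
lemma: `p`-adically separated and complete, the Witt vector Frobenius is a Frobenius lift, and for
`u` prime to `p` there is a unit `ε` with `φ ε = u ε`.  Also: Eisenstein irreducibility of
`cyclotomic (p^(n+1))` over a domain in which `p` is prime.
-/

set_option autoImplicit false

namespace Fermat.Agent.CFT.LT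

section General

variable {S : Type*} [CommRing S] (p : ℕ)

theorem smodEq_span_pow_iff (x y : S) (n : ℕ) :
    x ≡ y [SMOD ((Ideal.span {(p : S)}) ^ n • ⊤ : Submodule S S)] ↔ (p : S) ^ n ∣ x - y := by
  rw [SModEq.sub_mem, smul_eq_mul, Ideal.mul_top, Ideal.span_singleton_pow,
    Ideal.mem_span_singleton]

theorem pHaus_of_isHausdorff [IsHausdorff (Ideal.span {(p : S)}) S] : PHaus S p := by
  intro x hx
  apply IsHausdorff.haus (I := Ideal.span {(p : S)}) inferInstance
  intro n
  rw [smodEq_span_pow_iff]
  simpa using hx n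

theorem pPrec_of_isPrecomplete [IsPrecomplete (Ideal.span {(p : S)}) S] : PPrec S p := by
  intro s hs
  obtain ⟨L, hL⟩ := IsPrecomplete.prec (I := Ideal.span {(p : S)}) inferInstance (f := s) (by
    intro m n hmn
    rw [smodEq_span_pow_iff]
    have := dvd_sub_of_le hs hmn
    rw [← neg_sub]
    exact (dvd_neg).mpr this)
  refine ⟨L, fun k => ?_⟩
  have := hL k
  rw [smodEq_span_pow_iff] at this
  rw [← neg_sub]
  exact (dvd_neg).mpr this

end General

section Witt

open WittVector

variable (p : ℕ) [hp : Fact p.Prime] (k : Type*) [Field k] [CharP k p] [IsAlgClosed k]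

local notation "𝕎" => WittVector p

theorem pHaus_witt : PHaus (𝕎 k) p := pHaus_of_isHausdorff p

theorem pPrec_witt : PPrec (𝕎 k) p := pPrec_of_isPrecomplete p

/-- The Witt vector Frobenius is a Frobenius lift. -/
theorem natCast_dvd_frobenius_sub_pow (a : 𝕎 k) :
    (p : 𝕎 k) ∣ WittVector.frobenius a - a ^ p := by
  rw [← Ideal.mem_span_singleton, WittVector.mem_span_p_iff_coeff_zero_eq_zero]
  have h1 : (WittVector.frobenius a - a ^ p).coeff 0 =
      WittVector.constantCoeff (WittVector.frobenius a - a ^ p) := rfl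
  rw [h1, map_sub, map_pow]
  change (WittVector.frobenius a).coeff 0 - (a.coeff 0) ^ p = 0
  rw [WittVector.coeff_frobenius_charP, sub_self]

/-- A unit `ε` of `𝕎 k` with `φ ε = u ε`, for `u` prime to `p`. -/
theorem exists_unit_frobenius_eq (u : ℕ) (hu : ¬ p ∣ u) :
    ∃ ε : (𝕎 k)ˣ, WittVector.frobenius (ε : 𝕎 k) = (u : 𝕎 k) * ε := by
  have h1 : (1 : 𝕎 k).coeff 0 ≠ 0 := by
    rw [WittVector.one_coeff_zero]
    exact one_ne_zero
  have h2 : ((u : ℕ) : 𝕎 k).coeff 0 ≠ 0 := by
    have : ((u : ℕ) : 𝕎 k).coeff 0 = WittVector.constantCoeff ((u : ℕ) : 𝕎 k) := rfl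
    rw [this, map_natCast]
    intro h
    exact hu ((CharP.cast_eq_zero_iff k p u).mp h)
  have h3 := WittVector.frobenius_frobeniusRotation p h1 h2
  have h4 : (WittVector.frobeniusRotation p h1 h2).coeff 0 ≠ 0 := by
    simp only [WittVector.frobeniusRotation, WittVector.coeff_mk,
      WittVector.frobeniusRotationCoeff]
    exact WittVector.RecursionBase.solution_nonzero p h1 h2
  obtain ⟨ε, hε⟩ := (WittVector.isUnit_of_coeff_zero_ne_zero _ h4)
  refine ⟨ε, ?_⟩
  rw [hε, mul_comm]
  rw [mul_one] at h3
  exact h3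

end Witt

open Polynomial

section Eisenstein

variable {A : Type*} [CommRing A] [IsDomain A] (p : ℕ) [hp : Fact p.Prime]

/-- A monic polynomial over a domain whose lower coefficients are divisible by a prime element
`π` and whose constant coefficient is `π` times a unit mod `π` is irreducible. -/
theorem irreducible_of_monic_of_dvd_of_not_sq_dvd {π : A} (hπ : Prime π) {f : A[X]}
    (hf : f.Monic) (hdeg : 0 < f.natDegree) (hlow : ∀ i < f.natDegree, π ∣ f.coeff i)
    (h0 : ¬ π ^ 2 ∣ f.coeff 0) : Irreducible f := by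
  have hprime : (Ideal.span {π}).IsPrime :=
    (Ideal.span_singleton_prime hπ.ne_zero).mpr hπ
  have hE : f.IsEisensteinAt (Ideal.span {π}) := by
    refine hf.isEisensteinAt_of_mem_of_notMem hprime.ne_top (fun {i} hi => ?_) ?_
    · rw [Ideal.mem_span_singleton]
      exact hlow i hi
    · rw [Ideal.span_singleton_pow, Ideal.mem_span_singleton]
      exact h0
  exact hE.irreducible hprime hf.isPrimitive hdeg

theorem irreducible_cyclotomic_prime_pow (hpA : Prime (p : A)) (n : ℕ) :
    Irreducible (cyclotomic (p ^ (n + 1)) A) := by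
  have hE := cyclotomic_prime_pow_comp_X_add_one_isEisensteinAt p n
  set f : ℤ[X] := (cyclotomic (p ^ (n + 1)) ℤ).comp (X + 1) with hf
  have hfA : f.map (Int.castRingHom A) = (cyclotomic (p ^ (n + 1)) A).comp (X + C 1) := by
    rw [hf, map_comp, map_cyclotomic, Polynomial.map_add, map_X, Polynomial.map_one, map_one]
  have hmonic : ((cyclotomic (p ^ (n + 1)) A).comp (X + C 1)).Monic := by
    refine (cyclotomic.monic _ A).comp (monic_X_add_C 1) fun h => ?_
    rw [natDegree_X_add_C] at h
    exact zero_ne_one h.symm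
  have hfmonic : f.Monic := by
    rw [hf, show (X + 1 : ℤ[X]) = X + C 1 by simp]
    refine (cyclotomic.monic _ ℤ).comp (monic_X_add_C 1) fun h => ?_
    rw [natDegree_X_add_C] at h
    exact zero_ne_one h.symm
  have hnd : ((cyclotomic (p ^ (n + 1)) A).comp (X + C 1)).natDegree = f.natDegree := by
    rw [← hfA]
    exact (hfmonic.natDegree_map _)
  have hirr : Irreducible ((cyclotomic (p ^ (n + 1)) A).comp (X + C 1)) := by
    refine irreducible_of_monic_of_dvd_of_not_sq_dvd hpA hmonic ?_ ?_ ?_
    · rw [natDegree_comp, natDegree_X_add_C, mul_one, natDegree_cyclotomic]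
      exact Nat.totient_pos.mpr (pow_pos hp.out.pos _)
    · intro i hi
      rw [hnd] at hi
      have h1 := hE.mem hi
      rw [Ideal.submodule_span_eq, Ideal.mem_span_singleton] at h1
      obtain ⟨c, hc⟩ := h1
      rw [← hfA, coeff_map, hc, map_mul, map_natCast]
      exact dvd_mul_right _ _
    · rw [coeff_zero_eq_eval_zero, eval_comp, eval_add, eval_X, eval_C, zero_add,
        eval_one_cyclotomic_prime_pow]
      intro h
      rw [pow_two] at h
      have : (p : A) * (p : A) ∣ (p : A) * 1 := by rwa [mul_one]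
      have h2 := (mul_dvd_mul_iff_left hpA.ne_zero).mp this
      exact hpA.not_isUnit (isUnit_of_dvd_one h2)
  have h3 : (algEquivAevalXAddC (1 : A)) (cyclotomic (p ^ (n + 1)) A) =
      (cyclotomic (p ^ (n + 1)) A).comp (X + C 1) := by
    simp [algEquivAevalXAddC, comp_eq_aeval]
  rw [← h3] at hirr
  exact (MulEquiv.irreducible_iff (algEquivAevalXAddC (1 : A))).mp hirr

end Eisenstein

end Fermat.Agent.CFT.LT
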