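import Fermat.Agent.CFT.Local.FundClassCompat
import Fermat.Agent.CFT.Local.Reciprocity
import Fermat.Agent.CFT.Coh.CharFormula_helper4

/-!
# CFT local (L4): the local invariant maps and the character formula

* `localInv A K L : H²(Gal(L/K), Lˣ) ≃+ ZMod [L:K]`, `localInvQZ A K L : H² →+ ℚ/ℤ` (injective);
* `localInvQZ_brInfl` (inflation preserves `inv`), `localInvQZ_brRes` (`inv ∘ res = [F:K] inv`);
* `localInvQZ_cupδ` : `inv(a ∪ δχ) = χ(rec a)`;
* `map_galProj_localArtinHom` : `rec_{E/K}(a)|_L = rec_{L/K}(a)`.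
-/

set_option autoImplicit false
set_option linter.unusedSectionVars false
set_option linter.style.haveILetI false

open IsLocalRing Module CategoryTheory groupCohomology Rep

namespace Fermat.Agent.CFT.Local

open Fermat.Agent.CFT.Coh

section QZ

/-- `j ↦ j / n` as a map `ZMod n →+ ℚ/ℤ`. -/
noncomputable def zmodToQZ (n : ℕ) : ZMod n →+ AddCircle (1 : ℚ) :=
  ZMod.lift n ⟨zmultiplesHom _ (((1 : ℚ) / n : ℚ) : AddCircle (1 : ℚ)), by
    rcases Nat.eq_zero_or_pos n with rfl | hn
    · simp
    · have hn' : (n : ℚ) ≠ 0 := by exact_mod_cast hn.ne'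
      rw [zmultiplesHom_apply, natCast_zsmul, ← AddCircle.coe_nsmul, nsmul_eq_mul,
        mul_one_div_cancel hn']
      exact AddCircle.coe_period 1⟩

lemma zmodToQZ_intCast (n : ℕ) (j : ℤ) :
    zmodToQZ n (j : ZMod n) = (((j : ℚ) / n : ℚ) : AddCircle (1 : ℚ)) := by
  rw [zmodToQZ, ZMod.lift_coe]
  show (zmultiplesHom _ (((1 : ℚ) / n : ℚ) : AddCircle (1 : ℚ))) j = _
  rw [zmultiplesHom_apply, ← AddCircle.coe_zsmul, zsmul_eq_mul, mul_one_div]

lemma zmodToQZ_injective {n : ℕ} (hn : 0 < n) : Function.Injective (zmodToQZ n) := by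
  rw [injective_iff_map_eq_zero]
  intro x hx
  obtain ⟨j, rfl⟩ := ZMod.intCast_surjective x
  rw [zmodToQZ_intCast, AddCircle.coe_eq_zero_iff] at hx
  obtain ⟨m, hm⟩ := hx
  have hn' : (n : ℚ) ≠ 0 := by exact_mod_cast hn.ne'
  rw [ZMod.intCast_zmod_eq_zero_iff_dvd]
  refine ⟨m, ?_⟩
  have : (j : ℚ) = ((n * m : ℤ) : ℚ) := by
    push_cast
    rw [zsmul_eq_mul, mul_one] at hm
    rw [hm]
    field_simp
  exact_mod_cast this

end QZ

section Inv

variable (A K L : Type) [CommRing A] [IsDomain A] [IsDiscreteValuationRing A]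
  [IsAdicComplete (maximalIdeal A) A] [Finite (ResidueField A)]
  [Field K] [Algebra A K] [IsFractionRing A K]
  [Field L] [Algebra K L] [FiniteDimensional K L] [IsGalois K L]
  [Algebra A L] [IsScalarTower A K L]

/-- `j ↦ j • u_{L/K}`, `ZMod [L:K] →+ H²(Gal(L/K), Lˣ)`. -/
noncomputable def localInvSymm : ZMod (finrank K L) →+ H2 (Rep.ofAlgebraAutOnUnits K L) :=
  ZMod.lift (finrank K L) ⟨zmultiplesHom _ (localFundClass A K L), by
    rw [zmultiplesHom_apply]
    exact (zsmul_localFundClass_eq_zero_iff A K L _).2 (dvd_refl _)⟩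

lemma localInvSymm_intCast (j : ℤ) :
    localInvSymm A K L (j : ZMod (finrank K L)) = j • localFundClass A K L := by
  rw [localInvSymm, ZMod.lift_coe]
  rfl

lemma localInvSymm_bijective : Function.Bijective (localInvSymm A K L) := by
  constructor
  · rw [injective_iff_map_eq_zero]
    intro x hx
    obtain ⟨j, rfl⟩ := ZMod.intCast_surjective x
    rw [localInvSymm_intCast, zsmul_localFundClass_eq_zero_iff] at hx
    exact (ZMod.intCast_zmod_eq_zero_iff_dvd _ _).2 hx
  · intro x
    obtain ⟨j, rfl⟩ := exists_zsmul_localFundClass A K L x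
    exact ⟨j, localInvSymm_intCast A K L j⟩

/-- **The local invariant map** `inv_{L/K} : H²(Gal(L/K), Lˣ) ≃+ ℤ/[L:K]`, `u_{L/K} ↦ 1`. -/
noncomputable def localInv : H2 (Rep.ofAlgebraAutOnUnits K L) ≃+ ZMod (finrank K L) :=
  (AddEquiv.ofBijective (localInvSymm A K L) (localInvSymm_bijective A K L)).symm

lemma localInv_zsmul_localFundClass (j : ℤ) :
    localInv A K L (j • localFundClass A K L) = (j : ZMod (finrank K L)) := by
  rw [localInv, AddEquiv.symm_apply_eq, AddEquiv.ofBijective_apply, localInvSymm_intCast]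

lemma localInv_localFundClass : localInv A K L (localFundClass A K L) = 1 := by
  have := localInv_zsmul_localFundClass A K L 1
  rwa [one_zsmul, Int.cast_one] at this

/-- **The local invariant map with values in `ℚ/ℤ`**, `u_{L/K} ↦ 1/[L:K]`. -/
noncomputable def localInvQZ : H2 (Rep.ofAlgebraAutOnUnits K L) →+ AddCircle (1 : ℚ) :=
  (zmodToQZ (finrank K L)).comp (localInv A K L).toAddMonoidHom

lemma localInvQZ_zsmul_localFundClass (j : ℤ) :
    localInvQZ A K L (j • localFundClass A K L) =
      (((j : ℚ) / finrank K L : ℚ) : AddCircle (1 : ℚ)) := by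
  rw [localInvQZ, AddMonoidHom.comp_apply]
  show zmodToQZ _ (localInv A K L _) = _
  rw [localInv_zsmul_localFundClass, zmodToQZ_intCast]

lemma localInvQZ_injective : Function.Injective (localInvQZ A K L) := by
  have hn : 0 < finrank K L := Module.finrank_pos
  intro x y h
  exact (localInv A K L).injective (zmodToQZ_injective hn h)

end Inv

section InvInfl

variable (A K L E : Type) [CommRing A] [IsDomain A] [IsDiscreteValuationRing A]
  [IsAdicComplete (maximalIdeal A) A] [Finite (ResidueField A)]
  [Field K] [Algebra A K] [IsFractionRing A K]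
  [Field L] [Algebra K L] [FiniteDimensional K L] [IsGalois K L]
  [Algebra A L] [IsScalarTower A K L]
  [Field E] [Algebra K E] [FiniteDimensional K E] [IsGalois K E]
  [Algebra A E] [IsScalarTower A K E]
  [Algebra L E] [IsScalarTower K L E]

/-- **Inflation preserves invariants.** -/
theorem localInvQZ_brInfl (x : H2 (Rep.ofAlgebraAutOnUnits K L)) :
    localInvQZ A K E (brInfl K L E 2 x) = localInvQZ A K L x := by
  obtain ⟨j, rfl⟩ := exists_zsmul_localFundClass A K L x
  rw [map_zsmul, brInfl_localFundClass_eq_nsmul A K L E, ← natCast_zsmul, smul_smul,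
    localInvQZ_zsmul_localFundClass, localInvQZ_zsmul_localFundClass]
  congr 1
  have h := Module.finrank_mul_finrank K L E
  have h1 : (finrank K L : ℚ) ≠ 0 := by exact_mod_cast (Module.finrank_pos (R := K) (M := L)).ne'
  have h2 : (finrank L E : ℚ) ≠ 0 := by
    haveI : FiniteDimensional L E := FiniteDimensional.right K L E
    exact_mod_cast (Module.finrank_pos (R := L) (M := E)).ne'
  rw [← h]
  push_cast
  field_simp

end InvInfl

section InvRes

variable (A K F B E : Type) [CommRing A] [IsDomain A] [IsDiscreteValuationRing A]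
  [IsAdicComplete (maximalIdeal A) A] [Finite (ResidueField A)]
  [Field K] [Algebra A K] [IsFractionRing A K]
  [Field F] [Algebra K F] [FiniteDimensional K F]
  [CommRing B] [IsDomain B] [IsDiscreteValuationRing B]
  [IsAdicComplete (maximalIdeal B) B] [Finite (ResidueField B)]
  [Algebra A B] [Algebra B F] [Algebra A F] [IsScalarTower A K F] [IsScalarTower A B F]
  [IsFractionRing B F] [Module.Finite A B] [IsLocalHom (algebraMap A B)]
  [Field E] [Algebra K E] [FiniteDimensional K E] [IsGalois K E]
  [Algebra A E] [IsScalarTower A K E]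
  [Algebra F E] [IsScalarTower K F E] [FiniteDimensional F E] [IsGalois F E]
  [Algebra B E] [IsScalarTower B F E]

/-- **Restriction multiplies invariants by the degree.** -/
theorem localInvQZ_brRes (x : H2 (Rep.ofAlgebraAutOnUnits K E)) :
    localInvQZ B F E (brRes K F E 2 x) = finrank K F • localInvQZ A K E x := by
  obtain ⟨j, rfl⟩ := exists_zsmul_localFundClass A K E x
  rw [map_zsmul, brRes_localFundClass A K F B E, localInvQZ_zsmul_localFundClass,
    localInvQZ_zsmul_localFundClass, ← AddCircle.coe_nsmul]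
  congr 1
  have h := Module.finrank_mul_finrank K F E
  have h1 : (finrank K F : ℚ) ≠ 0 := by exact_mod_cast (Module.finrank_pos (R := K) (M := F)).ne'
  have h2 : (finrank F E : ℚ) ≠ 0 := by exact_mod_cast (Module.finrank_pos (R := F) (M := E)).ne'
  rw [← h, nsmul_eq_mul]
  push_cast
  field_simp

end InvRes

section CharFormula

variable (A K L : Type) [CommRing A] [IsDomain A] [IsDiscreteValuationRing A]
  [IsAdicComplete (maximalIdeal A) A] [Finite (ResidueField A)]
  [Field K] [Algebra A K] [IsFractionRing A K]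
  [Field L] [Algebra K L] [FiniteDimensional K L] [IsGalois K L]
  [Algebra A L] [IsScalarTower A K L]

/-- If `rec(a) = σ` then `[a] = nak(σ)` in `Ĥ⁰`. -/
lemma tateMk_eq_nakayamaClass {a : Kˣ} {σ : L ≃ₐ[K] L}
    (hσ : localArtinHom A K L a = Abelianization.of σ) :
    tateMk K L (Additive.ofMul a) =
      nakayamaClass (Rep.ofAlgebraAutOnUnits K L) (localFundCocycle A K L) σ := by
  have h1 := localNakayamaEquiv_localArtinHom A K L a
  rw [hσ, localNakayamaEquiv, nakayamaEquiv_of] at h1
  exact (congrArg Multiplicative.toAdd h1).symm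

/-- **`inv(a ∪ δχ) = χ(rec a)`.** -/
theorem localInvQZ_cupδ {a : Kˣ} {σ : L ≃ₐ[K] L}
    (hσ : localArtinHom A K L a = Abelianization.of σ) (χ : QZChar (L ≃ₐ[K] L)) :
    localInvQZ A K L (cupδ (Rep.ofAlgebraAutOnUnits K L) (tateMk K L (Additive.ofMul a)) χ) =
      χ (Additive.ofMul σ) := by
  rw [tateMk_eq_nakayamaClass A K L hσ, cupδ_nakayamaClass, Int.cast_id]
  have h2 : (H2π (Rep.ofAlgebraAutOnUnits K L)).hom (localFundCocycle A K L) =
      localFundClass A K L := H2π_localFundCocycle A K L
  rw [h2]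
  have h3 := localInvQZ_zsmul_localFundClass A K L (charNum χ σ)
  have h4 := coe_charNum_div χ σ
  rw [IsGalois.card_aut_eq_finrank] at h4
  rw [← h4, ← h3]
  congr 1
  exact int_smul_eq_zsmul _ _ _

end CharFormula

section Separate

variable {G : Type} [Group G]

/-- Characters `G → ℚ/ℤ` separate the points of `G^ab`. -/
lemma abelianization_eq_of_forall_QZChar {x y : Abelianization G}
    (h : ∀ c : Additive (Abelianization G) →+ AddCircle (1 : ℚ),
      c (Additive.ofMul x) = c (Additive.ofMul y)) : x = y := by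
  have h0 : Additive.ofMul x - Additive.ofMul y = 0 := by
    apply CharacterModule.eq_zero_of_character_apply
    intro c
    have := h c
    rw [map_sub]
    exact sub_eq_zero.2 this
  exact Additive.ofMul.injective (sub_eq_zero.1 h0)

/-- The character of `G` induced by a character of `G^ab`. -/
def QZChar.ofAb (c : Additive (Abelianization G) →+ AddCircle (1 : ℚ)) : QZChar G :=
  c.comp (MonoidHom.toAdditive (Abelianization.of (G := G)))

@[simp] lemma QZChar.ofAb_apply (c : Additive (Abelianization G) →+ AddCircle (1 : ℚ)) (σ : G) :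
    QZChar.ofAb c (Additive.ofMul σ) = c (Additive.ofMul (Abelianization.of σ)) := rfl

end Separate

section Quot

variable (A K L E : Type) [CommRing A] [IsDomain A] [IsDiscreteValuationRing A]
  [IsAdicComplete (maximalIdeal A) A] [Finite (ResidueField A)]
  [Field K] [Algebra A K] [IsFractionRing A K]
  [Field L] [Algebra K L] [FiniteDimensional K L] [IsGalois K L]
  [Algebra A L] [IsScalarTower A K L]
  [Field E] [Algebra K E] [FiniteDimensional K E] [IsGalois K E]
  [Algebra A E] [IsScalarTower A K E]
  [Algebra L E] [IsScalarTower K L E]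

omit [FiniteDimensional K L] [IsGalois K L] [FiniteDimensional K E] [IsGalois K E] in
lemma invPull_invOfUnits [Normal K L] (a : Kˣ) :
    invPull (galProj K L E) (unitsHom K K (IsScalarTower.toAlgHom K L E))
      (invOfUnits K L (Additive.ofMul a)) = invOfUnits K E (Additive.ofMul a) := by
  apply Subtype.ext
  rw [coe_invPull, coe_invOfUnits, coe_invOfUnits, unitsHom_hom_apply, unitsLin_ofU]
  congr 1
  apply Units.ext
  simp only [Units.coe_map, MonoidHom.coe_coe, IsScalarTower.coe_toAlgHom']
  exact (IsScalarTower.algebraMap_apply K L E (a : K)).symm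

/-- Inflation of `a ∪ δχ`. -/
lemma brInfl_cupδ (a : Kˣ) (χ : QZChar (L ≃ₐ[K] L)) :
    brInfl K L E 2 (cupδ (Rep.ofAlgebraAutOnUnits K L) (tateMk K L (Additive.ofMul a)) χ) =
      cupδ (Rep.ofAlgebraAutOnUnits K E) (tateMk K E (Additive.ofMul a))
        (χ.comp (galProj K L E)) := by
  rw [tateMk_apply, tateMk_apply, cupδ_mk, cupδ_mk, ← invPull_invOfUnits K L E a]
  exact map_cupδInv (galProj K L E) (unitsHom K K (IsScalarTower.toAlgHom K L E)) _ χ

/-- **Compatibility of the local Artin maps with quotients**: `rec_{E/K}(a)|_L = rec_{L/K}(a)`. -/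
theorem map_galProj_localArtinHom (a : Kˣ) :
    Abelianization.map (galProj K L E) (localArtinHom A K E a) = localArtinHom A K L a := by
  apply abelianization_eq_of_forall_QZChar
  intro c
  obtain ⟨σE, hσE⟩ := QuotientGroup.mk_surjective (localArtinHom A K E a)
  obtain ⟨σL, hσL⟩ := QuotientGroup.mk_surjective (localArtinHom A K L a)
  have hσE' : localArtinHom A K E a = Abelianization.of σE := hσE.symm
  have hσL' : localArtinHom A K L a = Abelianization.of σL := hσL.symm
  have h1 := localInvQZ_cupδ A K L hσL' (QZChar.ofAb c)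
  have h2 := localInvQZ_cupδ A K E hσE' ((QZChar.ofAb c).comp (galProj K L E))
  rw [← brInfl_cupδ, localInvQZ_brInfl A K L E, h1] at h2
  rw [hσE', hσL', Abelianization.map_of]
  rw [QZChar.comp_apply, QZChar.ofAb_apply, QZChar.ofAb_apply] at h2
  exact h2.symm

end Quot

end Fermat.Agent.CFT.Local
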