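import Fermat.Agent.CFT.Local.BrExact

/-!
# The norm `N_{F/K}` as a product over the cosets of `Gal(E/F)` in `Gal(E/K)`
-/

set_option autoImplicit false
set_option linter.unusedSectionVars false
set_option linter.style.haveILetI false

open Module

namespace Fermat.Agent.CFT.Local

section NormCoset

variable (K F E : Type) [Field K] [Field F] [Field E] [Algebra K F] [Algebra K E] [Algebra F E]
  [IsScalarTower K F E] [FiniteDimensional K E] [IsGalois K E]

/-- The `K`-embedding of `F` into `E` attached to a coset of `Gal(E/F)` in `Gal(E/K)`. -/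
noncomputable def cosetEmb (q : (E ≃ₐ[K] E) ⧸ (galIncl K F E).range) : F →ₐ[K] E :=
  (q.out : E →ₐ[K] E).comp (IsScalarTower.toAlgHom K F E)

lemma cosetEmb_apply (q : (E ≃ₐ[K] E) ⧸ (galIncl K F E).range) (x : F) :
    cosetEmb K F E q x = q.out (algebraMap F E x) := rfl

lemma cosetEmb_injective : Function.Injective (cosetEmb K F E) := by
  intro q q' h
  rw [← QuotientGroup.out_eq' q, ← QuotientGroup.out_eq' q', QuotientGroup.eq,
    mem_range_galIncl_iff]
  intro x
  have := congrArg (fun φ : F →ₐ[K] E => φ x) h
  simp only [cosetEmb_apply] at this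
  rw [AlgEquiv.mul_apply, ← this, ← AlgEquiv.mul_apply, inv_mul_cancel, AlgEquiv.one_apply]

lemma cosetEmb_bijective : Function.Bijective (cosetEmb K F E) := by
  classical
  haveI : FiniteDimensional K F :=
    FiniteDimensional.of_injective (IsScalarTower.toAlgHom K F E).toLinearMap
      (IsScalarTower.toAlgHom K F E).injective
  haveI : FiniteDimensional F E := FiniteDimensional.right K F E
  haveI : IsGalois F E := IsGalois.tower_top_of_isGalois K F E
  haveI : Algebra.IsSeparable K F := Algebra.isSeparable_tower_bot_of_isSeparable K F E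
  letI : Fintype ((E ≃ₐ[K] E) ⧸ (galIncl K F E).range) := Fintype.ofFinite _
  rw [Fintype.bijective_iff_injective_and_card]
  refine ⟨cosetEmb_injective K F E, ?_⟩
  have hsplit : ∀ x : F, ((minpoly K x).map (algebraMap K E)).Splits := by
    intro x
    have h1 : minpoly K (algebraMap F E x) = minpoly K x :=
      minpoly.algebraMap_eq (algebraMap F E).injective x
    rw [← h1]
    exact Normal.splits inferInstance _
  rw [AlgHom.card_of_splits K F E hsplit, ← Nat.card_eq_fintype_card]
  have h1 := Subgroup.card_eq_card_quotient_mul_card_subgroup (galIncl K F E).range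
  have h2 : Nat.card (galIncl K F E).range = finrank F E := by
    rw [← Nat.card_congr (galInclEquiv K F E).toEquiv, IsGalois.card_aut_eq_finrank]
  rw [h2, IsGalois.card_aut_eq_finrank, ← Module.finrank_mul_finrank K F E] at h1
  exact (Nat.eq_of_mul_eq_mul_right Module.finrank_pos h1).symm

/-- **The norm as a product over cosets**: for `K ⊆ F ⊆ E` with `E/K` finite Galois,
`N_{F/K}(x) = ∏_{q ∈ Gal(E/K)/Gal(E/F)} q(x)`. -/
theorem algebraMap_norm_eq_prod_cosets [Fintype ((E ≃ₐ[K] E) ⧸ (galIncl K F E).range)] (x : F) :
    algebraMap K E (Algebra.norm K x) =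
      ∏ q : (E ≃ₐ[K] E) ⧸ (galIncl K F E).range, q.out (algebraMap F E x) := by
  classical
  haveI : FiniteDimensional K F :=
    FiniteDimensional.of_injective (IsScalarTower.toAlgHom K F E).toLinearMap
      (IsScalarTower.toAlgHom K F E).injective
  haveI : Algebra.IsSeparable K F := Algebra.isSeparable_tower_bot_of_isSeparable K F E
  have hsplit : ∀ x : F, ((minpoly K x).map (algebraMap K E)).Splits := by
    intro x
    have h1 : minpoly K (algebraMap F E x) = minpoly K x :=
      minpoly.algebraMap_eq (algebraMap F E).injective x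
    rw [← h1]
    exact Normal.splits inferInstance _
  apply (algebraMap E (AlgebraicClosure E)).injective
  rw [← IsScalarTower.algebraMap_apply, Algebra.norm_eq_prod_embeddings K (AlgebraicClosure E) x,
    map_prod]
  have e1 : ∏ q : (E ≃ₐ[K] E) ⧸ (galIncl K F E).range,
      algebraMap E (AlgebraicClosure E) (q.out (algebraMap F E x)) =
      ∏ τ : F →ₐ[K] E, algebraMap E (AlgebraicClosure E) (τ x) :=
    Fintype.prod_equiv (Equiv.ofBijective _ (cosetEmb_bijective K F E))
      (fun q => algebraMap E (AlgebraicClosure E) (q.out (algebraMap F E x)))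
      (fun τ : F →ₐ[K] E => algebraMap E (AlgebraicClosure E) (τ x)) (fun q => rfl)
  have e2 : ∏ τ : F →ₐ[K] E, algebraMap E (AlgebraicClosure E) (τ x) =
      ∏ σ : F →ₐ[K] AlgebraicClosure E, σ x :=
    Fintype.prod_equiv
      (Algebra.IsAlgebraic.algHomEquivAlgHomOfSplits (AlgebraicClosure E) E hsplit) _ _
      (fun τ => rfl)
  rw [e1, e2]

end NormCoset

end Fermat.Agent.CFT.Local
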