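import Fermat.Agent.CFT.Local.LocalInv
import Fermat.Agent.CFT.Local.NormCoset

/-!
# CFT local (L4): functoriality and explicit form of the local Artin map

* `localArtinHom_norm` : `rec_{E/K}(N_{F/K} b) = ι(rec_{E/F} b)` for `K ⊆ F ⊆ E`;
* `localArtinHom_of_isCyclotomicExtension` : in the unramified case `rec(a) = Frob ^ ord(a)`.
(The compatibility with quotients `map_galProj_localArtinHom` is in `LocalInv`.)
-/

set_option autoImplicit false
set_option linter.unusedSectionVars false
set_option linter.style.haveILetI false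

open IsLocalRing Module CategoryTheory groupCohomology Rep

namespace Fermat.Agent.CFT.Local

open Fermat.Agent.CFT.Coh

section RecNorm

variable (A K F B E : Type) [CommRing A] [IsDomain A] [IsDiscreteValuationRing A]
  [IsAdicComplete (maximalIdeal A) A] [Finite (ResidueField A)]
  [Field K] [Algebra A K] [IsFractionRing A K]
  [Field F] [Algebra K F] [FiniteDimensional K F]
  [CommRing B] [IsDomain B] [IsDiscreteValuationRing B]
  [IsAdicComplete (maximalIdeal B) B] [Finite (ResidueField B)]
  [Algebra A B] [Algebra B F] [Algebra A F] [IsScalarTower A K F] [IsScalarTower A B F]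
  [IsFractionRing B F] [Module.Finite A B] [IsLocalHom (algebraMap A B)]
  [Field E] [Algebra K E] [FiniteDimensional K E] [IsGalois K E]
  [Algebra A E] [IsScalarTower A K E]
  [Algebra F E] [IsScalarTower K F E] [FiniteDimensional F E] [IsGalois F E]
  [Algebra B E] [IsScalarTower B F E]

/-- The restriction of the fundamental cocycle of `E/K` to `Gal(E/F)`. -/
noncomputable def resFundCocycle : cocycles₂ (Rep.ofAlgebraAutOnUnits F E) :=
  mapCocycles₂ (galIncl K F E) (unitsHom K F (AlgHom.id K E)) (localFundCocycle A K E)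

lemma resFundCocycle_apply (s t : E ≃ₐ[F] E) :
    toU F E (resFundCocycle A K F E (s, t)) =
      toU K E (localFundCocycle A K E (galIncl K F E s, galIncl K F E t)) := by
  rw [resFundCocycle, coe_mapCocycles₂]
  apply Units.ext
  rfl

lemma H2π_resFundCocycle :
    H2π (Rep.ofAlgebraAutOnUnits F E) (resFundCocycle A K F E) = localFundClass B F E := by
  rw [← brRes_localFundClass A K F B E, ← H2π_localFundCocycle A K E]
  exact (H2π_comp_map_apply _ _ _).symm

/-- **Norm functoriality of the local Artin map**: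
`rec_{E/K}(N_{F/K} b) = ι(rec_{E/F}(b))` for `K ⊆ F ⊆ E`, `ι : Gal(E/F)^ab → Gal(E/K)^ab`. -/
theorem localArtinHom_norm (b : Fˣ) :
    localArtinHom A K E (Units.map (Algebra.norm K : F →* K) b) =
      Abelianization.map (galIncl K F E) (localArtinHom B F E b) := by
  classical
  letI : Fintype ((E ≃ₐ[K] E) ⧸ (galIncl K F E).range) := Fintype.ofFinite _
  letI : Fintype (E ≃ₐ[F] E) := Fintype.ofFinite _
  obtain ⟨s, hs⟩ := QuotientGroup.mk_surjective (localArtinHom B F E b)
  have hs' : localArtinHom B F E b = Abelianization.of s := hs.symm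
  -- `[b] = nak_F(s)`
  have h1 : tateMk F E (Additive.ofMul b) =
      nakayamaClass (Rep.ofAlgebraAutOnUnits F E) (resFundCocycle A K F E) s := by
    rw [tateMk_eq_nakayamaClass B F E hs']
    apply nakayamaClass_congr
    rw [H2π_resFundCocycle A K F B E]
    exact H2π_localFundCocycle B F E
  -- `nak_F(s) = β ∈ Fˣ`
  obtain ⟨aF, haF⟩ := invOfUnits_surjective F E
    (nakayamaInv (Rep.ofAlgebraAutOnUnits F E) (resFundCocycle A K F E) s)
  obtain ⟨β, rfl⟩ : ∃ β : Fˣ, Additive.ofMul β = aF := ⟨Additive.toMul aF, rfl⟩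
  have hβ : algebraMap F E (β : F) = ((toU F E (nakayamaElt (Rep.ofAlgebraAutOnUnits F E)
      (resFundCocycle A K F E) s) : Eˣ) : E) := by
    have := congrArg (fun v : (Rep.ofAlgebraAutOnUnits F E).ρ.invariants =>
      ((toU F E (v : (Rep.ofAlgebraAutOnUnits F E).V) : Eˣ) : E)) haF
    simp only [coe_invOfUnits, toU_ofU, Units.coe_map, MonoidHom.coe_coe] at this
    exact this
  have h2 : tateMk F E (Additive.ofMul b) = tateMk F E (Additive.ofMul β) := by
    rw [h1, nakayamaClass_eq, ← haF]
    rfl
  obtain ⟨y, hy⟩ := (tateMk_eq_tateMk_iff F E b β).1 h2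
  -- reduce to `β`
  rw [hs', Abelianization.map_of]
  apply (localNakayamaEquiv A K E).injective
  rw [localNakayamaEquiv_localArtinHom, localNakayamaEquiv, nakayamaEquiv_of]
  congr 1
  have h3 : tateMk K E (Additive.ofMul (Units.map (Algebra.norm K : F →* K) b)) =
      tateMk K E (Additive.ofMul (Units.map (Algebra.norm K : F →* K) β)) := by
    rw [tateMk_eq_tateMk_iff]
    refine ⟨y, ?_⟩
    rw [← Algebra.norm_norm (S := F), hy, div_eq_mul_inv, div_eq_mul_inv,
      ← Units.val_inv_eq_inv_val, ← Units.val_inv_eq_inv_val, ← Units.val_mul, ← Units.val_mul,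
      ← map_inv, ← map_mul, Units.coe_map]
  rw [h3, tateMk_apply, nakayamaClass_eq]
  congr 1
  apply Subtype.ext
  apply toU_injective K E
  apply Units.ext
  rw [coe_invOfUnits, toU_ofU, Units.coe_map, Units.coe_map, MonoidHom.coe_coe]
  show algebraMap K E (Algebra.norm K (β : F)) = _
  rw [algebraMap_norm_eq_prod_cosets K F E]
  show _ = ((toU K E (nakayamaElt (Rep.ofAlgebraAutOnUnits K E) (localFundCocycle A K E)
    (galIncl K F E s)) : Eˣ) : E)
  rw [nakayamaElt_eq_sum_out_of_injective _ _ _ (galIncl_injective K F E)]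
  have h4 : ∀ v : (Rep.ofAlgebraAutOnUnits K E).V, ∀ σ : E ≃ₐ[K] E,
      ((toU K E ((Rep.ofAlgebraAutOnUnits K E).ρ σ v) : Eˣ) : E) = σ ((toU K E v : Eˣ) : E) :=
    fun v σ => coe_toU_unitsRep_ρ K E σ v
  have h5 : ∀ (ι : Type) (t : Finset ι) (g : ι → (Rep.ofAlgebraAutOnUnits K E).V),
      ((toU K E (∑ i ∈ t, g i) : Eˣ) : E) = ∏ i ∈ t, ((toU K E (g i) : Eˣ) : E) := by
    intro ι t g
    induction t using Finset.induction_on with
    | empty => rfl
    | insert a t ha ih => rw [Finset.sum_insert ha, Finset.prod_insert ha, toU_add, Units.val_mul, ih]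
  rw [h5]
  refine Finset.prod_congr rfl fun q _ => ?_
  rw [h4, hβ]
  congr 1

end RecNorm

section Unr

variable (A K L : Type) [CommRing A] [IsDomain A] [IsDiscreteValuationRing A]
  [IsAdicComplete (maximalIdeal A) A] [Finite (ResidueField A)]
  [Field K] [Algebra A K] [IsFractionRing A K]
  [Field L] [Algebra K L] [FiniteDimensional K L] [IsGalois K L]
  [Algebra A L] [IsScalarTower A K L]

/-- The Nakayama class of a power. -/
lemma nakayamaClass_zpow {G : Type} [Group G] [Finite G] (C : Rep.{0, 0, 0} ℤ G)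
    (f : cocycles₂ C) (σ : G) (j : ℤ) :
    nakayamaClass C f (σ ^ j) = j • nakayamaClass C f σ := by
  have h := map_zpow (nakayamaHom C f) σ j
  rw [nakayamaHom_apply, nakayamaHom_apply, ← ofAdd_zsmul] at h
  exact Multiplicative.ofAdd.injective h

/-- **Explicit local reciprocity in the unramified case**: `rec(a) = Frob ^ ord(a)`. -/
theorem localArtinHom_of_isCyclotomicExtension [IsCyclotomicExtension {canonM A K L} K L]
    (a : Kˣ) :
    localArtinHom A K L a = Abelianization.of
      (cycFrob A K L (canonM A K L) (isUnit_canonM A K L) ^ ord A (a : K)) := by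
  obtain ⟨π, hπ⟩ := exists_ord_eq_one A K
  set φ := cycFrob A K L (canonM A K L) (isUnit_canonM A K L) with hφdef
  have hφ : ∀ σ, σ ∈ Subgroup.zpowers φ := cycFrob_generator A K L _ _
  set f := localFundCocycle A K L with hf
  -- `nak(φ) = [π]`
  have h1 : nakayamaClass (Rep.ofAlgebraAutOnUnits K L) f φ = tateMk K L (Additive.ofMul π) := by
    rw [nakayamaClass_generator _ f hφ]
    have : (H2π (Rep.ofAlgebraAutOnUnits K L)).hom f = localFundClass A K L :=
      H2π_localFundCocycle A K L
    rw [this, localFundClass_eq_frobClass A K L hπ, frobClass_def, H2EquivTateH0_cycClass]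
  -- `[a] = [π ^ ord a]`
  have h2 : tateMk K L (Additive.ofMul a) = tateMk K L (Additive.ofMul (π ^ ord A (a : K))) := by
    rw [← H2EquivTateH0_cycClass K L hφ a, ← H2EquivTateH0_cycClass K L hφ (π ^ ord A (a : K)),
      ← frobClass_def, ← frobClass_def]
    congr 1
    rw [frobClass_eq_frobClass_iff, Units.val_zpow_eq_zpow_val, ord_zpow, hπ, mul_one, sub_self]
    exact dvd_zero _
  apply (localNakayamaEquiv A K L).injective
  rw [localNakayamaEquiv_localArtinHom, localNakayamaEquiv, nakayamaEquiv_of, nakayamaClass_zpow,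
    h1, h2, ofMul_zpow, map_zsmul]

end Unr

end Fermat.Agent.CFT.Local
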