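import Fermat.Agent.CFT.Local.GalUnits
import Fermat.Agent.CFT.Local.L1c_helper7

/-!
# CFT local (L4): the norm group of an unramified extension

For an unramified extension `L/K` of complete discretely valued fields with finite residue field
(setting S1 + `IsIntegralClosure B A L`, `ramIdx A B = 1`), `a ∈ Kˣ` is a norm from `L` iff
`[L : K] ∣ ord_K a` (`exists_norm_eq_iff_of_ramIdx_eq_one`).  Hence for `L/K` Galois,
`Ĥ⁰(Gal(L/K), Lˣ) ≃ ℤ/[L:K]` via `ord_K` (`unrTateEquiv`).
-/

set_option autoImplicit false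

open IsLocalRing Module

namespace Fermat.Agent.CFT.Local

open Fermat.Agent.CFT.Coh

section Norm

variable (A K L B : Type*) [CommRing A] [IsDomain A] [IsDiscreteValuationRing A]
  [Field K] [Algebra A K] [IsFractionRing A K]
  [Field L] [Algebra K L] [FiniteDimensional K L]
  [CommRing B] [IsDomain B] [IsDiscreteValuationRing B]
  [Algebra A B] [Algebra B L] [Algebra A L] [IsScalarTower A K L] [IsScalarTower A B L]
  [IsFractionRing B L] [Module.Finite A B] [IsLocalHom (algebraMap A B)]

include B in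
theorem resDeg_eq_finrank_of_ramIdx_eq_one (h : ramIdx A B = 1) :
    resDeg A B = finrank K L := by
  have := ramIdx_mul_resDeg A K L B
  rwa [h, one_mul] at this

/-- The valuation of a norm is divisible by the degree, in the unramified case. -/
theorem finrank_dvd_ord_norm_of_ramIdx_eq_one (h : ramIdx A B = 1) (y : L) :
    (finrank K L : ℤ) ∣ ord A (Algebra.norm K y) := by
  rw [ord_norm A K L B y, resDeg_eq_finrank_of_ramIdx_eq_one A K L B h]
  exact dvd_mul_right _ _

/-- **The norm group of an unramified extension**: `a ∈ Kˣ` is a norm iff `[L:K] ∣ ord a`. -/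
theorem exists_norm_eq_iff_of_ramIdx_eq_one [Finite (ResidueField A)]
    [IsAdicComplete (maximalIdeal A) A] [IsIntegralClosure B A L] (h : ramIdx A B = 1)
    {a : K} (ha : a ≠ 0) :
    (∃ y : L, Algebra.norm K y = a) ↔ (finrank K L : ℤ) ∣ ord A a := by
  constructor
  · rintro ⟨y, rfl⟩
    exact finrank_dvd_ord_norm_of_ramIdx_eq_one A K L B h y
  · rintro ⟨j, hj⟩
    obtain ⟨π, hπ⟩ := IsDiscreteValuationRing.exists_irreducible A
    obtain ⟨u, hu⟩ := exists_unit_mul_zpow A hπ ha
    obtain ⟨w, hw⟩ := norm_units_surjective_of_ramIdx_eq_one' A K L B h u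
    refine ⟨algebraMap B L (w : B) * algebraMap K L (algebraMap A K π) ^ j, ?_⟩
    rw [map_mul, MonoidHom.map_zpow' _ (fun x => Algebra.norm_inv x), hw, Algebra.norm_algebraMap,
      ← zpow_natCast, ← zpow_mul, ← hj]
    exact hu.symm

end Norm

section Tate

variable (A K L B : Type) [CommRing A] [IsDomain A] [IsDiscreteValuationRing A]
  [Field K] [Algebra A K] [IsFractionRing A K]
  [Field L] [Algebra K L] [FiniteDimensional K L]
  [CommRing B] [IsDomain B] [IsDiscreteValuationRing B]
  [Algebra A B] [Algebra B L] [Algebra A L] [IsScalarTower A K L] [IsScalarTower A B L]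
  [IsFractionRing B L] [Module.Finite A B] [IsLocalHom (algebraMap A B)]

/-- `a ↦ ord_K a mod n` on `Kˣ`, additively. -/
noncomputable def ordMod (n : ℕ) : Additive Kˣ →+ ZMod n where
  toFun a := ((ord A ((Additive.toMul a : Kˣ) : K) : ℤ) : ZMod n)
  map_zero' := by simp
  map_add' a b := by
    rw [toMul_add, Units.val_mul, ord_mul A (Units.ne_zero _) (Units.ne_zero _), Int.cast_add]

lemma ordMod_apply (n : ℕ) (a : Kˣ) :
    ordMod A K n (Additive.ofMul a) = ((ord A (a : K) : ℤ) : ZMod n) := rfl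

lemma ordMod_surjective (n : ℕ) : Function.Surjective (ordMod A K n) := by
  intro z
  obtain ⟨j, rfl⟩ := ZMod.intCast_surjective z
  obtain ⟨x, hx⟩ := ordHom_surjective A (F := K) (Multiplicative.ofAdd j)
  refine ⟨Additive.ofMul x, ?_⟩
  rw [ordHom_apply] at hx
  have h := congrArg Multiplicative.toAdd hx
  simp only [toAdd_ofAdd] at h
  rw [ordMod_apply, h]

variable [Finite (ResidueField A)] [IsAdicComplete (maximalIdeal A) A] [IsIntegralClosure B A L]
  [IsGalois K L]

lemma tateMk_eq_zero_iff_of_ramIdx_eq_one (h : ramIdx A B = 1) (a : Additive Kˣ) :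
    tateMk K L a = 0 ↔ ordMod A K (finrank K L) a = 0 := by
  obtain ⟨a, rfl⟩ := Additive.ofMul.surjective a
  rw [tateMk_eq_zero_iff, ordMod_apply, ZMod.intCast_zmod_eq_zero_iff_dvd,
    ← exists_norm_eq_iff_of_ramIdx_eq_one A K L B h a.ne_zero]
  constructor
  · rintro ⟨y, hy⟩
    exact ⟨y, hy⟩
  · rintro ⟨y, hy⟩
    have hy0 : y ≠ 0 := by
      rintro rfl
      rw [Algebra.norm_zero] at hy
      exact a.ne_zero hy.symm
    exact ⟨Units.mk0 y hy0, hy⟩

lemma ker_tateMk_eq_ker_ordMod (h : ramIdx A B = 1) :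
    (tateMk K L).ker = (ordMod A K (finrank K L)).ker := by
  ext a
  rw [AddMonoidHom.mem_ker, AddMonoidHom.mem_ker, tateMk_eq_zero_iff_of_ramIdx_eq_one A K L B h]

/-- **`Ĥ⁰(Gal(L/K), Lˣ) ≃ ℤ/[L:K]` for `L/K` unramified**, induced by `ord_K`. -/
noncomputable def unrTateEquiv (h : ramIdx A B = 1) :
    TateH0 (Rep.ofAlgebraAutOnUnits K L) ≃+ ZMod (finrank K L) :=
  (QuotientAddGroup.quotientKerEquivOfSurjective (tateMk K L) (tateMk_surjective K L)).symm.trans
    ((QuotientAddGroup.quotientAddEquivOfEq (ker_tateMk_eq_ker_ordMod A K L B h)).trans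
      (QuotientAddGroup.quotientKerEquivOfSurjective (ordMod A K (finrank K L))
        (ordMod_surjective A K _)))

lemma unrTateEquiv_tateMk (h : ramIdx A B = 1) (a : Additive Kˣ) :
    unrTateEquiv A K L B h (tateMk K L a) = ordMod A K (finrank K L) a := by
  have h1 : (QuotientAddGroup.quotientKerEquivOfSurjective (tateMk K L)
      (tateMk_surjective K L)).symm (tateMk K L a) = QuotientAddGroup.mk a := by
    rw [AddEquiv.symm_apply_eq]
    rfl
  rw [unrTateEquiv, AddEquiv.trans_apply, h1]
  rfl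

end Tate

end Fermat.Agent.CFT.Local
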