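import Fermat.Agent.CFT.Local.CycloSub
import Fermat.Agent.CFT.Local.CycFrob
import Fermat.Agent.CFT.Local.CycClass
import Fermat.Agent.CFT.Local.BrExact
import Fermat.Agent.CFT.Local.UnramTate

/-!
# CFT local (L4): unramified classes in `H²(Gal(Ω/K), Ωˣ)`

`(A, K)` is a complete discretely valued field with finite residue field of cardinality `q`.

* `brMap_cycClass_frob` : the general transformation rule for the classes `[a, Frob]` of
  cyclotomic unramified extensions under base change and inflation;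
* `unrCls A K Ω m hm hprim a ∈ H²(Gal(Ω/K), Ωˣ)` : the inflation to `Ω` of the class
  `[a, Frob] ∈ H²(Gal(K(μ_m)/K), K(μ_m)ˣ)`, for `m` prime to `p` with `μ_m ⊆ Ω`.
-/

set_option autoImplicit false
set_option linter.unusedSectionVars false
set_option linter.style.haveILetI false

open IsLocalRing Module CategoryTheory groupCohomology

namespace Fermat.Agent.CFT.Local

open Fermat.Agent.CFT.Coh

section General

variable (A K F B : Type) [CommRing A] [IsDomain A] [IsDiscreteValuationRing A]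
  [Finite (ResidueField A)]
  [Field K] [Algebra A K] [IsFractionRing A K]
  [Field F] [Algebra K F] [FiniteDimensional K F]
  [CommRing B] [IsDomain B] [IsDiscreteValuationRing B]
  [Algebra A B] [Algebra B F] [Algebra A F] [IsScalarTower A K F] [IsScalarTower A B F]
  [IsFractionRing B F] [Module.Finite A B] [IsLocalHom (algebraMap A B)]
  {M M' : Type} [Field M] [Field M'] [Algebra K M] [Algebra F M'] [Algebra K M']
  [IsScalarTower K F M'] [FiniteDimensional K M] [IsGalois K M] [FiniteDimensional F M']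
  [IsGalois F M']
  (m m' : ℕ) [IsCyclotomicExtension {m} K M]
  (ι : M →ₐ[K] M')

/-- **Transformation rule for Frobenius classes.**  `K ⊆ F` finite with residue degree `f`,
`M = K(μ_m)` with Frobenius `φ`, `M'/F` cyclic with a generator `φ'` acting on `μ_m(M')` as the
Frobenius of `F`, `ι : M → M'` a `K`-embedding.  Then `[a, φ] ↦ [a ^ t, φ']` where
`t [M:K] = f [M':F]`. -/
theorem brMap_cycClass_frob
    {φ : M ≃ₐ[K] M} (hφ : ∀ σ, σ ∈ Subgroup.zpowers φ)
    (hφF : ∀ ζ : M, ζ ^ m = 1 → φ ζ = ζ ^ resCard A)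
    {φ' : M' ≃ₐ[F] M'} (hφ' : ∀ σ, σ ∈ Subgroup.zpowers φ')
    (hφF' : ∀ ζ : M', ζ ^ m = 1 → φ' ζ = ζ ^ resCard B)
    {t : ℕ} (ht : t * finrank K M = resDeg A B * finrank F M') (a : Kˣ) :
    brMap K F ι 2 (cycClass K M hφ a) =
      cycClass F M' hφ' (Units.map (algebraMap K F : K →* F) a ^ t) :=
  brMap_cycClass K F hφ hφ' ι (galRes_cycFrob A K F B m ι hφF hφF') ht a

end General

section FrobClass

variable (A K : Type) [CommRing A] [IsDomain A] [IsDiscreteValuationRing A]
  [IsAdicComplete (maximalIdeal A) A] [Finite (ResidueField A)]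
  [Field K] [Algebra A K] [IsFractionRing A K]
  (M : Type) [Field M] [Algebra K M] (m : ℕ) (hm : IsUnit (m : A))
  [IsCyclotomicExtension {m} K M]

/-- The Frobenius of `K(ζ_m)/K`, `m` prime to `p`. -/
noncomputable def cycFrob : M ≃ₐ[K] M := (exists_cycFrob_aux A K M m hm).choose

lemma cycFrob_apply {ζ : M} (hζ : ζ ^ m = 1) : cycFrob A K M m hm ζ = ζ ^ resCard A :=
  (exists_cycFrob_aux A K M m hm).choose_spec.1 ζ hζ

lemma cycFrob_generator (σ : M ≃ₐ[K] M) : σ ∈ Subgroup.zpowers (cycFrob A K M m hm) :=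
  (exists_cycFrob_aux A K M m hm).choose_spec.2.1 σ

include A hm in
lemma finrank_cyclotomic : finrank K M = orderOf ((resCard A : ℕ) : ZMod m) :=
  (exists_cycFrob_aux A K M m hm).choose_spec.2.2

lemma cycFrob_unique {φ : M ≃ₐ[K] M} (hφ : ∀ ζ : M, ζ ^ m = 1 → φ ζ = ζ ^ resCard A) :
    φ = cycFrob A K M m hm :=
  algEquiv_ext_of_cyclotomic K m fun ζ hζ => by rw [hφ ζ hζ, cycFrob_apply A K M m hm hζ]

/-- The Frobenius acts as `ζ ↦ ζ ^ q` on `μ_d` for every `d ∣ m`. -/
lemma cycFrob_apply_of_dvd {d : ℕ} (hd : d ∣ m) {ζ : M} (hζ : ζ ^ d = 1) :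
    cycFrob A K M m hm ζ = ζ ^ resCard A := by
  obtain ⟨c, rfl⟩ := hd
  exact cycFrob_apply A K M _ hm (by rw [pow_mul, hζ, one_pow])

/-- The class `[a, Frob] ∈ H²(Gal(K(ζ_m)/K), K(ζ_m)ˣ)`. -/
noncomputable def frobClass (a : Kˣ) : H2 (Rep.ofAlgebraAutOnUnits K M) :=
  haveI : NeZero m := ⟨ne_zero_of_isUnit_natCast A m hm⟩
  haveI : FiniteDimensional K M := IsCyclotomicExtension.finiteDimensional {m} K M
  cycClass K M (cycFrob_generator A K M m hm) a

lemma frobClass_def [FiniteDimensional K M] (a : Kˣ) :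
    frobClass A K M m hm a = cycClass K M (cycFrob_generator A K M m hm) a := rfl

lemma frobClass_eq_cycClass [FiniteDimensional K M] {φ : M ≃ₐ[K] M}
    (hφ : ∀ σ, σ ∈ Subgroup.zpowers φ)
    (hφF : ∀ ζ : M, ζ ^ m = 1 → φ ζ = ζ ^ resCard A) (a : Kˣ) :
    frobClass A K M m hm a = cycClass K M hφ a := by
  obtain rfl := cycFrob_unique A K M m hm hφF
  rfl

lemma frobClass_mul (a b : Kˣ) :
    frobClass A K M m hm (a * b) = frobClass A K M m hm a + frobClass A K M m hm b := by
  haveI : NeZero m := ⟨ne_zero_of_isUnit_natCast A m hm⟩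
  haveI : FiniteDimensional K M := IsCyclotomicExtension.finiteDimensional {m} K M
  exact cycClass_mul K M _ a b

lemma frobClass_pow (a : Kˣ) (n : ℕ) :
    frobClass A K M m hm (a ^ n) = n • frobClass A K M m hm a := by
  haveI : NeZero m := ⟨ne_zero_of_isUnit_natCast A m hm⟩
  haveI : FiniteDimensional K M := IsCyclotomicExtension.finiteDimensional {m} K M
  exact cycClass_pow K M _ a n

lemma frobClass_zpow (a : Kˣ) (n : ℤ) :
    frobClass A K M m hm (a ^ n) = n • frobClass A K M m hm a := by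
  haveI : NeZero m := ⟨ne_zero_of_isUnit_natCast A m hm⟩
  haveI : FiniteDimensional K M := IsCyclotomicExtension.finiteDimensional {m} K M
  exact cycClass_zpow K M _ a n

/-- **`[a, Frob] = 0` iff `[K(ζ_m) : K] ∣ ord a`.** -/
theorem frobClass_eq_zero_iff (a : Kˣ) :
    frobClass A K M m hm a = 0 ↔ (finrank K M : ℤ) ∣ ord A (a : K) := by
  have hm0 : m ≠ 0 := ne_zero_of_isUnit_natCast A m hm
  haveI : NeZero m := ⟨hm0⟩
  letI : Algebra A M := ((algebraMap K M).comp (algebraMap A K)).toAlgebra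
  haveI : IsScalarTower A K M := IsScalarTower.of_algebraMap_eq (fun _ => rfl)
  haveI : FiniteDimensional K M := IsCyclotomicExtension.finiteDimensional {m} K M
  haveI : Algebra.IsSeparable K M := IsCyclotomicExtension.isSeparable {m} K M
  haveI : IsGalois K M := IsCyclotomicExtension.isGalois {m} K M
  obtain ⟨_, _, _, _, _, _, hres⟩ := exists_localExt_instances A K M (integralClosure A M)
  have hram := ramIdx_eq_one_of_isCyclotomicExtension A K M (integralClosure A M) m hm
  rw [frobClass_def, cycClass_eq_zero_iff,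
    ← exists_norm_eq_iff_of_ramIdx_eq_one A K M (integralClosure A M) hram a.ne_zero]
  constructor
  · rintro ⟨y, hy⟩
    exact ⟨y, hy⟩
  · rintro ⟨y, hy⟩
    have hy0 : y ≠ 0 := by
      rintro rfl
      rw [Algebra.norm_zero] at hy
      exact a.ne_zero hy.symm
    exact ⟨Units.mk0 y hy0, hy⟩

/-- `[a, Frob]` only depends on `ord a` modulo the degree. -/
theorem frobClass_eq_frobClass_iff (a b : Kˣ) :
    frobClass A K M m hm a = frobClass A K M m hm b ↔
      (finrank K M : ℤ) ∣ ord A (a : K) - ord A (b : K) := by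
  have h : frobClass A K M m hm a = frobClass A K M m hm b ↔
      frobClass A K M m hm (a * b⁻¹) = 0 := by
    rw [frobClass_mul, ← zpow_neg_one, frobClass_zpow, neg_one_zsmul, ← sub_eq_add_neg,
      sub_eq_zero]
  rw [h, frobClass_eq_zero_iff, Units.val_mul, ord_mul A a.ne_zero (Units.ne_zero _),
    Units.val_inv_eq_inv_val, ord_inv, sub_eq_add_neg]

end FrobClass

section FrobRule

variable (A K F B : Type) [CommRing A] [IsDomain A] [IsDiscreteValuationRing A]
  [IsAdicComplete (maximalIdeal A) A] [Finite (ResidueField A)]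
  [Field K] [Algebra A K] [IsFractionRing A K]
  [Field F] [Algebra K F] [FiniteDimensional K F]
  [CommRing B] [IsDomain B] [IsDiscreteValuationRing B]
  [IsAdicComplete (maximalIdeal B) B] [Finite (ResidueField B)]
  [Algebra A B] [Algebra B F] [Algebra A F] [IsScalarTower A K F] [IsScalarTower A B F]
  [IsFractionRing B F] [Module.Finite A B] [IsLocalHom (algebraMap A B)]
  {M M' : Type} [Field M] [Field M'] [Algebra K M] [Algebra F M'] [Algebra K M']
  [IsScalarTower K F M']
  (m m' : ℕ) (hm : IsUnit (m : A)) (hm' : IsUnit (m' : B))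
  [IsCyclotomicExtension {m} K M] [IsCyclotomicExtension {m'} F M'] [IsGalois K M]
  (ι : M →ₐ[K] M')

/-- **Transformation rule for the classes `[a, Frob]`** under a finite base change `K ⊆ F`
(residue degree `f`) and an embedding `K(ζ_m) → F(ζ_m')`, `m ∣ m'`:
`[a, Frob_K] ↦ [a ^ t, Frob_F]`, `t [K(ζ_m):K] = f [F(ζ_m'):F]`. -/
theorem brMap_frobClass (hdvd : m ∣ m') {t : ℕ}
    (ht : t * finrank K M = resDeg A B * finrank F M') (a : Kˣ) :
    brMap K F ι 2 (frobClass A K M m hm a) =
      frobClass B F M' m' hm' (Units.map (algebraMap K F : K →* F) a ^ t) := by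
  haveI : NeZero m := ⟨ne_zero_of_isUnit_natCast A m hm⟩
  haveI : NeZero m' := ⟨ne_zero_of_isUnit_natCast B m' hm'⟩
  haveI : FiniteDimensional K M := IsCyclotomicExtension.finiteDimensional {m} K M
  haveI : FiniteDimensional F M' := IsCyclotomicExtension.finiteDimensional {m'} F M'
  haveI : IsGalois F M' := IsCyclotomicExtension.isGalois {m'} F M'
  rw [frobClass_def, frobClass_def]
  exact brMap_cycClass_frob A K F B m ι (cycFrob_generator A K M m hm)
    (fun ζ hζ => cycFrob_apply A K M m hm hζ) (cycFrob_generator B F M' m' hm')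
    (fun ζ hζ => cycFrob_apply_of_dvd B F M' m' hm' hdvd hζ) ht a

end FrobRule

section UnrCls

variable (A K : Type) [CommRing A] [IsDomain A] [IsDiscreteValuationRing A]
  [IsAdicComplete (maximalIdeal A) A] [Finite (ResidueField A)]
  [Field K] [Algebra A K] [IsFractionRing A K]
  (Ω : Type) [Field Ω] [Algebra K Ω] [FiniteDimensional K Ω] [IsGalois K Ω]
  (m : ℕ) (hm : IsUnit (m : A)) (hprim : ∃ r : Ω, IsPrimitiveRoot r m)

/-- The degree of `K(ζ_m)/K`: the order of `q` modulo `m`. -/
noncomputable def unrDeg : ℕ := orderOf ((resCard A : ℕ) : ZMod m)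

include A hm hprim in
lemma finrank_cycSub : finrank K (cycSub K Ω m) = unrDeg A m :=
  haveI := isCyclotomicExtension_cycSub K Ω m hprim
  finrank_cyclotomic A K (cycSub K Ω m) m hm

/-- **The unramified class** `[a, Frob_{K(ζ_m)/K}]` inflated to `H²(Gal(Ω/K), Ωˣ)`. -/
noncomputable def unrCls (a : Kˣ) : H2 (Rep.ofAlgebraAutOnUnits K Ω) :=
  haveI := isCyclotomicExtension_cycSub K Ω m hprim
  haveI : IsGalois K (cycSub K Ω m) := IsCyclotomicExtension.isGalois {m} K (cycSub K Ω m)
  brInfl K (cycSub K Ω m) Ω 2 (frobClass A K (cycSub K Ω m) m hm a)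

lemma unrCls_def [IsCyclotomicExtension {m} K (cycSub K Ω m)] [IsGalois K (cycSub K Ω m)]
    (a : Kˣ) :
    unrCls A K Ω m hm hprim a =
      brInfl K (cycSub K Ω m) Ω 2 (frobClass A K (cycSub K Ω m) m hm a) := rfl

lemma unrCls_mul (a b : Kˣ) :
    unrCls A K Ω m hm hprim (a * b) = unrCls A K Ω m hm hprim a + unrCls A K Ω m hm hprim b := by
  haveI := isCyclotomicExtension_cycSub K Ω m hprim
  haveI : IsGalois K (cycSub K Ω m) := IsCyclotomicExtension.isGalois {m} K (cycSub K Ω m)
  rw [unrCls_def, unrCls_def, unrCls_def, frobClass_mul, map_add]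

lemma unrCls_pow (a : Kˣ) (n : ℕ) :
    unrCls A K Ω m hm hprim (a ^ n) = n • unrCls A K Ω m hm hprim a := by
  haveI := isCyclotomicExtension_cycSub K Ω m hprim
  haveI : IsGalois K (cycSub K Ω m) := IsCyclotomicExtension.isGalois {m} K (cycSub K Ω m)
  rw [unrCls_def, unrCls_def, frobClass_pow, map_nsmul]

lemma unrCls_zpow (a : Kˣ) (n : ℤ) :
    unrCls A K Ω m hm hprim (a ^ n) = n • unrCls A K Ω m hm hprim a := by
  haveI := isCyclotomicExtension_cycSub K Ω m hprim
  haveI : IsGalois K (cycSub K Ω m) := IsCyclotomicExtension.isGalois {m} K (cycSub K Ω m)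
  rw [unrCls_def, unrCls_def, frobClass_zpow, map_zsmul]

/-- **An unramified class vanishes iff the degree of `K(ζ_m)/K` divides `ord a`.** -/
theorem unrCls_eq_zero_iff (a : Kˣ) :
    unrCls A K Ω m hm hprim a = 0 ↔ (unrDeg A m : ℤ) ∣ ord A (a : K) := by
  haveI := isCyclotomicExtension_cycSub K Ω m hprim
  haveI : IsGalois K (cycSub K Ω m) := IsCyclotomicExtension.isGalois {m} K (cycSub K Ω m)
  rw [unrCls_def, ← finrank_cycSub A K Ω m hm hprim, ← frobClass_eq_zero_iff A K _ m hm]
  constructor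
  · intro h
    exact brInfl_injective K (cycSub K Ω m) Ω (by rw [h, map_zero])
  · intro h
    rw [h, map_zero]

theorem unrCls_eq_unrCls_iff (a b : Kˣ) :
    unrCls A K Ω m hm hprim a = unrCls A K Ω m hm hprim b ↔
      (unrDeg A m : ℤ) ∣ ord A (a : K) - ord A (b : K) := by
  haveI := isCyclotomicExtension_cycSub K Ω m hprim
  haveI : IsGalois K (cycSub K Ω m) := IsCyclotomicExtension.isGalois {m} K (cycSub K Ω m)
  rw [unrCls_def, unrCls_def, ← finrank_cycSub A K Ω m hm hprim,
    ← frobClass_eq_frobClass_iff A K _ m hm]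
  exact (brInfl_injective K (cycSub K Ω m) Ω).eq_iff

end UnrCls

section UnrRule

variable (A K F B : Type) [CommRing A] [IsDomain A] [IsDiscreteValuationRing A]
  [IsAdicComplete (maximalIdeal A) A] [Finite (ResidueField A)]
  [Field K] [Algebra A K] [IsFractionRing A K]
  [Field F] [Algebra K F] [FiniteDimensional K F]
  [CommRing B] [IsDomain B] [IsDiscreteValuationRing B]
  [IsAdicComplete (maximalIdeal B) B] [Finite (ResidueField B)]
  [Algebra A B] [Algebra B F] [Algebra A F] [IsScalarTower A K F] [IsScalarTower A B F]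
  [IsFractionRing B F] [Module.Finite A B] [IsLocalHom (algebraMap A B)]
  (Ω Ω' : Type) [Field Ω] [Field Ω'] [Algebra K Ω] [FiniteDimensional K Ω] [IsGalois K Ω]
  [Algebra F Ω'] [Algebra K Ω'] [IsScalarTower K F Ω'] [FiniteDimensional F Ω'] [IsGalois F Ω']
  (m m' : ℕ) (hm : IsUnit (m : A)) (hm' : IsUnit (m' : B))
  (hprim : ∃ r : Ω, IsPrimitiveRoot r m) (hprim' : ∃ r : Ω', IsPrimitiveRoot r m')
  (k : Ω →ₐ[K] Ω')

/-- **Transformation rule for unramified classes**: for `K ⊆ F` finite (residue degree `f`),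
a `K`-embedding `k : Ω → Ω'` and `m ∣ m'`,
`brMap K F k (unrCls_K Ω m a) = unrCls_F Ω' m' (a ^ t)` where `t d_K(m) = f d_F(m')`.
Special cases: inflation (`F = K`), restriction (`Ω' = Ω`), change of `m`. -/
theorem brMap_unrCls (hdvd : m ∣ m') {t : ℕ}
    (ht : t * unrDeg A m = resDeg A B * unrDeg B m') (a : Kˣ) :
    brMap K F k 2 (unrCls A K Ω m hm hprim a) =
      unrCls B F Ω' m' hm' hprim' (Units.map (algebraMap K F : K →* F) a ^ t) := by
  have hm'0 : m' ≠ 0 := ne_zero_of_isUnit_natCast B m' hm'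
  haveI := isCyclotomicExtension_cycSub K Ω m hprim
  haveI : IsGalois K (cycSub K Ω m) := IsCyclotomicExtension.isGalois {m} K (cycSub K Ω m)
  haveI := isCyclotomicExtension_cycSub F Ω' m' hprim'
  haveI : IsGalois F (cycSub F Ω' m') := IsCyclotomicExtension.isGalois {m'} F (cycSub F Ω' m')
  set κ : cycSub K Ω m →ₐ[K] cycSub F Ω' m' :=
    (cycSubBaseChange K F m').comp ((cycSubIncl hdvd hm'0).comp (cycSubMap m k)) with hκ
  have ht' : t * finrank K (cycSub K Ω m) = resDeg A B * finrank F (cycSub F Ω' m') := by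
    rw [finrank_cycSub A K Ω m hm hprim, finrank_cycSub B F Ω' m' hm' hprim', ht]
  have hrule := brMap_frobClass A K F B m m' hm hm' κ hdvd ht' a
  rw [unrCls_def, unrCls_def, ← hrule]
  show (brInfl K (cycSub K Ω m) Ω 2 ≫ brMap K F k 2) _ =
    (brMap K F κ 2 ≫ brInfl F (cycSub F Ω' m') Ω' 2) _
  have h1 := brMap_comp K K F (IsScalarTower.toAlgHom K (cycSub K Ω m) Ω) k 2
  have h2 := brMap_comp K F F κ (IsScalarTower.toAlgHom F (cycSub F Ω' m') Ω') 2
  rw [← h1, ← h2]
  congr 2

end UnrRule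

end Fermat.Agent.CFT.Local
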